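import Mathlib

/-!
# S14-[AN], part 1: the real Dedekind zeta function as a supremum of finite sums over ideals
-/

set_option autoImplicit false

open NumberField Ideal Filter Topology

namespace FA14

variable (L : Type*) [Field L] [NumberField L]

/-- the weight `N(I)^(-s)`. -/
noncomputable def wt (s : ℝ) (I : Ideal (𝓞 L)) : ℝ := (absNorm I : ℝ) ^ (-s)

variable {L}

theorem wt_nonneg (s : ℝ) (I : Ideal (𝓞 L)) : 0 ≤ wt L s I :=
  Real.rpow_nonneg (Nat.cast_nonneg _) _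

theorem wt_mul (s : ℝ) (I J : Ideal (𝓞 L)) : wt L s (I * J) = wt L s I * wt L s J := by
  unfold wt
  rw [map_mul, Nat.cast_mul, Real.mul_rpow (Nat.cast_nonneg _) (Nat.cast_nonneg _)]

theorem wt_one (s : ℝ) : wt L s 1 = 1 := by
  unfold wt
  rw [map_one, Nat.cast_one, Real.one_rpow]

variable (L)

/-- `wt` as a monoid homomorphism. -/
noncomputable def wtHom (s : ℝ) : Ideal (𝓞 L) →* ℝ where
  toFun := wt L s
  map_one' := wt_one s
  map_mul' := wt_mul s

/-- number of ideals of norm `n`. -/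
noncomputable def aK (n : ℕ) : ℝ := (Nat.card {I : Ideal (𝓞 L) // absNorm I = n} : ℝ)

theorem aK_nonneg (n : ℕ) : 0 ≤ aK L n := Nat.cast_nonneg _

theorem tendsto_aK : Tendsto (fun n : ℕ ↦ (∑ k ∈ Finset.Icc 1 n, aK L k) / (n : ℝ)) atTop
    (𝓝 (dedekindZeta_residue L)) := by
  refine ((Ideal.tendsto_norm_le_div_atTop₀ L).comp tendsto_natCast_atTop_atTop).congr fun n ↦ ?_
  simp only [Function.comp_apply, Nat.cast_le, aK, ← Nat.cast_sum]
  congr
  rw [← add_left_inj 1, ← card_norm_le_eq_card_norm_le_add_one,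
    show Finset.Icc 1 n = Finset.Ioc 0 n from Finset.Icc_succ_left_eq_Ioc _ _,
    show 1 = Nat.card {I : Ideal (𝓞 L) // absNorm I = 0} by simp [Ideal.absNorm_eq_zero_iff],
    Finset.sum_Ioc_add_eq_sum_Icc (n.zero_le),
    ← Finset.card_preimage_eq_sum_card_image_eq (fun k _ ↦ finite_setOfPred_absNorm_eq k)]
  simp [Set.coe_eq_subtype]

theorem lseriesSummable_aK {s : ℝ} (hs : 1 < s) :
    LSeriesSummable (fun n ↦ ((aK L n : ℝ) : ℂ)) (s : ℂ) := by
  refine LSeriesSummable_of_sum_norm_bigO_and_nonneg ?_ (aK_nonneg L) zero_le_one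
    (by simpa using hs)
  exact Asymptotics.isBigO_atTop_natCast_rpow_of_tendsto_div_rpow (by simpa using tendsto_aK L)

/-- the real Dedekind zeta function. -/
noncomputable def zR (s : ℝ) : ℝ := (dedekindZeta L (s : ℂ)).re

theorem hasSum_zR {s : ℝ} (hs : 1 < s) :
    HasSum (fun n : ℕ ↦ aK L n * (n : ℝ) ^ (-s)) (zR L s) := by
  have h := (lseriesSummable_aK L hs).hasSum
  have h2 := Complex.hasSum_re h
  have e : (∑' n, LSeries.term (fun n ↦ ((aK L n : ℝ) : ℂ)) (s : ℂ) n) = dedekindZeta L (s : ℂ) := by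
    unfold dedekindZeta LSeries aK
    simp
  rw [e] at h2
  change HasSum _ (zR L s) at h2
  convert h2 using 2 with n
  rcases Nat.eq_zero_or_pos n with rfl | hn
  · rw [LSeries.term_zero, Nat.cast_zero, Real.zero_rpow (by linarith), mul_zero, Complex.zero_re]
  · rw [LSeries.term_of_ne_zero hn.ne', Real.rpow_neg (Nat.cast_nonneg _), ← div_eq_mul_inv,
      ← Complex.ofReal_natCast, ← Complex.ofReal_cpow (Nat.cast_nonneg _), ← Complex.ofReal_div,
      Complex.ofReal_re]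

theorem tendsto_zR :
    Tendsto (fun s : ℝ ↦ (s - 1) * zR L s) (𝓝[>] 1) (𝓝 (dedekindZeta_residue L)) := by
  have h := tendsto_sub_one_mul_dedekindZeta_nhdsGT L
  have h2 := (Complex.continuous_re.tendsto _).comp h
  simp only [Complex.ofReal_re] at h2
  refine h2.congr fun s ↦ ?_
  simp only [Function.comp_apply]
  rw [← Complex.ofReal_one, ← Complex.ofReal_sub, Complex.re_ofReal_mul]
  rfl

/-- (a) finite sums over ideals are bounded by `zR`. -/
theorem sum_wt_le_zR {s : ℝ} (hs : 1 < s) (𝓘 : Finset (Ideal (𝓞 L))) :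
    ∑ I ∈ 𝓘, wt L s I ≤ zR L s := by
  classical
  have h := hasSum_zR L hs
  have hnn : ∀ n : ℕ, 0 ≤ aK L n * (n : ℝ) ^ (-s) := fun n =>
    mul_nonneg (aK_nonneg L n) (Real.rpow_nonneg (Nat.cast_nonneg _) _)
  refine le_trans ?_ (sum_le_hasSum (𝓘.image absNorm) (fun n _ => hnn n) h)
  rw [← Finset.sum_fiberwise_of_maps_to (g := absNorm) (t := 𝓘.image absNorm)
    (fun I hI => Finset.mem_image_of_mem _ hI)]
  refine Finset.sum_le_sum fun n _ => ?_
  have h1 : ∀ I ∈ 𝓘.filter (fun I => absNorm I = n), wt L s I = (n : ℝ) ^ (-s) := by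
    intro I hI
    rw [wt, (Finset.mem_filter.mp hI).2]
  rw [Finset.sum_congr rfl h1, Finset.sum_const, nsmul_eq_mul]
  refine mul_le_mul_of_nonneg_right ?_ (Real.rpow_nonneg (Nat.cast_nonneg _) _)
  unfold aK
  rw [Nat.cast_le]
  have hfin : {I : Ideal (𝓞 L) | absNorm I = n}.Finite := finite_setOfPred_absNorm_eq n
  rw [← Set.coe_setOf, Nat.card_coe_set_eq, Set.ncard_eq_toFinset_card _ hfin]
  refine Finset.card_le_card fun I hI => ?_
  simpa using (Finset.mem_filter.mp hI).2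

/-- (b) `zR` is the least upper bound of the finite sums over nonzero ideals. -/
theorem zR_le_of_forall {s : ℝ} (hs : 1 < s) (c : ℝ)
    (hc : ∀ 𝓘 : Finset (Ideal (𝓞 L)), (∀ I ∈ 𝓘, I ≠ ⊥) → ∑ I ∈ 𝓘, wt L s I ≤ c) :
    zR L s ≤ c := by
  classical
  refine hasSum_le_of_sum_le (hasSum_zR L hs) fun t => ?_
  have hfin : ∀ n : ℕ, {I : Ideal (𝓞 L) | absNorm I = n}.Finite :=
    fun n => finite_setOfPred_absNorm_eq n
  set 𝓘 : Finset (Ideal (𝓞 L)) := (t.erase 0).biUnion fun n => (hfin n).toFinset with h𝓘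
  have hmem : ∀ I, I ∈ 𝓘 ↔ absNorm I ∈ t.erase 0 := by
    intro I
    simp only [h𝓘, Finset.mem_biUnion, Set.Finite.mem_toFinset, Set.mem_setOf_eq]
    constructor
    · rintro ⟨n, hn, rfl⟩; exact hn
    · intro h; exact ⟨_, h, rfl⟩
  have h0 : ∀ I ∈ 𝓘, I ≠ ⊥ := by
    intro I hI hb
    have := (hmem I).mp hI
    rw [hb, absNorm_bot] at this
    simp at this
  refine le_trans (le_of_eq ?_) (hc 𝓘 h0)
  rw [← Finset.sum_fiberwise_of_maps_to (g := absNorm) (t := t.erase 0)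
    (fun I hI => (hmem I).mp hI)]
  have hz : ∑ n ∈ t, aK L n * (n : ℝ) ^ (-s) = ∑ n ∈ t.erase 0, aK L n * (n : ℝ) ^ (-s) := by
    refine (Finset.sum_subset (Finset.erase_subset _ _) fun n hn hn' => ?_).symm
    have : n = 0 := by
      by_contra h
      exact hn' (Finset.mem_erase.mpr ⟨h, hn⟩)
    rw [this, Nat.cast_zero, Real.zero_rpow (by linarith), mul_zero]
  rw [hz]
  refine Finset.sum_congr rfl fun n hn => ?_
  have h1 : ∀ I ∈ 𝓘.filter (fun I => absNorm I = n), wt L s I = (n : ℝ) ^ (-s) := by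
    intro I hI
    rw [wt, (Finset.mem_filter.mp hI).2]
  rw [Finset.sum_congr rfl h1, Finset.sum_const, nsmul_eq_mul]
  congr 1
  unfold aK
  rw [Nat.cast_inj, ← Set.coe_setOf, Nat.card_coe_set_eq, Set.ncard_eq_toFinset_card _ (hfin n)]
  congr 1
  ext I
  simp only [Set.Finite.mem_toFinset, Set.mem_setOf_eq, Finset.mem_filter, hmem]
  constructor
  · intro h; exact ⟨h ▸ hn, h⟩
  · intro h; exact h.2

end FA14
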