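import Fermat.Agent.CFT.AN1

/-!
# S14-[AN], part 2: finite Euler product inequalities
-/

set_option autoImplicit false

open NumberField Ideal Filter Topology UniqueFactorizationMonoid

namespace FA14

theorem one_sub_inv_le_exp {x : ℝ} (h0 : 0 ≤ x) (h1 : x ≤ 1 / 2) :
    (1 - x)⁻¹ ≤ Real.exp (x + 2 * x ^ 2) := by
  have hpos : 0 < 1 - x := by linarith
  have e : (1 - x)⁻¹ = x / (1 - x) + 1 := by field_simp; ring
  rw [e]
  refine (Real.add_one_le_exp _).trans (Real.exp_le_exp.mpr ?_)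
  rw [div_le_iff₀ hpos]
  nlinarith [mul_nonneg (mul_nonneg h0 h0) (by linarith : (0 : ℝ) ≤ 1 - 2 * x)]

theorem exp_le_one_add {x : ℝ} (h0 : 0 ≤ x) : Real.exp (x - x ^ 2) ≤ 1 + x := by
  have h1 : 0 < 1 - x + x ^ 2 := by nlinarith [sq_nonneg (x - 1 / 2)]
  have h2 : 1 - x + x ^ 2 ≤ Real.exp (-(x - x ^ 2)) := by
    have := Real.add_one_le_exp (-(x - x ^ 2))
    linarith
  rw [Real.exp_neg] at h2
  have h3 : 0 < Real.exp (x - x ^ 2) := Real.exp_pos _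
  have h4 : Real.exp (x - x ^ 2) ≤ (1 - x + x ^ 2)⁻¹ := by
    rw [le_inv_comm₀ h3 h1]
    exact h2
  refine h4.trans ?_
  rw [inv_le_iff_one_le_mul₀ h1]
  nlinarith [pow_nonneg h0 3]

variable (L : Type*) [Field L] [NumberField L]

variable {L} in
theorem one_le_absNorm {I : Ideal (𝓞 L)} (hI : I ≠ ⊥) : 1 ≤ absNorm I :=
  Nat.one_le_iff_ne_zero.mpr (absNorm_eq_zero_iff.not.mpr hI)

variable {L} in
theorem two_le_absNorm {P : Ideal (𝓞 L)} (hP : P.IsPrime) (hP0 : P ≠ ⊥) : 2 ≤ absNorm P := by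
  have h1 := one_le_absNorm hP0
  have h2 : absNorm P ≠ 1 := fun h => hP.ne_top (absNorm_eq_one_iff.mp h)
  omega

variable {L} in
theorem wt_le_inv {s : ℝ} (hs : 1 ≤ s) {I : Ideal (𝓞 L)} (hI : I ≠ ⊥) :
    wt L s I ≤ ((absNorm I : ℕ) : ℝ)⁻¹ := by
  unfold wt
  rw [← Real.rpow_neg_one]
  exact Real.rpow_le_rpow_of_exponent_le (by exact_mod_cast one_le_absNorm hI) (by linarith)

variable {L} in
theorem wt_le_half {s : ℝ} (hs : 1 ≤ s) {P : Ideal (𝓞 L)} (hP : P.IsPrime) (hP0 : P ≠ ⊥) :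
    wt L s P ≤ 1 / 2 := by
  refine (wt_le_inv hs hP0).trans ?_
  rw [one_div]
  exact inv_anti₀ (by norm_num) (by exact_mod_cast two_le_absNorm hP hP0)

variable {L} in
theorem wt_sq_le {s : ℝ} (hs : 1 ≤ s) {I : Ideal (𝓞 L)} (hI : I ≠ ⊥) :
    wt L s I ^ 2 ≤ wt L 2 I := by
  unfold wt
  rw [← Real.rpow_natCast, ← Real.rpow_mul (Nat.cast_nonneg _)]
  exact Real.rpow_le_rpow_of_exponent_le (by exact_mod_cast one_le_absNorm hI)
    (by push_cast; linarith)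

variable {L} in
theorem prime_dvd_prod_iff {P : Ideal (𝓞 L)} (hP : P.IsPrime) (hP0 : P ≠ ⊥)
    (t : Finset (Ideal (𝓞 L))) (ht : ∀ Q ∈ t, Q.IsPrime ∧ Q ≠ ⊥) :
    P ∣ ∏ Q ∈ t, Q ↔ P ∈ t := by
  rw [(Ideal.prime_of_isPrime hP0 hP).dvd_finset_prod_iff]
  constructor
  · rintro ⟨Q, hQ, hd⟩
    have hmax : Q.IsMaximal := (ht Q hQ).1.isMaximal (ht Q hQ).2
    rw [← hmax.eq_of_le hP.ne_top (Ideal.dvd_iff_le.mp hd)]
    exact hQ
  · intro h
    exact ⟨P, h, dvd_rfl⟩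

/-- lower bound: `∏ (1 + N P ^ (-s)) ≤ ζ(s)`. -/
theorem prod_one_add_wt_le_zR {s : ℝ} (hs : 1 < s) (S : Finset (Ideal (𝓞 L)))
    (hS : ∀ P ∈ S, P.IsPrime ∧ P ≠ ⊥) : ∏ P ∈ S, (1 + wt L s P) ≤ zR L s := by
  classical
  rw [Finset.prod_one_add]
  have h1 : ∀ t ∈ S.powerset, ∏ P ∈ t, wt L s P = wt L s (∏ P ∈ t, P) := fun t _ =>
    (map_prod (wtHom L s) _ _).symm
  rw [Finset.sum_congr rfl h1]
  have hinj : Set.InjOn (fun t : Finset (Ideal (𝓞 L)) => ∏ P ∈ t, P) (S.powerset : Set _) := by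
    intro t ht t' ht' h
    have ht := Finset.mem_powerset.mp ht
    have ht' := Finset.mem_powerset.mp ht'
    simp only at h
    ext P
    constructor
    · intro hP
      rw [← prime_dvd_prod_iff (hS P (ht hP)).1 (hS P (ht hP)).2 t' fun Q hQ => hS Q (ht' hQ), ← h,
        prime_dvd_prod_iff (hS P (ht hP)).1 (hS P (ht hP)).2 t fun Q hQ => hS Q (ht hQ)]
      exact hP
    · intro hP
      rw [← prime_dvd_prod_iff (hS P (ht' hP)).1 (hS P (ht' hP)).2 t fun Q hQ => hS Q (ht hQ), h,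
        prime_dvd_prod_iff (hS P (ht' hP)).1 (hS P (ht' hP)).2 t' fun Q hQ => hS Q (ht' hQ)]
      exact hP
  rw [← Finset.sum_image (f := wt L s) hinj]
  exact sum_wt_le_zR L hs _

/-- lower bound, exponential form. -/
theorem exp_le_zR {s : ℝ} (hs : 1 < s) (S : Finset (Ideal (𝓞 L)))
    (hS : ∀ P ∈ S, P.IsPrime ∧ P ≠ ⊥) :
    Real.exp (∑ P ∈ S, wt L s P - zR L 2) ≤ zR L s := by
  refine le_trans ?_ (prod_one_add_wt_le_zR L hs S hS)
  have h1 : ∑ P ∈ S, wt L s P - zR L 2 ≤ ∑ P ∈ S, (wt L s P - wt L s P ^ 2) := by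
    rw [Finset.sum_sub_distrib]
    have : ∑ P ∈ S, wt L s P ^ 2 ≤ zR L 2 :=
      (Finset.sum_le_sum fun P hP => wt_sq_le hs.le (hS P hP).2).trans
        (sum_wt_le_zR L (by norm_num) S)
    linarith
  refine (Real.exp_le_exp.mpr h1).trans ?_
  rw [Real.exp_sum]
  exact Finset.prod_le_prod (fun _ _ => (Real.exp_pos _).le) fun P _ =>
    exp_le_one_add (wt_nonneg s P)

/-- upper bound: a finite sum over nonzero ideals is bounded by a finite Euler product. -/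
theorem sum_wt_le_prod {s : ℝ} (hs : 1 ≤ s) (𝓘 : Finset (Ideal (𝓞 L))) (h0 : ∀ I ∈ 𝓘, I ≠ ⊥) :
    ∃ S : Finset (Ideal (𝓞 L)), (∀ P ∈ S, P.IsPrime ∧ P ≠ ⊥) ∧
      ∑ I ∈ 𝓘, wt L s I ≤ ∏ P ∈ S, (1 - wt L s P)⁻¹ := by
  classical
  set S : Finset (Ideal (𝓞 L)) := 𝓘.biUnion fun I => (normalizedFactors I).toFinset with hSdef
  have hS : ∀ P ∈ S, P.IsPrime ∧ P ≠ ⊥ := by
    intro P hP
    obtain ⟨I, hI, hPI⟩ := Finset.mem_biUnion.mp hP
    have hpr := prime_of_normalized_factor P (Multiset.mem_toFinset.mp hPI)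
    exact ⟨Ideal.isPrime_of_prime hpr, hpr.ne_zero⟩
  refine ⟨S, hS, ?_⟩
  set B : ℕ := 𝓘.sup fun I => Multiset.card (normalizedFactors I) with hB
  let φ : Ideal (𝓞 L) → (S → ℕ) := fun I P => Multiset.count P.1 (normalizedFactors I)
  let g : (S → ℕ) → ℝ := fun x => ∏ P : S, wt L s P.1 ^ x P
  have hfac : ∀ I ∈ 𝓘, I = ∏ P : S, P.1 ^ φ I P := by
    intro I hI
    conv_lhs => rw [← Ideal.prod_normalizedFactors_eq_self (h0 I hI), Finset.prod_multiset_count]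
    rw [Finset.prod_coe_sort S (fun P => P ^ Multiset.count P (normalizedFactors I))]
    refine Finset.prod_subset (fun P hP => Finset.mem_biUnion.mpr ⟨I, hI, hP⟩) fun P _ hP => ?_
    rw [Multiset.count_eq_zero_of_notMem (fun h => hP (Multiset.mem_toFinset.mpr h)), pow_zero]
  have hwt : ∀ I ∈ 𝓘, wt L s I = g (φ I) := by
    intro I hI
    conv_lhs => rw [hfac I hI]
    change wtHom L s _ = _
    rw [map_prod]
    simp only [map_pow]
    rfl
  have hinj : Set.InjOn φ (𝓘 : Set (Ideal (𝓞 L))) := by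
    intro I hI J hJ h
    rw [hfac I hI, hfac J hJ, h]
  rw [Finset.sum_congr rfl hwt, ← Finset.sum_image (f := g) hinj]
  have hsub : 𝓘.image φ ⊆ Fintype.piFinset fun _ : S => Finset.range (B + 1) := by
    intro x hx
    obtain ⟨I, hI, rfl⟩ := Finset.mem_image.mp hx
    rw [Fintype.mem_piFinset]
    intro P
    rw [Finset.mem_range, Nat.lt_succ_iff]
    exact (Multiset.count_le_card _ _).trans
      (Finset.le_sup (f := fun I => Multiset.card (normalizedFactors I)) hI)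
  refine (Finset.sum_le_sum_of_subset_of_nonneg hsub fun x _ _ =>
    Finset.prod_nonneg fun P _ => pow_nonneg (wt_nonneg s _) _).trans ?_
  rw [← Finset.prod_univ_sum, ← Finset.prod_coe_sort S (fun P => (1 - wt L s P)⁻¹)]
  refine Finset.prod_le_prod (fun P _ => Finset.sum_nonneg fun j _ => pow_nonneg (wt_nonneg s _) _)
    fun P _ => ?_
  have hlt : wt L s P.1 < 1 := by
    have := wt_le_half hs (hS P.1 P.2).1 (hS P.1 P.2).2
    linarith
  rw [← tsum_geometric_of_lt_one (wt_nonneg s _) hlt]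
  exact (summable_geometric_of_lt_one (wt_nonneg s _) hlt).sum_le_tsum _
    fun j _ => pow_nonneg (wt_nonneg s _) _

/-- upper bound, exponential form. -/
theorem sum_wt_le_exp {s : ℝ} (hs : 1 ≤ s) (𝓘 : Finset (Ideal (𝓞 L))) (h0 : ∀ I ∈ 𝓘, I ≠ ⊥) :
    ∃ S : Finset (Ideal (𝓞 L)), (∀ P ∈ S, P.IsPrime ∧ P ≠ ⊥) ∧
      ∑ I ∈ 𝓘, wt L s I ≤ Real.exp (∑ P ∈ S, wt L s P + 2 * zR L 2) := by
  obtain ⟨S, hS, h⟩ := sum_wt_le_prod L hs 𝓘 h0
  refine ⟨S, hS, h.trans ?_⟩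
  have h1 : ∑ P ∈ S, (wt L s P + 2 * wt L s P ^ 2) ≤ ∑ P ∈ S, wt L s P + 2 * zR L 2 := by
    rw [Finset.sum_add_distrib, ← Finset.mul_sum]
    have : ∑ P ∈ S, wt L s P ^ 2 ≤ zR L 2 :=
      (Finset.sum_le_sum fun P hP => wt_sq_le hs (hS P hP).2).trans
        (sum_wt_le_zR L (by norm_num) S)
    linarith
  refine le_trans ?_ (Real.exp_le_exp.mpr h1)
  rw [Real.exp_sum]
  refine Finset.prod_le_prod (fun P hP => inv_nonneg.mpr ?_) fun P hP =>
    one_sub_inv_le_exp (wt_nonneg s P) (wt_le_half hs (hS P hP).1 (hS P hP).2)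
  have := wt_le_half hs (hS P hP).1 (hS P hP).2
  linarith

end FA14
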