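import Fermat.Agent.CFT.AN2

/-!
# S14-[AN], part 3: primes of degree `≥ 2` contribute a bounded amount
-/

set_option autoImplicit false
set_option linter.deprecated false

open NumberField Ideal Filter Topology

namespace FA14

variable (L : Type*) [Field L] [NumberField L]

variable {L} in
/-- the rational prime below `P`. -/
noncomputable def ratP (P : Ideal (𝓞 L)) : ℕ := absNorm (under ℤ P)

variable {L} in
theorem ratP_prime {P : Ideal (𝓞 L)} (hP : P.IsPrime) (hP0 : P ≠ ⊥) : (ratP P).Prime := by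
  have := hP
  have : NeZero P := ⟨hP0⟩
  exact Nat.absNorm_under_prime P

variable {L} in
theorem absNorm_eq_ratP_pow {P : Ideal (𝓞 L)} (hP : P.IsPrime) (hP0 : P ≠ ⊥) :
    ∃ f : ℕ, absNorm P = ratP P ^ f := by
  have : P.LiesOver (span {((ratP P : ℕ) : ℤ)}) := Int.liesOver_span_absNorm P
  exact ⟨_, absNorm_eq_pow_inertiaDeg' (p := ratP P) P (ratP_prime hP hP0)⟩

variable {L} in
theorem wt_le_of_not_prime {s : ℝ} (hs : 1 ≤ s) {P : Ideal (𝓞 L)} (hP : P.IsPrime) (hP0 : P ≠ ⊥)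
    (hnp : ¬ (absNorm P).Prime) : wt L s P ≤ (((ratP P : ℕ) : ℝ) ^ 2)⁻¹ := by
  obtain ⟨f, hf⟩ := absNorm_eq_ratP_pow hP hP0
  have hp := ratP_prime hP hP0
  have h2 := two_le_absNorm hP hP0
  have hf2 : 2 ≤ f := by
    rcases f with _ | _ | f
    · rw [hf] at h2; simp at h2
    · rw [hf, zero_add, pow_one] at hnp; exact absurd hp hnp
    · omega
  refine (wt_le_inv hs hP0).trans ?_
  refine inv_anti₀ (by have := hp.pos; positivity) ?_
  rw [hf]
  push_cast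
  exact pow_le_pow_right₀ (by exact_mod_cast hp.one_lt.le) hf2

/-- the constant `∑ 1 / n ^ 2`. -/
noncomputable def cTwo : ℝ := ∑' n : ℕ, (((n : ℕ) : ℝ) ^ 2)⁻¹

theorem summable_cTwo : Summable fun n : ℕ => (((n : ℕ) : ℝ) ^ 2)⁻¹ :=
  Real.summable_nat_pow_inv.mpr (by norm_num)

theorem card_filter_ratP_le (S : Finset (Ideal (𝓞 L))) (hS : ∀ P ∈ S, P.IsPrime ∧ P ≠ ⊥)
    [DecidableEq (Ideal (𝓞 L))] (p : ℕ) :
    (S.filter fun P => ratP P = p).card ≤ Module.finrank ℚ L := by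
  rcases (S.filter fun P => ratP P = p).eq_empty_or_nonempty with h | ⟨P0, hP0⟩
  · rw [h]; simp
  have hp : p.Prime := by
    obtain ⟨h1, h2⟩ := Finset.mem_filter.mp hP0
    rw [← h2]
    exact ratP_prime (hS P0 h1).1 (hS P0 h1).2
  have : Fact p.Prime := ⟨hp⟩
  have hp0 : (span {(p : ℤ)} : Ideal ℤ) ≠ ⊥ := by
    rw [Ne, span_singleton_eq_bot]
    exact_mod_cast hp.ne_zero
  refine le_trans (Finset.card_le_card ?_)
    (Ideal.card_primesOverFinset_le_finrank (𝓞 L) ℚ L (p := span {(p : ℤ)}) hp0)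
  intro P hP
  obtain ⟨h1, h2⟩ := Finset.mem_filter.mp hP
  rw [IsDedekindDomain.mem_primesOverFinset_iff hp0]
  refine ⟨(hS P h1).1, ?_⟩
  rw [← h2]
  exact Int.liesOver_span_absNorm P

theorem sum_inv_sq_ratP_le (S : Finset (Ideal (𝓞 L))) (hS : ∀ P ∈ S, P.IsPrime ∧ P ≠ ⊥) :
    ∑ P ∈ S, (((ratP P : ℕ) : ℝ) ^ 2)⁻¹ ≤ Module.finrank ℚ L * cTwo := by
  classical
  rw [← Finset.sum_fiberwise_of_maps_to (g := ratP) (t := S.image ratP)
    (fun P hP => Finset.mem_image_of_mem _ hP)]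
  have h1 : ∀ p ∈ S.image ratP, ∑ P ∈ S.filter (fun P => ratP P = p), (((ratP P : ℕ) : ℝ) ^ 2)⁻¹ ≤
      Module.finrank ℚ L * (((p : ℕ) : ℝ) ^ 2)⁻¹ := by
    intro p _
    have h2 : ∀ P ∈ S.filter (fun P => ratP P = p),
        (((ratP P : ℕ) : ℝ) ^ 2)⁻¹ = (((p : ℕ) : ℝ) ^ 2)⁻¹ := by
      intro P hP
      rw [(Finset.mem_filter.mp hP).2]
    rw [Finset.sum_congr rfl h2, Finset.sum_const, nsmul_eq_mul]
    exact mul_le_mul_of_nonneg_right (by exact_mod_cast card_filter_ratP_le L S hS p)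
      (by positivity)
  refine (Finset.sum_le_sum h1).trans ?_
  rw [← Finset.mul_sum]
  exact mul_le_mul_of_nonneg_left (summable_cTwo.sum_le_tsum _ fun n _ => by positivity)
    (Nat.cast_nonneg _)

/-- splitting a sum over primes: degree one primes outside `Z`, plus a bounded remainder. -/
theorem sum_wt_primes_le {s : ℝ} (hs : 1 ≤ s) (Z : Finset (Ideal (𝓞 L)))
    (S : Finset (Ideal (𝓞 L))) (hS : ∀ P ∈ S, P.IsPrime ∧ P ≠ ⊥) [DecidableEq (Ideal (𝓞 L))] :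
    ∑ P ∈ S, wt L s P ≤ ∑ P ∈ S.filter (fun P => (absNorm P).Prime ∧ P ∉ Z), wt L s P +
      (Z.card + Module.finrank ℚ L * cTwo) := by
  rw [← Finset.sum_filter_add_sum_filter_not S (fun P => (absNorm P).Prime ∧ P ∉ Z)]
  refine add_le_add le_rfl ?_
  have h1 : ∀ P ∈ S.filter (fun P => ¬ ((absNorm P).Prime ∧ P ∉ Z)),
      wt L s P ≤ (if P ∈ Z then 1 else 0) + (((ratP P : ℕ) : ℝ) ^ 2)⁻¹ := by
    intro P hP
    obtain ⟨hPS, hP2⟩ := Finset.mem_filter.mp hP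
    by_cases hZ : P ∈ Z
    · rw [if_pos hZ]
      have := wt_le_half hs (hS P hPS).1 (hS P hPS).2
      have h3 : (0 : ℝ) ≤ (((ratP P : ℕ) : ℝ) ^ 2)⁻¹ := by positivity
      linarith
    · rw [if_neg hZ, zero_add]
      exact wt_le_of_not_prime hs (hS P hPS).1 (hS P hPS).2 fun h => hP2 ⟨h, hZ⟩
  refine (Finset.sum_le_sum h1).trans ?_
  rw [Finset.sum_add_distrib]
  refine add_le_add ?_ ?_
  · rw [Finset.sum_ite, Finset.sum_const_zero, add_zero, Finset.sum_const, nsmul_eq_mul, mul_one,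
      Nat.cast_le]
    refine Finset.card_le_card fun P hP => ?_
    exact (Finset.mem_filter.mp hP).2
  · exact sum_inv_sq_ratP_le L _ fun P hP => hS P (Finset.mem_filter.mp hP).1

end FA14
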