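import Fermat.Agent.CFT.AN3

/-!
# S14-[AN], part 4: existence of degree one primes that do not split completely
-/

set_option autoImplicit false
set_option linter.deprecated false

open NumberField Ideal Filter Topology

namespace FA14

variable (M M' : Type*) [Field M] [NumberField M] [Field M'] [NumberField M'] [Algebra M M']

variable {M} in
/-- if a prime has at least `[M':M]` primes above it, they all have the same norm. -/
theorem absNorm_eq_of_card_le {T : Ideal (𝓞 M)} (hT : T.IsPrime) (hT0 : T ≠ ⊥)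
    (hc : Module.finrank M M' ≤ (IsDedekindDomain.primesOverFinset T (𝓞 M')).card)
    {P : Ideal (𝓞 M')} (hP : P ∈ IsDedekindDomain.primesOverFinset T (𝓞 M')) :
    absNorm P = absNorm T := by
  have hmax : T.IsMaximal := hT.isMaximal hT0
  have hsum := Ideal.sum_ramification_inertia (𝓞 M') M M' hT0
  have hge : ∀ Q ∈ IsDedekindDomain.primesOverFinset T (𝓞 M'),
      1 ≤ ramificationIdx' T Q * inertiaDeg' T Q := by
    intro Q hQ
    have : Q.IsPrime := ((IsDedekindDomain.mem_primesOverFinset_iff hT0 _).mp hQ).1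
    have : Q.LiesOver T := ((IsDedekindDomain.mem_primesOverFinset_iff hT0 _).mp hQ).2
    refine Right.one_le_mul ?_ ?_
    · exact Nat.pos_iff_ne_zero.mpr <| IsDedekindDomain.ramificationIdx'_ne_zero_of_liesOver _ hT0
    · exact Nat.pos_iff_ne_zero.mpr <| inertiaDeg'_ne_zero T Q
  have hone : ramificationIdx' T P * inertiaDeg' T P = 1 := by
    by_contra hne
    have hlt : 1 < ramificationIdx' T P * inertiaDeg' T P := lt_of_le_of_ne (hge P hP) (Ne.symm hne)
    have := Finset.sum_lt_sum hge ⟨P, hP, hlt⟩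
    rw [hsum, Finset.sum_const, smul_eq_mul, mul_one] at this
    omega
  have hf : inertiaDeg' T P = 1 := Nat.eq_one_of_mul_eq_one_left hone
  have : P.LiesOver T := ((IsDedekindDomain.mem_primesOverFinset_iff hT0 _).mp hP).2
  rw [absNorm_eq_pow_inertiaDeg'_of_liesOver P T hT hT0, hf, pow_one]

/-- the main inequality under the hypothesis that almost all degree one primes split completely. -/
theorem zR_pow_le_of_split (Z : Finset (Ideal (𝓞 M)))
    (hsplit : ∀ T : Ideal (𝓞 M), T.IsPrime → T ≠ ⊥ → T ∉ Z → (absNorm T).Prime →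
      Module.finrank M M' ≤ (IsDedekindDomain.primesOverFinset T (𝓞 M')).card) :
    ∃ C : ℝ, ∀ s : ℝ, 1 < s → zR M s ^ Module.finrank M M' ≤ C * zR M' s := by
  classical
  set n := Module.finrank M M' with hn
  have hnpos : 0 < n := Module.finrank_pos
  set A : ℝ := (Z.card + Module.finrank ℚ M * cTwo) + 2 * zR M 2 with hA
  set B : ℝ := zR M' 2 with hB
  refine ⟨Real.exp (B + n * A), fun s hs => ?_⟩
  have hpos' : 0 < zR M' s := lt_of_lt_of_le (Real.exp_pos _) (exp_le_zR M' hs ∅ (by simp))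
  have key : zR M s ≤ Real.exp ((Real.log (zR M' s) + B) / n + A) := by
    refine zR_le_of_forall M hs _ fun 𝓘 h0 => ?_
    obtain ⟨S, hS, hle⟩ := sum_wt_le_exp M hs.le 𝓘 h0
    refine hle.trans (Real.exp_le_exp.mpr ?_)
    set S₁ := S.filter (fun P => (absNorm P).Prime ∧ P ∉ Z) with hS₁
    have h1 := sum_wt_primes_le M hs.le Z S hS
    have hS₁' : ∀ T ∈ S₁, T.IsPrime ∧ T ≠ ⊥ ∧ T ∉ Z ∧ (absNorm T).Prime := by
      intro T hT
      obtain ⟨h2, h3, h4⟩ := Finset.mem_filter.mp hT
      exact ⟨(hS T h2).1, (hS T h2).2, h4, h3⟩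
    set S' : Finset (Ideal (𝓞 M')) :=
      S₁.biUnion fun T => IsDedekindDomain.primesOverFinset T (𝓞 M') with hS'
    have hS'p : ∀ P ∈ S', P.IsPrime ∧ P ≠ ⊥ := by
      intro P hP
      obtain ⟨T, hT, hPT⟩ := Finset.mem_biUnion.mp hP
      obtain ⟨h2, h3, -, -⟩ := hS₁' T hT
      have hmax : T.IsMaximal := h2.isMaximal h3
      obtain ⟨h4, h5⟩ := (IsDedekindDomain.mem_primesOverFinset_iff h3 _).mp hPT
      refine ⟨h4, fun hb => h3 ?_⟩
      rw [h5.over, hb]
      exact Ideal.under_bot _ _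
    have hdisj : Set.PairwiseDisjoint (S₁ : Set (Ideal (𝓞 M)))
        fun T => IsDedekindDomain.primesOverFinset T (𝓞 M') := by
      intro T hT T' hT' hne
      rw [Function.onFun, Finset.disjoint_left]
      intro P hP hP'
      apply hne
      have hmax : T.IsMaximal := (hS₁' T hT).1.isMaximal (hS₁' T hT).2.1
      have hmax' : T'.IsMaximal := (hS₁' T' hT').1.isMaximal (hS₁' T' hT').2.1
      have h5 := ((IsDedekindDomain.mem_primesOverFinset_iff (hS₁' T hT).2.1 _).mp hP).2
      have h5' := ((IsDedekindDomain.mem_primesOverFinset_iff (hS₁' T' hT').2.1 _).mp hP').2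
      rw [h5.over, h5'.over]
    have h2 : (n : ℝ) * ∑ T ∈ S₁, wt M s T ≤ ∑ P ∈ S', wt M' s P := by
      rw [hS', Finset.sum_biUnion hdisj, Finset.mul_sum]
      refine Finset.sum_le_sum fun T hT => ?_
      obtain ⟨h3, h4, h5, h6⟩ := hS₁' T hT
      have hc := hsplit T h3 h4 h5 h6
      have h7 : ∀ P ∈ IsDedekindDomain.primesOverFinset T (𝓞 M'), wt M' s P = wt M s T := by
        intro P hP
        rw [wt, wt, absNorm_eq_of_card_le M' h3 h4 hc hP]
      rw [Finset.sum_congr rfl h7, Finset.sum_const, nsmul_eq_mul]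
      exact mul_le_mul_of_nonneg_right (by exact_mod_cast hc) (wt_nonneg s T)
    have h3 := exp_le_zR M' hs S' hS'p
    have h4 : ∑ P ∈ S', wt M' s P - B ≤ Real.log (zR M' s) := by
      rw [Real.le_log_iff_exp_le hpos']
      exact h3
    have h5 : ∑ T ∈ S₁, wt M s T ≤ (Real.log (zR M' s) + B) / n := by
      rw [le_div_iff₀ (by exact_mod_cast hnpos), mul_comm]
      linarith
    linarith
  have hz0 : 0 ≤ zR M s := by
    have := sum_wt_le_zR M hs ∅
    simpa using this
  calc zR M s ^ n ≤ Real.exp ((Real.log (zR M' s) + B) / n + A) ^ n :=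
        pow_le_pow_left₀ hz0 key n
    _ = Real.exp (Real.log (zR M' s) + (B + n * A)) := by
        rw [← Real.exp_nat_mul]
        congr 1
        have : (n : ℝ) ≠ 0 := by exact_mod_cast hnpos.ne'
        field_simp
        ring
    _ = Real.exp (B + n * A) * zR M' s := by
        rw [Real.exp_add, Real.exp_log hpos', mul_comm]

/-- **[AN]**: in an extension of number fields of degree `≥ 2`, outside any finite set there is a
prime of absolute degree one which does not split completely. -/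
theorem exists_prime_not_split (hn : 2 ≤ Module.finrank M M') (Z : Set (Ideal (𝓞 M)))
    (hZ : Z.Finite) :
    ∃ T : Ideal (𝓞 M), T.IsPrime ∧ T ≠ ⊥ ∧ T ∉ Z ∧ (absNorm T).Prime ∧
      (T.primesOver (𝓞 M')).ncard < Module.finrank M M' := by
  by_contra hcon
  push Not at hcon
  obtain ⟨C, hC⟩ := zR_pow_le_of_split M M' hZ.toFinset (by
    intro T h1 h2 h3 h4
    have := hcon T h1 h2 (by simpa using h3) h4
    have hmax : T.IsMaximal := h1.isMaximal h2
    rwa [← IsDedekindDomain.coe_primesOverFinset h2, Set.ncard_coe_finset] at this)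
  set n := Module.finrank M M' with hndef
  have hf := tendsto_zR M
  have hg := tendsto_zR M'
  have h1 : Tendsto (fun s : ℝ => ((s - 1) * zR M s) ^ n) (𝓝[>] 1)
      (𝓝 (dedekindZeta_residue M ^ n)) := hf.pow n
  have h0 : Tendsto (fun s : ℝ => (s - 1) ^ (n - 1)) (𝓝[>] 1) (𝓝 0) := by
    have : Tendsto (fun s : ℝ => (s - 1) ^ (n - 1)) (𝓝 1) (𝓝 ((1 - 1 : ℝ) ^ (n - 1))) :=
      ((continuous_id.sub continuous_const).pow (n - 1)).tendsto 1
    rw [sub_self, zero_pow (by omega)] at this
    exact tendsto_nhdsWithin_of_tendsto_nhds this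
  have h2 : Tendsto (fun s : ℝ => (s - 1) ^ (n - 1) * (C * ((s - 1) * zR M' s))) (𝓝[>] 1)
      (𝓝 (0 * (C * dedekindZeta_residue M'))) := h0.mul (hg.const_mul C)
  rw [zero_mul] at h2
  have hle : ∀ᶠ s : ℝ in 𝓝[>] 1,
      ((s - 1) * zR M s) ^ n ≤ (s - 1) ^ (n - 1) * (C * ((s - 1) * zR M' s)) := by
    filter_upwards [self_mem_nhdsWithin] with s hs
    have hs' : (1 : ℝ) < s := hs
    have h3 := hC s hs'
    have h4 : (0 : ℝ) ≤ (s - 1) ^ n := pow_nonneg (by linarith) n
    calc ((s - 1) * zR M s) ^ n = (s - 1) ^ n * zR M s ^ n := mul_pow _ _ _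
      _ ≤ (s - 1) ^ n * (C * zR M' s) := mul_le_mul_of_nonneg_left h3 h4
      _ = (s - 1) ^ (n - 1) * (C * ((s - 1) * zR M' s)) := by
          obtain ⟨m, hm⟩ : ∃ m, n = m + 1 := ⟨n - 1, by omega⟩
          rw [hm, Nat.add_sub_cancel, pow_succ]
          ring
  have := le_of_tendsto_of_tendsto h1 h2 hle
  have hpos : 0 < dedekindZeta_residue M ^ n := pow_pos (dedekindZeta_residue_pos M) n
  linarith

end FA14
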