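import Mathlib

/-!
# S14: a prime at which `u` is a `p`-th power residue has `p` distinct primes above it in the
Kummer extension generated by a `p`-th root of `u` (commutative algebra form)
-/

set_option autoImplicit false
set_option linter.unusedSectionVars false

open Ideal

namespace FA14

theorem isPrimitiveRoot_mk_of_notMem {R : Type*} [CommRing R] [IsDomain R] {T : Ideal R}
    (_hT : T.IsPrime) {p : ℕ} [hpF : Fact p.Prime] (hpT : (p : R) ∉ T) {ζ : R}
    (hζ : IsPrimitiveRoot ζ p) : IsPrimitiveRoot (Ideal.Quotient.mk T ζ) p := by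
  have h1 : Ideal.Quotient.mk T ζ ^ p = 1 := by rw [← map_pow, hζ.pow_eq_one, map_one]
  have h2 : Ideal.Quotient.mk T ζ ≠ 1 := by
    intro h
    apply hpT
    have hmem : 1 - ζ ∈ T := by
      rw [← Ideal.Quotient.eq_zero_iff_mem, map_sub, map_one, h, sub_self]
    obtain ⟨m, hm⟩ : ∃ m, p = m + 1 := ⟨p - 1, by have := hpF.out.pos; omega⟩
    have hm0 : 0 < m := by have := hpF.out.one_lt; omega
    have hprod := IsPrimitiveRoot.prod_one_sub_pow_eq_order (hm ▸ hζ)
    have : (p : R) = ∏ k ∈ Finset.range m, (1 - ζ ^ (k + 1)) := by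
      rw [hprod, hm]; push_cast; rfl
    rw [this]
    refine Ideal.mem_of_dvd _ (Finset.dvd_prod_of_mem _ (Finset.mem_range.mpr hm0)) ?_
    simpa using hmem
  have := orderOf_eq_prime h1 h2
  rw [← this]
  exact IsPrimitiveRoot.orderOf _

section

variable {R S : Type*} [CommRing R] [IsDomain R] [CommRing S] [IsDomain S] [Algebra R S]
  [FaithfulSMul R S] [Algebra.IsIntegral R S] {p : ℕ} [hpF : Fact p.Prime]

theorem algEquiv_pow_apply_of_apply_eq (s : S ≃ₐ[R] S) {ζ : R} {θ : S}
    (hs : s θ = algebraMap R S ζ * θ) (j : ℕ) : (s ^ j) θ = algebraMap R S ζ ^ j * θ := by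
  induction j with
  | zero => simp
  | succ j ih =>
    rw [pow_succ', AlgEquiv.mul_apply, ih, map_mul, map_pow, AlgEquiv.commutes, hs, pow_succ]
    ring

/-- `p` distinct primes above `T`. -/
theorem exists_primesOver_injective {ζ : R} (hζ : IsPrimitiveRoot ζ p) (s : S ≃ₐ[R] S) {θ : S}
    (hs : s θ = algebraMap R S ζ * θ) {u b : R} (hθ : θ ^ p = algebraMap R S u)
    {T : Ideal R} (hT : T.IsPrime) (hpT : (p : R) ∉ T) (hb : b ∉ T) (hu : u - b ^ p ∈ T) :
    ∃ f : ℕ → Ideal S, (∀ j, f j ∈ T.primesOver S) ∧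
      ∀ j k, j < p → k < p → f j = f k → j = k := by
  have hinj : Function.Injective (algebraMap R S) := FaithfulSMul.algebraMap_injective R S
  have hζS : IsPrimitiveRoot (algebraMap R S ζ) p := hζ.map_of_injective hinj
  obtain ⟨P, -, hPp, hPc⟩ := Ideal.exists_ideal_over_prime_of_isIntegral T (⊥ : Ideal S) (by
    rw [Ideal.comap_bot_of_injective _ hinj]; exact bot_le)
  -- `θ ≡ ζ^i b` modulo `P`
  have hmem : θ ^ p - algebraMap R S b ^ p ∈ P := by
    rw [hθ, ← map_pow, ← map_sub]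
    have : u - b ^ p ∈ P.comap (algebraMap R S) := hPc ▸ hu
    exact this
  rw [hζS.pow_sub_pow_eq_prod_sub_mul _ _ hpF.out.pos] at hmem
  obtain ⟨η, hη, hηP⟩ := (hPp.prod_mem_iff).mp hmem
  have hη1 : η ^ p = 1 := ((Polynomial.mem_nthRootsFinset hpF.out.pos 1).mp hη)
  have : NeZero p := ⟨hpF.out.ne_zero⟩
  obtain ⟨i, -, rfl⟩ := hζS.eq_pow_of_pow_eq_one hη1
  refine ⟨fun j => P.comap ((s ^ j : S ≃ₐ[R] S) : S →+* S), fun j => ⟨Ideal.comap_isPrime _ _, ?_⟩,
    ?_⟩
  · rw [Ideal.liesOver_iff, Ideal.under_def, Ideal.comap_comap, ← hPc]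
    congr 1
    ext x
    exact ((s ^ j).commutes x).symm
  · intro j k hj hk hjk
    have key : ∀ j : ℕ, θ - algebraMap R S ζ ^ (i + j) * algebraMap R S b ∈
        P.comap ((s ^ j : S ≃ₐ[R] S) : S →+* S) := by
      intro j
      rw [Ideal.mem_comap]
      change (s ^ j) _ ∈ P
      rw [map_sub, map_mul, map_pow, AlgEquiv.commutes, AlgEquiv.commutes,
        algEquiv_pow_apply_of_apply_eq s hs]
      have : algebraMap R S ζ ^ j * θ - algebraMap R S ζ ^ (i + j) * algebraMap R S b =
          algebraMap R S ζ ^ j * (θ - algebraMap R S ζ ^ i * algebraMap R S b) := by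
        rw [pow_add]; ring
      rw [this]
      exact P.mul_mem_left _ hηP
    have h1 := key j
    have h2 := key k
    simp only at hjk
    rw [← hjk] at h2
    have h3 := Ideal.sub_mem _ h2 h1
    have h4 : algebraMap R S ((ζ ^ (i + j) - ζ ^ (i + k)) * b) ∈
        P.comap ((s ^ j : S ≃ₐ[R] S) : S →+* S) := by
      convert h3 using 1
      simp only [map_mul, map_sub, map_pow]
      ring
    have h5 : (ζ ^ (i + j) - ζ ^ (i + k)) * b ∈ T := by
      rw [Ideal.mem_comap] at h4
      change (s ^ j) _ ∈ P at h4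
      rw [AlgEquiv.commutes] at h4
      rw [← hPc]
      exact h4
    have h6 : ζ ^ (i + j) - ζ ^ (i + k) ∈ T := (hT.mem_or_mem h5).resolve_right hb
    have hζT := isPrimitiveRoot_mk_of_notMem hT hpT hζ
    have h7 : Ideal.Quotient.mk T ζ ^ (i + j) = Ideal.Quotient.mk T ζ ^ (i + k) := by
      rw [← map_pow, ← map_pow, Ideal.Quotient.eq]
      exact h6
    have := hT
    rw [pow_add, pow_add] at h7
    have h8 := mul_left_cancel₀ (pow_ne_zero i (hζT.ne_zero hpF.out.ne_zero)) h7
    exact hζT.pow_inj hj hk h8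

end

end FA14
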