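import Fermat.Agent.CFT.Ord
import Fermat.Agent.CFT.AN4
import Fermat.Agent.CFT.Split1

/-!
# S14-[AN-K1]: a non-`p`-th power is a non-residue at some prime of absolute degree one
-/

set_option autoImplicit false
set_option linter.unusedSectionVars false

open IsDedekindDomain NumberField Polynomial

namespace FA14

variable {p : ℕ} [hpF : Fact p.Prime]

theorem natCast_notMem_of_ordv_eq_zero {E : Type*} [Field E] [NumberField E] (T : Pr E) (n : ℕ)
    (hn : n ≠ 0) (h : ordv T (n : E) = 0) : (n : 𝓞 E) ∉ T.asIdeal := by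
  intro hmem
  have h1 := (ordGE_algebraMap_one_iff (v := T) (n : 𝓞 E)).mpr hmem
  rw [map_natCast] at h1
  have := h1.le (by exact_mod_cast hn)
  omega

/-- an element `≡ 1 mod T` as a fraction `n / d` with `d ∉ T`, `n - d ∈ T`. -/
theorem exists_frac_of_ordGE_sub_one {E : Type*} [Field E] [NumberField E] (T : Pr E) {z : E}
    (hz : OrdGE T (z - 1) 1) : ∃ n d : 𝓞 E, d ∉ T.asIdeal ∧ n - d ∈ T.asIdeal ∧
      z * algebraMap (𝓞 E) E d = algebraMap (𝓞 E) E n := by
  have hz0 : OrdGE T z 0 := by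
    have := (hz.mono zero_le_one).add (ordGE_one (v := T))
    simpa using this
  have hval : T.valuation E z ≤ 1 := by simpa using (ordGE_iff T).1 hz0
  obtain ⟨n, ⟨d, hd⟩, hnd⟩ := T.exists_primeCompl_mul_eq_of_integer z hval
  refine ⟨n, d, hd, ?_, hnd⟩
  rw [← ordGE_algebraMap_one_iff, map_sub, ← hnd]
  have : z * algebraMap (𝓞 E) E d - algebraMap (𝓞 E) E d = (z - 1) * algebraMap (𝓞 E) E d := by
    ring
  rw [this]
  exact hz.mul_right (ordGE_algebraMap d)

/-- the split lemma: if `x` is a `p`-th power residue at `T ∤ p`, then `T` has at least `p` primes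
above it in a field containing a `p`-th root `X` of `x` on which some automorphism acts by `ζ`. -/
theorem exists_primesOver_of_locPow {E M : Type*} [Field E] [NumberField E] [Field M]
    [NumberField M] [Algebra E M] {ζ : E} (hζ : IsPrimitiveRoot ζ p) {x : E} {X : M}
    (hX : X ^ p = algebraMap E M x) (σ : M ≃ₐ[E] M) (hσ : σ X = algebraMap E M ζ * X)
    (T : Pr E) (hTp : ordv T (p : E) = 0) (hloc : LocPow p 1 T x) :
    ∃ f : ℕ → Ideal (𝓞 M), (∀ j, f j ∈ T.asIdeal.primesOver (𝓞 M)) ∧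
      ∀ j k, j < p → k < p → f j = f k → j = k := by
  have : NeZero p := ⟨hpF.out.ne_zero⟩
  obtain ⟨c, hc0, hc⟩ := hloc
  obtain ⟨n, d, hd, hnd, hz⟩ := exists_frac_of_ordGE_sub_one T hc
  -- the integral generator
  set θ₀ : M := algebraMap E M (algebraMap (𝓞 E) E d) * (X * algebraMap E M c) with hθ₀
  have hpow : θ₀ ^ p = algebraMap E M (algebraMap (𝓞 E) E (d ^ (p - 1) * n)) := by
    rw [hθ₀, mul_pow, mul_pow, hX, map_mul (algebraMap (𝓞 E) E), ← hz, map_pow]
    simp only [map_mul, map_pow]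
    obtain ⟨m, hm⟩ : ∃ m, p = m + 1 := ⟨p - 1, by have := hpF.out.pos; omega⟩
    rw [hm, Nat.add_sub_cancel, pow_succ (algebraMap E M (algebraMap (𝓞 E) E d))]
    ring
  have hint : IsIntegral ℤ θ₀ := by
    refine IsIntegral.of_pow hpF.out.pos ?_
    rw [hpow]
    exact map_isIntegral_int (algebraMap E M) (d ^ (p - 1) * n).2
  refine exists_primesOver_injective (R := 𝓞 E) (S := 𝓞 M) (ζ := hζ.toInteger)
    hζ.toInteger_isPrimitiveRoot (RingOfIntegers.mapAlgEquiv σ) (θ := ⟨θ₀, hint⟩)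
    (u := d ^ (p - 1) * n) (b := d) ?_ ?_ T.isPrime
    (natCast_notMem_of_ordv_eq_zero T p hpF.out.ne_zero hTp) hd ?_
  · apply RingOfIntegers.ext
    change σ θ₀ = algebraMap E M ζ * θ₀
    rw [hθ₀, map_mul, map_mul, AlgEquiv.commutes, AlgEquiv.commutes, hσ]
    ring
  · apply RingOfIntegers.ext
    exact hpow
  · have : d ^ (p - 1) * n - d ^ p = d ^ (p - 1) * (n - d) := by
      obtain ⟨m, hm⟩ : ∃ m, p = m + 1 := ⟨p - 1, by have := hpF.out.pos; omega⟩
      rw [hm, Nat.add_sub_cancel, pow_succ]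
      ring
    rw [this]
    exact T.asIdeal.mul_mem_left _ hnd

theorem le_ncard_primesOver_of_locPow {E M : Type*} [Field E] [NumberField E] [Field M]
    [NumberField M] [Algebra E M] {ζ : E} (hζ : IsPrimitiveRoot ζ p) {x : E} {X : M}
    (hX : X ^ p = algebraMap E M x) (σ : M ≃ₐ[E] M) (hσ : σ X = algebraMap E M ζ * X)
    (T : Pr E) (hTp : ordv T (p : E) = 0) (hloc : LocPow p 1 T x) :
    p ≤ (T.asIdeal.primesOver (𝓞 M)).ncard := by
  classical
  obtain ⟨f, hf, hinj⟩ := exists_primesOver_of_locPow hζ hX σ hσ T hTp hloc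
  have hmax : T.asIdeal.IsMaximal := T.isMaximal
  rw [← IsDedekindDomain.coe_primesOverFinset T.ne_bot, Set.ncard_coe_finset]
  calc p = (Finset.range p).card := (Finset.card_range p).symm
    _ ≤ _ := Finset.card_le_card_of_injOn f (fun j _ => by
        have := hf j
        rw [← IsDedekindDomain.coe_primesOverFinset T.ne_bot] at this
        exact this) (fun j hj k hk h => hinj j k (Finset.mem_range.mp hj) (Finset.mem_range.mp hk) h)

/-- a Kummer extension as a number field with all the data we need. -/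
theorem exists_kummer_field.{u} {E : Type u} [Field E] [NumberField E] {ζ : E}
    (hζ : IsPrimitiveRoot ζ p) (x : E) (hx : ∀ c : E, c ^ p ≠ x) :
    ∃ (M : Type u) (_ : Field M) (_ : NumberField M) (_ : Algebra E M) (X : M) (σ : M ≃ₐ[E] M),
      X ^ p = algebraMap E M x ∧ σ X = algebraMap E M ζ * X ∧ Module.finrank E M = p ∧
      IsGalois E M ∧ IntermediateField.adjoin E {X} = ⊤ := by
  have hirr : Irreducible (X ^ p - C x : E[X]) := X_pow_sub_C_irreducible_of_prime hpF.out hx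
  have : Fact (Irreducible (X ^ p - C x : E[X])) := ⟨hirr⟩
  have hne : (X ^ p - C x : E[X]) ≠ 0 := hirr.ne_zero
  have hfin : Module.Finite E (AdjoinRoot (X ^ p - C x : E[X])) :=
    (AdjoinRoot.powerBasis hne).finite
  have hprim : (primitiveRoots p E).Nonempty :=
    ⟨ζ, (mem_primitiveRoots hpF.out.pos).mpr hζ⟩
  have hspl := isSplittingField_AdjoinRoot_X_pow_sub_C hprim hirr
  refine ⟨AdjoinRoot (X ^ p - C x : E[X]), inferInstance,
    NumberField.of_module_finite E _, inferInstance, AdjoinRoot.root _,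
    autAdjoinRootXPowSubC p x (hζ.toRootsOfUnity), ?_, ?_, ?_, ?_, ?_⟩
  · exact root_X_pow_sub_C_pow p x
  · rw [autAdjoinRootXPowSubC_root, Algebra.smul_def]
    rfl
  · rw [(AdjoinRoot.powerBasis hne).finrank, AdjoinRoot.powerBasis_dim, natDegree_X_pow_sub_C]
  · exact isGalois_of_isSplittingField_X_pow_sub_C hprim hirr _
  · exact IntermediateField.adjoin_root_eq_top_of_isSplittingField hprim hirr
      (root_X_pow_sub_C_pow p x)

/-- **[AN-K1]** -/
theorem exists_prime_not_locPow {E : Type*} [Field E] [NumberField E] (ζ : E)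
    (hζ : IsPrimitiveRoot ζ p) (x : E) (hx0 : x ≠ 0) (hx : ∀ c : E, c ^ p ≠ x)
    (Z : Set (Pr E)) (hZ : Z.Finite) :
    ∃ T : Pr E, T ∉ Z ∧ (Nq T).Prime ∧ ordv T (p : E) = 0 ∧ ordv T x = 0 ∧ ¬ LocPow p 1 T x := by
  obtain ⟨M, _, _, _, X, σ, hX, hσ, hdeg, -, -⟩ := exists_kummer_field hζ x hx
  have hfin : (HeightOneSpectrum.asIdeal ''
      (Z ∪ {v : Pr E | ordv v (p : E) ≠ 0} ∪ {v : Pr E | ordv v x ≠ 0})).Finite :=
    ((hZ.union (finite_ordv_ne_zero _)).union (finite_ordv_ne_zero _)).image _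
  obtain ⟨T, hTp, hT0, hTZ, hTN, hlt⟩ := exists_prime_not_split E M
    (by rw [hdeg]; exact hpF.out.two_le) _ hfin
  have hT' : ∀ v ∈ Z ∪ {v : Pr E | ordv v (p : E) ≠ 0} ∪ {v : Pr E | ordv v x ≠ 0},
      v ≠ (⟨T, hTp, hT0⟩ : Pr E) := by
    rintro v hv rfl
    exact hTZ ⟨_, hv, rfl⟩
  have h1 : (⟨T, hTp, hT0⟩ : Pr E) ∉ Z := fun h => hT' _ (Or.inl (Or.inl h)) rfl
  have h2 : ordv (⟨T, hTp, hT0⟩ : Pr E) (p : E) = 0 := by
    by_contra h
    exact hT' _ (Or.inl (Or.inr h)) rfl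
  have h3 : ordv (⟨T, hTp, hT0⟩ : Pr E) x = 0 := by
    by_contra h
    exact hT' _ (Or.inr h) rfl
  refine ⟨⟨T, hTp, hT0⟩, h1, hTN, h2, h3, fun hloc => ?_⟩
  have := le_ncard_primesOver_of_locPow hζ hX σ hσ ⟨T, hTp, hT0⟩ h2 hloc
  rw [hdeg] at hlt
  exact absurd hlt (not_lt.mpr this)

end FA14
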