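import Fermat.Agent.CFT.Jac1

/-!
# S14-[JAC], part 2: the factorisation of the Jacobi sum in the `p`-th cyclotomic field
-/

set_option autoImplicit false
set_option linter.unusedSectionVars false

open NumberField Ideal

namespace FA14

section general

variable {R : Type*} [CommRing R]

/-- modulo an ideal of prime index every element is congruent to an integer. -/
theorem exists_int_sub_mem (I : Ideal R) (hI : (Nat.card (R ⧸ I)).Prime) (x : R) :
    ∃ m : ℤ, x - (m : R) ∈ I := by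
  have : Fact (Nat.card (R ⧸ I)).Prime := ⟨hI⟩
  have h1 : (1 : R ⧸ I) ≠ 0 := by
    intro h
    have : Subsingleton (R ⧸ I) := subsingleton_of_zero_eq_one h.symm
    have := Nat.card_of_subsingleton (0 : R ⧸ I)
    rw [this] at hI
    exact Nat.not_prime_one hI
  obtain ⟨m, hm⟩ := mem_zmultiples_of_prime_card (G := R ⧸ I) rfl h1
    (g' := Ideal.Quotient.mk I x)
  refine ⟨m, ?_⟩
  rw [← Ideal.Quotient.eq_zero_iff_mem, map_sub, map_intCast, ← hm]
  simp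

end general

variable {K : Type*} [Field K] [NumberField K]

theorem absNorm_comap_ringEquiv (τ : 𝓞 K ≃+* 𝓞 K) (I : Ideal (𝓞 K)) :
    absNorm (I.comap τ) = absNorm I := by
  rw [absNorm_apply, absNorm_apply, Submodule.cardQuot_apply, Submodule.cardQuot_apply]
  refine Nat.card_congr (Ideal.quotientEquiv (I.comap τ) I τ ?_).toEquiv
  exact (Ideal.map_comap_of_surjective _ τ.surjective I).symm

variable {p : ℕ} [hpF : Fact p.Prime]

theorem natCast_prime_notMem {Q : Ideal (𝓞 K)} (hQ : Q.IsPrime) (hq : (absNorm Q).Prime)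
    (hqp : absNorm Q ≠ p) : (p : 𝓞 K) ∉ Q := by
  intro hp
  have hcop : Nat.Coprime p (absNorm Q) := (Nat.coprime_primes hpF.out hq).mpr (Ne.symm hqp)
  obtain ⟨u, v, huv⟩ := Nat.isCoprime_iff_coprime.mpr hcop
  apply hQ.ne_top
  rw [Ideal.eq_top_iff_one]
  have h1 : ((u * (p : ℤ) + v * (absNorm Q : ℤ) : ℤ) : 𝓞 K) = 1 := by rw [huv]; simp
  rw [← h1]
  push_cast
  exact Q.add_mem (Q.mul_mem_left _ hp) (Q.mul_mem_left _ (absNorm_mem Q))

theorem isPrimitiveRoot_mk {Q : Ideal (𝓞 K)} (hQ : Q.IsPrime) (hq : (absNorm Q).Prime)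
    (hqp : absNorm Q ≠ p) {ζ : 𝓞 K} (hζ : IsPrimitiveRoot ζ p) :
    IsPrimitiveRoot (Ideal.Quotient.mk Q ζ) p := by
  have h1 : Ideal.Quotient.mk Q ζ ^ p = 1 := by rw [← map_pow, hζ.pow_eq_one, map_one]
  have h2 : Ideal.Quotient.mk Q ζ ≠ 1 := by
    intro h
    apply natCast_prime_notMem (p := p) hQ hq hqp
    have hmem : 1 - ζ ∈ Q := by
      rw [← Ideal.Quotient.eq_zero_iff_mem, map_sub, map_one, h, sub_self]
    obtain ⟨m, hm⟩ : ∃ m, p = m + 1 := ⟨p - 1, by have := hpF.out.pos; omega⟩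
    have hm0 : 0 < m := by have := hpF.out.one_lt; omega
    have hprod := IsPrimitiveRoot.prod_one_sub_pow_eq_order (hm ▸ hζ)
    have : (p : 𝓞 K) = ∏ k ∈ Finset.range m, (1 - ζ ^ (k + 1)) := by
      rw [hprod, hm]; push_cast; rfl
    rw [this]
    refine Ideal.mem_of_dvd _ (Finset.dvd_prod_of_mem _ (Finset.mem_range.mpr hm0)) ?_
    simpa using hmem
  have := orderOf_eq_prime h1 h2
  rw [← this]
  exact IsPrimitiveRoot.orderOf _

/-- the conjugates of a prime of degree one are pairwise distinct. -/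
theorem comap_injOn {Q : Ideal (𝓞 K)} (hQ : Q.IsPrime) (hq : (absNorm Q).Prime)
    (hqp : absNorm Q ≠ p) {ζ : 𝓞 K} (hζ : IsPrimitiveRoot ζ p)
    (τ : ℕ → (𝓞 K ≃+* 𝓞 K)) (hτ : ∀ b, 1 ≤ b → b < p → τ b ζ = ζ ^ b)
    {b c : ℕ} (hb : 1 ≤ b) (hbp : b < p) (hc : 1 ≤ c) (hcp : c < p)
    (h : Q.comap (τ b) = Q.comap (τ c)) : b = c := by
  have hcard : (Nat.card (𝓞 K ⧸ Q.comap (τ b))).Prime := by
    rw [← Submodule.cardQuot_apply, ← absNorm_apply, absNorm_comap_ringEquiv]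
    exact hq
  obtain ⟨m, hm⟩ := exists_int_sub_mem _ hcard ζ
  have h1 : ζ ^ b - (m : 𝓞 K) ∈ Q := by
    have := Ideal.mem_comap.mp hm
    rwa [map_sub, map_intCast, hτ b hb hbp] at this
  have h2 : ζ ^ c - (m : 𝓞 K) ∈ Q := by
    rw [h] at hm
    have := Ideal.mem_comap.mp hm
    rwa [map_sub, map_intCast, hτ c hc hcp] at this
  have h3 : Ideal.Quotient.mk Q ζ ^ b = Ideal.Quotient.mk Q ζ ^ c := by
    rw [← map_pow, ← map_pow, Ideal.Quotient.eq]
    have := Q.sub_mem h1 h2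
    simpa using this
  exact (isPrimitiveRoot_mk hQ hq hqp hζ).pow_inj hbp hcp h3

theorem prod_comap_dvd {Q : Ideal (𝓞 K)} (hQ : Q.IsPrime) (hq : (absNorm Q).Prime)
    (hqp : absNorm Q ≠ p) {ζ : 𝓞 K} (hζ : IsPrimitiveRoot ζ p)
    (τ : ℕ → (𝓞 K ≃+* 𝓞 K)) (hτ : ∀ b, 1 ≤ b → b < p → τ b ζ = ζ ^ b)
    (s : Finset ℕ) (hs : ∀ b ∈ s, 1 ≤ b ∧ b < p) (x : 𝓞 K) (hx : ∀ b ∈ s, x ∈ Q.comap (τ b)) :
    ∏ b ∈ s, Q.comap (τ b) ∣ Ideal.span {x} := by
  classical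
  have hinj : ∀ b ∈ s, ∀ c ∈ s, Q.comap (τ b) = Q.comap (τ c) → b = c := fun b hb c hc h =>
    comap_injOn hQ hq hqp hζ τ hτ (hs b hb).1 (hs b hb).2 (hs c hc).1 (hs c hc).2 h
  have := Finset.prod_image (f := fun P : Ideal (𝓞 K) => P) hinj
  rw [← this]
  refine Finset.prod_primes_dvd _ ?_ ?_
  · intro P hP
    obtain ⟨b, -, rfl⟩ := Finset.mem_image.mp hP
    refine Ideal.prime_of_isPrime ?_ (Ideal.comap_isPrime _ _)
    intro h0
    have := absNorm_comap_ringEquiv (τ b) Q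
    rw [h0, absNorm_bot] at this
    rw [← this] at hq
    exact Nat.not_prime_zero hq
  · intro P hP
    obtain ⟨b, hb, rfl⟩ := Finset.mem_image.mp hP
    exact Ideal.dvd_span_singleton.mpr (hx b hb)

theorem absNorm_prod_comap (Q : Ideal (𝓞 K)) (τ : ℕ → (𝓞 K ≃+* 𝓞 K)) (s : Finset ℕ) :
    absNorm (∏ b ∈ s, Q.comap (τ b)) = absNorm Q ^ s.card := by
  rw [map_prod, Finset.prod_congr rfl fun b _ => absNorm_comap_ringEquiv (τ b) Q,
    Finset.prod_const]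

/-- **[JAC]** the ideal `∏_{1 ≤ b < p/2} σ_b⁻¹ Q` is principal (generated by a Jacobi sum). -/
theorem exists_jacobi (hp2 : 2 < p) (hdeg : Module.finrank ℚ K = p - 1) {ζ : 𝓞 K}
    (hζ : IsPrimitiveRoot ζ p) (τ : ℕ → (𝓞 K ≃+* 𝓞 K))
    (hτ : ∀ b, 1 ≤ b → b < p → τ b ζ = ζ ^ b)
    {Q : Ideal (𝓞 K)} (hQ : Q.IsPrime) (hq : (absNorm Q).Prime) (hqp : absNorm Q ≠ p) :
    ∃ J : 𝓞 K, Ideal.span {J} = ∏ b ∈ Finset.Icc 1 ((p - 1) / 2), Q.comap (τ b) := by
  classical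
  have hQ0 : Q ≠ ⊥ := by
    intro h
    rw [h, absNorm_bot] at hq
    exact Nat.not_prime_zero hq
  have hmax : Q.IsMaximal := hQ.isMaximal hQ0
  let _ : Field (𝓞 K ⧸ Q) := Ideal.Quotient.field Q
  have hfin : Finite (𝓞 K ⧸ Q) := Nat.finite_of_card_ne_zero (by
    rw [← Submodule.cardQuot_apply, ← absNorm_apply]; exact hq.ne_zero)
  let _ : Fintype (𝓞 K ⧸ Q) := Fintype.ofFinite _
  have hcardF : Fintype.card (𝓞 K ⧸ Q) = absNorm Q := by
    rw [← Nat.card_eq_fintype_card, ← Submodule.cardQuot_apply, ← absNorm_apply]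
  have hζ' : IsPrimitiveRoot (Ideal.Quotient.mk Q ζ) p := isPrimitiveRoot_mk hQ hq hqp hζ
  have hdvd : p ∣ Fintype.card (𝓞 K ⧸ Q) - 1 :=
    hζ'.dvd_of_pow_eq_one _ (FiniteField.pow_card_sub_one_eq_one _ (hζ'.ne_zero hpF.out.ne_zero))
  obtain ⟨n, hcard⟩ := hdvd
  have hn0 : 0 < n := by
    rcases Nat.eq_zero_or_pos n with rfl | h
    · rw [hcardF, mul_zero] at hcard
      have := hq.one_lt
      omega
    · exact h
  obtain ⟨χ, hχ⟩ := exists_isResChar (Ideal.Quotient.mk Q) hpF.out.pos hζ hζ' hcard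
  set h := (p - 1) / 2 with hh
  have hh2 : 2 * h < p := by omega
  have hodd : p = 2 * h + 1 := by
    rcases hpF.out.eq_two_or_odd with h2 | h2
    · omega
    · omega
  have hJJ : jacobiSum χ χ * τ (p - 1) (jacobiSum χ χ) = ((absNorm Q : ℕ) : 𝓞 K) := by
    have := hχ.jacobiSum_mul hn0 hcard hζ hp2 (τ (p - 1) : 𝓞 K →+* 𝓞 K)
      (hτ (p - 1) (by omega) (by omega))
    rwa [hcardF] at this
  have hJmem : ∀ b ∈ Finset.Icc 1 h, jacobiSum χ χ ∈ Q.comap (τ b) := by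
    intro b hb
    obtain ⟨hb1, hb2⟩ := Finset.mem_Icc.mp hb
    rw [Ideal.mem_comap, ← Ideal.Quotient.eq_zero_iff_mem]
    exact hχ.map_jacobiSum_eq_zero hn0 hcard (τ b : 𝓞 K →+* 𝓞 K) hb1 (by omega)
      (hτ b hb1 (by omega))
  have hJ'mem : ∀ b ∈ Finset.Icc (h + 1) (p - 1), τ (p - 1) (jacobiSum χ χ) ∈ Q.comap (τ b) := by
    intro b hb
    obtain ⟨hb1, hb2⟩ := Finset.mem_Icc.mp hb
    rw [Ideal.mem_comap, ← Ideal.Quotient.eq_zero_iff_mem]
    refine hχ.map_jacobiSum_eq_zero hn0 hcard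
      ((τ b : 𝓞 K →+* 𝓞 K).comp (τ (p - 1) : 𝓞 K →+* 𝓞 K)) (c := p - b) (by omega) (by omega) ?_
    change τ b (τ (p - 1) ζ) = _
    rw [hτ (p - 1) (by omega) (by omega), map_pow, hτ b (by omega) (by omega), ← pow_mul]
    have e : b * (p - 1) = p * (b - 1) + (p - b) := by
      obtain ⟨b', rfl⟩ : ∃ b', b = b' + 1 := ⟨b - 1, by omega⟩
      obtain ⟨p', hp'⟩ : ∃ p', p = p' + 1 + b' := ⟨p - 1 - b', by omega⟩
      rw [hp']
      have e1 : p' + 1 + b' - 1 = p' + b' := by omega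
      have e2 : p' + 1 + b' - (b' + 1) = p' := by omega
      rw [e1, e2, Nat.add_sub_cancel]
      ring
    rw [e, pow_add, pow_mul, hζ.pow_eq_one, one_pow, one_mul]
  obtain ⟨C, hC⟩ := prod_comap_dvd hQ hq hqp hζ τ hτ (Finset.Icc 1 h)
    (fun b hb => by have := Finset.mem_Icc.mp hb; omega) _ hJmem
  obtain ⟨C', hC'⟩ := prod_comap_dvd hQ hq hqp hζ τ hτ (Finset.Icc (h + 1) (p - 1))
    (fun b hb => by have := Finset.mem_Icc.mp hb; omega) _ hJ'mem
  refine ⟨jacobiSum χ χ, ?_⟩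
  have hnorm := congrArg absNorm (congrArg (fun x : 𝓞 K => Ideal.span {x}) hJJ)
  rw [← Ideal.span_singleton_mul_span_singleton, map_mul, hC, hC', map_mul, map_mul,
    absNorm_prod_comap, absNorm_prod_comap, absNorm_span_natCast, RingOfIntegers.rank, hdeg,
    Nat.card_Icc, Nat.card_Icc] at hnorm
  have e1 : h + 1 - 1 = h := by omega
  have e2 : p - 1 + 1 - (h + 1) = h := by omega
  have e3 : p - 1 = h + h := by omega
  rw [e1, e2, e3, pow_add] at hnorm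
  have hqpos : 0 < absNorm Q ^ h * absNorm Q ^ h := by have := hq.pos; positivity
  have h1 : absNorm C * absNorm C' = 1 := by
    apply Nat.eq_of_mul_eq_mul_left hqpos
    rw [mul_one]
    refine Eq.trans ?_ hnorm
    ring
  have h2 : absNorm C = 1 := Nat.eq_one_of_mul_eq_one_right h1
  rw [hC, absNorm_eq_one_iff.mp h2, Ideal.mul_top]

end FA14
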