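import Mathlib

/-! S14, package [KUM]: Kummer theory in prime degree. -/

set_option autoImplicit false

namespace FA14

open Polynomial IntermediateField

variable {E M : Type*} [Field E] [Field M] [Algebra E M]

/-- `M^p ∩ E = ⟨α⟩ E^p` for `M = E(α^(1/p))` Galois of prime degree `p`. -/
theorem kum_pow_mem [FiniteDimensional E M] [IsGalois E M] {p : ℕ} (hp : p.Prime)
    (hdeg : Module.finrank E M = p) {a : M} {α : E} (ha : a ^ p = algebraMap E M α)
    (htop : E⟮a⟯ = ⊤) {x : E} {y : M} (hy : y ^ p = algebraMap E M x) :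
    ∃ (j : ℕ) (e : E), x = α ^ j * e ^ p := by
  have : NeZero p := ⟨hp.ne_zero⟩
  have : Fact p.Prime := ⟨hp⟩
  rcases eq_or_ne y 0 with rfl | hy0
  · refine ⟨0, 0, ?_⟩
    rw [zero_pow hp.ne_zero] at hy
    rw [zero_pow hp.ne_zero, mul_zero]
    exact ((map_eq_zero _).1 hy.symm)
  have hsimple := IntermediateField.isSimpleOrder_of_finrank_prime E M (hdeg ▸ hp)
  have hbt : (⊥ : IntermediateField E M) ≠ ⊤ := bot_ne_top
  -- `a` is moved by some automorphism
  have hanot : a ∉ (⊥ : IntermediateField E M) := by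
    intro hmem
    apply hbt
    rw [← htop, eq_comm, IntermediateField.adjoin_simple_eq_bot_iff]
    exact hmem
  rw [IsGalois.mem_bot_iff_fixed] at hanot
  push Not at hanot
  obtain ⟨σ, hσ⟩ := hanot
  have ha0 : a ≠ 0 := by
    rintro rfl
    exact hσ (map_zero σ)
  set η := σ a / a with hη
  have hη1 : η ≠ 1 := by
    intro h1
    apply hσ
    rw [hη, div_eq_one_iff_eq ha0] at h1
    exact h1
  have hηp : η ^ p = 1 := by
    rw [hη, div_pow, ← map_pow, ha, σ.commutes, div_self]
    rw [← ha]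
    exact pow_ne_zero _ ha0
  have hprim : IsPrimitiveRoot η p := IsPrimitiveRoot.iff_orderOf.2 (orderOf_eq_prime hηp hη1)
  have hyp : (σ y / y) ^ p = 1 := by
    rw [div_pow, ← map_pow, hy, σ.commutes, div_self]
    rw [← hy]
    exact pow_ne_zero _ hy0
  obtain ⟨j, -, hj⟩ := hprim.eq_pow_of_pow_eq_one hyp
  set z := y / a ^ j with hz
  have hσa : σ a = η * a := by rw [hη, div_mul_cancel₀ _ ha0]
  have hσy : σ y = η ^ j * y := by rw [hj, div_mul_cancel₀ _ hy0]
  have hη0 : η ≠ 0 := hprim.ne_zero hp.ne_zero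
  have hσz : σ z = z := by
    rw [hz, map_div₀, map_pow, hσa, hσy, mul_pow, mul_div_mul_left _ _ (pow_ne_zero _ hη0)]
  have hzbot : z ∈ (⊥ : IntermediateField E M) := by
    rcases eq_bot_or_eq_top E⟮z⟯ with h1 | h1
    · exact IntermediateField.adjoin_simple_eq_bot_iff.1 h1
    · exfalso
      apply hσ
      have h2 : Algebra.adjoin E {z} = ⊤ := by
        rw [← IntermediateField.adjoin_simple_toSubalgebra_of_isAlgebraic
          (Algebra.IsAlgebraic.isAlgebraic z), h1, IntermediateField.top_toSubalgebra]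
      have h3 : (σ : M →ₐ[E] M) = AlgHom.id E M :=
        AlgHom.ext_of_adjoin_eq_top h2 (by
          intro w hw
          rw [Set.mem_singleton_iff] at hw
          subst hw
          exact hσz)
      exact DFunLike.congr_fun h3 a
  obtain ⟨e, he⟩ := IntermediateField.mem_bot.1 hzbot
  refine ⟨j, e, (algebraMap E M).injective ?_⟩
  rw [map_mul, map_pow, map_pow, he, ← ha, ← hy, hz, div_pow, ← pow_mul, ← pow_mul, mul_comm p j,
    mul_div_cancel₀ _ (pow_ne_zero _ ha0)]

/-- a cyclic extension of prime degree `p` of a field containing `ζ_p` is a Kummer extension. -/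
theorem kum_exists [FiniteDimensional E M] [IsGalois E M] {p : ℕ} (hp : p.Prime)
    (hdeg : Module.finrank E M = p) {ζ : E} (hζ : IsPrimitiveRoot ζ p) :
    ∃ (a : M) (α : E), a ^ p = algebraMap E M α ∧ E⟮a⟯ = ⊤ ∧ a ≠ 0 ∧ α ≠ 0 ∧
      ∀ e : E, e ^ p ≠ α := by
  have : Fact p.Prime := ⟨hp⟩
  have hcard : Nat.card Gal(M/E) = p := by rw [IsGalois.card_aut_eq_finrank, hdeg]
  have : IsCyclic Gal(M/E) := isCyclic_of_prime_card hcard
  obtain ⟨a, ⟨α, hα⟩, htop⟩ := exists_root_adjoin_eq_top_of_isCyclic E M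
    ⟨ζ, by rw [hdeg, mem_primitiveRoots hp.pos]; exact hζ⟩
  rw [hdeg] at hα
  have hsimple := IntermediateField.isSimpleOrder_of_finrank_prime E M (hdeg ▸ hp)
  have hbt : (⊥ : IntermediateField E M) ≠ ⊤ := bot_ne_top
  have hanot : a ∉ (⊥ : IntermediateField E M) := by
    intro hmem
    apply hbt
    rw [← htop, eq_comm, IntermediateField.adjoin_simple_eq_bot_iff]
    exact hmem
  have ha0 : a ≠ 0 := by
    rintro rfl
    exact hanot (zero_mem _)
  have hα0 : α ≠ 0 := by
    rintro rfl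
    rw [map_zero] at hα
    exact ha0 (pow_eq_zero_iff hp.ne_zero |>.1 hα.symm)
  refine ⟨a, α, hα.symm, htop, ha0, hα0, ?_⟩
  intro e he
  have hirr := irreducible_X_pow_sub_C_of_root_adjoin_eq_top (K := E) (L := M) (a := α) (α := a)
    (by rw [hdeg]; exact hα.symm) htop
  rw [hdeg] at hirr
  have hroot : (X ^ p - C α : E[X]).IsRoot e := by simp [he]
  have hdeg1 := Polynomial.degree_eq_one_of_irreducible_of_root hirr hroot
  rw [degree_X_pow_sub_C hp.pos] at hdeg1
  have : p = 1 := by exact_mod_cast hdeg1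
  exact hp.one_lt.ne' this

/-- `x ∈ E` outside `⟨α⟩ E^p` stays a non-`p`-th power in `M`. -/
theorem kum_irreducible [FiniteDimensional E M] [IsGalois E M] {p : ℕ} (hp : p.Prime)
    (hdeg : Module.finrank E M = p) {a : M} {α : E} (ha : a ^ p = algebraMap E M α)
    (htop : E⟮a⟯ = ⊤) {x : E} (hx : ∀ (j : ℕ) (e : E), x ≠ α ^ j * e ^ p) :
    Irreducible (X ^ p - C (algebraMap E M x) : M[X]) :=
  X_pow_sub_C_irreducible_of_prime hp fun y hy => by
    obtain ⟨j, e, h⟩ := kum_pow_mem hp hdeg ha htop hy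
    exact hx j e h

end FA14

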