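import Fermat.Agent.CFT.ANK1
import Fermat.Agent.CFT.Kum
import Fermat.Agent.CFT.Jac2

/-!
# S14-[AN-K2]: independence of residue conditions
-/

set_option autoImplicit false
set_option linter.unusedSectionVars false

open IsDedekindDomain NumberField

namespace FA14

variable {p : ℕ} [hpF : Fact p.Prime]

section compat

variable {E M : Type*} [Field E] [NumberField E] [Field M] [NumberField M] [Algebra E M]

theorem mem_below_iff (Q : Pr M) (a : 𝓞 E) :
    a ∈ (below E Q).asIdeal ↔ algebraMap (𝓞 E) (𝓞 M) a ∈ Q.asIdeal := Iff.rfl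

theorem algebraMap_algebraMap_int (a : 𝓞 E) :
    algebraMap E M (algebraMap (𝓞 E) E a) = algebraMap (𝓞 M) M (algebraMap (𝓞 E) (𝓞 M) a) := rfl

/-- integral at the prime below ⇒ integral above. -/
theorem ank_ordGE_zero_up (Q : Pr M) {a : E} (h : OrdGE (below E Q) a 0) :
    OrdGE Q (algebraMap E M a) 0 := by
  rcases eq_or_ne a 0 with rfl | ha
  · simp
  have hval : (below E Q).valuation E a ≤ 1 := by simpa using (ordGE_iff _).1 h
  obtain ⟨n, ⟨d, hd⟩, hnd⟩ := (below E Q).exists_primeCompl_mul_eq_of_integer a hval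
  have hd' : algebraMap (𝓞 E) (𝓞 M) d ∉ Q.asIdeal := fun hm => hd ((mem_below_iff Q d).mpr hm)
  have hd0 : algebraMap (𝓞 M) M (algebraMap (𝓞 E) (𝓞 M) d) ≠ 0 := by
    intro h0
    apply hd'
    have : algebraMap (𝓞 E) (𝓞 M) d = 0 := by
      apply RingOfIntegers.coe_injective
      simpa using h0
    rw [this]; exact Q.asIdeal.zero_mem
  have hdord : ordv Q (algebraMap (𝓞 M) M (algebraMap (𝓞 E) (𝓞 M) d)) = 0 := by
    have h1 := (ordGE_algebraMap (v := Q) (algebraMap (𝓞 E) (𝓞 M) d)).le hd0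
    by_contra hne
    have h2 : OrdGE Q (algebraMap (𝓞 M) M (algebraMap (𝓞 E) (𝓞 M) d)) 1 := Or.inr (by omega)
    exact hd' ((ordGE_algebraMap_one_iff _).mp h2)
  have hmul : algebraMap E M a * algebraMap (𝓞 M) M (algebraMap (𝓞 E) (𝓞 M) d) =
      algebraMap (𝓞 M) M (algebraMap (𝓞 E) (𝓞 M) n) := by
    rw [← algebraMap_algebraMap_int, ← algebraMap_algebraMap_int, ← map_mul, hnd]
  have ha' : algebraMap E M a ≠ 0 := (map_ne_zero _).mpr ha
  right
  have h3 := (ordGE_algebraMap (v := Q) (algebraMap (𝓞 E) (𝓞 M) n)).le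
    (by rw [← hmul]; exact mul_ne_zero ha' hd0)
  rw [← hmul, ordv_mul Q ha' hd0, hdord, add_zero] at h3
  exact h3

/-- vanishing at the prime below ⇒ vanishing above. -/
theorem ank_ordGE_one_up (Q : Pr M) {a : E} (h : OrdGE (below E Q) a 1) :
    OrdGE Q (algebraMap E M a) 1 := by
  rcases eq_or_ne a 0 with rfl | ha
  · simp
  have hval : (below E Q).valuation E a ≤ 1 := by
    simpa using (ordGE_iff _).1 (h.mono zero_le_one)
  obtain ⟨n, ⟨d, hd⟩, hnd⟩ := (below E Q).exists_primeCompl_mul_eq_of_integer a hval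
  have hn : n ∈ (below E Q).asIdeal := by
    rw [← ordGE_algebraMap_one_iff, ← hnd]
    exact h.mul_right (ordGE_algebraMap d)
  have hn' : OrdGE Q (algebraMap E M (algebraMap (𝓞 E) E n)) 1 := by
    rw [algebraMap_algebraMap_int, ordGE_algebraMap_one_iff]
    exact (mem_below_iff Q n).mp hn
  have hd0 : algebraMap (𝓞 E) E d ≠ 0 := by
    intro h0
    apply hd
    have : d = 0 := by
      apply RingOfIntegers.coe_injective
      simpa using h0
    rw [this]; exact (below E Q).asIdeal.zero_mem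
  have hdinv : OrdGE (below E Q) (algebraMap (𝓞 E) E d)⁻¹ 0 := by
    right
    rw [ordv_inv]
    have h1 := (ordGE_algebraMap (v := below E Q) d).le hd0
    by_contra hne
    have h2 : OrdGE (below E Q) (algebraMap (𝓞 E) E d) 1 := Or.inr (by omega)
    exact hd ((ordGE_algebraMap_one_iff _).mp h2)
  have e : a = algebraMap (𝓞 E) E n * (algebraMap (𝓞 E) E d)⁻¹ := by
    rw [← hnd, mul_assoc, mul_inv_cancel₀ hd0, mul_one]
  rw [e, map_mul]
  exact hn'.mul_right (ank_ordGE_zero_up Q hdinv)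

/-- vanishing above ⇒ vanishing at the prime below. -/
theorem ank_ordGE_one_down (Q : Pr M) {a : E} (h : OrdGE Q (algebraMap E M a) 1) :
    OrdGE (below E Q) a 1 := by
  rcases eq_or_ne a 0 with rfl | ha
  · simp
  right
  by_contra hlt
  have h1 : OrdGE (below E Q) a⁻¹ 0 := Or.inr (by rw [ordv_inv]; omega)
  have h2 := (ank_ordGE_zero_up Q h1).le (by simpa using ha)
  rw [map_inv₀, ordv_inv] at h2
  have h3 := h.le ((map_ne_zero _).mpr ha)
  omega

theorem ank_ordv_eq_zero_down (Q : Pr M) {a : E} (h : ordv Q (algebraMap E M a) = 0) :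
    ordv (below E Q) a = 0 := by
  rcases eq_or_ne a 0 with rfl | ha
  · simp
  have ha' : algebraMap E M a ≠ 0 := (map_ne_zero _).mpr ha
  by_contra hne
  rcases lt_or_gt_of_ne hne with hlt | hgt
  · have h1 : OrdGE (below E Q) a⁻¹ 1 := Or.inr (by rw [ordv_inv]; omega)
    have h2 := (ank_ordGE_one_up Q h1).le (by simpa using ha)
    rw [map_inv₀, ordv_inv] at h2
    omega
  · have h1 : OrdGE (below E Q) a 1 := Or.inr (by omega)
    have h2 := (ank_ordGE_one_up Q h1).le ha'
    omega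

theorem finite_below_mem (Z : Set (Pr E)) (hZ : Z.Finite) : {Q : Pr M | below E Q ∈ Z}.Finite := by
  have h1 : {Q : Pr M | below E Q ∈ Z} = ⋃ t ∈ Z, {Q : Pr M | below E Q = t} := by
    ext Q; simp
  rw [h1]
  refine hZ.biUnion fun t _ => ?_
  have hmax : t.asIdeal.IsMaximal := t.isMaximal
  refine Set.Finite.of_finite_image (f := HeightOneSpectrum.asIdeal)
    ((IsDedekindDomain.primesOver_finite t.asIdeal (𝓞 M)).subset ?_)
    (fun Q _ Q' _ h => HeightOneSpectrum.ext h)
  rintro _ ⟨Q, hQ, rfl⟩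
  refine ⟨Q.isPrime, ?_⟩
  rw [Ideal.liesOver_iff]
  change below E Q = t at hQ
  rw [← hQ]
  rfl

end compat

theorem ank_ordGE_pow_sub_pow {E : Type*} [Field E] [NumberField E] {v : Pr E} {a b : E} {n : ℤ}
    (h : OrdGE v (a - b) n) (ha : OrdGE v a 0) (hb : OrdGE v b 0) (k : ℕ) :
    OrdGE v (a ^ k - b ^ k) n := by
  induction k with
  | zero => simp
  | succ k ih =>
    have e : a ^ (k + 1) - b ^ (k + 1) = a ^ k * (a - b) + (a ^ k - b ^ k) * b := by ring
    rw [e]
    refine OrdGE.add (OrdGE.mul_left ?_ h) (ih.mul_right hb)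
    simpa using ha.pow k

/-- at a prime of prime absolute norm every integral element is congruent to a rational integer. -/
theorem ank_exists_int_sub {M : Type*} [Field M] [NumberField M] (Q : Pr M) (hN : (Nq Q).Prime)
    {Y : M} (hY : OrdGE Q Y 0) : ∃ m : ℤ, OrdGE Q (Y - (m : M)) 1 := by
  obtain ⟨a, ha⟩ := exists_integer_sub Q hY 1
  have hcard : (Nat.card (𝓞 M ⧸ Q.asIdeal)).Prime := by
    rw [← Submodule.cardQuot_apply, ← Ideal.absNorm_apply]
    exact hN
  obtain ⟨m, hm⟩ := exists_int_sub_mem Q.asIdeal hcard a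
  refine ⟨m, ?_⟩
  have h1 := (ordGE_algebraMap_one_iff (v := Q) _).mpr hm
  rw [map_sub, map_intCast] at h1
  have := OrdGE.add (by simpa using ha) h1
  simpa using this

/-- **[AN-K2]** -/
theorem exists_prime_indep {E : Type*} [Field E] [NumberField E] (ζ : E)
    (hζ : IsPrimitiveRoot ζ p) (y x : E) (hy0 : y ≠ 0) (hx0 : x ≠ 0)
    (hind : ∀ (i : ℕ) (c : E), x * y ^ i ≠ c ^ p)
    (Z : Set (Pr E)) (hZ : Z.Finite) :
    ∃ t : Pr E, t ∉ Z ∧ ordv t (p : E) = 0 ∧ ordv t x = 0 ∧ ordv t y = 0 ∧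
      LocPow p 1 t y ∧ ¬ LocPow p 1 t x := by
  have hp0 : p ≠ 0 := hpF.out.ne_zero
  have hx : ∀ c : E, c ^ p ≠ x := fun c hc => hind 0 c (by rw [pow_zero, mul_one, hc])
  by_cases hy : ∃ c₀ : E, c₀ ^ p = y
  · obtain ⟨c₀, hc₀⟩ := hy
    have hc₀0 : c₀ ≠ 0 := by
      rintro rfl
      rw [zero_pow hp0] at hc₀
      exact hy0 hc₀.symm
    obtain ⟨T, h1, -, h2, h3, h4⟩ := exists_prime_not_locPow ζ hζ x hx0 hx
      (Z ∪ {v | ordv v y ≠ 0}) (hZ.union (finite_ordv_ne_zero y))
    refine ⟨T, fun h => h1 (Or.inl h), h2, h3, by_contra fun h => h1 (Or.inr h),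
      ⟨c₀⁻¹, inv_ne_zero hc₀0, Or.inl ?_⟩, h4⟩
    rw [← hc₀, ← mul_pow, mul_inv_cancel₀ hc₀0, one_pow, sub_self]
  · push Not at hy
    obtain ⟨M, _, _, _, Y, σ, hY, hσ, hdeg, hgal, htop⟩ := exists_kummer_field hζ y hy
    have hxM : ∀ c : M, c ^ p ≠ algebraMap E M x := by
      intro c hc
      obtain ⟨j, e, h⟩ := kum_pow_mem hpF.out hdeg hY htop hc
      apply hind (j * (p - 1)) (y ^ j * e)
      obtain ⟨m, hm⟩ : ∃ m, p = m + 1 := ⟨p - 1, by have := hpF.out.pos; omega⟩
      rw [h, hm, Nat.add_sub_cancel]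
      ring
    obtain ⟨TT, h1, hN, h2, h3, h4⟩ := exists_prime_not_locPow (algebraMap E M ζ)
      (hζ.map_of_injective (algebraMap E M).injective) (algebraMap E M x)
      ((map_ne_zero _).mpr hx0) hxM
      ({Q : Pr M | below E Q ∈ Z} ∪ {Q : Pr M | ordv Q (algebraMap E M y) ≠ 0})
      ((finite_below_mem Z hZ).union (finite_ordv_ne_zero _))
    have hyTT : ordv TT (algebraMap E M y) = 0 := by_contra fun h => h1 (Or.inr h)
    have hty : ordv (below E TT) y = 0 := ank_ordv_eq_zero_down TT hyTT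
    refine ⟨below E TT, fun h => h1 (Or.inl h), ank_ordv_eq_zero_down TT (by simpa using h2),
      ank_ordv_eq_zero_down TT h3, hty, ?_, ?_⟩
    · have hY0 : ordv TT Y = 0 := by
        have := ordv_pow TT Y p
        rw [hY, hyTT] at this
        have hp' : (p : ℤ) ≠ 0 := by exact_mod_cast hp0
        exact (mul_eq_zero.mp this.symm).resolve_left hp'
      have hYint : OrdGE TT Y 0 := Or.inr hY0.ge
      obtain ⟨m, hm⟩ := ank_exists_int_sub TT hN hYint
      have h5 := ank_ordGE_pow_sub_pow hm hYint (ordGE_intCast m) p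
      have h6 : OrdGE (below E TT) (y - (m : E) ^ p) 1 := by
        apply ank_ordGE_one_down TT
        rw [map_sub, map_pow, map_intCast, ← hY]
        exact h5
      have h7 : ordv (below E TT) ((m : E) ^ p) = 0 := by
        have := ordv_eq_of_ordGE_sub (v := below E TT) (x := (m : E) ^ p) (y := y) (n := 1)
          (by simpa using h6.neg) hy0 (by omega)
        rw [this, hty]
      have hm0 : (m : E) ≠ 0 := by
        intro h0
        rw [h0, zero_pow hp0, sub_zero] at h6
        have := h6.le hy0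
        omega
      refine ⟨(m : E)⁻¹, inv_ne_zero hm0, ?_⟩
      have e : y * (m : E)⁻¹ ^ p - 1 = (y - (m : E) ^ p) * ((m : E) ^ p)⁻¹ := by
        rw [sub_mul, mul_inv_cancel₀ (pow_ne_zero p hm0), inv_pow]
      rw [e]
      exact h6.mul_right (Or.inr (by rw [ordv_inv, h7]; simp))
    · rintro ⟨c, hc0, hc⟩
      apply h4
      refine ⟨algebraMap E M c, (map_ne_zero _).mpr hc0, ?_⟩
      have := ank_ordGE_one_up TT hc
      simpa using this

end FA14
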