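import Mathlib

/-!
# S14, package [ART]: Artin's lemma on auxiliary cyclotomic moduli
-/

set_option autoImplicit false

namespace FA14

open Finset

/-- `1 + b + ⋯ + b^(p-1)` has a prime factor different from `p` (`p` odd, `b ≥ 2`). -/
theorem exists_prime_dvd_geom_sum (p : ℕ) [hp : Fact p.Prime] (hp2 : p ≠ 2) (b : ℕ) (hb : 2 ≤ b) :
    ∃ r : ℕ, r.Prime ∧ r ∣ ∑ i ∈ range p, b ^ i ∧ r ≠ p := by
  by_contra hcon
  push Not at hcon
  set Φ := ∑ i ∈ range p, b ^ i with hΦ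
  have hp1 : 1 < p := hp.out.one_lt
  have hgt : p < Φ := by
    have h1 : ∑ i ∈ range p, 1 < ∑ i ∈ range p, b ^ i := by
      refine Finset.sum_lt_sum (fun i _ => Nat.one_le_pow _ _ (by omega)) ⟨1, mem_range.2 hp1, ?_⟩
      simp only [pow_one]
      omega
    simpa using h1
  have hpow := Nat.eq_prime_pow_of_unique_prime_dvd (n := Φ) (p := p) (by omega)
    (fun {d} hd hdvd => hcon d hd hdvd)
  set e := Φ.primeFactorsList.length with he
  have he2 : 2 ≤ e := by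
    by_contra h
    have : e = 0 ∨ e = 1 := by omega
    rcases this with h0 | h0 <;> rw [h0] at hpow <;> simp at hpow <;> omega
  have hsq : p ^ 2 ∣ Φ := by rw [hpow]; exact pow_dvd_pow p he2
  have hpΦ : p ∣ Φ := (dvd_pow_self p two_ne_zero).trans hsq
  -- `b ≡ 1 mod p`
  have hb1 : ((b : ℕ) : ZMod p) = 1 := by
    have h0 : ((Φ : ℕ) : ZMod p) = 0 := (ZMod.natCast_eq_zero_iff _ _).2 hpΦ
    rw [hΦ] at h0
    push_cast at h0
    have h1 := mul_geom_sum ((b : ℕ) : ZMod p) p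
    rw [h0, mul_zero, ZMod.pow_card] at h1
    exact (sub_eq_zero.1 h1.symm)
  have hxy : ((p : ℕ) : ℤ) ∣ (b : ℤ) - 1 := by
    rw [← ZMod.intCast_zmod_eq_zero_iff_dvd]
    push_cast
    rw [hb1, sub_self]
  have hx : ¬ ((p : ℕ) : ℤ) ∣ (b : ℤ) := by
    rw [← ZMod.intCast_zmod_eq_zero_iff_dvd]
    push_cast
    rw [hb1]
    exact one_ne_zero
  have hmult := emultiplicity_geom_sum₂_eq_one (R := ℤ) (p := p) (x := (b : ℤ)) (y := 1)
    (Nat.prime_iff_prime_int.1 hp.out) (hp.out.odd_of_ne_two hp2) hxy hx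
  have hsqZ : ((p : ℕ) : ℤ) ^ 2 ∣ ∑ i ∈ range p, (b : ℤ) ^ i * 1 ^ (p - 1 - i) := by
    have : (∑ i ∈ range p, (b : ℤ) ^ i * 1 ^ (p - 1 - i)) = ((Φ : ℕ) : ℤ) := by
      rw [hΦ]
      push_cast
      simp
    rw [this]
    exact_mod_cast hsq
  have := le_emultiplicity_of_pow_dvd hsqZ
  rw [hmult] at this
  norm_num at this

/-- primes `r` such that `a` has order `p ^ (n + 1)` modulo `r`. -/
theorem exists_prime_orderOf (p : ℕ) [hp : Fact p.Prime] (hp2 : p ≠ 2) (a : ℕ) (ha : 2 ≤ a)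
    (n : ℕ) : ∃ r : ℕ, r.Prime ∧ r ≠ p ∧ orderOf ((a : ℕ) : ZMod r) = p ^ (n + 1) := by
  have hb : 2 ≤ a ^ p ^ n := by
    calc 2 ≤ a := ha
      _ = a ^ 1 := (pow_one a).symm
      _ ≤ a ^ p ^ n := Nat.pow_le_pow_right (by omega) (Nat.one_le_pow _ _ hp.out.pos)
  obtain ⟨r, hr, hrΦ, hrp⟩ := exists_prime_dvd_geom_sum p hp2 (a ^ p ^ n) hb
  refine ⟨r, hr, hrp, ?_⟩
  have : Fact r.Prime := ⟨hr⟩
  have h0 : ∑ i ∈ range p, (((a : ℕ) : ZMod r) ^ p ^ n) ^ i = 0 := by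
    have := (ZMod.natCast_eq_zero_iff _ _).2 hrΦ
    push_cast at this
    exact this
  refine orderOf_eq_prime_pow ?_ ?_
  · intro h1
    rw [h1] at h0
    simp only [one_pow, sum_const, card_range, nsmul_eq_mul, mul_one] at h0
    rw [ZMod.natCast_eq_zero_iff] at h0
    exact hrp ((Nat.prime_dvd_prime_iff_eq hr hp.out).1 h0)
  · have h1 := mul_geom_sum (((a : ℕ) : ZMod r) ^ p ^ n) p
    rw [h0, mul_zero] at h1
    rw [pow_succ, pow_mul]
    exact (sub_eq_zero.1 h1.symm)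

/-- if `a` has order `p ^ (n+1)` modulo the prime `r`, then `p ^ (n+1) < r` and `r ∤ a`. -/
theorem lt_of_orderOf {p a r n : ℕ} (hr : r.Prime)
    (h : orderOf ((a : ℕ) : ZMod r) = p ^ (n + 1)) (hp : 1 < p) : p ^ (n + 1) < r ∧ ¬ r ∣ a := by
  have : Fact r.Prime := ⟨hr⟩
  have ha0 : ((a : ℕ) : ZMod r) ≠ 0 := by
    intro h0
    rw [h0, orderOf_zero] at h
    exact (pow_pos (by omega) _).ne h
  refine ⟨?_, fun hd => ha0 ((ZMod.natCast_eq_zero_iff _ _).2 hd)⟩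
  have h1 : orderOf ((a : ℕ) : ZMod r) ∣ r - 1 := ZMod.orderOf_dvd_card_sub_one ha0
  rw [h] at h1
  have := Nat.le_of_dvd (by have := hr.two_le; omega) h1
  have := hr.two_le
  omega

/-- **[ART]** Artin's lemma. -/
theorem exists_art (p : ℕ) [hp : Fact p.Prime] (hp2 : p ≠ 2) (a : ℕ) (ha : 2 ≤ a) (s : ℕ)
    (hs : s ≠ 0) :
    ∃ (m : ℕ) (hm : Nat.Coprime a m) (b : (ZMod m)ˣ), 1 < m ∧ Nat.Coprime m (s * p) ∧
      p ∣ orderOf (ZMod.unitOfCoprime a hm) ∧ p ∣ orderOf b ∧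
      ∀ x, x ∈ Subgroup.zpowers (ZMod.unitOfCoprime a hm) → x ∈ Subgroup.zpowers b → x = 1 := by
  have hp1 : 1 < p := hp.out.one_lt
  -- `s < p ^ (n+1)` for `n = s`
  set n := s with hn
  have hsn : s < p ^ (n + 1) :=
    (Nat.lt_pow_self hp1).trans_le (Nat.pow_le_pow_right hp.out.pos (Nat.le_succ _))
  obtain ⟨r1, hr1, hr1p, ho1⟩ := exists_prime_orderOf p hp2 a ha (n + 1)
  obtain ⟨r2, hr2, hr2p, ho2⟩ := exists_prime_orderOf p hp2 a ha n
  obtain ⟨hlt1, hra1⟩ := lt_of_orderOf hr1 ho1 hp1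
  obtain ⟨hlt2, hra2⟩ := lt_of_orderOf hr2 ho2 hp1
  have hlt1' : p ^ (n + 1) < r1 :=
    (Nat.pow_le_pow_right hp.out.pos (Nat.le_succ _)).trans_lt hlt1
  have hne : r1 ≠ r2 := by
    rintro rfl
    rw [ho1] at ho2
    have := Nat.pow_right_injective hp1 ho2
    omega
  have hcop : Nat.Coprime r1 r2 := (Nat.coprime_primes hr1 hr2).2 hne
  have hm : Nat.Coprime a (r1 * r2) :=
    Nat.Coprime.mul_right ((Nat.Prime.coprime_iff_not_dvd hr1).2 hra1).symm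
      ((Nat.Prime.coprime_iff_not_dvd hr2).2 hra2).symm
  have hcs : ∀ r : ℕ, r.Prime → r ≠ p → p ^ (n + 1) < r → Nat.Coprime r (s * p) := by
    intro r hr hrp hlt
    refine Nat.Coprime.mul_right ((Nat.Prime.coprime_iff_not_dvd hr).2 fun hd => ?_)
      ((Nat.coprime_primes hr hp.out).2 hrp)
    have := Nat.le_of_dvd (Nat.pos_of_ne_zero hs) hd
    omega
  let e : (ZMod (r1 * r2))ˣ ≃* (ZMod r1)ˣ × (ZMod r2)ˣ :=
    (Units.mapEquiv (ZMod.chineseRemainder hcop).toMulEquiv).trans MulEquiv.prodUnits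
  set U := ZMod.unitOfCoprime a hm with hU
  have he1 : (((e U).1 : (ZMod r1)ˣ) : ZMod r1) = a := by
    show ((ZMod.chineseRemainder hcop) ((U : (ZMod (r1 * r2))ˣ) : ZMod (r1 * r2))).1 = a
    rw [hU, ZMod.coe_unitOfCoprime, map_natCast]
    rfl
  have he2 : (((e U).2 : (ZMod r2)ˣ) : ZMod r2) = a := by
    show ((ZMod.chineseRemainder hcop) ((U : (ZMod (r1 * r2))ˣ) : ZMod (r1 * r2))).2 = a
    rw [hU, ZMod.coe_unitOfCoprime, map_natCast]
    rfl
  have hu1 : orderOf (e U).1 = p ^ (n + 1 + 1) := by rw [← orderOf_units, he1, ho1]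
  have hu2 : orderOf (e U).2 = p ^ (n + 1) := by rw [← orderOf_units, he2, ho2]
  have hb2 : orderOf ((e U).2 ^ p ^ n) = p := by
    rw [orderOf_pow_of_dvd (pow_ne_zero _ hp.out.ne_zero) (by rw [hu2]; exact pow_dvd_pow p (Nat.le_succ n)),
      hu2, pow_succ, Nat.mul_div_cancel_left _ (pow_pos hp.out.pos n)]
  refine ⟨r1 * r2, hm, e.symm (1, (e U).2 ^ p ^ n), ?_, ?_, ?_, ?_, ?_⟩
  · exact Nat.one_lt_mul_iff.2 ⟨hr1.pos, hr2.pos, Or.inl hr1.one_lt⟩
  · exact Nat.Coprime.mul_left (hcs r1 hr1 hr1p hlt1') (hcs r2 hr2 hr2p hlt2)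
  · have h1 := orderOf_map_dvd ((MonoidHom.fst _ _).comp e.toMonoidHom) U
    have h2 : ((MonoidHom.fst _ _).comp e.toMonoidHom) U = (e U).1 := rfl
    rw [h2, hu1] at h1
    exact (dvd_pow_self p (Nat.succ_ne_zero _)).trans h1
  · have h1 := orderOf_map_dvd ((MonoidHom.snd _ _).comp e.toMonoidHom)
      (e.symm (1, (e U).2 ^ p ^ n))
    have h2 : ((MonoidHom.snd _ _).comp e.toMonoidHom) (e.symm (1, (e U).2 ^ p ^ n))
        = (e U).2 ^ p ^ n := by
      show (e (e.symm (1, (e U).2 ^ p ^ n))).2 = _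
      rw [MulEquiv.apply_symm_apply]
    rw [h2, hb2] at h1
    exact h1
  · rintro x ⟨i, rfl⟩ ⟨j, hj⟩
    have hj' : e.symm (1, (e U).2 ^ p ^ n) ^ j = U ^ i := hj
    have h1 : e (U ^ i) = ((1 : (ZMod r1)ˣ), (e U).2 ^ p ^ n) ^ j := by
      rw [← hj']
      simp only [map_zpow, MulEquiv.apply_symm_apply]
    have h2 : (e U).1 ^ i = 1 := by
      have := congrArg Prod.fst h1
      simpa using this
    rw [← orderOf_dvd_iff_zpow_eq_one, hu1] at h2
    have h3 : (e U).2 ^ i = 1 := by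
      rw [← orderOf_dvd_iff_zpow_eq_one, hu2]
      refine Dvd.dvd.trans ?_ h2
      exact_mod_cast pow_dvd_pow p (Nat.le_succ (n + 1))
    have h4 : (e U).1 ^ i = 1 := by
      rw [← orderOf_dvd_iff_zpow_eq_one, hu1]
      exact h2
    apply e.injective
    show e (U ^ i) = e 1
    rw [map_zpow, map_one]
    exact Prod.ext (by simpa using h4) (by simpa using h3)

end FA14
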