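import Fermat.Agent.CFT.DivI

/-!
# S14 API: norms of divisors, class representatives
-/

set_option autoImplicit false
set_option linter.unusedSectionVars false

open IsDedekindDomain NumberField UniqueFactorizationMonoid

namespace FA14

section norm

variable (E : Type*) [Field E] [NumberField E] {E' : Type*} [Field E'] [NumberField E']
  [Algebra E E']

theorem normD_single (Q : Pr E') (n : ℤ) :
    normD E (Finsupp.single Q n) = Finsupp.single (below E Q) (n * fdeg E Q) := by
  simp [normD]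

theorem normD_divI_prime (Q : Pr E') :
    normD E (divI Q.asIdeal) = divI (Ideal.relNorm (𝓞 E) Q.asIdeal) := by
  have h1 : Q.asIdeal.IsMaximal := Q.isMaximal
  have h2 : (below E Q).asIdeal.IsMaximal := (below E Q).isMaximal
  rw [Ideal.relNorm_eq_pow_of_isMaximal Q.asIdeal (below E Q).asIdeal, divI_pow, divI_asIdeal,
    divI_asIdeal, normD_single]
  simp [fdeg]

theorem normD_divI (I : Ideal (𝓞 E')) (hI : I ≠ ⊥) :
    normD E (divI I) = divI (Ideal.relNorm (𝓞 E) I) := by
  induction I using induction_on_prime with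
  | h₁ => exact absurd rfl hI
  | h₂ x hx =>
    rw [Ideal.isUnit_iff.mp hx, divI_top, Ideal.relNorm_top, divI_top, map_zero]
  | h₃ a P ha hP ih =>
    have hP0 : P ≠ ⊥ := hP.ne_zero
    rw [divI_mul hP0 ha, map_add, map_mul,
      divI_mul (by rwa [Ne, Ideal.relNorm_eq_bot_iff]) (by rwa [Ne, Ideal.relNorm_eq_bot_iff]),
      ih ha]
    congr 1
    exact normD_divI_prime E ⟨P, Ideal.isPrime_of_prime hP, hP0⟩

theorem normD_divOf_int (a : 𝓞 E') :
    normD E (divOf (algebraMap (𝓞 E') E' a)) = divOf (Algebra.norm E (algebraMap (𝓞 E') E' a)) := by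
  rcases eq_or_ne a 0 with rfl | ha
  · simp
  rw [← divI_span_singleton, normD_divI E _ (by simpa using ha), Ideal.relNorm_singleton,
    divI_span_singleton, Algebra.algebraMap_intNorm (K := E) (L := E')]

/-- **the norm of a principal divisor**. -/
theorem normD_divOf (x : E') : normD E (divOf x) = divOf (Algebra.norm E x) := by
  obtain ⟨a, b, hb, rfl⟩ := exists_frac x
  have hb' : algebraMap (𝓞 E') E' b ≠ 0 := by simpa using hb
  rcases eq_or_ne a 0 with rfl | ha
  · simp
  have ha' : algebraMap (𝓞 E') E' a ≠ 0 := by simpa using ha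
  have hn : Algebra.norm E (algebraMap (𝓞 E') E' a / algebraMap (𝓞 E') E' b) =
      Algebra.norm E (algebraMap (𝓞 E') E' a) / Algebra.norm E (algebraMap (𝓞 E') E' b) := by
    rw [eq_div_iff (Algebra.norm_ne_zero_iff.mpr hb'), ← map_mul, div_mul_cancel₀ _ hb']
  rw [divOf_div ha' hb', map_sub, normD_divOf_int, normD_divOf_int, hn,
    divOf_div (Algebra.norm_ne_zero_iff.mpr ha') (Algebra.norm_ne_zero_iff.mpr hb')]

end norm

section classRep

variable {E : Type*} [Field E] [NumberField E]

/-- the ideal class of a prime. -/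
noncomputable def clPr (q : Pr E) : ClassGroup (𝓞 E) :=
  ClassGroup.mk0 ⟨q.asIdeal, mem_nonZeroDivisors_of_ne_zero q.ne_bot⟩

theorem exists_divOf_eq_of_clPr_eq {q q0 : Pr E} (h : clPr q = clPr q0) :
    ∃ b : E, b ≠ 0 ∧ divOf b = Finsupp.single q 1 - Finsupp.single q0 1 := by
  obtain ⟨x, y, hx, hy, hxy⟩ := ClassGroup.mk0_eq_mk0_iff.mp h
  have hx' : algebraMap (𝓞 E) E x ≠ 0 := by simpa using hx
  have hy' : algebraMap (𝓞 E) E y ≠ 0 := by simpa using hy
  refine ⟨algebraMap (𝓞 E) E y / algebraMap (𝓞 E) E x, div_ne_zero hy' hx', ?_⟩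
  have h1 := congrArg divI hxy
  simp only at h1
  rw [divI_mul (by simpa using hx) q.ne_bot, divI_mul (by simpa using hy) q0.ne_bot,
    divI_span_singleton, divI_span_singleton, divI_asIdeal, divI_asIdeal] at h1
  rw [divOf_div hy' hx', sub_eq_sub_iff_add_eq_add, h1.symm.trans (add_comm _ _)]

/-- finitely many primes outside `Z` represent all classes of primes outside `Z`. -/
theorem exists_classRep (Z : Set (Pr E)) : ∃ S0 : Finset (Pr E), (∀ q ∈ S0, q ∉ Z) ∧
    ∀ q ∉ Z, ∃ q0 ∈ S0, ∃ b : E, b ≠ 0 ∧ divOf b = Finsupp.single q 1 - Finsupp.single q0 1 := by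
  classical
  refine ⟨Finset.univ.biUnion fun c : ClassGroup (𝓞 E) =>
    if h : ∃ q : Pr E, q ∉ Z ∧ clPr q = c then {h.choose} else ∅, ?_, ?_⟩
  · intro q hq
    obtain ⟨c, -, hc⟩ := Finset.mem_biUnion.mp hq
    split_ifs at hc with h
    · rw [Finset.mem_singleton] at hc
      rw [hc]
      exact h.choose_spec.1
    · simp at hc
  · intro q hq
    have h : ∃ q' : Pr E, q' ∉ Z ∧ clPr q' = clPr q := ⟨q, hq, rfl⟩
    refine ⟨h.choose, Finset.mem_biUnion.mpr ⟨clPr q, Finset.mem_univ _, ?_⟩,
      exists_divOf_eq_of_clPr_eq h.choose_spec.2.symm⟩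
    rw [dif_pos h]
    exact Finset.mem_singleton_self _

end classRep

end FA14
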