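import Fermat.Agent.CFT.Psym
import Fermat.Agent.CFT.DivI2

/-! S14 [CORE], part 1: `art`, `resOff`, functoriality of `psym` and of `IsXD`. -/

set_option autoImplicit false

open IsDedekindDomain NumberField

namespace FA14

section basic

variable {E : Type*} [Field E] [NumberField E]

theorem art_single (p : ℕ) (ζ y : E) (Z : Set (Pr E)) (q : Pr E) (hq : q ∉ Z)
    (hp : ordv q (p : E) = 0) : art p ζ y Z (Finsupp.single q 1) = psym p ζ q y := by
  classical
  rw [art, Finsupp.liftAddHom_apply_single, if_neg (by rw [hp]; simp [hq])]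
  simp

theorem resOff_single_of_mem {A : Type*} [AddCommGroup A] (Z : Set (Pr E)) (χ : Dv E →+ A)
    {q : Pr E} (hq : q ∈ Z) (n : ℤ) : resOff Z χ (Finsupp.single q n) = 0 := by
  classical
  rw [resOff, Finsupp.liftAddHom_apply_single, if_pos hq]
  simp

theorem resOff_single_of_notMem {A : Type*} [AddCommGroup A] (Z : Set (Pr E)) (χ : Dv E →+ A)
    {q : Pr E} (hq : q ∉ Z) : resOff Z χ (Finsupp.single q 1) = χ (Finsupp.single q 1) := by
  classical
  rw [resOff, Finsupp.liftAddHom_apply_single, if_neg hq]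
  simp

theorem resOff_apply_of_forall {A : Type*} [AddCommGroup A] (Z : Set (Pr E)) (χ : Dv E →+ A)
    (D : Dv E) (hD : ∀ q ∈ Z, D q = 0) : resOff Z χ D = χ D := by
  rw [hom_apply_eq_sum (resOff Z χ) D, hom_apply_eq_sum χ D]
  refine Finset.sum_congr rfl fun q hq => ?_
  have hqZ : q ∉ Z := fun h => (Finsupp.mem_support_iff.1 hq) (hD q h)
  show D q • _ = D q • _
  rw [resOff_single_of_notMem Z χ hqZ]

theorem IsXD.resOff {p : ℕ} {y : E} {χ : Dv E →+ ZMod p} (h : IsXD p y ∅ ∅ χ) (Z : Set (Pr E)) :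
    IsXD p y Z Z (resOff Z χ) where
  supp q hq := resOff_single_of_mem Z χ hq 1
  split q hq hloc := by
    rw [resOff_single_of_notMem Z χ hq]
    exact h.split q (Set.notMem_empty q) hloc
  prin b hb hbZ _ := by
    rw [resOff_apply_of_forall Z χ (divOf b) (fun q hq => by rw [divOf_apply]; exact hbZ q hq)]
    exact h.prin b hb (fun q hq => absurd hq (Set.notMem_empty q))
      (fun q hq => absurd hq (Set.notMem_empty q))

end basic

section ext

variable {E : Type*} [Field E] [NumberField E] {E' : Type*} [Field E'] [NumberField E']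
  [Algebra E E'] {p : ℕ} [Fact p.Prime]

theorem ordv_natCast_up (Q : Pr E') (n : ℕ) :
    ordv Q (n : E') = eram E Q * ordv (below E Q) (n : E) := by
  have := ordv_algebraMap E Q (n : E)
  rwa [map_natCast] at this

/-- (C0) functoriality of the power residue symbol. -/
theorem psym_map {ζ : E} (hζ : IsPrimitiveRoot ζ p) (Q : Pr E')
    (hq : ordv (below E Q) (p : E) = 0) {y : E} (hy : y ≠ 0)
    (hyp : (p : ℤ) ∣ ordv (below E Q) y) :
    psym p (algebraMap E E' ζ) Q (algebraMap E E' y) =
      (fdeg E Q : ZMod p) * psym p ζ (below E Q) y := by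
  have hp : p.Prime := Fact.out
  obtain ⟨c, hc, hc0⟩ := exists_unit_mul_pow hy hyp
  have hζ' : IsPrimitiveRoot (algebraMap E E' ζ) p :=
    hζ.map_of_injective (algebraMap E E').injective
  have hQp : ordv Q (p : E') = 0 := by rw [ordv_natCast_up (E := E), hq, mul_zero]
  have hu' : ordv Q (algebraMap E E' y * (algebraMap E E' c) ^ p) = 0 := by
    rw [← map_pow, ← map_mul, ordv_algebraMap, hc0, mul_zero]
  rw [psym_eq_iff hζ' hQp (by simpa using hy) (by simpa using hc) hu']
  set i := psym p ζ (below E Q) y with hi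
  set N := Nq (below E Q) with hN
  set k := (N - 1) / p with hk
  set f := fdeg E Q with hf
  have h1 : OrdGE (below E Q) ((y * c ^ p) ^ k - ζ ^ i.val) 1 :=
    (psym_eq_iff_ordGE hζ hq hy hc hc0 _).1 rfl
  have h2 := ordGE_algebraMap_of E Q h1 (by norm_num)
  rw [map_sub, map_pow, map_pow, map_mul, map_pow] at h2
  set u' := algebraMap E E' y * (algebraMap E E' c) ^ p with hu'def
  have hu'0 := ordGE_zero_of_ordv hu'
  have h3 : red Q u' ^ k = red Q (algebraMap E E' ζ) ^ i.val := by
    rw [← red_pow hu'0, ← red_pow (ordGE_zeta hζ'),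
      red_eq_iff (hu'0.pow_zero _) ((ordGE_zeta hζ').pow_zero _)]
    exact h2
  have hdvd : p ∣ N - 1 := dvd_Nq_sub_one hζ hq
  have hN1 : 1 ≤ N := (one_lt_Nq _).le
  set G := ∑ j ∈ Finset.range f, N ^ j with hG
  have hgeom : G * (N - 1) + 1 = N ^ f := by
    have := geom_sum_mul_add (N - 1) f
    rwa [Nat.sub_add_cancel hN1] at this
  have hexp : (Nq Q - 1) / p = k * G := by
    rw [Nq_eq_pow (E := E) Q, ← hN, ← hf, ← hgeom, Nat.add_sub_cancel]
    obtain ⟨t, ht⟩ := hdvd
    have hkt : k = t := by rw [hk, ht, Nat.mul_div_cancel_left _ hp.pos]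
    rw [ht, hkt, show G * (p * t) = p * (t * G) by ring, Nat.mul_div_cancel_left _ hp.pos]
  have hGf : G % p = f % p := by
    rw [← ZMod.natCast_eq_natCast_iff']
    have hNp : (N : ZMod p) = 1 := by
      have : ((N - 1 : ℕ) : ZMod p) = 0 := (ZMod.natCast_eq_zero_iff _ _).2 hdvd
      rw [Nat.cast_sub hN1, Nat.cast_one, sub_eq_zero] at this
      exact this
    rw [hG, Nat.cast_sum]
    simp [hNp]
  have hη := (isPrimitiveRoot_red hζ' hQp).pow_eq_one
  have hθ : (red Q (algebraMap E E' ζ) ^ i.val) ^ p = 1 := by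
    rw [← pow_mul, mul_comm, pow_mul, hη, one_pow]
  rw [rs, hexp, pow_mul, h3, mul_comm (f : ZMod p) i, pow_val_mul hη, pow_val_natCast hθ,
    pow_eq_pow_mod G hθ, pow_eq_pow_mod f hθ, hGf]

/-- (C1) functoriality of `XD`. -/
theorem IsXD.comp_normD {ζ : E} (hζ : IsPrimitiveRoot ζ p) {α : E} (hα0 : α ≠ 0)
    (hU : ∀ v : Pr E, (p : ℤ) ∣ ordv v α)
    (hP : ∀ v : Pr E, 0 < ordv v (p : E) → LocPow p (nv p v) v α)
    {χ : Dv E →+ ZMod p} (h : IsXD p α ∅ ∅ χ) :
    IsXD p (algebraMap E E' α) ∅ ∅ (χ.comp (normD (E' := E') E)) where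
  supp q hq := absurd hq (Set.notMem_empty q)
  split Q _ hloc := by
    rw [AddMonoidHom.comp_apply, normD_single, one_mul]
    have h1 : (Finsupp.single (below E Q) (fdeg E Q : ℤ) : Dv E) =
        (fdeg E Q : ℤ) • Finsupp.single (below E Q) 1 := by
      rw [Finsupp.smul_single, smul_eq_mul, mul_one]
    rw [h1, map_zsmul]
    rcases (ordv_natCast_nonneg (v := below E Q) p).lt_or_eq with hq | hq
    · rw [h.split _ (Set.notMem_empty _) (hP _ hq), smul_zero]
    · have hq' := hq.symm
      have hζ' : IsPrimitiveRoot (algebraMap E E' ζ) p :=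
        hζ.map_of_injective (algebraMap E E').injective
      have hQp : ordv Q (p : E') = 0 := by rw [ordv_natCast_up (E := E), hq', mul_zero]
      rw [nv_eq_one hQp] at hloc
      have hU' : (p : ℤ) ∣ ordv Q (algebraMap E E' α) := by
        rw [ordv_algebraMap]
        exact Dvd.dvd.mul_left (hU _) _
      have h2 := (psym_eq_zero_iff hζ' hQp (by simpa using hα0) hU').2 hloc
      rw [psym_map hζ Q hq' hα0 (hU _), mul_eq_zero] at h2
      rcases h2 with h2 | h2
      · rw [zsmul_eq_mul, Int.cast_natCast, h2, zero_mul]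
      · have h3 := (psym_eq_zero_iff hζ hq' hα0 (hU _)).1 h2
        rw [← nv_eq_one hq'] at h3
        rw [h.split _ (Set.notMem_empty _) h3, smul_zero]
  prin b hb _ _ := by
    rw [AddMonoidHom.comp_apply, normD_divOf]
    exact h.prin _ (Algebra.norm_ne_zero_iff.2 hb) (fun q hq => absurd hq (Set.notMem_empty q))
      (fun q hq => absurd hq (Set.notMem_empty q))

end ext

end FA14
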