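import Fermat.Agent.CFT.CrossA

/-! S14, package [CROSS'], part B: Frobenius elements, degree one primes of fixed fields. -/

set_option autoImplicit false
set_option linter.unusedSectionVars false

namespace FA14

open Polynomial IntermediateField NumberField Ideal

/-- a finite field of characteristic `ℓ` all of whose elements satisfy `x ^ ℓ = x` has `ℓ`
elements. -/
theorem card_eq_of_forall_pow_eq (k : Type*) [Field k] [Finite k] (ℓ : ℕ) [CharP k ℓ]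
    (h : ∀ x : k, x ^ ℓ = x) : Nat.card k = ℓ := by
  classical
  have := Fintype.ofFinite k
  obtain ⟨n, hℓ, hn⟩ := FiniteField.card k ℓ
  rw [Nat.card_eq_fintype_card]
  apply le_antisymm
  · have h1 : (X ^ ℓ - X : k[X]) ≠ 0 := FiniteField.X_pow_card_sub_X_ne_zero k hℓ.one_lt
    have h2 : (Finset.univ : Finset k).val ⊆ (X ^ ℓ - X : k[X]).roots := by
      intro x _
      rw [mem_roots h1]
      simp [h x]
    have := card_le_degree_of_subset_roots h2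
    rwa [FiniteField.X_pow_card_sub_X_natDegree_eq k hℓ.one_lt, Finset.card_univ] at this
  · rw [hn]
    exact Nat.le_self_pow n.ne_zero ℓ

variable {Ω : Type*} [Field Ω]

/-- the norm of the prime below `𝔔` in a subfield on whose integers `x ↦ x ^ ℓ` is the identity
modulo `𝔔`. -/
theorem absNorm_under_eq (E : Type*) [Field E] [NumberField E] [Algebra E Ω] (𝔔 : Ideal (𝓞 Ω))
    [𝔔.IsPrime] {ℓ : ℕ} (hℓ : ℓ.Prime) (hmem : (ℓ : 𝓞 Ω) ∈ 𝔔)
    (hfix : ∀ x : 𝓞 E, algebraMap (𝓞 E) (𝓞 Ω) x ^ ℓ - algebraMap (𝓞 E) (𝓞 Ω) x ∈ 𝔔) :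
    absNorm (𝔔.under (𝓞 E)) = ℓ := by
  set P := 𝔔.under (𝓞 E) with hP
  have hPp : P.IsPrime := inferInstance
  have hℓP : (ℓ : 𝓞 E) ∈ P := by
    rw [hP, Ideal.mem_comap, map_natCast]
    exact hmem
  have hP0 : P ≠ ⊥ := by
    intro h
    rw [h, Ideal.mem_bot] at hℓP
    exact hℓ.ne_zero (by exact_mod_cast hℓP)
  have hPm : P.IsMaximal := hPp.isMaximal hP0
  let _ : Field (𝓞 E ⧸ P) := Ideal.Quotient.field P
  have : Finite (𝓞 E ⧸ P) := Ring.HasFiniteQuotients.finiteQuotient hP0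
  have hchar : CharP (𝓞 E ⧸ P) ℓ := by
    rw [CharP.charP_iff_prime_eq_zero hℓ, ← map_natCast (Ideal.Quotient.mk P),
      Ideal.Quotient.eq_zero_iff_mem]
    exact hℓP
  rw [absNorm_apply, Submodule.cardQuot_apply]
  apply card_eq_of_forall_pow_eq
  intro x
  obtain ⟨x, rfl⟩ := Ideal.Quotient.mk_surjective x
  rw [← map_pow, Ideal.Quotient.eq, hP, Ideal.mem_comap, map_sub, map_pow]
  exact hfix x

/-- descending degree one along a factorisation `𝓞 E → 𝓞 E' → 𝓞 Ω`. -/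
theorem absNorm_under_of_factor (E E' : Type*) [Field E] [NumberField E] [Algebra E Ω]
    [Field E'] [NumberField E'] [Algebra E' Ω]
    (hfac : ∀ x : 𝓞 E, ∃ x' : 𝓞 E', algebraMap (𝓞 E') (𝓞 Ω) x' = algebraMap (𝓞 E) (𝓞 Ω) x)
    (𝔗 : Ideal (𝓞 Ω)) [𝔗.IsPrime] {ℓ : ℕ} (hℓ : ℓ.Prime) (h : absNorm (𝔗.under (𝓞 E')) = ℓ) :
    absNorm (𝔗.under (𝓞 E)) = ℓ := by
  set T := 𝔗.under (𝓞 E') with hT
  have hTp : T.IsPrime := inferInstance
  have hℓT : (ℓ : 𝓞 E') ∈ T := h ▸ absNorm_mem T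
  have hT0 : T ≠ ⊥ := by
    intro h0
    rw [h0, Ideal.mem_bot] at hℓT
    exact hℓ.ne_zero (by exact_mod_cast hℓT)
  have hTm : T.IsMaximal := hTp.isMaximal hT0
  apply absNorm_under_eq E 𝔗 hℓ
  · have : algebraMap (𝓞 E') (𝓞 Ω) (ℓ : 𝓞 E') ∈ 𝔗 := hℓT
    rwa [map_natCast] at this
  · intro x
    obtain ⟨x', hx'⟩ := hfac x
    rw [← hx', ← map_pow, ← map_sub]
    change x' ^ ℓ - x' ∈ T
    let _ : Field (𝓞 E' ⧸ T) := Ideal.Quotient.field T
    have : Finite (𝓞 E' ⧸ T) := Ring.HasFiniteQuotients.finiteQuotient hT0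
    have := Fintype.ofFinite (𝓞 E' ⧸ T)
    rw [← Ideal.Quotient.eq, map_pow]
    have hc : Fintype.card (𝓞 E' ⧸ T) = ℓ := by
      rw [← Nat.card_eq_fintype_card, ← h, absNorm_apply, Submodule.cardQuot_apply]
    rw [← hc]
    exact FiniteField.pow_card _

section galois

variable {K : Type*} [Field K] [NumberField K] [NumberField Ω] [Algebra K Ω]

/-- the prime below `𝔔` in a field fixed by a Frobenius at `𝔔` has degree one. -/
theorem absNorm_under_fixedField (𝔔 : Ideal (𝓞 Ω)) [𝔔.IsPrime] {φ : Ω ≃ₐ[K] Ω} {l : ℕ}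
    (hl : l.Prime) (hφ : ∀ x : 𝓞 Ω, φ • x - x ^ l ∈ 𝔔) (hmem : (l : 𝓞 Ω) ∈ 𝔔)
    (H : Subgroup (Ω ≃ₐ[K] Ω)) (hφH : φ ∈ H) :
    absNorm (𝔔.under (𝓞 (fixedField H))) = l := by
  apply absNorm_under_eq (fixedField H) 𝔔 hl hmem
  intro x
  have h1 : φ • (algebraMap (𝓞 (fixedField H)) (𝓞 Ω) x) = algebraMap (𝓞 (fixedField H)) (𝓞 Ω) x := by
    apply RingOfIntegers.ext
    exact (IntermediateField.mem_fixedField_iff H _).1 (x : fixedField H).2 φ hφH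
  have h2 := hφ (algebraMap (𝓞 (fixedField H)) (𝓞 Ω) x)
  rw [h1] at h2
  have := 𝔔.neg_mem h2
  rwa [neg_sub] at this

/-- integers of a smaller intermediate field are integers of the bigger one. -/
theorem exists_integer_of_le {E E' : IntermediateField K Ω} (hle : E ≤ E') (x : 𝓞 E) :
    ∃ x' : 𝓞 E', algebraMap (𝓞 E') (𝓞 Ω) x' = algebraMap (𝓞 E) (𝓞 Ω) x := by
  have hint : IsIntegral ℤ (⟨((x : E) : Ω), hle (x : E).2⟩ : E') := by
    have h1 : IsIntegral ℤ (x : E) := x.2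
    have h2 : IsIntegral ℤ (((x : E) : Ω)) := h1.map (algebraMap E Ω).toIntAlgHom
    exact (isIntegral_algebraMap_iff (algebraMap E' Ω).injective).1 h2
  exact ⟨⟨_, hint⟩, RingOfIntegers.ext rfl⟩

variable [IsGalois K Ω]

/-- existence of an arithmetic Frobenius. -/
theorem exists_frob (q : Ideal (𝓞 K)) [q.IsMaximal] {l m : ℕ} (hq : absNorm q = l)
    (hlm : Nat.Coprime l m) {z : Ω} (hz : z ^ m = 1) (hm : m ≠ 0) :
    ∃ (𝔔 : Ideal (𝓞 Ω)) (φ : Ω ≃ₐ[K] Ω), 𝔔.IsMaximal ∧ 𝔔.LiesOver q ∧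
      (∀ x : 𝓞 Ω, φ • x - x ^ l ∈ 𝔔) ∧ φ z = z ^ l := by
  obtain ⟨𝔔, h𝔔m, h𝔔q⟩ := exists_maximal_ideal_liesOver_of_isIntegral (S := 𝓞 Ω) q
  have h𝔔0 : 𝔔 ≠ ⊥ := Ring.ne_bot_of_isMaximal_of_not_isField h𝔔m (RingOfIntegers.not_isField Ω)
  have : Finite (𝓞 Ω ⧸ 𝔔) := Ring.HasFiniteQuotients.finiteQuotient h𝔔0
  obtain ⟨φ, hφ⟩ := IsArithFrobAt.exists_of_isInvariant (𝓞 K) (Ω ≃ₐ[K] Ω) 𝔔
  have hcard : Nat.card (𝓞 K ⧸ 𝔔.under (𝓞 K)) = l := by
    rw [← h𝔔q.over, ← hq, absNorm_apply, Submodule.cardQuot_apply]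
  refine ⟨𝔔, φ, h𝔔m, h𝔔q, ?_, ?_⟩
  · intro x
    have := hφ x
    rwa [hcard] at this
  · have hzint : IsIntegral ℤ z := ⟨X ^ m - 1, monic_X_pow_sub_C 1 hm, by simp [hz]⟩
    let z' : 𝓞 Ω := ⟨z, hzint⟩
    have hz' : z' ^ m = 1 := RingOfIntegers.ext (by
      rw [RingOfIntegers.coe_eq_algebraMap, RingOfIntegers.coe_eq_algebraMap, map_pow, map_one]
      exact hz)
    have hl𝔔 : (l : 𝓞 Ω) ∈ 𝔔 := by
      have h1 : (l : 𝓞 K) ∈ q := hq ▸ absNorm_mem q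
      rw [h𝔔q.over, Ideal.mem_comap, map_natCast] at h1
      exact h1
    have hm𝔔 : (m : 𝓞 Ω) ∉ 𝔔 := by
      intro hmem
      apply h𝔔m.ne_top
      rw [Ideal.eq_top_iff_one]
      have hcop : IsCoprime (l : ℤ) (m : ℤ) := Nat.isCoprime_iff_coprime.2 hlm
      obtain ⟨a, b, hab⟩ := hcop
      have : ((a * l + b * m : ℤ) : 𝓞 Ω) ∈ 𝔔 := by
        push_cast
        exact 𝔔.add_mem (𝔔.mul_mem_left _ hl𝔔) (𝔔.mul_mem_left _ hmem)
      rwa [hab, Int.cast_one] at this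
    have := hφ.apply_of_pow_eq_one hz' hm𝔔
    rw [hcard] at this
    exact congrArg (fun x : 𝓞 Ω => (x : Ω)) this

/-- Galois correspondence: `Y ∈ Fix(H)(z)` as soon as the elements of `H` fixing `z` fix `Y`. -/
theorem mem_adjoin_fixedField (H : Subgroup (Ω ≃ₐ[K] Ω)) (Y z : Ω)
    (h : ∀ γ ∈ H, γ z = z → γ Y = Y) : Y ∈ (fixedField H)⟮z⟯ := by
  rw [← IsGalois.fixedField_fixingSubgroup (fixedField H)⟮z⟯, IntermediateField.mem_fixedField_iff]
  intro σ hσ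
  have hσz : σ z = z :=
    (IntermediateField.mem_fixingSubgroup_iff _ _).1 hσ z (mem_adjoin_simple_self _ z)
  have hmem : σ.restrictScalars K ∈ H := by
    have h1 : σ.restrictScalars K ∈ (fixedField H).fixingSubgroup := by
      rw [IntermediateField.mem_fixingSubgroup_iff]
      intro x hx
      exact σ.commutes ⟨x, hx⟩
    rwa [IntermediateField.fixingSubgroup_fixedField H] at h1
  exact h _ hmem hσz

end galois

end FA14
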