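import Fermat.Agent.CFT.Core1
import Fermat.Agent.CFT.CrossB

/-! S14 [CORE], part 2: equivariance of `psym`, primes with trivial stabiliser have degree one. -/

set_option autoImplicit false

open IsDedekindDomain NumberField

namespace FA14

variable {p : ℕ} [Fact p.Prime]

section gen

variable {E : Type*} [Field E] [NumberField E] {q : Pr E} {ζ : E}

theorem core_psym_pow (hζ : IsPrimitiveRoot ζ p) (hq : ordv q (p : E) = 0) {y : E} (hy : y ≠ 0)
    (hyp : (p : ℤ) ∣ ordv q y) (n : ℕ) : psym p ζ q (y ^ n) = n * psym p ζ q y := by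
  induction n with
  | zero =>
    have := psym_pow_p hζ hq (one_ne_zero (α := E))
    rw [one_pow] at this
    simp [this]
  | succ n ih =>
    rw [pow_succ, psym_mul hζ hq (pow_ne_zero _ hy) hy (by rw [ordv_pow]; exact hyp.mul_left _) hyp,
      ih]
    push_cast
    ring

/-- (C3) -/
theorem psym_equivariant (hζ : IsPrimitiveRoot ζ p) {α : E} (hα0 : α ≠ 0)
    (hU : ∀ v : Pr E, (p : ℤ) ∣ ordv v α) (δ : E ≃+* E) (k : ℕ) (hδ : δ ζ = ζ ^ k) (β : E)
    (hβ : δ α = α ^ (k ^ 2) * β ^ p) (q : Pr E) (hq : ordv q (p : E) = 0) :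
    (k : ZMod p) * psym p ζ (mapPr δ q) α = psym p ζ q α := by
  have hp : p.Prime := Fact.out
  have h1 := psym_mapPr δ hζ hq hα0 (hU q)
  have hk : IsPrimitiveRoot (ζ ^ k) p := hδ ▸ hζ.map_of_injective δ.injective
  have hq' : ordv (mapPr δ q) (p : E) = 0 := by
    have := ordv_mapPr δ q (p : E)
    rw [map_natCast] at this
    rw [this, hq]
  have hβ0 : β ≠ 0 := by
    rintro rfl
    rw [zero_pow hp.ne_zero, mul_zero] at hβ
    exact hα0 ((map_eq_zero_iff δ δ.injective).1 hβ)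
  rw [hδ, hβ, psym_mul hk hq' (pow_ne_zero _ hα0) (pow_ne_zero _ hβ0)
    (by rw [ordv_pow]; exact (hU _).mul_left _) (by rw [ordv_pow]; exact dvd_mul_right _ _),
    core_psym_pow hk hq' hα0 (hU _), psym_pow_p hk hq' hβ0, add_zero] at h1
  rw [psym_zeta_pow hζ hq' hα0 (hU _) k hk, ← h1]
  push_cast
  ring

end gen

section cyc

variable {K : Type} [Field K] [NumberField K] [IsCyclotomicExtension {p} ℚ K] {ζ : K}

theorem algEquiv_eq_one_of_fix (hζ : IsPrimitiveRoot ζ p) (δ : K ≃ₐ[ℚ] K) (h : δ ζ = ζ) :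
    δ = 1 := by
  have : NeZero p := ⟨(Fact.out : p.Prime).ne_zero⟩
  have h1 : (δ : K →ₐ[ℚ] K) = AlgHom.id ℚ K :=
    (hζ.powerBasis ℚ).algHom_ext (by simpa using h)
  ext x
  exact DFunLike.congr_fun h1 x

/-- (C4a) a prime with nonzero symbol has trivial stabiliser. -/
theorem stab_trivial (hζ : IsPrimitiveRoot ζ p) {α : K} (hα0 : α ≠ 0)
    (hU : ∀ v : Pr K, (p : ℤ) ∣ ordv v α)
    (hEq : ∀ (δ : K ≃ₐ[ℚ] K) (k : ℕ), δ ζ = ζ ^ k → ∃ β : K, δ α = α ^ (k ^ 2) * β ^ p)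
    (q : Pr K) (hq : ordv q (p : K) = 0) (hψ : psym p ζ q α ≠ 0) (δ : K ≃ₐ[ℚ] K)
    (hδ : mapPr (δ : K ≃+* K) q = q) : δ = 1 := by
  have : NeZero p := ⟨(Fact.out : p.Prime).ne_zero⟩
  have h1 : (δ ζ) ^ p = 1 := by rw [← map_pow, hζ.pow_eq_one, map_one]
  obtain ⟨k, -, hk⟩ := hζ.eq_pow_of_pow_eq_one h1
  obtain ⟨β, hβ⟩ := hEq δ k hk.symm
  have h2 := psym_equivariant hζ hα0 hU (δ : K ≃+* K) k hk.symm β hβ q hq
  rw [hδ] at h2
  have h3 : (k : ZMod p) = 1 := mul_right_cancel₀ hψ (by rw [h2, one_mul])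
  apply algEquiv_eq_one_of_fix hζ
  rw [← hk]
  have h4 : k % p = 1 % p := by
    rw [← ZMod.natCast_eq_natCast_iff', h3, Nat.cast_one]
  rw [pow_eq_pow_mod k hζ.pow_eq_one, h4, ← pow_eq_pow_mod 1 hζ.pow_eq_one, pow_one]

end cyc

section gal

variable {K : Type} [Field K] [NumberField K] [IsGalois ℚ K]

/-- (C4b) a prime with trivial stabiliser has prime norm. -/
theorem prime_Nq_of_stab_trivial (q : Pr K)
    (hstab : ∀ δ : K ≃ₐ[ℚ] K, mapPr (δ : K ≃+* K) q = q → δ = 1) : (Nq q).Prime := by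
  obtain ⟨φ, hφ⟩ := IsArithFrobAt.exists_of_isInvariant ℤ (K ≃ₐ[ℚ] K) q.asIdeal
  set P0 := q.asIdeal.under ℤ with hP0
  set c := Nat.card (ℤ ⧸ P0) with hc
  have hcN : c = Ideal.absNorm P0 := rfl
  have hP0p : P0.IsPrime := inferInstance
  have hP0ne : P0 ≠ ⊥ := by
    intro h0
    have h1 : ((Nq q : ℕ) : ℤ) ∈ P0 := by
      rw [hP0, Ideal.mem_comap]
      have := Ideal.absNorm_mem q.asIdeal
      simpa [Nq] using this
    rw [h0, Ideal.mem_bot] at h1
    exact Nq_ne_zero q (by exact_mod_cast h1)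
  have hc0 : c ≠ 0 := by
    rw [hcN, Ne, Ideal.absNorm_eq_zero_iff]
    exact hP0ne
  have hspan : Ideal.span {(c : ℤ)} = P0 := by
    rw [hcN]
    exact Int.ideal_span_absNorm_eq_self P0
  have hcp : c.Prime := by
    rw [Nat.prime_iff_prime_int, ← Ideal.span_singleton_prime (by exact_mod_cast hc0), hspan]
    exact hP0p
  have hcq : (c : 𝓞 K) ∈ q.asIdeal := by
    have h1 : (c : ℤ) ∈ P0 := by
      rw [← hspan]
      exact Ideal.mem_span_singleton_self _
    rw [hP0, Ideal.mem_comap] at h1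
    simpa using h1
  have hφ' : ∀ x : 𝓞 K, φ • x - x ^ c ∈ q.asIdeal := hφ
  have hfix : mapPr ((φ.symm : K ≃ₐ[ℚ] K) : K ≃+* K) q = q := by
    symm
    apply HeightOneSpectrum.ext
    refine Ideal.IsMaximal.eq_of_le q.isMaximal (mapPr _ q).isPrime.ne_top ?_
    intro a ha
    rw [mapPr_asIdeal, Ideal.mem_comap]
    have h1 : (RingOfIntegers.mapRingEquiv ((φ.symm : K ≃ₐ[ℚ] K) : K ≃+* K)).symm a = φ • a := by
      apply RingOfIntegers.ext
      rfl
    rw [h1]
    have h2 := hφ' a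
    have h3 : a ^ c ∈ q.asIdeal := Ideal.pow_mem_of_mem _ ha c (Nat.pos_of_ne_zero hc0)
    have := add_mem h2 h3
    rwa [sub_add_cancel] at this
  have hφ1 : φ = 1 := by
    have := hstab _ hfix
    rw [← inv_inj, inv_one]
    exact this
  have hchar : CharP (kres q) c := by
    rw [CharP.charP_iff_prime_eq_zero hcp]
    have := Ideal.Quotient.eq_zero_iff_mem.2 hcq
    simpa using this
  have hpow : ∀ t : kres q, t ^ c = t := by
    intro t
    obtain ⟨x, rfl⟩ := Ideal.Quotient.mk_surjective t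
    have h2 := hφ' x
    rw [hφ1, one_smul] at h2
    rw [← map_pow, eq_comm, Ideal.Quotient.eq]
    exact h2
  have := card_eq_of_forall_pow_eq (kres q) c hpow
  rw [card_kres] at this
  rw [this]
  exact hcp

end gal

end FA14
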