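import Fermat.Agent.CFT.CrossC
import Fermat.Agent.CFT.ANK1

/-! S14, package [CROSS']: final statement. -/

set_option autoImplicit false

open IsDedekindDomain NumberField

namespace FA14

variable {p : ℕ} [Fact p.Prime]

theorem ank1 : ANK1 p := fun _ _ _ ζ hζ x hx0 hx Z hZ => exists_prime_not_locPow ζ hζ x hx0 hx Z hZ

/-- [CROSS'] -/
theorem exists_cross (hp2 : p ≠ 2) (K : Type) [Field K] [NumberField K]
    [IsCyclotomicExtension {p} ℚ K] (ζ : K) (hζ : IsPrimitiveRoot ζ p) (α : K) (hα0 : α ≠ 0)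
    (hα : ∀ c : K, c ^ p ≠ α)
    (hEq : ∀ (δ : K ≃ₐ[ℚ] K) (k : ℕ), δ ζ = ζ ^ k → ∃ β : K, δ α = α ^ (k ^ 2) * β ^ p)
    (q : Pr K) (l : ℕ) (hl : l.Prime) (hq : Nq q = l) (hlp : l ≠ p) :
    ∃ m : ℕ, 0 < m ∧ m.Coprime p ∧ m.Coprime l ∧ ∃ q' : Pr K, q' ∉ primesDiv K m ∧
      ordv q' (p : K) = 0 ∧ ordv q' α = 0 ∧ ¬ LocPow p 1 q' α ∧
      ∀ δ : K ≃ₐ[ℚ] K, ∃ (Eδ : Type) (_ : Field Eδ) (_ : NumberField Eδ) (_ : Algebra K Eδ)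
        (Q Q' : Pr Eδ) (C : Type) (_ : Field C) (_ : Algebra Eδ C)
        (_ : IsCyclotomicExtension {m} Eδ C) (Y : C),
        below K Q = mapPr (δ : K ≃+* K) q ∧ fdeg K Q = 1 ∧ below K Q' = q' ∧ fdeg K Q' = 1 ∧
        Y ^ p = algebraMap Eδ C (algebraMap K Eδ α) :=
  exists_cross_of ank1 hp2 K ζ hζ α hα0 hα hEq q l hl hq

end FA14
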