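import Fermat.Agent.CFT.Ord3

/-!
# S14 API: the divisor of an ideal, norms of divisors, class representatives
-/

set_option autoImplicit false
set_option linter.unusedSectionVars false

open IsDedekindDomain NumberField UniqueFactorizationMonoid

namespace FA14

section divI

variable {E : Type*} [Field E] [NumberField E]

theorem finite_count_ne_zero (I : Ideal (𝓞 E)) [DecidableEq (Ideal (𝓞 E))] :
    {v : Pr E | ((normalizedFactors I).count v.asIdeal : ℤ) ≠ 0}.Finite := by
  refine Set.Finite.of_finite_image (f := HeightOneSpectrum.asIdeal)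
    ((normalizedFactors I).toFinset.finite_toSet.subset ?_)
    (fun Q _ Q' _ h => HeightOneSpectrum.ext h)
  rintro _ ⟨v, hv, rfl⟩
  simp only [Finset.mem_coe, Multiset.mem_toFinset]
  by_contra h
  exact hv (by simp [Multiset.count_eq_zero_of_notMem h])

open Classical in
/-- the divisor of an ideal (`0` for the zero ideal). -/
noncomputable def divI (I : Ideal (𝓞 E)) : Dv E :=
  Finsupp.ofSupportFinite (fun v => ((normalizedFactors I).count v.asIdeal : ℤ))
    (finite_count_ne_zero I)

open Classical in
theorem divI_apply (I : Ideal (𝓞 E)) (v : Pr E) :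
    divI I v = ((normalizedFactors I).count v.asIdeal : ℤ) := rfl

@[simp] theorem divI_bot : divI (⊥ : Ideal (𝓞 E)) = 0 := by
  ext v
  rw [divI_apply, ← Ideal.zero_eq_bot, normalizedFactors_zero]
  simp

@[simp] theorem divI_one : divI (1 : Ideal (𝓞 E)) = 0 := by
  ext v
  rw [divI_apply, normalizedFactors_one]
  simp

@[simp] theorem divI_top : divI (⊤ : Ideal (𝓞 E)) = 0 := by
  rw [← Ideal.one_eq_top, divI_one]

theorem divI_mul {I J : Ideal (𝓞 E)} (hI : I ≠ ⊥) (hJ : J ≠ ⊥) :
    divI (I * J) = divI I + divI J := by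
  ext v
  rw [Finsupp.add_apply, divI_apply, divI_apply, divI_apply, normalizedFactors_mul hI hJ,
    Multiset.count_add]
  push_cast
  rfl

theorem divI_asIdeal (v : Pr E) : divI v.asIdeal = Finsupp.single v 1 := by
  classical
  ext w
  rw [divI_apply, normalizedFactors_irreducible v.irreducible, normalize_eq,
    Multiset.count_singleton, Finsupp.single_apply]
  by_cases h : v = w
  · subst h; simp
  · rw [if_neg h, if_neg (fun h' => h (HeightOneSpectrum.ext h'.symm))]
    rfl

theorem divI_pow (I : Ideal (𝓞 E)) (n : ℕ) : divI (I ^ n) = n • divI I := by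
  ext v
  rw [Finsupp.smul_apply, divI_apply, divI_apply, normalizedFactors_pow, Multiset.count_nsmul]
  push_cast
  simp

theorem divI_prod {ι : Type*} (s : Finset ι) (f : ι → Ideal (𝓞 E)) (hf : ∀ i ∈ s, f i ≠ ⊥) :
    divI (∏ i ∈ s, f i) = ∑ i ∈ s, divI (f i) := by
  classical
  induction s using Finset.induction_on with
  | empty => simp
  | insert a s ha ih =>
    rw [Finset.prod_insert ha, Finset.sum_insert ha,
      divI_mul (hf a (Finset.mem_insert_self a s))
        (Finset.prod_ne_zero_iff.mpr fun i hi => hf i (Finset.mem_insert_of_mem hi)),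
      ih fun i hi => hf i (Finset.mem_insert_of_mem hi)]

theorem divI_span_singleton (a : 𝓞 E) :
    divI (Ideal.span {a}) = divOf (algebraMap (𝓞 E) E a) := by
  classical
  rcases eq_or_ne a 0 with rfl | ha
  · simp
  ext v
  rw [divI_apply, divOf_apply]
  obtain ⟨n, hn⟩ := Int.eq_ofNat_of_zero_le (ordv_algebraMap_nonneg v a)
  rw [hn]
  obtain ⟨h1, h2⟩ := (ordv_algebraMap_eq_iff v ha n).1 hn
  congr 1
  refine count_normalizedFactors_eq v.irreducible (normalize_eq _) ?_ ?_
  · rwa [Ideal.dvd_span_singleton]
  · rwa [Ideal.dvd_span_singleton]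

/-- an ideal is determined by its divisor. -/
theorem divI_injective {I J : Ideal (𝓞 E)} (hI : I ≠ ⊥) (hJ : J ≠ ⊥) (h : divI I = divI J) :
    I = J := by
  classical
  rw [← Ideal.prod_normalizedFactors_eq_self hI, ← Ideal.prod_normalizedFactors_eq_self hJ]
  congr 1
  ext P
  by_cases hP : P ∈ normalizedFactors I ∨ P ∈ normalizedFactors J
  · have hpr : Prime P := by
      rcases hP with hP | hP
      · exact prime_of_normalized_factor P hP
      · exact prime_of_normalized_factor P hP
    have := DFunLike.congr_fun h (⟨P, Ideal.isPrime_of_prime hpr, hpr.ne_zero⟩ : Pr E)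
    rw [divI_apply, divI_apply] at this
    exact_mod_cast this
  · push Not at hP
    rw [Multiset.count_eq_zero_of_notMem hP.1, Multiset.count_eq_zero_of_notMem hP.2]

theorem divI_nonneg (I : Ideal (𝓞 E)) (v : Pr E) : 0 ≤ divI I v := by
  classical
  rw [divI_apply]
  positivity

end divI

end FA14
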