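import Fermat.Agent.CFT.Jac2
import Fermat.Agent.CFT.DivI

/-!
# S14-[JAC], part 3: the divisor form
-/

set_option autoImplicit false
set_option linter.unusedSectionVars false

open IsDedekindDomain NumberField

namespace FA14

variable {p : ℕ} [hpF : Fact p.Prime]

theorem exists_gal_pow (K : Type*) [Field K] [NumberField K] [IsCyclotomicExtension {p} ℚ K]
    (ζ : K) (hζ : IsPrimitiveRoot ζ p) (b : ℕ) (hb1 : 1 ≤ b) (hb : b < p) :
    ∃ σ : K ≃ₐ[ℚ] K, σ ζ = ζ ^ b := by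
  have : NeZero p := ⟨hpF.out.ne_zero⟩
  have hcop : Nat.Coprime b p :=
    (Nat.coprime_of_lt_prime (by omega) hb hpF.out).symm
  refine ⟨(IsCyclotomicExtension.Rat.galEquivZMod p K).symm (ZMod.unitOfCoprime b hcop), ?_⟩
  rw [IsCyclotomicExtension.Rat.galEquivZMod_apply_of_pow_eq p K _ hζ.pow_eq_one,
    MulEquiv.apply_symm_apply, ZMod.coe_unitOfCoprime, ZMod.val_natCast, Nat.mod_eq_of_lt hb]

/-- **[JAC]**, divisor form. -/
theorem exists_jacobi_div (hp2 : p ≠ 2) (K : Type) [Field K] [NumberField K]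
    [IsCyclotomicExtension {p} ℚ K] (ζ : K) (hζ : IsPrimitiveRoot ζ p)
    (q : Pr K) (l : ℕ) (hl : l.Prime) (hq : Nq q = l) (hlp : l ≠ p)
    (sig : ℕ → (K ≃ₐ[ℚ] K)) (hsig : ∀ b ∈ Finset.Icc 1 ((p - 1) / 2), sig b ζ = ζ ^ b) :
    ∃ J : K, J ≠ 0 ∧ divOf J =
      ∑ b ∈ Finset.Icc 1 ((p - 1) / 2), Finsupp.single (mapPr ((sig b).symm : K ≃+* K) q) 1 := by
  classical
  have : NeZero p := ⟨hpF.out.ne_zero⟩
  have hp3 : 2 < p := lt_of_le_of_ne hpF.out.two_le (Ne.symm hp2)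
  -- complete the family of automorphisms
  have hex : ∀ b : ℕ, ∃ σ : K ≃ₐ[ℚ] K, (1 ≤ b → b < p → σ ζ = ζ ^ b) ∧
      (b ∈ Finset.Icc 1 ((p - 1) / 2) → σ = sig b) := by
    intro b
    by_cases hb : b ∈ Finset.Icc 1 ((p - 1) / 2)
    · exact ⟨sig b, fun _ _ => hsig b hb, fun _ => rfl⟩
    · by_cases hb' : 1 ≤ b ∧ b < p
      · obtain ⟨σ, hσ⟩ := exists_gal_pow K ζ hζ b hb'.1 hb'.2
        exact ⟨σ, fun _ _ => hσ, fun h => absurd h hb⟩
      · exact ⟨1, fun h1 h2 => absurd ⟨h1, h2⟩ hb', fun h => absurd h hb⟩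
  choose sg hsg1 hsg2 using hex
  have hdeg : Module.finrank ℚ K = p - 1 := by
    rw [IsCyclotomicExtension.finrank K (Polynomial.cyclotomic.irreducible_rat hpF.out.pos),
      Nat.totient_prime hpF.out]
  obtain ⟨J, hJ⟩ := exists_jacobi (K := K) hp3 hdeg hζ.toInteger_isPrimitiveRoot
    (fun b => RingOfIntegers.mapRingEquiv (sg b : K ≃+* K))
    (fun b hb1 hb2 => by
      apply RingOfIntegers.ext
      change sg b ζ = _
      rw [hsg1 b hb1 hb2]
      rfl)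
    q.isPrime (by change (Nq q).Prime; rw [hq]; exact hl) (by change Nq q ≠ p; rw [hq]; exact hlp)
  have hcomap : ∀ b ∈ Finset.Icc 1 ((p - 1) / 2),
      q.asIdeal.comap (RingOfIntegers.mapRingEquiv (sg b : K ≃+* K)) =
        (mapPr ((sig b).symm : K ≃+* K) q).asIdeal := by
    intro b hb
    rw [mapPr_asIdeal, hsg2 b hb]
    rfl
  have hdiv : divOf (algebraMap (𝓞 K) K J) =
      ∑ b ∈ Finset.Icc 1 ((p - 1) / 2), Finsupp.single (mapPr ((sig b).symm : K ≃+* K) q) 1 := by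
    rw [← divI_span_singleton, hJ, Finset.prod_congr rfl hcomap,
      divI_prod _ _ fun b _ => (mapPr ((sig b).symm : K ≃+* K) q).ne_bot]
    exact Finset.sum_congr rfl fun b _ => divI_asIdeal _
  refine ⟨algebraMap (𝓞 K) K J, ?_, hdiv⟩
  intro h0
  have hJ0 : J = 0 := by
    apply RingOfIntegers.coe_injective
    simpa using h0
  rw [hJ0, Ideal.span_singleton_eq_bot.mpr rfl] at hJ
  have := Finset.prod_eq_zero_iff.mp hJ.symm
  obtain ⟨b, hb, hb0⟩ := this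
  rw [hcomap b hb] at hb0
  exact (mapPr ((sig b).symm : K ≃+* K) q).ne_bot hb0

end FA14
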