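import Fermat.Agent.CFT.Core2
import Fermat.Agent.CFT.Cross
import Fermat.Agent.CFT.Jac3

/-! S14 [CORE], part 3: the endgame, relative to [F], [S], [CYC]. -/

set_option autoImplicit false

open IsDedekindDomain NumberField

namespace FA14

variable {p : ℕ} [Fact p.Prime]

theorem ordGE_Nq {E : Type*} [Field E] [NumberField E] (q : Pr E) : OrdGE q ((Nq q : ℕ) : E) 1 := by
  have h1 := (ordGE_algebraMap_one_iff (v := q) ((Nq q : ℕ) : 𝓞 E)).2
    (by simpa [Nq] using Ideal.absNorm_mem q.asIdeal)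
  simpa using h1

theorem ordv_natCast_eq_zero_of_coprime {E : Type*} [Field E] [NumberField E] (q : Pr E) (m : ℕ)
    (h : m.Coprime (Nq q)) : ordv q (m : E) = 0 := by
  rcases (ordv_natCast_nonneg (v := q) m).lt_or_eq with h1 | h1
  · exfalso
    have hm : OrdGE q (m : E) 1 := Or.inr (by omega)
    obtain ⟨a, b, hab⟩ := (Nat.isCoprime_iff_coprime.2 h)
    have h2 : (a : E) * (m : E) + (b : E) * ((Nq q : ℕ) : E) = 1 := by exact_mod_cast hab
    have h3 : OrdGE q (1 : E) 1 := by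
      rw [← h2]
      exact ((ordGE_intCast a).mul_left hm).add ((ordGE_intCast b).mul_left (ordGE_Nq q))
    have h4 := h3.le one_ne_zero
    rw [ordv_one] at h4
    omega
  · exact h1.symm

theorem sum_Icc_ne_zero (hp2 : p ≠ 2) :
    (∑ b ∈ Finset.Icc 1 ((p - 1) / 2), (b : ZMod p)) ≠ 0 := by
  have hp : p.Prime := Fact.out
  have hp3 : 3 ≤ p := by
    have := hp.two_le
    omega
  set n := (p - 1) / 2 with hn
  have hn1 : 1 ≤ n := by omega
  have hnp : n + 1 < p := by omega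
  intro h0
  have h1 : ((∑ b ∈ Finset.Icc 1 n, b : ℕ) : ZMod p) = 0 := by
    rw [Nat.cast_sum]
    exact h0
  rw [ZMod.natCast_eq_zero_iff] at h1
  have h2 : (∑ b ∈ Finset.Icc 1 n, b) * 2 = (n + 1) * n := by
    have h3 := Finset.sum_range_id_mul_two (n + 1)
    have h4 : ∑ b ∈ Finset.range (n + 1), b = ∑ b ∈ Finset.Icc 1 n, b := by
      rw [Finset.sum_range_succ', add_zero, Finset.range_eq_Ico,
        Finset.sum_Ico_add' (fun b => b) 0 n 1]
      rfl
    rw [h4] at h3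
    simpa using h3
  have h5 : p ∣ (n + 1) * n := h2 ▸ h1.mul_right 2
  rcases hp.dvd_mul.1 h5 with h6 | h6
  · exact absurd (Nat.le_of_dvd (by omega) h6) (by omega)
  · exact absurd (Nat.le_of_dvd (by omega) h6) (by omega)

/-- the statement of [S] for fields in `Type`. -/
def HypS (p : ℕ) : Prop :=
  ∀ (E : Type) [Field E] [NumberField E] (ζ : E) (_ : IsPrimitiveRoot ζ p) (y : E) (_ : y ≠ 0)
    (Z : Set (Pr E)) (_ : Z.Finite) (χ₁ χ₂ : Dv E →+ ZMod p) (_ : IsXD p y Z Z χ₁)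
    (_ : IsXD p y Z Z χ₂) (_ : χ₁ ≠ 0), ∃ c : ZMod p, ∀ D, χ₂ D = c * χ₁ D

/-- the statement of [CYC] for fields in `Type`. -/
def HypC (p : ℕ) : Prop :=
  ∀ (E : Type) [Field E] [NumberField E] (ζ : E) (_ : IsPrimitiveRoot ζ p) (α : E) (_ : α ≠ 0)
    (_ : ∀ v : Pr E, (p : ℤ) ∣ ordv v α)
    (_ : ∀ v : Pr E, 0 < ordv v (p : E) → LocPow p (nv p v) v α)
    (m : ℕ) (_ : 0 < m) (_ : m.Coprime p)
    (C : Type) [Field C] [Algebra E C] [IsCyclotomicExtension {m} E C] (Y : C)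
    (_ : Y ^ p = algebraMap E C α),
    IsXD p α (primesDiv E m) (primesDiv E m) (art p ζ α (primesDiv E m))

/-- (C5) comparison of `χ` and `psym` at two primes through an auxiliary field. -/
theorem core_compare (HS : HypS p) (HC : HypC p) {K : Type} [Field K] [NumberField K] {ζ α : K}
    (hζ : IsPrimitiveRoot ζ p) (hα0 : α ≠ 0) (hU : ∀ v : Pr K, (p : ℤ) ∣ ordv v α)
    (hP : ∀ v : Pr K, 0 < ordv v (p : K) → ∀ n : ℤ, LocPow p n v α)
    {χ : Dv K →+ ZMod p} (hχ : IsXD p α ∅ ∅ χ) {m : ℕ} (hm0 : 0 < m) (hmp : m.Coprime p)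
    (Eδ : Type) [Field Eδ] [NumberField Eδ] [Algebra K Eδ] (Q Q' : Pr Eδ)
    (C : Type) [Field C] [Algebra Eδ C] [IsCyclotomicExtension {m} Eδ C] (Y : C)
    (hY : Y ^ p = algebraMap Eδ C (algebraMap K Eδ α))
    (hfQ : fdeg K Q = 1) (hfQ' : fdeg K Q' = 1)
    (hQm : ordv (below K Q) (m : K) = 0) (hQ'm : ordv (below K Q') (m : K) = 0)
    (hQp : ordv (below K Q) (p : K) = 0) (hQ'p : ordv (below K Q') (p : K) = 0)
    (hψ' : psym p ζ (below K Q') α ≠ 0) :
    χ (Finsupp.single (below K Q) 1) * psym p ζ (below K Q') α =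
      χ (Finsupp.single (below K Q') 1) * psym p ζ (below K Q) α := by
  set ζ' := algebraMap K Eδ ζ with hζ'def
  set α' := algebraMap K Eδ α with hα'def
  set Zm := primesDiv Eδ m with hZm
  have hζ' : IsPrimitiveRoot ζ' p := hζ.map_of_injective (algebraMap K Eδ).injective
  have hα'0 : α' ≠ 0 := by simpa [hα'def] using hα0
  have hU' : ∀ v : Pr Eδ, (p : ℤ) ∣ ordv v α' := fun v => by
    rw [hα'def, ordv_algebraMap]
    exact (hU _).mul_left _
  have hP' : ∀ v : Pr K, 0 < ordv v (p : K) → LocPow p (nv p v) v α := fun v hv => hP v hv _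
  have hP'' : ∀ v : Pr Eδ, 0 < ordv v (p : Eδ) → LocPow p (nv p v) v α' := fun v hv => by
    have h1 : 0 < ordv (below K v) (p : K) := by
      rw [ordv_natCast_up (E := K)] at hv
      exact (pos_iff_pos_of_mul_pos hv).1 (by exact_mod_cast eram_pos K v)
    exact (hP _ h1 (nv p v)).map v (nv_pos p v).le
  have ha' := HC Eδ ζ' hζ' α' hα'0 hU' hP'' m hm0 hmp C Y hY
  have hχ' := (hχ.comp_normD (E' := Eδ) hζ hα0 hU hP').resOff Zm
  have hZ : ∀ R : Pr Eδ, ordv (below K R) (m : K) = 0 → R ∉ Zm := by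
    intro R hR hmem
    have h1 : 0 < ordv R (m : Eδ) := hmem
    rw [ordv_natCast_up (E := K), hR, mul_zero] at h1
    exact lt_irrefl _ h1
  have hpE : ∀ R : Pr Eδ, ordv (below K R) (p : K) = 0 → ordv R (p : Eδ) = 0 := by
    intro R hR
    rw [ordv_natCast_up (E := K), hR, mul_zero]
  have hart : ∀ R : Pr Eδ, ordv (below K R) (m : K) = 0 → ordv (below K R) (p : K) = 0 →
      fdeg K R = 1 → art p ζ' α' Zm (Finsupp.single R 1) = psym p ζ (below K R) α := by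
    intro R h1 h2 h3
    rw [art_single p ζ' α' Zm R (hZ R h1) (hpE R h2), psym_map hζ R h2 hα0 (hU _), h3,
      Nat.cast_one, one_mul]
  have hchi : ∀ R : Pr Eδ, ordv (below K R) (m : K) = 0 → fdeg K R = 1 →
      resOff Zm (χ.comp (normD (E' := Eδ) K)) (Finsupp.single R 1) =
        χ (Finsupp.single (below K R) 1) := by
    intro R h1 h3
    rw [resOff_single_of_notMem Zm _ (hZ R h1), AddMonoidHom.comp_apply, normD_single, h3]
    simp
  have hne : art p ζ' α' Zm ≠ 0 := by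
    intro h0
    apply hψ'
    rw [← hart Q' hQ'm hQ'p hfQ', h0]
    rfl
  obtain ⟨c, hc⟩ := HS Eδ ζ' hζ' α' hα'0 Zm (finite_primesDiv Eδ) _ _ ha' hχ' hne
  have e1 := hc (Finsupp.single Q' 1)
  have e2 := hc (Finsupp.single Q 1)
  rw [hchi Q' hQ'm hfQ', hart Q' hQ'm hQ'p hfQ'] at e1
  rw [hchi Q hQm hfQ, hart Q hQm hQp hfQ] at e2
  rw [e1, e2]
  ring

theorem ordv_mapPr_natCast {E : Type*} [Field E] [NumberField E] (δ : E ≃+* E) (q : Pr E) (n : ℕ) :
    ordv (mapPr δ q) (n : E) = ordv q (n : E) := by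
  have := ordv_mapPr δ q (n : E)
  rwa [map_natCast] at this

/-- [CORE] relative to [F] (at `K`), [S], [CYC]. -/
theorem core_of (HS : HypS p) (HC : HypC p) (hp2 : p ≠ 2) (K : Type) [Field K] [NumberField K]
    [IsCyclotomicExtension {p} ℚ K] (ζ : K) (hζ : IsPrimitiveRoot ζ p) (α : K) (hα0 : α ≠ 0)
    (hU : ∀ v : Pr K, (p : ℤ) ∣ ordv v α)
    (hP : ∀ v : Pr K, 0 < ordv v (p : K) → ∀ n : ℤ, LocPow p n v α)
    (hEq : ∀ (δ : K ≃ₐ[ℚ] K) (k : ℕ), δ ζ = ζ ^ k → ∃ β : K, δ α = α ^ (k ^ 2) * β ^ p)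
    (HF : (∀ c : K, c ^ p ≠ α) → ∃ χ : Dv K →+ ZMod p, χ ≠ 0 ∧
      IsXD p α {t | ¬ (p : ℤ) ∣ ordv t α} {t | ¬ (p : ℤ) ∣ ordv t α} χ) :
    ∃ c : K, c ^ p = α := by
  have hp : p.Prime := Fact.out
  by_contra hcon
  push Not at hcon
  obtain ⟨χ, hχ0, hχ⟩ := HF hcon
  have hR : {t : Pr K | ¬ (p : ℤ) ∣ ordv t α} = ∅ := by
    ext t
    simp [hU t]
  rw [hR] at hχ
  obtain ⟨q, hq⟩ : ∃ q, χ (Finsupp.single q 1) ≠ 0 := by
    by_contra h
    push Not at h
    exact hχ0 (hom_ext_single fun q => by rw [h q]; rfl)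
  have hP' : ∀ v : Pr K, 0 < ordv v (p : K) → LocPow p (nv p v) v α := fun v hv => hP v hv _
  have hqp : ordv q (p : K) = 0 := by
    rcases (ordv_natCast_nonneg (v := q) p).lt_or_eq with h | h
    · exact absurd (hχ.split q (Set.notMem_empty q) (hP' q h)) hq
    · exact h.symm
  have hψ : psym p ζ q α ≠ 0 := by
    intro h0
    have := (psym_eq_zero_iff hζ hqp hα0 (hU q)).1 h0
    rw [← nv_eq_one hqp] at this
    exact hq (hχ.split q (Set.notMem_empty q) this)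
  have hstab := stab_trivial hζ hα0 hU hEq q hqp hψ
  have : IsGalois ℚ K := IsCyclotomicExtension.isGalois {p} ℚ K
  have hl := prime_Nq_of_stab_trivial q hstab
  have hlp : Nq q ≠ p := by
    intro h
    have h1 := ordGE_Nq q
    rw [h] at h1
    have h2 := h1.le (by exact_mod_cast hp.ne_zero)
    omega
  obtain ⟨m, hm0, hmp, hml, q', hq'm, hq'p, -, hq'loc, H⟩ :=
    exists_cross hp2 K ζ hζ α hα0 hcon hEq q (Nq q) hl rfl hlp
  have hψ' : psym p ζ q' α ≠ 0 := fun h0 =>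
    hq'loc ((psym_eq_zero_iff hζ hq'p hα0 (hU q')).1 h0)
  have hq'm0 : ordv q' (m : K) = 0 := by
    rcases (ordv_natCast_nonneg (v := q') m).lt_or_eq with h | h
    · exact absurd h hq'm
    · exact h.symm
  have hqm0 : ordv q (m : K) = 0 := ordv_natCast_eq_zero_of_coprime q m hml
  have key : ∀ δ : K ≃ₐ[ℚ] K, χ (Finsupp.single (mapPr (δ : K ≃+* K) q) 1) * psym p ζ q' α =
      χ (Finsupp.single q' 1) * psym p ζ (mapPr (δ : K ≃+* K) q) α := by
    intro δ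
    obtain ⟨Eδ, _, _, _, Q, Q', C, _, _, _, Y, hQ, hfQ, hQ', hfQ', hY⟩ := H δ
    have := core_compare HS HC hζ hα0 hU hP hχ hm0 hmp Eδ Q Q' C Y hY hfQ hfQ'
      (by rw [hQ, ordv_mapPr_natCast, hqm0]) (by rw [hQ', hq'm0])
      (by rw [hQ, ordv_mapPr_natCast, hqp]) (by rw [hQ', hq'p]) (by rw [hQ']; exact hψ')
    rwa [hQ, hQ'] at this
  -- the Jacobi sum relation
  have hsigex : ∀ b : ℕ, ∃ σ : K ≃ₐ[ℚ] K, b ∈ Finset.Icc 1 ((p - 1) / 2) → σ ζ = ζ ^ b := by
    intro b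
    by_cases hb : b ∈ Finset.Icc 1 ((p - 1) / 2)
    · have hb' := Finset.mem_Icc.1 hb
      have := hp.two_le
      obtain ⟨σ, hσ⟩ := exists_gal_pow K ζ hζ b hb'.1 (by omega)
      exact ⟨σ, fun _ => hσ⟩
    · exact ⟨1, fun h => absurd h hb⟩
  choose sig hsig using hsigex
  obtain ⟨J, hJ0, hJ⟩ := exists_jacobi_div hp2 K ζ hζ q (Nq q) hl rfl hlp sig hsig
  have h0 : χ (divOf J) = 0 := hχ.prin J hJ0 (fun t ht => absurd ht (Set.notMem_empty t))
    (fun t ht => absurd ht (Set.notMem_empty t))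
  rw [hJ, map_sum] at h0
  have hterm : ∀ b ∈ Finset.Icc 1 ((p - 1) / 2),
      psym p ζ (mapPr ((sig b).symm : K ≃+* K) q) α = (b : ZMod p) * psym p ζ q α := by
    intro b hb
    obtain ⟨β, hβ⟩ := hEq (sig b) b (hsig b hb)
    have h1 := psym_equivariant hζ hα0 hU ((sig b : K ≃ₐ[ℚ] K) : K ≃+* K) b (hsig b hb) β hβ
      (mapPr ((sig b).symm : K ≃+* K) q) (by rw [ordv_mapPr_natCast, hqp])
    rw [mapPr_mapPr] at h1
    have h2 : (((sig b).symm : K ≃+* K)).trans ((sig b : K ≃ₐ[ℚ] K) : K ≃+* K) =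
        RingEquiv.refl K := by
      ext x
      simp
    rw [h2, mapPr_refl] at h1
    exact h1.symm
  have h1 : (∑ b ∈ Finset.Icc 1 ((p - 1) / 2),
      χ (Finsupp.single (mapPr ((sig b).symm : K ≃+* K) q) 1)) * psym p ζ q' α =
      χ (Finsupp.single q' 1) * psym p ζ q α * ∑ b ∈ Finset.Icc 1 ((p - 1) / 2), (b : ZMod p) := by
    rw [Finset.sum_mul, Finset.mul_sum]
    refine Finset.sum_congr rfl fun b hb => ?_
    rw [key (sig b).symm, hterm b hb]
    ring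
  rw [h0, zero_mul] at h1
  have h2 := key 1
  have h3 : mapPr ((1 : K ≃ₐ[ℚ] K) : K ≃+* K) q = q := by
    have : ((1 : K ≃ₐ[ℚ] K) : K ≃+* K) = RingEquiv.refl K := by
      ext x
      simp
    rw [this, mapPr_refl]
  rw [h3] at h2
  have h4 : χ (Finsupp.single q' 1) * psym p ζ q α ≠ 0 := by
    rw [← h2]
    exact mul_ne_zero hq hψ'
  exact (mul_ne_zero h4 (sum_Icc_ne_zero hp2)) h1.symm

end FA14

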