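import Fermat.Agent.CFT.Cyc6

/-! S14, package [CYC]: the Kummer-form Artin map of a subextension of a cyclotomic extension
is a ray class character. -/

set_option autoImplicit false

open IsDedekindDomain NumberField

namespace FA14

variable {p : ℕ} [Fact p.Prime]

/-- [CYC] -/
theorem art_isXD_of_cyclotomic {E : Type*} [Field E] [NumberField E] (hp2 : p ≠ 2) (ζ : E)
    (hζ : IsPrimitiveRoot ζ p) (α : E) (hα0 : α ≠ 0) (hU : ∀ v : Pr E, (p : ℤ) ∣ ordv v α)
    (hP : ∀ v : Pr E, 0 < ordv v (p : E) → LocPow p (nv p v) v α)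
    (m : ℕ) (hm0 : 0 < m) (hm : m.Coprime p)
    (C : Type*) [Field C] [Algebra E C] [IsCyclotomicExtension {m} E C] (Y : C)
    (hY : Y ^ p = algebraMap E C α) :
    IsXD p α (primesDiv E m) (primesDiv E m) (art p ζ α (primesDiv E m)) := by
  have : NeZero m := ⟨hm0.ne'⟩
  have : NumberField C := IsCyclotomicExtension.numberField {m} E C
  have : IsGalois E C := IsCyclotomicExtension.isGalois {m} E C
  obtain ⟨μ, hμ⟩ := IsCyclotomicExtension.exists_isPrimitiveRoot E C (Set.mem_singleton m) hm0.ne'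
  have htop := IsCyclotomicExtension.adjoin_primitive_root_eq_top (A := E) hμ
  refine ⟨?_, ?_, ?_⟩
  · intro q hq
    rw [cyc_art_single, if_pos (Or.inl hq)]
  · intro q hq hloc
    rw [cyc_art_single]
    by_cases hqp : 0 < ordv q (p : E)
    · rw [if_pos (Or.inr hqp)]
    · rw [if_neg (by tauto)]
      have h2 := ordv_natCast_nonneg (v := q) p
      have hqp0 : ordv q (p : E) = 0 := by omega
      rw [psym_eq_zero_iff hζ hqp0 hα0 (hU q)]
      rwa [nv_eq_one hqp0] at hloc
  · intro b hb0 _ hbR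
    exact cyc_prin hp2 hζ hα0 hU hP hm0.ne' hm hμ.pow_eq_one htop hY b hb0 hbR

end FA14
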