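import Fermat.Agent.CFT.HQ2

/-! S14, package [HQ], part 3: additivity of ranks and the final form. -/

set_option autoImplicit false

namespace FA14

open Module

lemma finrank_eq_of_isog {M M' : Type*} [AddCommGroup M] [AddCommGroup M'] [Module.Finite ℤ M]
    [Module.Finite ℤ M'] (φ : M →ₗ[ℤ] M') (n : ℕ) (hn : n ≠ 0) (hk : ∀ x, φ x = 0 → n • x = 0)
    (hc : ∀ y, ∃ x, φ x = n • y) : finrank ℤ M = finrank ℤ M' := by
  have hn' : (n : ℤ) ∈ nonZeroDivisors ℤ := mem_nonZeroDivisors_of_ne_zero (by exact_mod_cast hn)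
  have h1 := (LinearMap.ker φ).finrank_quotient_add_finrank
  have h2 := (LinearMap.range φ).finrank_quotient_add_finrank
  have h3 : finrank ℤ (M ⧸ LinearMap.ker φ) = finrank ℤ (LinearMap.range φ) :=
    LinearEquiv.finrank_eq φ.quotKerEquivRange
  have h4 : finrank ℤ (LinearMap.ker φ) = 0 := by
    rw [Module.finrank_eq_zero_iff_isTorsion]
    intro x
    refine ⟨⟨(n : ℤ), hn'⟩, ?_⟩
    apply Subtype.ext
    show (n : ℤ) • (x : M) = 0
    rw [natCast_zsmul]
    exact hk x x.2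
  have h5 : finrank ℤ (M' ⧸ LinearMap.range φ) = 0 := by
    rw [Module.finrank_eq_zero_iff_isTorsion]
    intro y
    obtain ⟨y, rfl⟩ := Submodule.mkQ_surjective _ y
    refine ⟨⟨(n : ℤ), hn'⟩, ?_⟩
    show (n : ℤ) • (LinearMap.range φ).mkQ y = 0
    rw [← map_smul, Submodule.mkQ_apply, Submodule.Quotient.mk_eq_zero, natCast_zsmul]
    obtain ⟨x, hx⟩ := hc y
    exact ⟨x, hx⟩
  omega

variable {U : Type*} [AddCommGroup U] {p : ℕ} {σ : AddMonoid.End U}

/-- additivity of the ranks -/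
theorem finrank_fixed_add_finrank_kerN [Module.Finite ℤ U] (hp : p ≠ 0) (hσ : σ ^ p = 1) :
    finrank ℤ (dE σ).ker + finrank ℤ (nE p σ).ker = finrank ℤ U := by
  set Bm : Submodule ℤ U := AddSubgroup.toIntSubmodule (nE p σ).ker with hBm
  have h1 : finrank ℤ (U ⧸ Bm) + finrank ℤ Bm = finrank ℤ U := Bm.finrank_quotient_add_finrank
  have h2 : finrank ℤ Bm = finrank ℤ (nE p σ).ker := rfl
  have h3 : finrank ℤ (dE σ).ker = finrank ℤ (U ⧸ Bm) := by
    refine finrank_eq_of_isog (Bm.mkQ ∘ₗ (dE σ).ker.subtype.toIntLinearMap) p hp ?_ ?_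
    · intro x hx
      have hx' : (x : U) ∈ Bm := by
        rw [← Submodule.Quotient.mk_eq_zero]
        exact hx
      have hx'' : nE p σ (x : U) = 0 := hx'
      rw [nE_of_fixed x.2] at hx''
      exact Subtype.ext hx''
    · intro y
      obtain ⟨u, rfl⟩ := Submodule.mkQ_surjective _ y
      refine ⟨⟨nE p σ u, dE_nE hσ u⟩, ?_⟩
      show Bm.mkQ (nE p σ u) = p • Bm.mkQ u
      rw [← map_nsmul, ← sub_eq_zero, ← map_sub, Submodule.mkQ_apply,
        Submodule.Quotient.mk_eq_zero]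
      show nE p σ (nE p σ u - p • u) = 0
      rw [map_sub, map_nsmul, nE_of_fixed (x := nE p σ u) (dE_nE hσ u), sub_self]
  omega

/-- **[HQ]**, final form: if `rk U = p r - 1` and `rk U^σ = r - 1` then `p |H⁰| ≤ |H¹|`. -/
theorem herbrand_units [Module.Finite ℤ U] [Fact p.Prime] (hσ : σ ^ p = 1) (r : ℕ)
    (hU : finrank ℤ U + 1 = p * r) (hA : finrank ℤ (dE σ).ker + 1 = r) :
    (nE p σ).range.relIndex (dE σ).ker ≠ 0 ∧ (dE σ).range.relIndex (nE p σ).ker ≠ 0 ∧
      (nE p σ).range.relIndex (dE σ).ker * p ≤ (dE σ).range.relIndex (nE p σ).ker := by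
  have hp : p.Prime := Fact.out
  have hadd := finrank_fixed_add_finrank_kerN (U := U) hp.ne_zero hσ
  obtain ⟨r', rfl⟩ : ∃ r', r = r' + 1 := ⟨r - 1, by omega⟩
  obtain ⟨p', hp'⟩ : ∃ p', p = p' + 1 := ⟨p - 1, by have := hp.pos; omega⟩
  have hB : finrank ℤ (nE p σ).ker = (p - 1) * (r' + 1) := by
    have e : p * (r' + 1) = (p - 1) * (r' + 1) + (r' + 1) := by
      rw [hp']
      simp only [Nat.add_sub_cancel]
      ring
    omega
  obtain ⟨c1, c2, c3⟩ := herbrand_ge hσ r' (r' + 1) (by omega) hB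
  refine ⟨c1, c2, ?_⟩
  rw [pow_succ, ← mul_assoc, mul_right_comm] at c3
  exact Nat.le_of_mul_le_mul_right c3 (pow_pos hp.pos r')

end FA14
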