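import Fermat.Agent.CFT.Ord3

/-! S14 basic API IV: reduction to the residue field. -/

set_option autoImplicit false

open IsDedekindDomain NumberField

namespace FA14

variable {E : Type*} [Field E] [NumberField E]

/-- residue field -/
abbrev kres (v : Pr E) := 𝓞 E ⧸ v.asIdeal

instance isMaximal_asIdeal (v : Pr E) : v.asIdeal.IsMaximal := v.isPrime.isMaximal v.ne_bot

noncomputable instance fieldKres (v : Pr E) : Field (kres v) := Ideal.Quotient.field _

lemma card_kres (v : Pr E) : Nat.card (kres v) = Nq v := by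
  rw [Nq, Ideal.absNorm_apply, Submodule.cardQuot_apply]

lemma Nq_ne_zero (v : Pr E) : Nq v ≠ 0 := by
  rw [Nq, Ne, Ideal.absNorm_eq_zero_iff]; exact v.ne_bot

instance finiteKres (v : Pr E) : Finite (kres v) :=
  Nat.finite_of_card_ne_zero (by rw [card_kres]; exact Nq_ne_zero v)

lemma one_lt_Nq (v : Pr E) : 1 < Nq v := by
  rw [← card_kres]; exact Finite.one_lt_card

open Classical in
/-- reduction of a `v`-integral element (junk `0` otherwise) -/
noncomputable def red (v : Pr E) (x : E) : kres v :=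
  if h : OrdGE v x 0 then Ideal.Quotient.mk _ (exists_integer_sub v h 1).choose else 0

variable {v : Pr E}

lemma red_eq_mk_iff {x : E} (hx : OrdGE v x 0) (a : 𝓞 E) :
    red v x = Ideal.Quotient.mk _ a ↔ OrdGE v (x - algebraMap (𝓞 E) E a) 1 := by
  have hs := (exists_integer_sub v hx 1).choose_spec
  rw [red, dif_pos hx, Ideal.Quotient.eq, ← ordGE_algebraMap_one_iff, map_sub]
  simp only [Nat.cast_one] at hs
  constructor
  · intro h
    have := hs.add h
    simpa using this
  · intro h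
    have := h.sub hs
    simpa using this

lemma exists_red {x : E} (hx : OrdGE v x 0) :
    ∃ a : 𝓞 E, red v x = Ideal.Quotient.mk _ a ∧ OrdGE v (x - algebraMap (𝓞 E) E a) 1 := by
  obtain ⟨a, ha⟩ := Ideal.Quotient.mk_surjective (red v x)
  exact ⟨a, ha.symm, (red_eq_mk_iff hx a).1 ha.symm⟩

@[simp] lemma red_algebraMap (a : 𝓞 E) : red v (algebraMap (𝓞 E) E a) = Ideal.Quotient.mk _ a :=
  (red_eq_mk_iff (ordGE_algebraMap a) a).2 (by simp)

@[simp] lemma red_zero : red v (0 : E) = 0 := by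
  simpa using red_algebraMap (v := v) 0

@[simp] lemma red_one : red v (1 : E) = 1 := by
  simpa using red_algebraMap (v := v) 1

lemma red_natCast (n : ℕ) : red v (n : E) = n := by
  simpa using red_algebraMap (v := v) (n : 𝓞 E)

lemma red_add {x y : E} (hx : OrdGE v x 0) (hy : OrdGE v y 0) :
    red v (x + y) = red v x + red v y := by
  obtain ⟨a, ha, ha'⟩ := exists_red hx
  obtain ⟨b, hb, hb'⟩ := exists_red hy
  rw [ha, hb, ← map_add, red_eq_mk_iff (hx.add hy)]
  have := ha'.add hb'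
  rw [map_add]; convert this using 1; ring

lemma red_neg {x : E} (hx : OrdGE v x 0) : red v (-x) = - red v x := by
  obtain ⟨a, ha, ha'⟩ := exists_red hx
  rw [ha, ← map_neg, red_eq_mk_iff hx.neg]
  have := ha'.neg
  rw [map_neg]; convert this using 1; ring

lemma red_sub {x y : E} (hx : OrdGE v x 0) (hy : OrdGE v y 0) :
    red v (x - y) = red v x - red v y := by
  rw [sub_eq_add_neg, red_add hx hy.neg, red_neg hy, sub_eq_add_neg]

lemma red_mul {x y : E} (hx : OrdGE v x 0) (hy : OrdGE v y 0) :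
    red v (x * y) = red v x * red v y := by
  obtain ⟨a, ha, ha'⟩ := exists_red hx
  obtain ⟨b, hb, hb'⟩ := exists_red hy
  rw [ha, hb, ← map_mul, red_eq_mk_iff (by simpa using hx.mul hy)]
  have := (ha'.mul_right hy).add ((ordGE_algebraMap (v := v) a).mul_left hb')
  rw [map_mul]; convert this using 1; ring

lemma OrdGE.pow_zero {x : E} (hx : OrdGE v x 0) (k : ℕ) : OrdGE v (x ^ k) 0 := by
  simpa using hx.pow k

lemma red_pow {x : E} (hx : OrdGE v x 0) (k : ℕ) : red v (x ^ k) = red v x ^ k := by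
  induction k with
  | zero => simp
  | succ k ih => rw [pow_succ, red_mul (hx.pow_zero k) hx, ih, pow_succ]

lemma red_eq_zero_iff {x : E} (hx : OrdGE v x 0) : red v x = 0 ↔ OrdGE v x 1 := by
  have := red_eq_mk_iff hx 0
  simpa using this

lemma red_eq_iff {x y : E} (hx : OrdGE v x 0) (hy : OrdGE v y 0) :
    red v x = red v y ↔ OrdGE v (x - y) 1 := by
  rw [← sub_eq_zero, ← red_sub hx hy, red_eq_zero_iff (hx.sub hy)]

lemma red_ne_zero_iff {x : E} (hx : OrdGE v x 0) (hx0 : x ≠ 0) : red v x ≠ 0 ↔ ordv v x = 0 := by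
  rw [Ne, red_eq_zero_iff hx, ordGE_of_ne v hx0]
  have := hx.le hx0
  omega

lemma red_surjective (t : kres v) : ∃ x : E, OrdGE v x 0 ∧ red v x = t := by
  obtain ⟨a, rfl⟩ := Ideal.Quotient.mk_surjective t
  exact ⟨algebraMap (𝓞 E) E a, ordGE_algebraMap a, red_algebraMap a⟩

lemma red_surjective_unit {t : kres v} (ht : t ≠ 0) :
    ∃ x : E, x ≠ 0 ∧ ordv v x = 0 ∧ red v x = t := by
  obtain ⟨x, hx, rfl⟩ := red_surjective t
  have hx0 : x ≠ 0 := by rintro rfl; simp at ht
  exact ⟨x, hx0, (red_ne_zero_iff hx hx0).1 ht, rfl⟩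

lemma ordGE_zero_of_ordv {x : E} (h : ordv v x = 0) : OrdGE v x 0 := Or.inr h.ge

lemma red_inv {x : E} (hx0 : x ≠ 0) (h : ordv v x = 0) : red v x⁻¹ = (red v x)⁻¹ := by
  have hx := ordGE_zero_of_ordv h
  have hx' : OrdGE v x⁻¹ 0 := Or.inr (by rw [ordv_inv, h]; simp)
  have h1 : red v x * red v x⁻¹ = 1 := by
    rw [← red_mul hx hx', mul_inv_cancel₀ hx0, red_one]
  exact eq_inv_of_mul_eq_one_right h1

lemma red_prod {ι : Type*} (s : Finset ι) (f : ι → E) (hf : ∀ i ∈ s, OrdGE v (f i) 0) :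
    OrdGE v (∏ i ∈ s, f i) 0 ∧ red v (∏ i ∈ s, f i) = ∏ i ∈ s, red v (f i) := by
  classical
  induction s using Finset.induction_on with
  | empty => simp [ordGE_one]
  | insert a s ha ih =>
    obtain ⟨h1, h2⟩ := ih fun i hi => hf i (Finset.mem_insert_of_mem hi)
    have h0 := hf a (Finset.mem_insert_self a s)
    rw [Finset.prod_insert ha, Finset.prod_insert ha, red_mul h0 h1, h2]
    exact ⟨by simpa using h0.mul h1, rfl⟩

/-- Fermat -/
lemma red_pow_Nq (t : kres v) : t ^ Nq v = t := by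
  rw [← card_kres]
  haveI := Fintype.ofFinite (kres v)
  rw [Nat.card_eq_fintype_card]
  exact FiniteField.pow_card t

lemma red_pow_Nq_sub_one {t : kres v} (ht : t ≠ 0) : t ^ (Nq v - 1) = 1 := by
  rw [← card_kres]
  haveI := Fintype.ofFinite (kres v)
  rw [Nat.card_eq_fintype_card]
  exact FiniteField.pow_card_sub_one_eq_one t ht

/-- roots of unity are `v`-units -/
lemma ordv_eq_zero_of_pow_eq_one {η : E} {n : ℕ} (hn : n ≠ 0) (h : η ^ n = 1) : ordv v η = 0 := by
  have := ordv_pow v η n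
  rw [h, ordv_one] at this
  have hn' : (n : ℤ) ≠ 0 := by exact_mod_cast hn
  rcases mul_eq_zero.1 this.symm with h | h
  · exact absurd h hn'
  · exact h

/-- a primitive `p`-th root of unity stays primitive in the residue field of `v ∤ p`. -/
lemma isPrimitiveRoot_red {p : ℕ} [Fact p.Prime] {ζ : E} (hζ : IsPrimitiveRoot ζ p)
    (hv : ordv v (p : E) = 0) : IsPrimitiveRoot (red v ζ) p := by
  have hp : p.Prime := Fact.out
  have hζ0 : OrdGE v ζ 0 := ordGE_zero_of_ordv (ordv_eq_zero_of_pow_eq_one hp.ne_zero hζ.pow_eq_one)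
  have h1 : red v ζ ^ p = 1 := by rw [← red_pow hζ0, hζ.pow_eq_one, red_one]
  have hne : red v ζ ≠ 1 := by
    intro h
    have hsum : ∑ i ∈ Finset.range p, ζ ^ i = 0 := by
      have := hζ.geom_sum_eq_zero hp.one_lt
      exact this
    have h2 : red v (∑ i ∈ Finset.range p, ζ ^ i) = (p : kres v) := by
      have : ∀ s : Finset ℕ, OrdGE v (∑ i ∈ s, ζ ^ i) 0 ∧
          red v (∑ i ∈ s, ζ ^ i) = (s.card : kres v) := by
        intro s
        induction s using Finset.induction_on with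
        | empty => simp
        | insert a s ha ih =>
          rw [Finset.sum_insert ha, red_add (hζ0.pow_zero a) ih.1, ih.2, red_pow hζ0, h,
            Finset.card_insert_of_notMem ha]
          exact ⟨(hζ0.pow_zero a).add ih.1, by push_cast; ring⟩
      simpa using (this (Finset.range p)).2
    rw [hsum, red_zero, ← red_natCast] at h2
    have hp0 : (p : E) ≠ 0 := by exact_mod_cast hp.ne_zero
    exact (red_ne_zero_iff (ordGE_natCast p) hp0).2 hv h2.symm
  exact isPrimitiveRoot_of_mem_nthRootsFinset hp ((Polynomial.mem_nthRootsFinset hp.pos _).2 h1) hne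

/-- `p ∣ Nq v - 1` when `ζ_p ∈ E`, `v ∤ p`. -/
lemma dvd_Nq_sub_one {p : ℕ} [Fact p.Prime] {ζ : E} (hζ : IsPrimitiveRoot ζ p)
    (hv : ordv v (p : E) = 0) : p ∣ Nq v - 1 := by
  have h := isPrimitiveRoot_red hζ hv
  exact h.dvd_of_pow_eq_one _ (red_pow_Nq_sub_one (h.ne_zero (Fact.out : p.Prime).ne_zero))

/-- Euler's criterion in the residue field -/
lemma exists_pow_eq_iff {p : ℕ} (hp : p ∣ Nq v - 1) {t : kres v} (ht : t ≠ 0) :
    (∃ s : kres v, s ^ p = t) ↔ t ^ ((Nq v - 1) / p) = 1 := by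
  obtain ⟨k, hk⟩ := hp
  have hN : 0 < Nq v - 1 := by have := one_lt_Nq v; omega
  have hp0 : 0 < p := Nat.pos_of_ne_zero (by rintro rfl; simp at hk; omega)
  have hkk : (Nq v - 1) / p = k := by rw [hk]; exact Nat.mul_div_cancel_left k hp0
  rw [hkk]
  constructor
  · rintro ⟨s, rfl⟩
    have hs : s ≠ 0 := by rintro rfl; simp [hp0.ne'] at ht
    rw [← pow_mul, ← hk]; exact red_pow_Nq_sub_one hs
  · intro h
    haveI := Fintype.ofFinite (kres v)
    obtain ⟨g, hg⟩ := IsCyclic.exists_generator (α := (kres v)ˣ)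
    obtain ⟨n, hn⟩ : ∃ n : ℕ, g ^ n = Units.mk0 t ht := by
      have := hg (Units.mk0 t ht)
      rw [Subgroup.mem_zpowers_iff] at this
      obtain ⟨z, hz⟩ := this
      refine ⟨(z % (orderOf g : ℤ)).toNat, ?_⟩
      rw [← zpow_natCast, Int.toNat_of_nonneg (Int.emod_nonneg _ (by
        exact_mod_cast (orderOf_pos g).ne')), zpow_mod_orderOf, hz]
    have hord : orderOf g = Nq v - 1 := by
      rw [orderOf_eq_card_of_forall_mem_zpowers hg, Nat.card_units, card_kres]
    have h1 : g ^ (n * k) = 1 := by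
      rw [pow_mul, hn]; ext; simpa using h
    have h2 : p * k ∣ n * k := by rw [← hk, ← hord]; exact orderOf_dvd_of_pow_eq_one h1
    have hk0 : 0 < k := Nat.pos_of_ne_zero (by rintro rfl; simp at hk; omega)
    obtain ⟨j, hj⟩ := Nat.dvd_of_mul_dvd_mul_right hk0 h2
    refine ⟨((g ^ j : (kres v)ˣ) : kres v), ?_⟩
    have : (g ^ j) ^ p = Units.mk0 t ht := by rw [← pow_mul, mul_comm, ← hj, hn]
    have := congrArg Units.val this
    simpa using this

end FA14
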