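import Fermat.Agent.CFT.SU2

/-! S14 [SU]: rank of the `S`-units and independent `S`-units modulo `p`-th powers. -/

set_option autoImplicit false

open IsDedekindDomain NumberField Module

namespace FA14

variable {E : Type*} [Field E] [NumberField E]

theorem finite_and_finrank_SU (S : Finset (Pr E)) :
    Module.Finite ℤ (Additive (SU S)) ∧
      finrank ℤ (Additive (SU S)) = NumberField.Units.rank E + S.card := by
  classical
  have h := finite_and_finrank_of_exact (G := Additive (SU S)) (U := Additive (𝓞 E)ˣ) (ι := S)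
    (MonoidHom.toAdditive (unitsToSU S)) (unitsToSU_injective S) (suVal S) ?_ (classNumber E)
    (classNumber_ne_zero E) ?_
  · rw [NumberField.Units.finrank_eq, Fintype.card_coe] at h
    exact h
  · ext x
    constructor
    · intro hx
      have hx' : suVal S x = 0 := hx
      have hall : ∀ v : Pr E, ordv v (((Additive.toMul x : SU S) : Eˣ) : E) = 0 := by
        intro v
        by_cases hv : v ∈ S
        · exact congrFun hx' ⟨v, hv⟩
        · exact (Additive.toMul x : SU S).2 v hv
      obtain ⟨u, hu⟩ := exists_unit_of_ordv_eq_zero _ hall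
      refine ⟨Additive.ofMul u, ?_⟩
      apply Additive.toMul.injective
      apply Subtype.ext
      apply Units.ext
      exact hu
    · rintro ⟨u, rfl⟩
      show suVal S _ = 0
      ext v
      exact ordv_unit v.1 (Additive.toMul u)
  · intro v
    obtain ⟨a, ha0, hav, haw⟩ := exists_ordv_eq_classNumber v.1
    have hmem : Units.mk0 a ha0 ∈ SU S := by
      intro w hw
      apply haw
      rintro rfl
      exact hw v.2
    refine ⟨Additive.ofMul ⟨Units.mk0 a ha0, hmem⟩, ?_⟩
    ext w
    show ordv w.1 a = _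
    by_cases hwv : w = v
    · subst hwv
      simp [hav]
    · rw [Pi.single_eq_of_ne hwv]
      exact haw w.1 fun h => hwv (Subtype.ext h)

variable {p : ℕ} [Fact p.Prime]

theorem rank_add_one_eq (hp2 : p ≠ 2) (ζ : E) (hζ : IsPrimitiveRoot ζ p) :
    NumberField.Units.rank E + 1 = finrank ℚ E / 2 := by
  have hp : 2 < p := lt_of_le_of_ne (Fact.out : p.Prime).two_le (Ne.symm hp2)
  have h1 := NumberField.InfinitePlace.IsPrimitiveRoot.nrRealPlaces_eq_zero_of_two_lt hp hζ
  have h2 := NumberField.InfinitePlace.card_add_two_mul_card_eq_rank E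
  have h3 := NumberField.InfinitePlace.card_eq_nrRealPlaces_add_nrComplexPlaces E
  have h4 : 0 < Fintype.card (InfinitePlace E) := Fintype.card_pos
  rw [NumberField.Units.rank]
  rw [h1] at h2 h3
  omega

theorem pow_le_index_SU (hp2 : p ≠ 2) (ζ : E) (hζ : IsPrimitiveRoot ζ p) (S : Finset (Pr E)) :
    (nsmulAddMonoidHom (α := Additive (SU S)) p).range.index ≠ 0 ∧
    p ^ (S.card + finrank ℚ E / 2) ≤ (nsmulAddMonoidHom (α := Additive (SU S)) p).range.index := by
  obtain ⟨hfin, hrank⟩ := finite_and_finrank_SU S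
  have hp0 : p ≠ 0 := (Fact.out : p.Prime).ne_zero
  have h := cc_nsmul (B := Additive (SU S)) hp0
  have hk0 := kc_nsmul_ne_zero (B := Additive (SU S)) hp0
  rw [cc] at h
  -- the torsion
  have hζ0 : ζ ≠ 0 := hζ.ne_zero hp0
  have hζmem : Units.mk0 ζ hζ0 ∈ SU S := by
    intro v _
    have h1 : (p : ℤ) * ordv v ζ = 0 := by
      rw [← ordv_pow, hζ.pow_eq_one]; simp [ordv]
    rcases mul_eq_zero.1 h1 with h2 | h2
    · exact absurd (by exact_mod_cast h2) hp0
    · exact h2
  set z : Additive (SU S) := Additive.ofMul ⟨Units.mk0 ζ hζ0, hζmem⟩ with hz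
  have hzord : addOrderOf z = p := by
    rw [hz, addOrderOf_ofMul_eq_orderOf, Subgroup.orderOf_mk, ← orderOf_units, Units.val_mk0]
    exact hζ.eq_orderOf.symm
  have hle : AddSubgroup.zmultiples z ≤ (nsmulAddMonoidHom (α := Additive (SU S)) p).ker := by
    rw [AddSubgroup.zmultiples_le]
    show p • z = 0
    rw [← hzord]; exact addOrderOf_nsmul_eq_zero z
  have hkfin : Finite (nsmulAddMonoidHom (α := Additive (SU S)) p).ker :=
    Nat.finite_of_card_ne_zero hk0
  have hpk : p ≤ kc (nsmulAddMonoidHom (α := Additive (SU S)) p) := by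
    have h5 : Nat.card (AddSubgroup.zmultiples z) = p := by rw [Nat.card_zmultiples, hzord]
    have h6 := Nat.card_le_card_of_injective (AddSubgroup.inclusion hle)
      (AddSubgroup.inclusion_injective hle)
    rw [h5] at h6
    exact h6
  constructor
  · rw [h]
    exact mul_ne_zero hk0 (pow_ne_zero _ hp0)
  · rw [h, hrank, ← rank_add_one_eq hp2 ζ hζ]
    calc p ^ (S.card + (NumberField.Units.rank E + 1))
        = p * p ^ (NumberField.Units.rank E + S.card) := by ring
      _ ≤ _ := Nat.mul_le_mul_right _ hpk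

/-- **[SU]** -/
theorem exists_Sunits_indep (hp2 : p ≠ 2) (ζ : E)
    (hζ : IsPrimitiveRoot ζ p) (S : Finset (Pr E)) :
    ∃ u : Fin (S.card + Module.finrank ℚ E / 2) → E, (∀ i, u i ≠ 0) ∧
      (∀ i, ∀ v ∉ S, ordv v (u i) = 0) ∧
      ∀ e : Fin (S.card + Module.finrank ℚ E / 2) → ℤ,
        (∃ c : E, ∏ i, u i ^ (e i) = c ^ p) → ∀ i, (p : ℤ) ∣ e i := by
  obtain ⟨h0, hd⟩ := pow_le_index_SU hp2 ζ hζ S
  obtain ⟨u, hu⟩ := exists_indep_mod p _ h0 hd
  have hp0 : p ≠ 0 := (Fact.out : p.Prime).ne_zero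
  refine ⟨fun i => (((Additive.toMul (u i) : SU S) : Eˣ) : E), fun i => Units.ne_zero _,
    fun i v hv => (Additive.toMul (u i) : SU S).2 v hv, ?_⟩
  rintro e ⟨c, hc⟩
  apply hu e
  have hprod0 : ∏ i, (((Additive.toMul (u i) : SU S) : Eˣ) : E) ^ (e i) ≠ 0 :=
    Finset.prod_ne_zero_iff.2 fun i _ => zpow_ne_zero _ (Units.ne_zero _)
  have hc0 : c ≠ 0 := by
    rintro rfl
    rw [zero_pow hp0] at hc
    exact hprod0 hc
  have hcmem : Units.mk0 c hc0 ∈ SU S := by
    intro v hv
    have h1 : (p : ℤ) * ordv v c = 0 := by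
      rw [← ordv_pow, ← hc, ordv_prod _ _ _ fun i _ => zpow_ne_zero _ (Units.ne_zero _)]
      refine Finset.sum_eq_zero fun i _ => ?_
      rw [ordv_zpow, (Additive.toMul (u i) : SU S).2 v hv, mul_zero]
    rcases mul_eq_zero.1 h1 with h2 | h2
    · exact absurd (by exact_mod_cast h2) hp0
    · exact h2
  refine ⟨Additive.ofMul ⟨Units.mk0 c hc0, hcmem⟩, ?_⟩
  apply Additive.toMul.injective
  apply Subtype.ext
  apply Units.ext
  show ((((Additive.toMul (p • Additive.ofMul (⟨Units.mk0 c hc0, hcmem⟩ : SU S)) : SU S)) : Eˣ) : E)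
    = (((Additive.toMul (∑ i, e i • u i) : SU S) : Eˣ) : E)
  rw [toMul_nsmul, toMul_sum]
  simp only [toMul_zsmul, toMul_ofMul, Subgroup.coe_pow, Units.val_pow_eq_pow_val, Units.val_mk0]
  rw [SubmonoidClass.coe_finsetProd, Units.coe_prod, ← hc]
  refine Finset.prod_congr rfl fun i _ => ?_
  rw [Subgroup.coe_zpow, Units.val_zpow_eq_zpow_val]

end FA14
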