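import Fermat.Agent.CFT.FDefs
import Fermat.Agent.CFT.SU3
import Fermat.Agent.CFT.Res
import Fermat.Agent.CFT.HQ3

/-! S14 [F], (M5a) and (M5c): the units congruent to `1` modulo `S`. -/

set_option autoImplicit false

open IsDedekindDomain NumberField Module

namespace FA14

variable {M : Type*} [Field M] [NumberField M]

lemma US_le_SU_empty (S : Set (Pr M)) : US S ≤ SU (∅ : Finset (Pr M)) :=
  fun _ hx v _ => hx.2 v

/-- the inclusion of `U_S` in the group of all units, as a linear map -/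
def usToSU (S : Set (Pr M)) : Additive (US S) →ₗ[ℤ] Additive (SU (∅ : Finset (Pr M))) :=
  (MonoidHom.toAdditive (Subgroup.inclusion (US_le_SU_empty S))).toIntLinearMap

lemma usToSU_injective (S : Set (Pr M)) : Function.Injective (usToSU S) :=
  Subgroup.inclusion_injective (US_le_SU_empty S)

theorem finite_US (S : Set (Pr M)) (_hS : S.Finite) : Module.Finite ℤ (Additive (US S)) := by
  have h1 : Module.Finite ℤ (Additive (SU (∅ : Finset (Pr M)))) :=
    (finite_and_finrank_SU (∅ : Finset (Pr M))).1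
  exact Module.Finite.of_injective (usToSU S) (usToSU_injective S)

lemma pow_mem_US (S : Set (Pr M)) (hS : S.Finite) (y : Mˣ) (hy : ∀ Q : Pr M, ordv Q (y : M) = 0) :
    y ^ (∏ T ∈ hS.toFinset, (Nq T - 1)) ∈ US S := by
  refine ⟨fun T hT => ?_, fun Q => ?_⟩
  · have hy0 : OrdGE T (y : M) 0 := ordGE_zero_of_ordv (hy T)
    have h1 : red T (y : M) ≠ 0 := (red_ne_zero_iff hy0 y.ne_zero).2 (hy T)
    have h2 : red T (y : M) ^ (Nq T - 1) = 1 := red_pow_Nq_sub_one h1
    obtain ⟨k, hk⟩ : (Nq T - 1) ∣ ∏ T ∈ hS.toFinset, (Nq T - 1) :=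
      Finset.dvd_prod_of_mem (fun T => Nq T - 1) (hS.mem_toFinset.2 hT)
    rw [Units.val_pow_eq_pow_val, ← red_eq_iff (hy0.pow_zero _) ordGE_one, red_pow hy0, red_one,
      hk, pow_mul, h2, one_pow]
  · rw [Units.val_pow_eq_pow_val, ordv_pow, hy Q, mul_zero]

theorem finrank_US (S : Set (Pr M)) (hS : S.Finite) :
    Module.finrank ℤ (Additive (US S)) = NumberField.Units.rank M := by
  have h1 := finite_and_finrank_SU (∅ : Finset (Pr M))
  have h2 : Module.Finite ℤ (Additive (SU (∅ : Finset (Pr M)))) := h1.1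
  have h3 : Module.Finite ℤ (Additive (US S)) := finite_US S hS
  have hm : (∏ T ∈ hS.toFinset, (Nq T - 1)) ≠ 0 := by
    refine Finset.prod_ne_zero_iff.2 fun T _ => ?_
    have := one_lt_Nq T
    omega
  rw [finrank_eq_of_isog (usToSU S) _ hm, h1.2, Finset.card_empty, add_zero]
  · intro x hx
    have : x = 0 := usToSU_injective S (by rw [hx, map_zero])
    rw [this, smul_zero]
  · intro y
    have hy : ∀ Q : Pr M, ordv Q (((Additive.toMul y : SU (∅ : Finset (Pr M))) : Mˣ) : M) = 0 :=
      fun Q => (Additive.toMul y : SU (∅ : Finset (Pr M))).2 Q (Finset.notMem_empty Q)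
    exact ⟨Additive.ofMul ⟨_, pow_mem_US S hS _ hy⟩, rfl⟩

theorem two_mul_rank_add_one {p : ℕ} [Fact p.Prime] (hp2 : p ≠ 2) (ζ : M)
    (hζ : IsPrimitiveRoot ζ p) : 2 * (NumberField.Units.rank M + 1) = Module.finrank ℚ M := by
  have hp : 2 < p := lt_of_le_of_ne (Fact.out : p.Prime).two_le (Ne.symm hp2)
  have h1 := NumberField.InfinitePlace.IsPrimitiveRoot.nrRealPlaces_eq_zero_of_two_lt hp hζ
  have h2 := NumberField.InfinitePlace.card_add_two_mul_card_eq_rank M
  have h3 := NumberField.InfinitePlace.card_eq_nrRealPlaces_add_nrComplexPlaces M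
  have h4 : 0 < Fintype.card (InfinitePlace M) := Fintype.card_pos
  rw [NumberField.Units.rank]
  rw [h1] at h2 h3
  omega

end FA14
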