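import Fermat.Agent.CFT.LocA2

/-! S14, package [LOCa], part 3: `[Eˣ : ⋂_{v ∈ S} NN_v] ≤ p^(2|S| + [E:ℚ])`. -/

set_option autoImplicit false
set_option linter.unusedSectionVars false

open IsDedekindDomain NumberField

namespace FA14

variable {E : Type*} [Field E] [NumberField E]

/-- `[Eˣ : NN_v] ≤ p² #O/(p, v^n)`. -/
theorem index_NN_single_le {p : ℕ} (hp : 0 < p) {ζ : E} (hζ : IsPrimitiveRoot ζ p) (v : Pr E) (n : ℤ)
    (hn : 1 ≤ n) :
    (NN p v n hn).index ≠ 0 ∧ (NN p v n hn).index ≤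
      p ^ 2 * Ideal.absNorm (Ideal.span {(p : 𝓞 E)} ⊔ v.asIdeal ^ n.toNat) := by
  have : NeZero p := ⟨hp.ne'⟩
  obtain ⟨m, rfl⟩ := Int.eq_ofNat_of_zero_le (show 0 ≤ n by omega)
  have hm : 1 ≤ m := by exact_mod_cast hn
  obtain ⟨h1, h2⟩ := index_NN_le_aux v m hp hm hn
  refine ⟨h1, h2.trans ?_⟩
  rw [index_range_pow_eq_card_ker, Int.toNat_natCast, Ideal.absNorm_eq_index,
    ← card_ker_nsmul_quot, pow_two, mul_assoc]
  exact Nat.mul_le_mul_left p (card_ker_pow_units_le v hp hζ.toInteger_isPrimitiveRoot m)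

theorem prod_absNorm_dvd (p : ℕ) (S : Finset (Pr E)) (m : Pr E → ℕ) :
    ∏ v ∈ S, Ideal.absNorm (Ideal.span {(p : 𝓞 E)} ⊔ v.asIdeal ^ m v) ∣
      p ^ Module.finrank ℚ E := by
  have h1 : ∏ v ∈ S, (Ideal.span {(p : 𝓞 E)} ⊔ v.asIdeal ^ m v) ∣ Ideal.span {(p : 𝓞 E)} := by
    refine Finset.prod_dvd_of_coprime ?_ ?_
    · intro v _ w _ hvw
      show IsCoprime _ _
      have h2 : IsCoprime v.asIdeal w.asIdeal := by
        rw [Ideal.isCoprime_iff_sup_eq]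
        exact Ideal.IsMaximal.coprime_of_ne v.isMaximal w.isMaximal
          (fun h => hvw (HeightOneSpectrum.ext h))
      have h3 : IsCoprime (v.asIdeal ^ m v) (w.asIdeal ^ m w) := h2.pow
      rw [Ideal.isCoprime_iff_sup_eq] at h3 ⊢
      rw [eq_top_iff, ← h3]
      exact sup_le_sup le_sup_right le_sup_right
    · intro v _
      rw [Ideal.dvd_iff_le]
      exact le_sup_left
  have h4 := map_dvd Ideal.absNorm h1
  rwa [map_prod, Ideal.absNorm_span_natCast, RingOfIntegers.rank] at h4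

/-- the elements of `Eˣ` that are `p`-th powers modulo `v^(n v)` for all `v ∈ S`. -/
def NNS (p : ℕ) (S : Finset (Pr E)) (n : Pr E → ℤ) (hn : ∀ v, 1 ≤ n v) : Subgroup Eˣ :=
  ⨅ v : S, NN p (v : Pr E) (n v) (hn v)

theorem mem_NNS {p : ℕ} {S : Finset (Pr E)} {n : Pr E → ℤ} {hn : ∀ v, 1 ≤ n v} {x : Eˣ} :
    x ∈ NNS p S n hn ↔ ∀ v ∈ S, LocPow p (n v) v (x : E) := by
  simp only [NNS, Subgroup.mem_iInf, mem_NN, Subtype.forall]

/-- [LOCa]: `|Q_S| ≤ p^(2s + [E:ℚ])`. -/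
theorem index_NNS_le {p : ℕ} (hp : 0 < p) {ζ : E} (hζ : IsPrimitiveRoot ζ p) (S : Finset (Pr E))
    (n : Pr E → ℤ) (hn : ∀ v, 1 ≤ n v) :
    (NNS p S n hn).index ≠ 0 ∧
      (NNS p S n hn).index ≤ p ^ (2 * S.card + Module.finrank ℚ E) := by
  set c : Pr E → ℕ := fun v =>
    Ideal.absNorm (Ideal.span {(p : 𝓞 E)} ⊔ v.asIdeal ^ (n v).toNat) with hc
  have hA : ∀ v : Pr E, (NN p v (n v) (hn v)).index ≠ 0 ∧
      (NN p v (n v) (hn v)).index ≤ p ^ 2 * c v := fun v => index_NN_single_le hp hζ v (n v) (hn v)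
  have h0 : (NNS p S n hn).index ≠ 0 := by
    unfold NNS
    exact Subgroup.index_iInf_ne_zero fun v : S => (hA v).1
  have h1 : (NNS p S n hn).index ≤ ∏ v : S, (NN p (v : Pr E) (n v) (hn v)).index := by
    unfold NNS
    exact Subgroup.index_iInf_le _
  have h2 : ∏ v : S, (NN p (v : Pr E) (n v) (hn v)).index ≤ ∏ v : S, p ^ 2 * c v :=
    Finset.prod_le_prod' fun v _ => (hA v).2
  have h3 : ∏ v : S, p ^ 2 * c v = ∏ v ∈ S, p ^ 2 * c v :=
    Finset.prod_coe_sort S fun v => p ^ 2 * c v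
  have h4 : ∏ v ∈ S, p ^ 2 * c v = p ^ (2 * S.card) * ∏ v ∈ S, c v := by
    rw [Finset.prod_mul_distrib, Finset.prod_const, ← pow_mul]
  have h5 : ∏ v ∈ S, c v ≤ p ^ Module.finrank ℚ E :=
    Nat.le_of_dvd (pow_pos hp _) (prod_absNorm_dvd p S fun v => (n v).toNat)
  refine ⟨h0, ?_⟩
  rw [pow_add]
  calc (NNS p S n hn).index ≤ p ^ (2 * S.card) * ∏ v ∈ S, c v := by
        rw [← h4, ← h3]
        exact h1.trans h2
    _ ≤ _ := Nat.mul_le_mul_left _ h5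

theorem one_le_nv (p : ℕ) (v : Pr E) : 1 ≤ nv p v := by
  have h1 : 0 ≤ ordv v (p : E) := by
    rw [ordv, neg_nonneg]
    rcases eq_or_ne ((p : E)) 0 with h0 | h0
    · rw [h0, map_zero, WithZero.log_zero]
    · have h2 : v.valuation E (p : E) ≠ 0 := (Valuation.ne_zero_iff _).2 h0
      rw [WithZero.log_le_iff_le_exp h2, WithZero.exp_zero]
      have := v.valuation_le_one (K := E) (p : 𝓞 E)
      simpa using this
  rw [nv]
  have : (0 : ℤ) ≤ p * ordv v (p : E) := mul_nonneg (by positivity) h1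
  omega

/-- [LOCa], in the shape of `CFT/Stubs.lean`. -/
theorem index_NN_le {p : ℕ} [Fact p.Prime] {E : Type*} [Field E] [NumberField E] (ζ : E)
    (hζ : IsPrimitiveRoot ζ p) (S : Finset (Pr E)) (hS : ∀ v : Pr E, 0 < ordv v (p : E) → v ∈ S)
    (H : Subgroup Eˣ) (hH : ∀ x : Eˣ, x ∈ H ↔ ∀ v ∈ S, LocPow p (nv p v) v (x : E)) :
    H.index ≠ 0 ∧ H.index ≤ p ^ (2 * S.card + Module.finrank ℚ E) := by
  have h1 : H = NNS p S (nv p) (one_le_nv p) := by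
    ext x
    rw [hH, mem_NNS]
  rw [h1]
  exact index_NNS_le (Fact.out : p.Prime).pos hζ S (nv p) (one_le_nv p)

end FA14

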