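import Fermat.Agent.CFT.S2

/-!
# S14-[S]: characters, `resOff`, (F0)-(F3)
-/

set_option autoImplicit false
set_option linter.unusedSectionVars false

open IsDedekindDomain NumberField

namespace FA14

variable {E : Type*} [Field E] [NumberField E] {p : ℕ} [hpF : Fact p.Prime] {ζ : E}

section resOff

variable {A : Type*} [AddCommGroup A]

open Classical in
theorem resOff_single (Z : Set (Pr E)) (χ : Dv E →+ A) (q : Pr E) (n : ℤ) :
    resOff Z χ (Finsupp.single q n) = if q ∈ Z then 0 else n • χ (Finsupp.single q 1) := by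
  unfold resOff
  rw [Finsupp.liftAddHom_apply_single]
  split_ifs with h
  · rfl
  · rfl

theorem hom_single (χ : Dv E →+ A) (q : Pr E) (n : ℤ) :
    χ (Finsupp.single q n) = n • χ (Finsupp.single q 1) := by
  rw [← map_zsmul]
  simp

/-- a character is the sum of its `S`-part and its part off `S`. -/
theorem hom_eq_sum_add_resOff (S : Finset (Pr E)) (χ : Dv E →+ A) (D : Dv E) :
    χ D = ∑ v ∈ S, D v • χ (Finsupp.single v 1) + resOff (S : Set (Pr E)) χ D := by
  classical
  induction D using Finsupp.induction_linear with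
  | zero => simp
  | add f g hf hg =>
    rw [map_add, map_add, hf, hg]
    simp only [Finsupp.add_apply, add_smul, Finset.sum_add_distrib]
    abel
  | single q n =>
    rw [resOff_single, hom_single]
    by_cases hq : q ∈ S
    · rw [if_pos (by exact_mod_cast hq), add_zero, Finset.sum_eq_single q]
      · simp
      · intro v _ hv
        rw [Finsupp.single_apply, if_neg (Ne.symm hv), zero_smul]
      · intro h; exact absurd hq h
    · rw [if_neg (by exact_mod_cast hq), Finset.sum_eq_zero, zero_add]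
      intro v hv
      rw [Finsupp.single_apply, if_neg (fun h : q = v => hq (h ▸ hv)), zero_smul]

open Classical in
theorem resOff_apply (Z : Set (Pr E)) (χ : Dv E →+ A) (D : Dv E) :
    resOff Z χ D = D.sum fun q n => if q ∈ Z then 0 else n • χ (Finsupp.single q 1) := by
  conv_lhs => rw [← Finsupp.sum_single D]
  rw [Finsupp.sum, map_sum]
  exact Finset.sum_congr rfl fun q _ => resOff_single Z χ q (D q)

end resOff

/-- (F0) -/
theorem IsXD.sub_smul {y : E} {Z R : Set (Pr E)} {χ₁ χ₂ : Dv E →+ ZMod p} (h₁ : IsXD p y Z R χ₁)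
    (h₂ : IsXD p y Z R χ₂) (c : ZMod p) :
    IsXD p y Z R (χ₂ - (AddMonoidHom.mulLeft c).comp χ₁) := by
  refine ⟨fun q hq => ?_, fun q hq hl => ?_, fun b hb h1 h2 => ?_⟩
  · simp [h₁.supp q hq, h₂.supp q hq]
  · simp [h₁.split q hq hl, h₂.split q hq hl]
  · simp [h₁.prin b hb h1 h2, h₂.prin b hb h1 h2]

/-- (F1) -/
theorem resOff_divOf_of_NN {y : E} {Z : Set (Pr E)} {χ : Dv E →+ ZMod p} (h : IsXD p y Z Z χ)
    (S : Finset (Pr E)) (hZS : ∀ v ∈ Z, v ∈ S) (x : E) (hx : x ≠ 0)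
    (hx2 : ∀ v ∈ S, LocPow p (nv p v) v x) : resOff (S : Set (Pr E)) χ (divOf x) = 0 := by
  classical
  have hdvd : ∀ v ∈ S, (p : ℤ) ∣ ordv v x := fun v hv => (hx2 v hv).dvd_ordv (nv_pos p v)
  obtain ⟨c, hc0, hc⟩ := exists_ordv_eq_on S fun v => - (ordv v x / p)
  have hx'0 : x * c ^ p ≠ 0 := mul_ne_zero hx (pow_ne_zero _ hc0)
  have hord : ∀ v ∈ S, ordv v (x * c ^ p) = 0 := by
    intro v hv
    rw [ordv_mul v hx (pow_ne_zero _ hc0), ordv_pow, hc v hv]
    obtain ⟨k, hk⟩ := hdvd v hv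
    have hp0 : (p : ℤ) ≠ 0 := by exact_mod_cast hpF.out.ne_zero
    rw [hk, Int.mul_ediv_cancel_left _ hp0]
    ring
  have h1 : χ (divOf (x * c ^ p)) = 0 :=
    h.prin _ hx'0 (fun q hq => hord q (hZS q hq)) fun t ht => (hx2 t (hZS t ht)).mul_pow hc0
  rw [hom_eq_sum_add_resOff S, Finset.sum_eq_zero (fun v hv => by
    rw [divOf_apply, hord v hv, zero_smul]), zero_add, divOf_mul hx (pow_ne_zero _ hc0), map_add,
    divOf_pow, map_nsmul] at h1
  have h2 : p • resOff (S : Set (Pr E)) χ (divOf c) = 0 := by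
    rw [nsmul_eq_mul, CharP.cast_eq_zero, zero_mul]
  rwa [h2, add_zero] at h1

/-- (F2) -/
theorem resOff_divOf_of_unit {y : E} {Z : Set (Pr E)} {χ : Dv E →+ ZMod p} (h : IsXD p y Z Z χ)
    (S T : Finset (Pr E)) (hZS : ∀ v ∈ Z, v ∈ S) (hpS : ∀ v : Pr E, 0 < ordv v (p : E) → v ∈ S)
    (hTS : ∀ t ∈ T, t ∉ S) (hTy : ∀ t ∈ T, LocPow p 1 t y)
    (x : E) (hx1 : ∀ v : Pr E, v ∉ S → v ∉ T → ordv v x = 0) :
    resOff (S : Set (Pr E)) χ (divOf x) = 0 := by
  classical
  rw [resOff_apply]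
  refine Finset.sum_eq_zero fun q _ => ?_
  beta_reduce
  by_cases hqS : q ∈ S
  · rw [if_pos (by exact_mod_cast hqS)]
  rw [if_neg (by exact_mod_cast hqS)]
  by_cases hqT : q ∈ T
  · have hqp : ordv q (p : E) = 0 := by
      have h1 := ordv_natCast_nonneg (v := q) p
      by_contra hne
      exact hqS (hpS q (lt_of_le_of_ne h1 (Ne.symm hne)))
    rw [h.split q (fun hz => hqS (hZS q hz)) (by rw [nv_eq_one hqp]; exact hTy q hqT), smul_zero]
  · rw [divOf_apply, hx1 q hqS hqT, zero_smul]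

/-- (F3) -/
theorem eq_zero_of_resOff {y : E} {Z : Set (Pr E)} {χ : Dv E →+ ZMod p} (h : IsXD p y Z Z χ)
    (S : Finset (Pr E)) (hZS : ∀ v ∈ Z, v ∈ S)
    (hcl : ∀ q : Pr E, ∃ q₀ ∈ S, ∃ b : E, b ≠ 0 ∧
      divOf b = Finsupp.single q 1 - Finsupp.single q₀ 1)
    (h0 : ∀ x : E, x ≠ 0 → resOff (S : Set (Pr E)) χ (divOf x) = 0) : χ = 0 := by
  classical
  apply hom_ext_single
  intro q
  rw [AddMonoidHom.zero_apply]
  by_cases hqZ : q ∈ Z
  · exact h.supp q hqZ
  by_cases hqS : q ∈ S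
  · -- `q ∈ S \ Z`
    obtain ⟨π, hπ⟩ := exists_uniformizer q
    have hπ0 : π ≠ 0 := by rintro rfl; simp at hπ
    obtain ⟨z, hz0, hz⟩ := weak_approx_mul S (fun v => if v = q then π else 1)
      (fun v _ => by split_ifs; exacts [hπ0, one_ne_zero]) (∑ v ∈ S, nv p v)
    have hle : ∀ v ∈ S, nv p v ≤ ∑ v ∈ S, nv p v := fun v hv =>
      Finset.single_le_sum (f := fun v => nv p v) (fun w _ => (nv_pos p w).le) hv
    have hordq : ordv q z = 1 := by
      rw [(hz q hqS).2, if_pos rfl, hπ]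
    have hord : ∀ v ∈ S, v ≠ q → ordv v z = 0 := by
      intro v hv hvq
      rw [(hz v hv).2, if_neg hvq, ordv_one]
    have h1 : χ (divOf z) = 0 := by
      refine h.prin z hz0 (fun v hv => hord v (hZS v hv) fun e => hqZ (e ▸ hv)) fun t ht => ?_
      have htq : t ≠ q := fun e => hqZ (e ▸ ht)
      have h2 := (hz t (hZS t ht)).1
      rw [if_neg htq, div_one] at h2
      exact ⟨1, one_ne_zero, by simpa using h2.mono (hle t (hZS t ht))⟩
    rw [hom_eq_sum_add_resOff S, h0 z hz0, add_zero, Finset.sum_eq_single q] at h1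
    · rwa [divOf_apply, hordq, one_smul] at h1
    · intro v hv hvq
      rw [divOf_apply, hord v hv hvq, zero_smul]
    · intro hq; exact absurd hqS hq
  · obtain ⟨q₀, hq₀, b, hb0, hb⟩ := hcl q
    have h1 := h0 b hb0
    rw [hb, map_sub, resOff_single, resOff_single, if_neg (by exact_mod_cast hqS),
      if_pos (by exact_mod_cast hq₀), sub_zero, one_smul] at h1
    exact h1

end FA14
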