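import Fermat.Agent.CFT.S2

/-! S14 [S]: the key lemma (KL), relative to the first inequality. -/

set_option autoImplicit false

open IsDedekindDomain NumberField

namespace FA14

variable {E : Type*} [Field E] [NumberField E] {p : ℕ} [Fact p.Prime] {ζ : E}

/-- (KL) with the first inequality as a hypothesis. -/
theorem KL_of_first_ineq
    (hF : ∀ y : E, y ≠ 0 → (∀ c : E, c ^ p ≠ y) →
      (∀ v : Pr E, 0 < ordv v (p : E) → LocPow p (nv p v) v y) →
      ∃ χ : Dv E →+ ZMod p, χ ≠ 0 ∧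
        IsXD p y {t | ¬ (p : ℤ) ∣ ordv t y} {t | ¬ (p : ℤ) ∣ ordv t y} χ)
    (hζ : IsPrimitiveRoot ζ p) (S T : Finset (Pr E))
    (hpS : ∀ v : Pr E, 0 < ordv v (p : E) → v ∈ S)
    (hcl : ∀ q : Pr E, ∃ q₀ ∈ S, ∃ b : E, b ≠ 0 ∧
      divOf b = Finsupp.single q 1 - Finsupp.single q₀ 1)
    {n : ℕ} (u : Fin n → E) (hu0 : ∀ i, u i ≠ 0) (huS : ∀ i, ∀ v ∉ S, ordv v (u i) = 0)
    (hsurj : ∀ τ : Pr E → ZMod p, ∃ e : Fin n → ℤ, ∀ t ∈ T, psym p ζ t (wZ u e) = τ t)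
    (y' : E) (hy0 : y' ≠ 0) (hy1 : ∀ v : Pr E, v ∉ S → v ∉ T → ordv v y' = 0)
    (hy2 : ∀ v ∈ S, LocPow p (nv p v) v y') : ∃ c : E, c ^ p = y' := by
  classical
  by_contra hcon
  push Not at hcon
  obtain ⟨χ, hχ0, hχ⟩ := hF y' hy0 hcon (fun v hv => hy2 v (hpS v hv))
  set R : Set (Pr E) := {t | ¬ (p : ℤ) ∣ ordv t y'} with hR
  have hRS : ∀ t ∈ R, t ∉ S := by
    intro t ht htS
    exact ht ((hy2 t htS).dvd_ordv (nv_pos p t))
  have hRT : ∀ t ∈ R, t ∈ T := by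
    intro t ht
    by_contra htT
    apply ht
    rw [hy1 t (hRS t ht) htT]
    exact dvd_zero _
  have hS0 : ∀ v ∈ S, χ (Finsupp.single v 1) = 0 := by
    intro v hv
    exact hχ.split v (fun h => hRS v h hv) (hy2 v hv)
  apply hχ0
  apply hom_ext_single
  intro q
  rw [AddMonoidHom.zero_apply]
  by_cases hqR : q ∈ R
  · exact hχ.supp q hqR
  by_cases hqS : q ∈ S
  · exact hS0 q hqS
  obtain ⟨q₀, hq₀S, b₀, hb₀, hdiv⟩ := hcl q
  have hordb₀ : ∀ t ∈ R, ordv t b₀ = 0 := by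
    intro t ht
    have h1 : t ≠ q := fun h => hqR (h ▸ ht)
    have h2 : t ≠ q₀ := fun h => hRS t ht (h ▸ hq₀S)
    rw [← divOf_apply, hdiv, Finsupp.sub_apply, Finsupp.single_apply, Finsupp.single_apply,
      if_neg h1.symm, if_neg h2.symm, sub_zero]
  obtain ⟨e, he⟩ := hsurj (fun t => - psym p ζ t b₀)
  have hw0 : wZ u e ≠ 0 := wZ_ne_zero hu0 e
  have hordw : ∀ v ∉ S, ordv v (wZ u e) = 0 := fun v hv =>
    ordv_wZ hu0 v (fun i => huS i v hv) e
  have hb0 : b₀ * wZ u e ≠ 0 := mul_ne_zero hb₀ hw0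
  have hordb : ∀ t ∈ R, ordv t (b₀ * wZ u e) = 0 := by
    intro t ht
    rw [ordv_mul t hb₀ hw0, hordb₀ t ht, hordw t (hRS t ht), add_zero]
  have hloc : ∀ t ∈ R, LocPow p (nv p t) t (b₀ * wZ u e) := by
    intro t ht
    have htp : ordv t (p : E) = 0 := by
      have h1 : ¬ 0 < ordv t (p : E) := fun h => hRS t ht (hpS t h)
      have h2 := ordv_natCast_nonneg (v := t) p
      omega
    rw [nv_eq_one htp, ← psym_eq_zero_iff hζ htp hb0 (by rw [hordb t ht]; exact dvd_zero _),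
      psym_mul hζ htp hb₀ hw0 (by rw [hordb₀ t ht]; exact dvd_zero _)
        (by rw [hordw t (hRS t ht)]; exact dvd_zero _), he t (hRT t ht), add_neg_cancel]
  have h1 := hχ.prin (b₀ * wZ u e) hb0 hordb hloc
  have hw : χ (divOf (wZ u e)) = 0 := by
    rw [hom_apply_eq_sum, Finsupp.sum]
    refine Finset.sum_eq_zero fun v hv => ?_
    have hvS : v ∈ S := by
      by_contra h
      rw [Finsupp.mem_support_iff, divOf_apply] at hv
      exact hv (hordw v h)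
    rw [hS0 v hvS, smul_zero]
  rw [divOf_mul hb₀ hw0, map_add, hw, add_zero, hdiv, map_sub, hS0 q₀ hq₀S, sub_zero] at h1
  exact h1

end FA14
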