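import Fermat.Agent.CFT.S2
import Fermat.Agent.CFT.SU3
import Fermat.Agent.CFT.LocA3
import Fermat.Agent.CFT.FUnits
import Fermat.Agent.CFT.DivI2
import Fermat.Agent.CFT.SChar
import Fermat.Agent.CFT.SKL0

/-! S14 [S]: the second inequality (assembly). -/

set_option autoImplicit false

open IsDedekindDomain NumberField

namespace FA14

variable {E : Type*} [Field E] [NumberField E] {p : ℕ} [Fact p.Prime]

lemma s5_resOff_single {A : Type*} [AddCommGroup A] (Z : Set (Pr E)) (χ : Dv E →+ A) (q : Pr E) :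
    resOff Z χ (Finsupp.single q 1) = by
      classical exact if q ∈ Z then 0 else χ (Finsupp.single q 1) := by
  classical
  simp only [resOff, Finsupp.liftAddHom_apply_single]
  split_ifs <;> simp

lemma s5_resOff_sub_smul (Z : Set (Pr E)) (χ₁ χ₂ : Dv E →+ ZMod p) (c : ZMod p) (D : Dv E) :
    resOff Z (χ₂ - (AddMonoidHom.mulLeft c).comp χ₁) D = resOff Z χ₂ D - c * resOff Z χ₁ D := by
  classical
  have : resOff Z (χ₂ - (AddMonoidHom.mulLeft c).comp χ₁) =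
      resOff Z χ₂ - (AddMonoidHom.mulLeft c).comp (resOff Z χ₁) := by
    apply hom_ext_single
    intro q
    simp only [AddMonoidHom.sub_apply, AddMonoidHom.comp_apply, s5_resOff_single]
    split_ifs <;> simp
  rw [this]; simp

/-- **[S] the second inequality**, relative to the first one -/
theorem second_ineq_of_first_ineq
    (hF : ∀ y : E, y ≠ 0 → (∀ c : E, c ^ p ≠ y) →
      (∀ v : Pr E, 0 < ordv v (p : E) → LocPow p (nv p v) v y) →
      ∃ χ : Dv E →+ ZMod p, χ ≠ 0 ∧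
        IsXD p y {t | ¬ (p : ℤ) ∣ ordv t y} {t | ¬ (p : ℤ) ∣ ordv t y} χ)
    (hp2 : p ≠ 2) (ζ : E)
    (hζ : IsPrimitiveRoot ζ p) (y : E) (hy0 : y ≠ 0) (Z : Set (Pr E)) (hZ : Z.Finite)
    (χ₁ χ₂ : Dv E →+ ZMod p) (h₁ : IsXD p y Z Z χ₁) (h₂ : IsXD p y Z Z χ₂) (hne : χ₁ ≠ 0) :
    ∃ c : ZMod p, ∀ D, χ₂ D = c * χ₁ D := by
  classical
  have hp : p.Prime := Fact.out
  by_cases hy : ∃ c : E, c ^ p = y
  · obtain ⟨c, rfl⟩ := hy
    have hc : c ≠ 0 := by rintro rfl; simp [hp.ne_zero] at hy0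
    exfalso; apply hne
    apply hom_ext_single
    intro q
    by_cases hq : q ∈ Z
    · simpa using h₁.supp q hq
    · simpa using h₁.split q hq (locPow_pow hc)
  push_neg at hy
  obtain ⟨S₀, -, hS₀⟩ := exists_classRep (∅ : Set (Pr E))
  set S : Finset (Pr E) := hZ.toFinset ∪ (finite_ordv_ne_zero (p : E)).toFinset ∪ S₀ with hS
  have hZS : ∀ v ∈ Z, v ∈ S := fun v hv => by simp [hS, hv]
  have hpS : ∀ v : Pr E, 0 < ordv v (p : E) → v ∈ S := fun v hv => by
    simp [hS, hv.ne']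
  have hcl : ∀ q : Pr E, ∃ q₀ ∈ S, ∃ b : E, b ≠ 0 ∧
      divOf b = Finsupp.single q 1 - Finsupp.single q₀ 1 := fun q => by
    obtain ⟨q₀, hq₀, h⟩ := hS₀ q (by simp)
    exact ⟨q₀, by simp [hS, hq₀], h⟩
  obtain ⟨u, hu0, huS, hind⟩ := exists_Sunits_indep hp2 ζ hζ S
  obtain ⟨T, hTS, hcard, hTy, hsurj⟩ := exists_T hζ y hy0 hy S hpS u hu0 huS hind
  obtain ⟨N, hN⟩ : ∃ N, N = (S ∪ T).card + Module.finrank ℚ E / 2 := ⟨_, rfl⟩
  have hSU := exists_Sunits_indep hp2 ζ hζ (S ∪ T)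
  rw [← hN] at hSU
  obtain ⟨u', hu'0, hu'S, hind'⟩ := hSU
  have hdisj : Disjoint S T := Finset.disjoint_right.2 hTS
  have hcardST : (S ∪ T).card = S.card + T.card := Finset.card_union_of_disjoint hdisj
  have heven : 2 * (Module.finrank ℚ E / 2) = Module.finrank ℚ E := by
    have h1 := two_mul_rank_add_one hp2 ζ hζ
    have h2 := rank_add_one_eq hp2 ζ hζ
    omega
  set H : Subgroup Eˣ := NNS p S (nv p) (one_le_nv p) with hH
  obtain ⟨hidx0, hidx⟩ := index_NN_le ζ hζ S hpS H (fun x => mem_NNS)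
  have hidx' : H.index ≤ p ^ (N + 1) := by
    refine hidx.trans (Nat.pow_le_pow_right hp.pos ?_)
    omega
  let U : Fin N → Eˣ := fun i => Units.mk0 (u' i) (hu'0 i)
  have hUcoe : ∀ e : Fin N → ℤ, ((∏ i, U i ^ e i : Eˣ) : E) = wZ u' e := by
    intro e
    simp [U, wZ, Units.coe_prod]
  have hU : ∀ e : Fin N → ℤ, ∏ i, U i ^ e i ∈ H → ∀ i, (p : ℤ) ∣ e i := by
    intro e he
    rw [hH, mem_NNS, hUcoe] at he
    apply hind' e
    obtain ⟨c, hc⟩ := KL_of_first_ineq hF hζ S T hpS hcl u hu0 huS hsurj (wZ u' e) (wZ_ne_zero hu'0 e)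
      (fun v hv1 hv2 => ordv_wZ hu'0 v (fun i => hu'S i v (by simp [hv1, hv2])) e) he
    exact ⟨c, hc.symm⟩
  let φ : (Dv E →+ ZMod p) → (Eˣ →* Multiplicative (ZMod p)) := fun χ =>
    MonoidHom.mk' (fun x => Multiplicative.ofAdd (resOff (S : Set (Pr E)) χ (divOf (x : E))))
      (fun a b => by
        rw [Units.val_mul, divOf_mul a.ne_zero b.ne_zero, map_add, ofAdd_add])
  have hφ : ∀ χ x, (φ χ x).toAdd = resOff (S : Set (Pr E)) χ (divOf (x : E)) := fun _ _ => rfl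
  have hφH : ∀ χ, IsXD p y Z Z χ → ∀ x ∈ H, φ χ x = 1 := by
    intro χ hχ x hx
    rw [hH, mem_NNS] at hx
    apply Multiplicative.toAdd.injective
    rw [hφ, resOff_divOf_of_NN hχ S hZS x x.ne_zero hx]; rfl
  have hφU : ∀ χ, IsXD p y Z Z χ → ∀ i, φ χ (U i) = 1 := by
    intro χ hχ i
    apply Multiplicative.toAdd.injective
    rw [hφ]
    exact resOff_divOf_of_unit hχ S T hZS hpS hTS hTy (u' i)
      (fun v hv1 hv2 => hu'S i v (by simp [hv1, hv2]))
  obtain ⟨x₀, hx₀⟩ : ∃ x₀, φ χ₁ x₀ ≠ 1 := by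
    by_contra hcon
    push_neg at hcon
    apply hne
    apply eq_zero_of_resOff h₁ S hZS hcl
    intro x hx
    have := congrArg Multiplicative.toAdd (hcon (Units.mk0 x hx))
    rw [hφ] at this
    simpa using this
  obtain ⟨c, hc⟩ := prop_of_index p H N hidx0 hidx' U hU (φ χ₁) (φ χ₂) (hφH χ₁ h₁) (hφH χ₂ h₂)
    (hφU χ₁ h₁) (hφU χ₂ h₂) x₀ hx₀
  refine ⟨c, fun D => ?_⟩
  have hψ := IsXD.sub_smul h₁ h₂ c
  have hz := eq_zero_of_resOff hψ S hZS hcl (fun x hx => by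
    rw [s5_resOff_sub_smul]
    have := hc (Units.mk0 x hx)
    rw [hφ, hφ] at this
    simp only [Units.val_mk0] at this
    rw [this, sub_self])
  have := DFunLike.congr_fun hz D
  simp only [AddMonoidHom.sub_apply, AddMonoidHom.comp_apply, AddMonoidHom.coe_mulLeft,
    AddMonoidHom.zero_apply] at this
  exact sub_eq_zero.1 this

end FA14
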