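import Mathlib
import Fermat.Agent.Maz.Mink

/-! S14 package [TR], part 4: valuation subrings of `ℚ̄` above a prime of a number field;
lifting elements of decomposition / inertia groups. -/

set_option autoImplicit false
set_option linter.style.haveILetI false

namespace FA14

open scoped NumberField Pointwise
open FA13

theorem exists_valuationSubring_over {R Ω : Type*} [CommRing R] [Field Ω] (f : R →+* Ω)
    (hf : Function.Injective f) (I : Ideal R) (hI : I ≠ ⊤) :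
    ∃ B : ValuationSubring Ω, ∀ r ∈ I, f r ∈ B.nonunits := by
  have hbij : Function.Bijective f.rangeRestrict :=
    ⟨fun x y hxy => hf (congrArg Subtype.val hxy), f.rangeRestrict_surjective⟩
  have hI' : I.map f.rangeRestrict ≠ ⊤ := by
    intro h
    apply hI
    rw [← Ideal.comap_map_of_bijective f.rangeRestrict hbij (I := I), h, Ideal.comap_top]
  obtain ⟨B, -, hB⟩ := Ideal.image_subset_nonunits_valuationSubring _ hI'
  refine ⟨B, fun r hr => hB ⟨f.rangeRestrict r, Ideal.mem_map_of_mem _ hr, rfl⟩⟩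

/-- a ring automorphism as a `ℚ`-algebra automorphism -/
def ratEquiv {Ω : Type*} [Field Ω] [Algebra ℚ Ω] (e : Ω ≃+* Ω) : Ω ≃ₐ[ℚ] Ω :=
  AlgEquiv.ofRingEquiv (f := e) (fun r => by rw [eq_ratCast, map_ratCast])

@[simp] theorem ratEquiv_apply {Ω : Type*} [Field Ω] [Algebra ℚ Ω] (e : Ω ≃+* Ω) (x : Ω) :
    ratEquiv e x = e x := rfl

section Decomp

variable {K : Type*} [Field K] [Algebra ℚ K] [Algebra.IsAlgebraic ℚ K] (A : ValuationSubring K)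

theorem apply_mem_of_integral {q : ℕ} (hq : q.Prime) (hA : A.LiesOverPrime q) {σ : K ≃ₐ[ℚ] K}
    (H : ∀ x : K, IsIntegral ℤ x → (σ x ∈ A.nonunits ↔ x ∈ A.nonunits)) (a : K) (ha : a ∈ A) :
    σ a ∈ A := by
  obtain ⟨y, hy, hy', hya⟩ := exists_frac A hq hA a ha
  have hσy : IsIntegral ℤ (σ y) := hy.map σ
  have hσya : IsIntegral ℤ (σ (y * a)) := hya.map σ
  have h1 : A.valuation (σ y) = 1 :=
    valuation_eq_one_of A (mem_of_isIntegral A hσy) (fun h => hy' ((H y hy).mp h))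
  rw [← A.valuation_le_one_iff]
  have h2 : A.valuation (σ (y * a)) ≤ 1 :=
    (A.valuation_le_one_iff _).mpr (mem_of_isIntegral A hσya)
  rwa [map_mul, map_mul, h1, one_mul] at h2

theorem mem_decomp_of_integral {q : ℕ} (hq : q.Prime) (hA : A.LiesOverPrime q) (σ : K ≃ₐ[ℚ] K)
    (H : ∀ x : K, IsIntegral ℤ x → (σ x ∈ A.nonunits ↔ x ∈ A.nonunits)) :
    σ ∈ A.decompositionSubgroup ℚ := by
  have H' : ∀ x : K, IsIntegral ℤ x → (σ.symm x ∈ A.nonunits ↔ x ∈ A.nonunits) := by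
    intro x hx
    have h1 := H (σ.symm x) (hx.map σ.symm)
    rw [AlgEquiv.apply_symm_apply] at h1
    exact h1.symm
  show σ • A = A
  ext x
  rw [ValuationSubring.mem_pointwise_smul_iff_inv_smul_mem]
  constructor
  · intro h
    have := apply_mem_of_integral A hq hA H _ h
    simpa using this
  · intro h
    exact apply_mem_of_integral A hq hA H' _ h

end Decomp

section Lift

variable {F Ω : Type*} [Field F] [Field Ω] [Algebra F Ω] [IsGalois F Ω]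

theorem lift_decomp (A : ValuationSubring Ω) (σ₁ : Ω ≃+* Ω) (σ₀ : F ≃+* F)
    (hcomp : ∀ x : F, σ₁ (algebraMap F Ω x) = algebraMap F Ω (σ₀ x))
    (hst : ∀ x : F, IsIntegral ℤ x →
      (algebraMap F Ω (σ₀ x) ∈ A.nonunits ↔ algebraMap F Ω x ∈ A.nonunits)) :
    ∃ h : Ω ≃ₐ[F] Ω, ∀ x : Ω, IsIntegral ℤ x → (h (σ₁ x) ∈ A.nonunits ↔ x ∈ A.nonunits) := by
  classical
  have hsmul : ∀ (τ : Ω ≃ₐ[F] Ω) (b : 𝓞 Ω), algebraMap (𝓞 Ω) Ω (τ • b) =
      τ (algebraMap (𝓞 Ω) Ω b) := fun τ b => rfl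
  have halg : ∀ a : 𝓞 F, algebraMap (𝓞 Ω) Ω (algebraMap (𝓞 F) (𝓞 Ω) a) =
      algebraMap F Ω (algebraMap (𝓞 F) F a) := fun a => rfl
  haveI : SMulCommClass (Ω ≃ₐ[F] Ω) (𝓞 F) (𝓞 Ω) := ⟨fun τ a b => by
    apply NumberField.RingOfIntegers.ext
    show algebraMap (𝓞 Ω) Ω (τ • a • b) = algebraMap (𝓞 Ω) Ω (a • τ • b)
    rw [Algebra.smul_def, Algebra.smul_def, hsmul, map_mul, map_mul, map_mul, hsmul, halg,
      AlgEquiv.commutes]⟩
  haveI : Algebra.IsInvariant (𝓞 F) (𝓞 Ω) (Ω ≃ₐ[F] Ω) := ⟨fun b hb => by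
    have h1 : algebraMap (𝓞 Ω) Ω b ∈ Set.range (algebraMap F Ω) := by
      rw [InfiniteGalois.mem_range_algebraMap_iff_fixed]
      intro τ
      rw [← hsmul, hb τ]
    obtain ⟨a, ha⟩ := h1
    have ha' : IsIntegral ℤ a := by
      have h2 : IsIntegral ℤ (algebraMap F Ω a) := by rw [ha]; exact b.2
      exact (isIntegral_algebraMap_iff (algebraMap F Ω).injective).mp h2
    exact ⟨⟨a, ha'⟩, NumberField.RingOfIntegers.ext ha⟩⟩
  letI : TopologicalSpace (𝓞 Ω) := ⊥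
  haveI : DiscreteTopology (𝓞 Ω) := ⟨rfl⟩
  haveI : ContinuousSMul (Ω ≃ₐ[F] Ω) (𝓞 Ω) := by
    rw [continuousSMul_iff_stabilizer_isOpen]
    intro b
    have := stabilizer_isOpen_of_isIntegral (K := F) (L := Ω) (algebraMap (𝓞 Ω) Ω b)
    convert this using 1
    ext τ
    simp only [SetLike.mem_coe, MulAction.mem_stabilizer_iff]
    constructor
    · intro h
      show τ (algebraMap (𝓞 Ω) Ω b) = _
      rw [← hsmul, h]
    · intro h; exact NumberField.RingOfIntegers.ext h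
  have hcomp' : ∀ x : F, σ₁.symm (algebraMap F Ω x) = algebraMap F Ω (σ₀.symm x) := by
    intro x
    rw [RingEquiv.symm_apply_eq, hcomp, RingEquiv.apply_symm_apply]
  let e₁ : 𝓞 Ω ≃+* 𝓞 Ω := NumberField.RingOfIntegers.mapRingEquiv σ₁
  let Q : Ideal (𝓞 Ω) := primeOf A
  let Q₁ : Ideal (𝓞 Ω) := Q.comap (e₁.symm : 𝓞 Ω →+* 𝓞 Ω)
  haveI : Q₁.IsPrime := Ideal.comap_isPrime _ _
  have hmemQ₁ : ∀ b : 𝓞 Ω, b ∈ Q₁ ↔ σ₁.symm (algebraMap (𝓞 Ω) Ω b) ∈ A.nonunits := fun b => Iff.rfl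
  have hmemQ : ∀ b : 𝓞 Ω, b ∈ Q ↔ algebraMap (𝓞 Ω) Ω b ∈ A.nonunits := fun b => Iff.rfl
  have hunder : Q₁.under (𝓞 F) = Q.under (𝓞 F) := by
    ext a
    show algebraMap (𝓞 F) (𝓞 Ω) a ∈ Q₁ ↔ algebraMap (𝓞 F) (𝓞 Ω) a ∈ Q
    rw [hmemQ₁, hmemQ, halg, hcomp']
    have h1 := hst (σ₀.symm (algebraMap (𝓞 F) F a)) (a.2.map σ₀.symm.toRingHom.toIntAlgHom)
    rw [RingEquiv.apply_symm_apply] at h1
    exact h1.symm
  obtain ⟨h₁, hh₁⟩ := Algebra.IsInvariant.exists_smul_of_under_eq_of_profinite (A := 𝓞 F)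
    (G := Ω ≃ₐ[F] Ω) Q₁ Q hunder
  refine ⟨h₁, fun x hx => ?_⟩
  have hx' : IsIntegral ℤ (h₁ (σ₁ x)) :=
    (hx.map σ₁.toRingHom.toIntAlgHom).map (h₁ : Ω ≃+* Ω).toRingHom.toIntAlgHom
  obtain ⟨b, hb⟩ : ∃ b : 𝓞 Ω, algebraMap (𝓞 Ω) Ω b = h₁ (σ₁ x) := ⟨⟨_, hx'⟩, rfl⟩
  rw [← hb, ← hmemQ, hh₁, Ideal.mem_pointwise_smul_iff_inv_smul_mem, hmemQ₁, hsmul, hb]
  have h3 : h₁⁻¹ (h₁ (σ₁ x)) = σ₁ x := h₁.symm_apply_apply _
  rw [h3, RingEquiv.symm_apply_apply]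

end Lift

end FA14
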