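import Fermat.Agent.CFT.Res

/-! S14 basic API V: `LocPow`. -/

set_option autoImplicit false

open IsDedekindDomain NumberField

namespace FA14

variable {E : Type*} [Field E] [NumberField E] {v : Pr E} {p : ℕ} {n : ℤ}

lemma LocPow.ne_zero {x : E} (h : LocPow p n v x) (hn : 0 < n) : x ≠ 0 := by
  obtain ⟨c, _, h⟩ := h
  have := ne_zero_of_sub_one h hn
  exact left_ne_zero_of_mul this

lemma LocPow.dvd_ordv {x : E} (h : LocPow p n v x) (hn : 0 < n) : (p : ℤ) ∣ ordv v x := by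
  have hx := h.ne_zero hn
  obtain ⟨c, hc, h⟩ := h
  have h0 := ordv_eq_zero_of_sub_one h hn
  rw [ordv_mul v hx (pow_ne_zero _ hc), ordv_pow] at h0
  exact ⟨- ordv v c, by linarith⟩

lemma LocPow.mono {x : E} {m : ℤ} (h : LocPow p n v x) (hm : m ≤ n) : LocPow p m v x := by
  obtain ⟨c, hc, h⟩ := h
  exact ⟨c, hc, h.mono hm⟩

lemma locPow_pow {c : E} (hc : c ≠ 0) : LocPow p n v (c ^ p) :=
  ⟨c⁻¹, inv_ne_zero hc, by rw [← mul_pow, mul_inv_cancel₀ hc]; simp⟩

lemma locPow_one : LocPow p n v (1 : E) := ⟨1, one_ne_zero, by simp⟩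

lemma LocPow.mul {x y : E} (hx : LocPow p n v x) (hy : LocPow p n v y) (hn : 0 ≤ n) :
    LocPow p n v (x * y) := by
  obtain ⟨c, hc, h1⟩ := hx
  obtain ⟨d, hd, h2⟩ := hy
  refine ⟨c * d, mul_ne_zero hc hd, ?_⟩
  have h3 : OrdGE v (y * d ^ p) 0 := by
    have := (h2.mono hn).add (ordGE_one (v := v)); simpa using this
  have := (h1.mul_right h3).add h2
  convert this using 1; ring

lemma LocPow.inv {x : E} (hx : LocPow p n v x) (hn : 0 < n) : LocPow p n v x⁻¹ := by
  have hx0 := hx.ne_zero hn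
  obtain ⟨c, hc, h1⟩ := hx
  refine ⟨c⁻¹, inv_ne_zero hc, ?_⟩
  have h0 := ordv_eq_zero_of_sub_one h1 hn
  have hne : x * c ^ p ≠ 0 := mul_ne_zero hx0 (pow_ne_zero _ hc)
  have h3 : OrdGE v (x * c ^ p)⁻¹ 0 := Or.inr (by rw [ordv_inv, h0]; simp)
  have := (h1.neg.mul_right h3)
  convert this using 1
  rw [inv_pow]
  field_simp
  ring

lemma LocPow.mul_pow {x : E} (hx : LocPow p n v x) {c : E} (hc : c ≠ 0) :
    LocPow p n v (x * c ^ p) := by
  obtain ⟨d, hd, h1⟩ := hx
  refine ⟨d * c⁻¹, mul_ne_zero hd (inv_ne_zero hc), ?_⟩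
  convert h1 using 2
  rw [_root_.mul_pow, inv_pow]; field_simp

lemma locPow_mul_pow_iff {x c : E} (hc : c ≠ 0) : LocPow p n v (x * c ^ p) ↔ LocPow p n v x := by
  refine ⟨fun h => ?_, fun h => h.mul_pow hc⟩
  have := h.mul_pow (inv_ne_zero hc)
  convert this using 1
  rw [inv_pow]; field_simp

lemma LocPow.pow {x : E} (hx : LocPow p n v x) (hn : 0 ≤ n) (k : ℕ) : LocPow p n v (x ^ k) := by
  induction k with
  | zero => simpa using locPow_one
  | succ k ih => rw [pow_succ]; exact ih.mul hx hn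

lemma LocPow.zpow {x : E} (hx : LocPow p n v x) (hn : 0 < n) (k : ℤ) : LocPow p n v (x ^ k) := by
  cases k with
  | ofNat k => simpa using hx.pow hn.le k
  | negSucc k => rw [zpow_negSucc]; exact (hx.pow hn.le _).inv hn

lemma LocPow.prod {ι : Type*} {s : Finset ι} {f : ι → E} (h : ∀ i ∈ s, LocPow p n v (f i))
    (hn : 0 ≤ n) : LocPow p n v (∏ i ∈ s, f i) := by
  classical
  induction s using Finset.induction_on with
  | empty => simpa using locPow_one
  | insert a s ha ih =>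
    rw [Finset.prod_insert ha]
    exact (h a (Finset.mem_insert_self a s)).mul (ih fun i hi => h i (Finset.mem_insert_of_mem hi)) hn

lemma nv_pos (p : ℕ) (v : Pr E) : 0 < nv p v := by
  have := ordv_natCast_nonneg (v := v) p
  unfold nv; positivity

lemma nv_eq_one {p : ℕ} {v : Pr E} (h : ordv v (p : E) = 0) : nv p v = 1 := by
  simp [nv, h]

/-- base change -/
lemma LocPow.map {E' : Type*} [Field E'] [NumberField E'] [Algebra E E'] (Q : Pr E') {x : E}
    (h : LocPow p n (below E Q) x) (hn : 0 ≤ n) : LocPow p n Q (algebraMap E E' x) := by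
  obtain ⟨c, hc, h1⟩ := h
  refine ⟨algebraMap E E' c, by simpa using hc, ?_⟩
  have := ordGE_algebraMap_of E Q h1 hn
  simpa using this

/-- transport -/
lemma locPow_mapPr {E' : Type*} [Field E'] [NumberField E'] (δ : E ≃+* E') {x : E} :
    LocPow p n (mapPr δ v) (δ x) ↔ LocPow p n v x := by
  constructor
  · rintro ⟨c, hc, h⟩
    refine ⟨δ.symm c, by simpa using hc, ?_⟩
    rw [← ordGE_mapPr δ]
    simpa using h
  · rintro ⟨c, hc, h⟩
    refine ⟨δ c, by simpa using hc, ?_⟩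
    rw [← ordGE_mapPr δ] at h
    simpa using h

/-- `LocPow p 1` in the residue field -/
lemma locPow_one_iff_red (hp : p ≠ 0) {u : E} (hu0 : u ≠ 0) (hu : ordv v u = 0) :
    LocPow p 1 v u ↔ ∃ s : kres v, s ^ p = red v u := by
  have hu' := ordGE_zero_of_ordv hu
  constructor
  · rintro ⟨c, hc, h⟩
    have h0 := ordv_eq_zero_of_sub_one h one_pos
    rw [ordv_mul v hu0 (pow_ne_zero _ hc), hu, ordv_pow, zero_add] at h0
    have hc0 : ordv v c = 0 := by
      rcases mul_eq_zero.1 h0 with h | h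
      · exact absurd (by exact_mod_cast h) hp
      · exact h
    have hc' := ordGE_zero_of_ordv hc0
    have h1 : red v (u * c ^ p) = 1 := by
      rw [← red_one, red_eq_iff (by simpa using hu'.mul (hc'.pow_zero p)) ordGE_one]; exact h
    rw [red_mul hu' (hc'.pow_zero p), red_pow hc'] at h1
    refine ⟨(red v c)⁻¹, ?_⟩
    rw [inv_pow]
    exact (eq_inv_of_mul_eq_one_left h1).symm
  · rintro ⟨s, hs⟩
    have hs0 : s ≠ 0 := by
      rintro rfl
      rw [zero_pow hp] at hs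
      exact (red_ne_zero_iff hu' hu0).2 hu hs.symm
    obtain ⟨c, hc0, hc, hcs⟩ := red_surjective_unit (inv_ne_zero hs0)
    have hc' := ordGE_zero_of_ordv hc
    refine ⟨c, hc0, ?_⟩
    rw [← red_eq_iff (by simpa using hu'.mul (hc'.pow_zero p)) ordGE_one, red_one,
      red_mul hu' (hc'.pow_zero p), red_pow hc', hcs, ← hs, inv_pow]
    exact mul_inv_cancel₀ (pow_ne_zero _ hs0)

/-- normalising to a unit -/
lemma exists_unit_mul_pow {x : E} (hx : x ≠ 0) (h : (p : ℤ) ∣ ordv v x) :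
    ∃ c : E, c ≠ 0 ∧ ordv v (x * c ^ p) = 0 := by
  obtain ⟨k, hk⟩ := h
  obtain ⟨c, hc, hck⟩ := exists_ordv_eq v (-k)
  refine ⟨c, hc, ?_⟩
  rw [ordv_mul v hx (pow_ne_zero _ hc), ordv_pow, hck, hk]; ring

end FA14
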