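import Fermat.Agent.CFT.Ord2

/-! S14 basic API III: transport along isomorphisms, extensions. -/

set_option autoImplicit false

open IsDedekindDomain NumberField

namespace FA14

section char
variable {E : Type*} [Field E] [NumberField E]

/-- every element is a quotient of integers -/
lemma exists_frac (x : E) : ∃ a b : 𝓞 E, b ≠ 0 ∧ x = algebraMap (𝓞 E) E a / algebraMap (𝓞 E) E b := by
  obtain ⟨a, b, hb, hab⟩ := IsFractionRing.div_surjective (A := 𝓞 E) x
  exact ⟨a, b, nonZeroDivisors.ne_zero hb, hab.symm⟩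

lemma ordv_algebraMap_nonneg (v : Pr E) (a : 𝓞 E) : 0 ≤ ordv v (algebraMap (𝓞 E) E a) := by
  rcases ordGE_algebraMap (v := v) a with h | h
  · simp [h]
  · exact h

/-- characterisation of `ordv` on integers by ideal membership -/
lemma ordv_algebraMap_eq_iff (v : Pr E) {a : 𝓞 E} (ha : a ≠ 0) (n : ℕ) :
    ordv v (algebraMap (𝓞 E) E a) = n ↔ a ∈ v.asIdeal ^ n ∧ a ∉ v.asIdeal ^ (n + 1) := by
  have ha' : algebraMap (𝓞 E) E a ≠ 0 := by simpa using ha
  rw [← ordGE_algebraMap_iff, ← ordGE_algebraMap_iff, ordGE_of_ne v ha', ordGE_of_ne v ha']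
  push_cast; omega

end char

section transport
variable {E : Type*} [Field E] [NumberField E] {E' : Type*} [Field E'] [NumberField E']

lemma mapPr_asIdeal (δ : E ≃+* E') (v : Pr E) :
    (mapPr δ v).asIdeal = v.asIdeal.comap (RingOfIntegers.mapRingEquiv δ).symm := rfl

lemma mem_mapPr_pow (δ : E ≃+* E') (v : Pr E) (a : 𝓞 E) (n : ℕ) :
    RingOfIntegers.mapRingEquiv δ a ∈ (mapPr δ v).asIdeal ^ n ↔ a ∈ v.asIdeal ^ n := by
  rw [mapPr_asIdeal, Ideal.comap_symm, ← Ideal.map_pow, ← Ideal.comap_symm, Ideal.mem_comap]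
  simp

lemma ordv_mapPr_int (δ : E ≃+* E') (v : Pr E) (a : 𝓞 E) :
    ordv (mapPr δ v) (δ (algebraMap (𝓞 E) E a)) = ordv v (algebraMap (𝓞 E) E a) := by
  by_cases ha : a = 0
  · simp [ha]
  obtain ⟨n, hn⟩ := Int.eq_ofNat_of_zero_le (ordv_algebraMap_nonneg v a)
  rw [hn]
  have h1 := (ordv_algebraMap_eq_iff v ha n).1 hn
  have ha' : RingOfIntegers.mapRingEquiv δ a ≠ 0 := by simpa using ha
  have h2 := (ordv_algebraMap_eq_iff (mapPr δ v) ha' n).2
    ⟨(mem_mapPr_pow δ v a n).2 h1.1, fun h => h1.2 ((mem_mapPr_pow δ v a (n+1)).1 h)⟩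
  exact h2

/-- **transport**: `ordv (δ v) (δ x) = ordv v x`. -/
theorem ordv_mapPr (δ : E ≃+* E') (v : Pr E) (x : E) : ordv (mapPr δ v) (δ x) = ordv v x := by
  obtain ⟨a, b, hb, rfl⟩ := exists_frac x
  have hb' : algebraMap (𝓞 E) E b ≠ 0 := by simpa using hb
  by_cases ha : a = 0
  · simp [ha]
  have ha' : algebraMap (𝓞 E) E a ≠ 0 := by simpa using ha
  rw [map_div₀, ordv_div _ (by simpa using ha') (by simpa using hb'), ordv_div _ ha' hb',
    ordv_mapPr_int, ordv_mapPr_int]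

theorem ordGE_mapPr (δ : E ≃+* E') (v : Pr E) (x : E) (n : ℤ) :
    OrdGE (mapPr δ v) (δ x) n ↔ OrdGE v x n := by
  unfold OrdGE
  rw [ordv_mapPr]; simp

theorem ordv_mapPr' (δ : E ≃+* E') (v : Pr E) (x : E') :
    ordv (mapPr δ v) x = ordv v (δ.symm x) := by
  rw [← ordv_mapPr δ v (δ.symm x)]; simp

/-- primes are determined by their valuation -/
theorem Pr_ext {v w : Pr E} (h : ∀ x : E, 0 < ordv v x → 0 < ordv w x) : v = w := by
  have hle : v.asIdeal ≤ w.asIdeal := by
    intro a ha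
    by_cases ha0 : a = 0
    · simp [ha0]
    have ha' : algebraMap (𝓞 E) E a ≠ 0 := by simpa using ha0
    have h1 := ((ordGE_algebraMap_one_iff (v := v) a).2 ha).le ha'
    have h2 := h (algebraMap (𝓞 E) E a) (by omega)
    exact (ordGE_algebraMap_one_iff (v := w) a).1 (Or.inr (by omega))
  exact HeightOneSpectrum.ext ((v.isPrime.isMaximal v.ne_bot).eq_of_le w.isPrime.ne_top hle)

theorem Nq_mapPr (δ : E ≃+* E') (v : Pr E) : Nq (mapPr δ v) = Nq v := by
  unfold Nq
  rw [mapPr_asIdeal, Ideal.absNorm_apply, Ideal.absNorm_apply, Submodule.cardQuot_apply,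
    Submodule.cardQuot_apply]
  refine Nat.card_congr (Ideal.quotientEquiv _ v.asIdeal (RingOfIntegers.mapRingEquiv δ).symm ?_).toEquiv
  exact (Ideal.map_comap_of_surjective _ (RingOfIntegers.mapRingEquiv δ).symm.surjective _).symm

theorem mapPr_mapPr {E'' : Type*} [Field E''] [NumberField E''] (δ : E ≃+* E') (ε : E' ≃+* E'')
    (v : Pr E) : mapPr ε (mapPr δ v) = mapPr (δ.trans ε) v := by
  apply Pr_ext
  intro x hx
  rw [ordv_mapPr', ordv_mapPr'] at hx
  rw [ordv_mapPr']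
  exact hx

@[simp] theorem mapPr_refl (v : Pr E) : mapPr (RingEquiv.refl E) v = v := by
  apply Pr_ext
  intro x hx
  rw [ordv_mapPr'] at hx
  exact hx

end transport

section ext
variable (E : Type*) [Field E] [NumberField E] {E' : Type*} [Field E'] [NumberField E'] [Algebra E E']

instance liesOver_below (Q : Pr E') : Q.asIdeal.LiesOver (below E Q).asIdeal := ⟨rfl⟩

lemma eram_pos (Q : Pr E') : 0 < eram E Q := Ideal.ramificationIdx_pos _ _

lemma fdeg_pos (Q : Pr E') : 0 < fdeg E Q := Ideal.inertiaDeg_pos _ _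

/-- **extension of valuations** -/
theorem ordv_algebraMap (Q : Pr E') (x : E) :
    ordv Q (algebraMap E E' x) = eram E Q * ordv (below E Q) x := by
  have h := HeightOneSpectrum.valuation_liesOver (K := E) E' (below E Q) Q x
  rw [Ideal.ramificationIdx'_eq_ramificationIdx _ _ (below E Q).ne_bot] at h
  simp only [ordv, ← h, WithZero.log_pow, eram]
  simp

theorem Nq_eq_pow (Q : Pr E') : Nq Q = Nq (below E Q) ^ fdeg E Q :=
  (Ideal.absNorm_pow_inertiaDeg (below E Q).asIdeal Q.asIdeal).symm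

theorem ordGE_algebraMap_of (Q : Pr E') {x : E} {n : ℤ} (h : OrdGE (below E Q) x n) (hn : 0 ≤ n) :
    OrdGE Q (algebraMap E E' x) n := by
  rcases h with rfl | h
  · simp
  right
  rw [ordv_algebraMap]
  have := eram_pos E Q
  nlinarith

theorem exists_above (q : Pr E) : ∃ Q : Pr E', below E Q = q := by
  haveI := q.isPrime.isMaximal q.ne_bot
  obtain ⟨Q, hQ, hQq⟩ := Ideal.exists_maximal_ideal_liesOver_of_isIntegral (S := 𝓞 E') q.asIdeal
  have hQ0 : Q ≠ ⊥ := by
    rintro rfl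
    apply q.ne_bot
    rw [hQq.over]
    exact Ideal.under_bot _ _
  refine ⟨⟨Q, hQ.isPrime, hQ0⟩, ?_⟩
  apply HeightOneSpectrum.ext
  exact hQq.over.symm

end ext

end FA14
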