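import Mathlib
import Fermat.Agent.CFT.LocPow
import Fermat.Agent.CFT.Ord3

/-! S14 package [TR], part 3: local consequences of `e = 1` resp. `e = f = 1`
for a Kummer generator (abstract number fields). -/

set_option autoImplicit false
set_option linter.style.haveILetI false

open IsDedekindDomain NumberField
open scoped Pointwise

namespace FA14

section nogal

variable {K L : Type*} [Field K] [NumberField K] [Field L] [NumberField L] [Algebra K L]

theorem ordv_algebraMap_of_eram (Q : Pr L) (he : eram K Q = 1) (x : K) :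
    ordv Q (algebraMap K L x) = ordv (below K Q) x := by
  rw [ordv_algebraMap, he, Nat.cast_one, one_mul]

theorem ordGE_algebraMap_iff_of_eram (Q : Pr L) (he : eram K Q = 1) (x : K) (n : ℤ) :
    OrdGE Q (algebraMap K L x) n ↔ OrdGE (below K Q) x n := by
  unfold OrdGE
  rw [ordv_algebraMap_of_eram Q he, map_eq_zero]

theorem dvd_ordv_of_eram {p : ℕ} (Q : Pr L) (he : eram K Q = 1) {A : L} {α : K}
    (hA : A ^ p = algebraMap K L α) : (p : ℤ) ∣ ordv (below K Q) α := by
  rw [← ordv_algebraMap_of_eram Q he, ← hA, ordv_pow]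
  exact Dvd.intro _ rfl

theorem exists_sub_mem_of_fdeg (Q : Pr L) (hf : fdeg K Q = 1) (a : 𝓞 L) :
    ∃ y : 𝓞 K, a - algebraMap (𝓞 K) (𝓞 L) y ∈ Q.asIdeal := by
  haveI : (below K Q).asIdeal.IsMaximal := (below K Q).isPrime.isMaximal (below K Q).ne_bot
  haveI : Q.asIdeal.IsMaximal := Q.isPrime.isMaximal Q.ne_bot
  letI : Field (𝓞 K ⧸ (below K Q).asIdeal) := Ideal.Quotient.field _
  letI : Field (𝓞 L ⧸ Q.asIdeal) := Ideal.Quotient.field _
  have h1 : Module.finrank (𝓞 K ⧸ (below K Q).asIdeal) (𝓞 L ⧸ Q.asIdeal) = 1 := by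
    rw [← Ideal.inertiaDeg_eq_of_isMaximal (below K Q).asIdeal Q.asIdeal]
    exact hf
  have h2 := Subalgebra.bot_eq_top_of_finrank_eq_one h1
  have h3 : Function.Surjective
      (algebraMap (𝓞 K ⧸ (below K Q).asIdeal) (𝓞 L ⧸ Q.asIdeal)) :=
    Algebra.surjective_algebraMap_iff.mpr h2.symm
  obtain ⟨r, hr⟩ := h3 (Ideal.Quotient.mk _ a)
  obtain ⟨y, rfl⟩ := Ideal.Quotient.mk_surjective r
  refine ⟨y, ?_⟩
  rw [← Ideal.Quotient.eq, ← hr]
  rfl

/-- density of `K` in the completion of `L` at a prime with `e = f = 1` -/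
theorem tr_exists_approx (Q : Pr L) (he : eram K Q = 1) (hf : fdeg K Q = 1) (n : ℕ) :
    ∀ x : L, OrdGE Q x 0 → ∃ y : K, OrdGE Q (x - algebraMap K L y) n := by
  induction n with
  | zero =>
    intro x hx
    exact ⟨0, by simpa using hx⟩
  | succ n ih =>
    intro x hx
    obtain ⟨y, hy⟩ := ih x hx
    obtain ⟨π, hπ⟩ := exists_uniformizer (below K Q)
    have hπ0 : π ≠ 0 := by rintro rfl; simp at hπ
    have hπL : ordv Q (algebraMap K L π) = 1 := by rw [ordv_algebraMap_of_eram Q he, hπ]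
    have hπL0 : algebraMap K L π ≠ 0 := by simpa using hπ0
    set z : L := (x - algebraMap K L y) / (algebraMap K L π) ^ n with hz
    have hz0 : OrdGE Q z 0 := by
      rcases hy with h | h
      · left; rw [hz, h, zero_div]
      · by_cases h0 : x - algebraMap K L y = 0
        · left; rw [hz, h0, zero_div]
        · right
          rw [hz, ordv_div Q h0 (pow_ne_zero _ hπL0), ordv_pow, hπL]
          omega
    obtain ⟨a, ha⟩ := exists_integer_sub Q hz0 1
    obtain ⟨y', hy'⟩ := exists_sub_mem_of_fdeg Q hf a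
    rw [← ordGE_algebraMap_one_iff] at hy'
    have h1 : OrdGE Q (z - algebraMap K L (algebraMap (𝓞 K) K y')) 1 := by
      have := OrdGE.add (by simpa using ha) hy'
      have e : z - algebraMap (𝓞 L) L a + algebraMap (𝓞 L) L (a - algebraMap (𝓞 K) (𝓞 L) y') =
          z - algebraMap K L (algebraMap (𝓞 K) K y') := by
        rw [map_sub]
        have : algebraMap (𝓞 L) L (algebraMap (𝓞 K) (𝓞 L) y') =
          algebraMap K L (algebraMap (𝓞 K) K y') := rfl
        rw [this]
        ring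
      rwa [e] at this
    refine ⟨y + π ^ n * algebraMap (𝓞 K) K y', ?_⟩
    have e2 : x - algebraMap K L (y + π ^ n * algebraMap (𝓞 K) K y') =
        (algebraMap K L π) ^ n * (z - algebraMap K L (algebraMap (𝓞 K) K y')) := by
      rw [hz, map_add, map_mul, map_pow]
      field_simp
      ring
    rw [e2]
    have h2 : OrdGE Q ((algebraMap K L π) ^ n) n := by
      right; rw [ordv_pow, hπL, mul_one]
    have := h2.mul h1
    simpa using this

theorem locPow_of_eram_fdeg {p : ℕ} (hp : p ≠ 0) (Q : Pr L) (he : eram K Q = 1)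
    (hf : fdeg K Q = 1) {A : L} {α : K} (hα : α ≠ 0) (hA : A ^ p = algebraMap K L α) (n : ℤ) :
    LocPow p n (below K Q) α := by
  have hA0 : A ≠ 0 := by
    rintro rfl
    rw [zero_pow hp] at hA
    exact hα ((map_eq_zero _).mp hA.symm)
  obtain ⟨N, hN1, hNn⟩ : ∃ N : ℕ, 0 < N ∧ n ≤ N := ⟨n.toNat + 1, by omega, by omega⟩
  refine LocPow.mono ?_ hNn
  obtain ⟨s, hs0, hs⟩ := exists_ordv_eq (below K Q) (- ordv Q A)
  have hsL : ordv Q (algebraMap K L s) = - ordv Q A := by
    rw [ordv_algebraMap_of_eram Q he, hs]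
  have hsL0 : algebraMap K L s ≠ 0 := by simpa using hs0
  set B : L := A * algebraMap K L s with hBdef
  have hB0 : B ≠ 0 := mul_ne_zero hA0 hsL0
  have hB : ordv Q B = 0 := by rw [hBdef, ordv_mul Q hA0 hsL0, hsL]; omega
  have hBinv : ordv Q B⁻¹ = 0 := by rw [ordv_inv, hB, neg_zero]
  obtain ⟨y, hy⟩ := tr_exists_approx Q he hf N B⁻¹ (Or.inr hBinv.ge)
  have hy0 : y ≠ 0 := by
    rintro rfl
    rw [map_zero, sub_zero] at hy
    have := hy.le (inv_ne_zero hB0)
    rw [hBinv] at this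
    omega
  have hyL0 : algebraMap K L y ≠ 0 := by simpa using hy0
  have hy' : OrdGE Q (algebraMap K L y - B⁻¹) N := by
    have := hy.neg
    rwa [neg_sub] at this
  have hyL : ordv Q (algebraMap K L y) = 0 := by
    rw [ordv_eq_of_ordGE_sub hy' (inv_ne_zero hB0) (by rw [hBinv]; exact_mod_cast hN1), hBinv]
  set u : L := B * algebraMap K L y with hu
  have hu0 : OrdGE Q u 0 := Or.inr (by rw [hu, ordv_mul Q hB0 hyL0, hB, hyL, add_zero])
  have hu1 : OrdGE Q (u - 1) N := by
    have e : u - 1 = B * (algebraMap K L y - B⁻¹) := by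
      rw [hu, mul_sub, mul_inv_cancel₀ hB0]
    rw [e]
    exact OrdGE.mul_left (Or.inr hB.ge) hy'
  have hup : OrdGE Q (u ^ p - 1) N := by
    rw [← geom_sum_mul]
    exact OrdGE.mul_left (OrdGE.sum (fun i _ => hu0.pow_zero i)) hu1
  refine ⟨s * y, mul_ne_zero hs0 hy0, ?_⟩
  rw [← ordGE_algebraMap_iff_of_eram Q he]
  have e : algebraMap K L (α * (s * y) ^ p - 1) = u ^ p - 1 := by
    rw [map_sub, map_mul, map_pow, map_mul, map_one, ← hA, hu, hBdef]
    ring
  rw [e]
  exact hup

end nogal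

section gal

variable {K L : Type*} [Field K] [NumberField K] [Field L] [NumberField L] [Algebra K L]
  [IsGalois K L]

theorem eram_eq_one_of_inertia (Q : Pr L)
    (h : ∀ σ : Gal(L/K), (∀ x : 𝓞 L, σ • x - x ∈ Q.asIdeal) → σ = 1) : eram K Q = 1 := by
  have h1 : Nat.card (Ideal.inertia Gal(L/K) Q.asIdeal) = 1 := by
    rw [Subgroup.card_eq_one, Subgroup.eq_bot_iff_forall]
    intro σ hσ
    exact h σ hσ
  rw [Ideal.card_inertia_eq_ramificationIdxIn (G := Gal(L/K)) (below K Q).asIdeal Q.asIdeal,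
    Ideal.ramificationIdxIn_eq_ramificationIdx (below K Q).asIdeal Q.asIdeal Gal(L/K)] at h1
  exact h1

theorem eram_fdeg_eq_one_of_stabilizer (Q : Pr L)
    (h : ∀ σ : Gal(L/K), σ • Q.asIdeal = Q.asIdeal → σ = 1) : eram K Q = 1 ∧ fdeg K Q = 1 := by
  have h1 : Nat.card (MulAction.stabilizer Gal(L/K) Q.asIdeal) = 1 := by
    rw [Subgroup.card_eq_one, Subgroup.eq_bot_iff_forall]
    intro σ hσ
    exact h σ hσ
  rw [Ideal.card_stabilizer_eq (G := Gal(L/K)) (below K Q).asIdeal Q.asIdeal,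
    Ideal.ramificationIdxIn_eq_ramificationIdx (below K Q).asIdeal Q.asIdeal Gal(L/K),
    Ideal.inertiaDegIn_eq_inertiaDeg (below K Q).asIdeal Q.asIdeal Gal(L/K)] at h1
  exact ⟨Nat.eq_one_of_mul_eq_one_right h1, Nat.eq_one_of_mul_eq_one_left h1⟩

end gal

end FA14
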