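import Mathlib
import Fermat.Agent.CFT.TrGlue
import Fermat.Agent.CFT.TrLoc

/-! S14 package [TR], part 5: local conditions on a Kummer radicand from the action of
absolute inertia / decomposition groups on the Kummer generator. -/

set_option autoImplicit false
set_option linter.style.haveILetI false

namespace FA14

open scoped NumberField Pointwise
open FA13 IsDedekindDomain

theorem tr_arith {K Ω : Type*} [Field K] [NumberField K] [Field Ω] [Algebra K Ω] [IsGalois K Ω]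
    [Algebra ℚ Ω] [Algebra.IsAlgebraic ℚ Ω]
    {p : ℕ} (hp : p ≠ 0) {ζ : K} (hζ : IsPrimitiveRoot ζ p) {A : Ω} {α : K} (hα : α ≠ 0)
    (hA : A ^ p = algebraMap K Ω α) (v : Pr K) (𝔸 : ValuationSubring Ω) {q : ℕ} (hq : q.Prime)
    (h𝔸 : 𝔸.LiesOverPrime q)
    (hv : ∀ x ∈ v.asIdeal, algebraMap K Ω (algebraMap (𝓞 K) K x) ∈ 𝔸.nonunits) :
    ((∀ τ : Ω ≃ₐ[ℚ] Ω, τ ∈ 𝔸.inertiaSubgroupIn ℚ →
        (∀ x : K, τ (algebraMap K Ω x) = algebraMap K Ω x) → τ A = A) → (p : ℤ) ∣ ordv v α) ∧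
    ((∀ τ : Ω ≃ₐ[ℚ] Ω, τ ∈ 𝔸.decompositionSubgroup ℚ →
        (∀ x : K, τ (algebraMap K Ω x) = algebraMap K Ω x) → τ A = A) →
      ∀ n : ℤ, LocPow p n v α) := by
  classical
  have hA0 : A ≠ 0 := by
    rintro rfl
    rw [zero_pow hp] at hA
    exact hα ((map_eq_zero _).mp hA.symm)
  let L : IntermediateField K Ω := IntermediateField.adjoin K {A}
  have hAL : A ∈ L := IntermediateField.mem_adjoin_simple_self K A
  haveI : FiniteDimensional K L :=
    IntermediateField.adjoin.finiteDimensional (Algebra.IsIntegral.isIntegral A)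
  haveI : NumberField L := NumberField.of_module_finite K L
  haveI : Normal K L := by
    rw [IntermediateField.normal_iff_forall_map_le']
    intro σ
    show (IntermediateField.adjoin K {A}).map _ ≤ _
    rw [IntermediateField.adjoin_map, Set.image_singleton, IntermediateField.adjoin_simple_le_iff]
    have h1 : (σ A / A) ^ p = 1 := by
      rw [div_pow, ← map_pow, hA, σ.commutes, div_self]
      rw [← hA]
      exact pow_ne_zero _ hA0
    have hζ' : IsPrimitiveRoot (algebraMap K Ω ζ) p :=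
      hζ.map_of_injective (algebraMap K Ω).injective
    haveI : NeZero p := ⟨hp⟩
    obtain ⟨i, -, hi⟩ := hζ'.eq_pow_of_pow_eq_one h1
    have h2 : σ A = algebraMap K Ω (ζ ^ i) * A := by rw [map_pow, hi, div_mul_cancel₀ _ hA0]
    show σ A ∈ L
    rw [h2]
    exact L.mul_mem (L.algebraMap_mem _) hAL
  haveI : IsGalois K L := ⟨⟩
  -- the prime
  let Q₀ : Ideal (𝓞 L) := (primeOf 𝔸).under (𝓞 L)
  have hQ₀mem : ∀ b : 𝓞 L, b ∈ Q₀ ↔ algebraMap L Ω (algebraMap (𝓞 L) L b) ∈ 𝔸.nonunits :=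
    fun b => Iff.rfl
  have hQ₀prime : Q₀.IsPrime := inferInstance
  have hQ₀ne : Q₀ ≠ ⊥ := by
    intro h
    have h1 : (q : 𝓞 L) ∈ Q₀ := by
      rw [hQ₀mem, map_natCast, map_natCast]
      exact h𝔸
    rw [h, Ideal.mem_bot] at h1
    exact hq.ne_zero (by exact_mod_cast h1)
  let Q : Pr L := ⟨Q₀, hQ₀prime, hQ₀ne⟩
  have hbelow : below K Q = v := by
    apply HeightOneSpectrum.ext
    have hmax : v.asIdeal.IsMaximal := v.isPrime.isMaximal v.ne_bot
    symm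
    apply hmax.eq_of_le (below K Q).isPrime.ne_top
    intro x hx
    show algebraMap (𝓞 K) (𝓞 L) x ∈ Q₀
    rw [hQ₀mem]
    exact hv x hx
  let AL : L := ⟨A, hAL⟩
  have hAL' : AL ^ p = algebraMap K L α := Subtype.ext hA
  have huniq : ∀ σ₀ : Gal(L/K), σ₀ AL = AL → σ₀ = 1 := by
    intro σ₀ h
    have h1 : (σ₀ : L →ₐ[K] L) = AlgHom.id K L := IntermediateField.adjoin_algHom_ext K (by
      intro x hx
      rw [Set.mem_singleton_iff] at hx
      subst hx
      exact h)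
    ext x
    exact congrArg Subtype.val (DFunLike.congr_fun h1 x)
  have hlift : ∀ σ₀ : Gal(L/K), ∃ σ₁ : Ω ≃ₐ[K] Ω,
      ∀ x : L, σ₁ (algebraMap L Ω x) = algebraMap L Ω (σ₀ x) := by
    intro σ₀
    obtain ⟨σ₁, hσ₁⟩ := AlgEquiv.restrictNormalHom_surjective Ω σ₀
    refine ⟨σ₁, fun x => ?_⟩
    rw [← hσ₁]
    exact (AlgEquiv.restrictNormal_commutes σ₁ L x).symm
  constructor
  · intro H
    rw [← hbelow]
    refine dvd_ordv_of_eram Q (eram_eq_one_of_inertia Q ?_) hAL'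
    intro σ₀ hσ₀
    obtain ⟨σ₁, hσ₁⟩ := hlift σ₀
    obtain ⟨h', hh'⟩ := lift_inertia (F := L) 𝔸 σ₁.toRingEquiv σ₀.toRingEquiv hσ₁ (by
      intro x hx
      exact hσ₀ ⟨x, hx⟩)
    let τ : Ω ≃ₐ[ℚ] Ω := ratEquiv (σ₁.toRingEquiv.trans h'.toRingEquiv)
    have hτ : ∀ x, τ x = h' (σ₁ x) := fun x => rfl
    have h3 : τ ∈ 𝔸.inertiaSubgroupIn ℚ := mem_inertia_of_integral 𝔸 hq h𝔸 _ hh'
    have h4 := H τ h3 (by
      intro x
      rw [hτ, σ₁.commutes, IsScalarTower.algebraMap_apply K L Ω, h'.commutes])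
    apply huniq
    apply Subtype.ext
    have h5 : h' (σ₁ (algebraMap L Ω AL)) = A := h4
    rw [hσ₁, h'.commutes] at h5
    exact h5
  · intro H n
    rw [← hbelow]
    obtain ⟨he, hf⟩ := eram_fdeg_eq_one_of_stabilizer (K := K) Q (by
      intro σ₀ hσ₀
      obtain ⟨σ₁, hσ₁⟩ := hlift σ₀
      obtain ⟨h', hh'⟩ := lift_decomp (F := L) 𝔸 σ₁.toRingEquiv σ₀.toRingEquiv hσ₁ (by
        intro x hx
        obtain ⟨b, hb⟩ : ∃ b : 𝓞 L, algebraMap (𝓞 L) L b = x := ⟨⟨x, hx⟩, rfl⟩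
        have e1 : b ∈ Q₀ ↔ σ₀ • b ∈ σ₀ • Q₀ := (Ideal.smul_mem_pointwise_smul_iff).symm
        have e2 : σ₀ • Q₀ = Q₀ := hσ₀
        rw [e2, hQ₀mem, hQ₀mem, hb] at e1
        rw [e1, ← hb]
        rfl)
      let τ : Ω ≃ₐ[ℚ] Ω := ratEquiv (σ₁.toRingEquiv.trans h'.toRingEquiv)
      have hτ : ∀ x, τ x = h' (σ₁ x) := fun x => rfl
      have h3 : τ ∈ 𝔸.decompositionSubgroup ℚ := mem_decomp_of_integral 𝔸 hq h𝔸 _ hh'
      have h4 := H τ h3 (by
        intro x
        rw [hτ, σ₁.commutes, IsScalarTower.algebraMap_apply K L Ω, h'.commutes])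
      apply huniq
      apply Subtype.ext
      have h5 : h' (σ₁ (algebraMap L Ω AL)) = A := h4
      rw [hσ₁, h'.commutes] at h5
      exact h5)
    exact locPow_of_eram_fdeg hp Q he hf hα hAL' n

end FA14
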