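import Mathlib
import Fermat.Prelude.Def_ExtCitation_AdmissibleExtension_v2
import Fermat.Prelude.Def_ExtCitation_KummerBridge

/-! S14 package [TR], part 1: linear algebra.  A non-split admissible extension gives a
"twisted cocycle" `a : G_ℚ → ZMod p`. -/

set_option autoImplicit false

namespace FA14

open ExtCitation

/-- the data extracted from a non-split admissible extension -/
structure CocData (p : ℕ) [Fact p.Prime]
    (a : (AlgebraicClosure ℚ ≃ₐ[ℚ] AlgebraicClosure ℚ) → ZMod p) : Prop where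
  mul : ∀ σ τ, a (σ * τ) = (cycloChar p τ : ZMod p) * a σ + a τ
  ne : ∃ h, cycloChar p h = 1 ∧ a h = 1
  isOpen : ∃ U : Set (AlgebraicClosure ℚ ≃ₐ[ℚ] AlgebraicClosure ℚ), IsOpen U ∧ 1 ∈ U ∧
    ∀ σ ∈ U, cycloChar p σ = 1 ∧ a σ = 0
  unram : ∀ ℓ : ℕ, ℓ.Prime → ℓ ≠ p → ∀ A : ValuationSubring (AlgebraicClosure ℚ),
    A.LiesOverPrime ℓ → ∀ σ ∈ A.inertiaSubgroupIn ℚ, cycloChar p σ = 1 ∧ a σ = 0
  split : ∀ A : ValuationSubring (AlgebraicClosure ℚ), A.LiesOverPrime p →
    ∀ σ ∈ A.decompositionSubgroup ℚ, cycloChar p σ = 1 → a σ = 0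

section lin

variable {p : ℕ} [Fact p.Prime] {V : Type} [AddCommGroup V] [Module (ZMod p) V]

theorem tr_finrank_of_card {W : Type*} [AddCommGroup W] [Module (ZMod p) W] {n : ℕ}
    (hW : Nat.card W = p ^ n) : Module.finrank (ZMod p) W = n := by
  have hp : p.Prime := Fact.out
  have : Finite W := Nat.finite_of_card_ne_zero (by rw [hW]; exact pow_ne_zero _ hp.ne_zero)
  have h1 := Module.natCard_eq_pow_finrank (K := ZMod p) (V := W)
  rw [hW, Nat.card_zmod] at h1
  exact (Nat.pow_right_injective hp.two_le h1).symm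

theorem isCompl_span_of_notMem (C : Submodule (ZMod p) V) (hC : Nat.card C = p)
    (hV : Nat.card V = p ^ 2) {v : V} (hv : v ∉ C) :
    IsCompl C (Submodule.span (ZMod p) {v}) := by
  have hp : p.Prime := Fact.out
  have : Finite V := Nat.finite_of_card_ne_zero (by rw [hV]; exact pow_ne_zero _ hp.ne_zero)
  have h2 : Module.finrank (ZMod p) V = 2 := tr_finrank_of_card hV
  have h1 : Module.finrank (ZMod p) C = 1 := tr_finrank_of_card (by rw [hC, pow_one])
  constructor
  · rw [Submodule.disjoint_def]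
    intro x hx hx'
    obtain ⟨t, rfl⟩ := Submodule.mem_span_singleton.mp hx'
    by_cases ht : t = 0
    · rw [ht, zero_smul]
    · exfalso
      apply hv
      have := C.smul_mem t⁻¹ hx
      rwa [smul_smul, inv_mul_cancel₀ ht, one_smul] at this
  · rw [codisjoint_iff]
    apply Submodule.eq_top_of_finrank_eq
    have hlt : C < C ⊔ Submodule.span (ZMod p) {v} := by
      refine lt_of_le_of_ne le_sup_left ?_
      intro h
      apply hv
      rw [h]
      exact Submodule.mem_sup_right (Submodule.mem_span_singleton_self v)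
    have h3 := Submodule.finrank_lt_finrank_of_lt hlt
    have h4 := Submodule.finrank_le (C ⊔ Submodule.span (ZMod p) {v})
    omega

end lin

section main

variable {p : ℕ} [Fact p.Prime] {V : Type} [AddCommGroup V] [Module (ZMod p) V]
  [DistribMulAction (AlgebraicClosure ℚ ≃ₐ[ℚ] AlgebraicClosure ℚ) V]
  [SMulCommClass (AlgebraicClosure ℚ ≃ₐ[ℚ] AlgebraicClosure ℚ) (ZMod p) V]

theorem exists_cocData {C : Submodule (ZMod p) V} (hadm : IsAdmissibleExtensionCts p V C)
    (hσ₀ : ∃ σ₀, cycloChar p σ₀ ≠ 1) (hns : ¬ SplitsGlobally C) : ∃ a, CocData p a := by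
  have hp : p.Prime := Fact.out
  have hV := hadm.card_total
  have hC := hadm.card_sub
  have : Finite V := Nat.finite_of_card_ne_zero (by rw [hV]; exact pow_ne_zero _ hp.ne_zero)
  have h1 : Module.finrank (ZMod p) C = 1 := tr_finrank_of_card (by rw [hC, pow_one])
  have hquot : ∀ σ (x : V), σ • x - (cycloChar p σ : ZMod p) • x ∈ C := by
    intro σ x
    rw [coe_cycloChar]
    exact hadm.cyclo_quot σ x
  -- a vector outside `C`
  obtain ⟨v₀, hv₀⟩ : ∃ v₀ : V, v₀ ∉ C := by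
    by_contra hcon
    push Not at hcon
    have htop : C = ⊤ := by rw [eq_top_iff]; exact fun x _ => hcon x
    have h2 : Nat.card C = Nat.card V := by
      rw [htop]; exact Nat.card_congr (Submodule.topEquiv (R := ZMod p) (M := V)).toEquiv
    rw [hC, hV] at h2
    have : p ^ 1 = p ^ 2 := by rw [pow_one]; exact h2
    have := Nat.pow_right_injective hp.two_le this
    omega
  let φ : C ≃ₗ[ZMod p] ZMod p := LinearEquiv.ofFinrankEq _ _ (by rw [h1, Module.finrank_self])
  let a₀ : (AlgebraicClosure ℚ ≃ₐ[ℚ] AlgebraicClosure ℚ) → ZMod p :=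
    fun σ => φ ⟨σ • v₀ - (cycloChar p σ : ZMod p) • v₀, hquot σ v₀⟩
  have ha₀ : ∀ σ, a₀ σ = 0 ↔ σ • v₀ = (cycloChar p σ : ZMod p) • v₀ := by
    intro σ
    show φ _ = 0 ↔ _
    rw [LinearEquiv.map_eq_zero_iff, Submodule.mk_eq_zero, sub_eq_zero]
  have hmul : ∀ σ τ, a₀ (σ * τ) = (cycloChar p τ : ZMod p) * a₀ σ + a₀ τ := by
    intro σ τ
    show φ _ = (cycloChar p τ : ZMod p) * φ _ + φ _
    have hsm : ∀ (x : ZMod p) (y : C), x * φ y = φ (x • y) := fun x y => by
      rw [map_smul, smul_eq_mul]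
    rw [hsm, ← map_add]
    congr 1
    apply Subtype.ext
    show (σ * τ) • v₀ - (cycloChar p (σ * τ) : ZMod p) • v₀ =
      (cycloChar p τ : ZMod p) • (σ • v₀ - (cycloChar p σ : ZMod p) • v₀) +
        (τ • v₀ - (cycloChar p τ : ZMod p) • v₀)
    have e1 := hadm.fixed_sub σ _ (hquot τ v₀)
    rw [smul_sub, smul_comm σ (cycloChar p τ : ZMod p) v₀] at e1
    rw [map_mul, Units.val_mul, mul_comm (cycloChar p σ : ZMod p), mul_smul, mul_smul, smul_sub,
      ← e1]
    abel
  have htriv : ∀ σ, (∀ x : V, σ • x = x) → cycloChar p σ = 1 ∧ a₀ σ = 0 := by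
    intro σ hσ
    have e1 := hquot σ v₀
    rw [hσ v₀] at e1
    have e2 : (cycloChar p σ : ZMod p) = 1 := by
      by_contra hne
      apply hv₀
      have e3 : (1 - (cycloChar p σ : ZMod p)) • v₀ ∈ C := by rwa [sub_smul, one_smul]
      have hne' : (1 - (cycloChar p σ : ZMod p)) ≠ 0 := sub_ne_zero.mpr (Ne.symm hne)
      have := C.smul_mem (1 - (cycloChar p σ : ZMod p))⁻¹ e3
      rwa [smul_smul, inv_mul_cancel₀ hne', one_smul] at this
    refine ⟨Units.ext e2, ?_⟩
    rw [ha₀, hσ v₀, e2, one_smul]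
  -- the restriction to `ker χ` is nonzero
  obtain ⟨h₀, hh₀, hh₀a⟩ : ∃ h, cycloChar p h = 1 ∧ a₀ h ≠ 0 := by
    by_contra hcon
    push Not at hcon
    apply hns
    obtain ⟨σ₀, hσ₀⟩ := hσ₀
    have hσ₀' : (cycloChar p σ₀ : ZMod p) - 1 ≠ 0 := by
      rw [sub_ne_zero]
      intro h
      exact hσ₀ (Units.ext h)
    have hcomm : ∀ σ, a₀ (σ * σ₀) = a₀ (σ₀ * σ) := by
      intro σ
      have e1 : σ * σ₀ = (σ * σ₀ * σ⁻¹ * σ₀⁻¹) * (σ₀ * σ) := by group
      have e2 : cycloChar p (σ * σ₀ * σ⁻¹ * σ₀⁻¹) = 1 := by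
        simp only [map_mul, map_inv]
        rw [mul_comm (cycloChar p σ), mul_assoc, mul_assoc, mul_inv_cancel_left, mul_inv_cancel]
      rw [e1, hmul, hcon _ e2, mul_zero, zero_add]
    have hkey : ∀ σ, a₀ σ * ((cycloChar p σ₀ : ZMod p) - 1) =
        a₀ σ₀ * ((cycloChar p σ : ZMod p) - 1) := by
      intro σ
      have := hcomm σ
      rw [hmul, hmul] at this
      linear_combination this
    -- the eigenvector
    let t : ZMod p := a₀ σ₀ / ((cycloChar p σ₀ : ZMod p) - 1)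
    let c₀ : C := φ.symm t
    have hv₁ : v₀ + (c₀ : V) ∉ C := by
      intro h
      apply hv₀
      have := C.sub_mem h c₀.2
      rwa [add_sub_cancel_right] at this
    refine ⟨Submodule.span (ZMod p) {v₀ + (c₀ : V)}, ?_, isCompl_span_of_notMem C hC hV hv₁⟩
    intro σ x hx
    obtain ⟨s, rfl⟩ := Submodule.mem_span_singleton.mp hx
    rw [smul_comm]
    apply Submodule.smul_mem
    have e1 : σ • (v₀ + (c₀ : V)) = (cycloChar p σ : ZMod p) • (v₀ + (c₀ : V)) := by
      rw [smul_add, hadm.fixed_sub σ _ c₀.2, smul_add]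
      have e2 : (⟨σ • v₀ - (cycloChar p σ : ZMod p) • v₀, hquot σ v₀⟩ : C) =
          ((cycloChar p σ : ZMod p) - 1) • c₀ := by
        apply φ.injective
        rw [map_smul, LinearEquiv.apply_symm_apply]
        show a₀ σ = ((cycloChar p σ : ZMod p) - 1) * (a₀ σ₀ / ((cycloChar p σ₀ : ZMod p) - 1))
        field_simp
        linear_combination hkey σ
      have e3 := congrArg (Subtype.val) e2
      simp only [Submodule.coe_smul] at e3
      rw [sub_eq_iff_eq_add] at e3
      rw [e3, sub_smul, one_smul]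
      abel
    rw [e1]
    exact Submodule.smul_mem _ _ (Submodule.mem_span_singleton_self _)
  refine ⟨fun σ => (a₀ h₀)⁻¹ * a₀ σ, ?_, ⟨h₀, hh₀, inv_mul_cancel₀ hh₀a⟩, ?_, ?_, ?_⟩
  · intro σ τ
    show (a₀ h₀)⁻¹ * a₀ (σ * τ) = _ * ((a₀ h₀)⁻¹ * a₀ σ) + (a₀ h₀)⁻¹ * a₀ τ
    rw [hmul]
    ring
  · refine ⟨_, hadm.open_kernel, fun v => one_smul _ v, fun σ hσ => ?_⟩
    obtain ⟨e1, e2⟩ := htriv σ hσ
    exact ⟨e1, by show _ * a₀ σ = 0; rw [e2, mul_zero]⟩
  · intro ℓ hℓ hℓp A hA σ hσ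
    obtain ⟨e1, e2⟩ := htriv σ (hadm.unramified_outside ℓ hℓ hℓp A hA σ hσ)
    exact ⟨e1, by show _ * a₀ σ = 0; rw [e2, mul_zero]⟩
  · intro A hA σ hσ hχ
    show _ * a₀ σ = 0
    obtain ⟨C', hC', hcompl⟩ := hadm.locally_split A hA
    have hmem : v₀ ∈ C ⊔ C' := by rw [hcompl.sup_eq_top]; exact Submodule.mem_top
    obtain ⟨c, hc, c', hc', hsum⟩ := Submodule.mem_sup.mp hmem
    have e1 : σ • c' - c' ∈ C := by
      have := hquot σ c'
      rwa [hχ, Units.val_one, one_smul] at this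
    have e2 : σ • c' - c' ∈ C' := C'.sub_mem (hC' σ hσ c' hc') hc'
    have e3 : σ • c' - c' = 0 := by
      have := (Submodule.disjoint_def.mp hcompl.disjoint) _ e1 e2
      exact this
    have e4 : a₀ σ = 0 := by
      rw [ha₀, hχ, Units.val_one, one_smul, ← hsum, smul_add, hadm.fixed_sub σ c hc,
        sub_eq_zero.mp e3]
    rw [e4, mul_zero]

end main

end FA14
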