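import Mathlib
import Fermat.Agent.CFT.TrLin

/-! S14 package [TR], part 2: the Kummer generator attached to a twisted cocycle. -/

set_option autoImplicit false
set_option linter.style.haveILetI false
set_option linter.unusedSectionVars false

namespace FA14

open ExtCitation

local notation "Ω" => AlgebraicClosure ℚ
local notation "GQ" => (AlgebraicClosure ℚ ≃ₐ[ℚ] AlgebraicClosure ℚ)

local instance isAlgebraicQbar_tr : Algebra.IsAlgebraic ℚ (AlgebraicClosure ℚ) :=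
  AlgebraicClosure.isAlgebraic ℚ
local instance isAlgClosureQbar_tr : IsAlgClosure ℚ (AlgebraicClosure ℚ) :=
  ⟨inferInstance, inferInstance⟩
local instance normalQbar_tr : Normal ℚ (AlgebraicClosure ℚ) :=
  IsAlgClosure.normal ℚ (AlgebraicClosure ℚ)
local instance isGaloisQbar_tr : IsGalois ℚ (AlgebraicClosure ℚ) :=
  IsAlgClosure.isGalois ℚ (AlgebraicClosure ℚ)

section basic

variable {p : ℕ} [Fact p.Prime]

theorem tr_apply_root (σ : GQ) {ζ : Ω} (hζ : ζ ^ p = 1) :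
    σ ζ = ζ ^ (cycloChar p σ : ZMod p).val := by
  have hp : p.Prime := Fact.out
  haveI : NeZero p := ⟨hp.ne_zero⟩
  have h := modularCyclotomicCharacter.spec (L := Ω) (card_rootsOfUnity_eq_self p)
    (σ : Ω ≃+* Ω) (t := (rootsOfUnity.mkOfPowEq ζ hζ : Ωˣ)) (rootsOfUnity.mkOfPowEq ζ hζ).2
  have h' : σ ζ = ζ ^ ((modularCyclotomicCharacter Ω (card_rootsOfUnity_eq_self p)
      (σ : Ω ≃+* Ω) : (ZMod p)ˣ) : ZMod p).val := by simpa using h
  exact h'

/-- `ζ ^ x` for `x : ZMod p` -/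
noncomputable def trze {R : Type*} [Monoid R] (ζ : R) (x : ZMod p) : R := ζ ^ x.val

section trze
variable {R : Type*} [Monoid R] {ζ : R} (hζ : ζ ^ p = 1)
include hζ

theorem trze_natCast (n : ℕ) : trze ζ (n : ZMod p) = ζ ^ n := by
  rw [trze, ZMod.val_natCast, ← pow_eq_pow_mod n hζ]

theorem trze_add (x y : ZMod p) : trze ζ (x + y) = trze ζ x * trze ζ y := by
  have hp : p.Prime := Fact.out
  haveI : NeZero p := ⟨hp.ne_zero⟩
  have h := trze_natCast hζ (x.val + y.val)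
  rw [Nat.cast_add, ZMod.natCast_zmod_val, ZMod.natCast_zmod_val, pow_add] at h
  exact h

theorem trze_mul (x y : ZMod p) : trze ζ (x * y) = (trze ζ x) ^ y.val := by
  have hp : p.Prime := Fact.out
  haveI : NeZero p := ⟨hp.ne_zero⟩
  have h := trze_natCast hζ (x.val * y.val)
  rw [Nat.cast_mul, ZMod.natCast_zmod_val, ZMod.natCast_zmod_val, pow_mul] at h
  exact h

theorem trze_mul_natCast (x : ZMod p) (n : ℕ) : trze ζ (x * (n : ZMod p)) = (trze ζ x) ^ n := by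
  have hp : p.Prime := Fact.out
  haveI : NeZero p := ⟨hp.ne_zero⟩
  have h := trze_natCast hζ (x.val * n)
  rw [Nat.cast_mul, ZMod.natCast_zmod_val, pow_mul] at h
  exact h

theorem trze_pow_p (x : ZMod p) : (trze ζ x) ^ p = 1 := by
  rw [trze, ← pow_mul, mul_comm, pow_mul, hζ, one_pow]

omit hζ in
theorem trze_zero : trze ζ (0 : ZMod p) = 1 := by
  rw [trze, ZMod.val_zero, pow_zero]

omit hζ in
theorem trze_one : trze ζ (1 : ZMod p) = ζ := by
  have hp : p.Prime := Fact.out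
  haveI : Fact (1 < p) := ⟨hp.one_lt⟩
  rw [trze, ZMod.val_one, pow_one]

end trze

theorem apply_trze (σ : GQ) {ζ : Ω} (hζ : ζ ^ p = 1) (x : ZMod p) :
    σ (trze ζ x) = trze ζ ((cycloChar p σ : ZMod p) * x) := by
  rw [trze_mul hζ, trze, trze, map_pow, tr_apply_root σ hζ]

theorem cycloChar_eq_one_iff (σ : GQ) {ζ : Ω} (hζ : IsPrimitiveRoot ζ p) :
    cycloChar p σ = 1 ↔ σ ζ = ζ := by
  have hp : p.Prime := Fact.out
  haveI : NeZero p := ⟨hp.ne_zero⟩
  haveI : Fact (1 < p) := ⟨hp.one_lt⟩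
  rw [tr_apply_root σ hζ.pow_eq_one]
  constructor
  · intro h
    rw [h, Units.val_one, ZMod.val_one, pow_one]
  · intro h
    have h1 : ζ ^ (cycloChar p σ : ZMod p).val = ζ ^ 1 := by rw [h, pow_one]
    have h2 := hζ.pow_inj (ZMod.val_lt _) hp.one_lt h1
    apply Units.ext
    apply ZMod.val_injective
    rw [h2, Units.val_one, ZMod.val_one]

theorem exists_cycloChar_ne_one (h3 : 3 ≤ p) : ∃ σ₀ : GQ, cycloChar p σ₀ ≠ 1 := by
  have hp : p.Prime := Fact.out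
  haveI : NeZero p := ⟨hp.ne_zero⟩
  obtain ⟨ζ, hζ⟩ := HasEnoughRootsOfUnity.exists_primitiveRoot Ω p
  by_contra hcon
  push Not at hcon
  have h1 : ζ ∈ Set.range (algebraMap ℚ Ω) := by
    rw [InfiniteGalois.mem_range_algebraMap_iff_fixed]
    intro σ
    exact (cycloChar_eq_one_iff σ hζ).mp (hcon σ)
  obtain ⟨r, hr⟩ := h1
  have h2 : IsPrimitiveRoot r p := by
    rw [← hr] at hζ
    exact hζ.of_map_of_injective (algebraMap ℚ Ω).injective
  have h3' : r ^ p = 1 := h2.pow_eq_one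
  have hodd : Odd p := hp.odd_of_ne_two (by omega)
  have h4 : r = 1 := by
    have h5 : r ^ p = 1 ^ p := by rw [h3', one_pow]
    exact hodd.pow_inj.mp h5
  rw [h4] at h2
  have := h2.eq_orderOf
  rw [orderOf_one] at this
  omega

end basic

section coc

variable {p : ℕ} [Fact p.Prime] {a : GQ → ZMod p} (hd : CocData p a)
include hd

theorem CocData.map_one : a 1 = 0 := by
  have h := hd.mul 1 1
  rw [mul_one, _root_.map_one, Units.val_one, one_mul] at h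
  exact left_eq_add.mp h

theorem CocData.mul_of_eq_one (σ : GQ) {τ : GQ} (hτ : cycloChar p τ = 1) :
    a (σ * τ) = a σ + a τ := by
  rw [hd.mul, hτ, Units.val_one, one_mul]

theorem CocData.map_inv (σ : GQ) : a σ⁻¹ = - (((cycloChar p σ)⁻¹ : (ZMod p)ˣ) : ZMod p) * a σ := by
  have h := hd.mul σ σ⁻¹
  rw [mul_inv_cancel, hd.map_one, _root_.map_inv] at h
  linear_combination -h

theorem CocData.map_conj (g : GQ) {h : GQ} (hh : cycloChar p h = 1) :
    a (g * h * g⁻¹) = (((cycloChar p g)⁻¹ : (ZMod p)ˣ) : ZMod p) * a h := by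
  rw [hd.mul, hd.mul_of_eq_one g hh, hd.map_inv, _root_.map_inv]
  ring

theorem CocData.map_conj' (g : GQ) {h : GQ} (hh : cycloChar p h = 1) :
    a (g⁻¹ * h * g) = (cycloChar p g : ZMod p) * a h := by
  have := hd.map_conj g⁻¹ hh
  rwa [inv_inv, _root_.map_inv, inv_inv] at this

theorem CocData.map_pow {h : GQ} (hh : cycloChar p h = 1) (k : ℕ) : a (h ^ k) = k * a h := by
  induction k with
  | zero => rw [pow_zero, hd.map_one, Nat.cast_zero, zero_mul]
  | succ k ih => rw [pow_succ, hd.mul_of_eq_one _ hh, ih]; push_cast; ring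

/-- the kernel of the cocycle -/
def CocData.ker : Subgroup GQ where
  carrier := {σ | cycloChar p σ = 1 ∧ a σ = 0}
  mul_mem' := fun {σ τ} hσ hτ => ⟨by rw [map_mul, hσ.1, hτ.1, one_mul], by
    rw [hd.mul_of_eq_one σ hτ.1, hσ.2, hτ.2, add_zero]⟩
  one_mem' := ⟨_root_.map_one _, hd.map_one⟩
  inv_mem' := fun {σ} hσ => ⟨by rw [_root_.map_inv, hσ.1, inv_one], by
    rw [hd.map_inv, hσ.2, mul_zero]⟩

theorem CocData.mem_ker {σ : GQ} : σ ∈ hd.ker ↔ cycloChar p σ = 1 ∧ a σ = 0 := Iff.rfl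

theorem CocData.conj_mem_ker (g : GQ) {h : GQ} (hh : h ∈ hd.ker) : g⁻¹ * h * g ∈ hd.ker := by
  refine ⟨?_, ?_⟩
  · rw [map_mul, map_mul, hh.1, mul_one, _root_.map_inv, inv_mul_cancel]
  · rw [hd.map_conj' g hh.1, hh.2, mul_zero]

theorem CocData.isOpen_ker : IsOpen (hd.ker : Set GQ) := by
  obtain ⟨U, hU, h1, hUa⟩ := hd.isOpen
  apply Subgroup.isOpen_of_mem_nhds (g := 1)
  exact Filter.mem_of_superset (hU.mem_nhds h1) (fun σ hσ => hUa σ hσ)

theorem CocData.fixing_fixed :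
    (IntermediateField.fixedField hd.ker).fixingSubgroup = hd.ker :=
  InfiniteGalois.fixingSubgroup_fixedField
    (⟨hd.ker, Subgroup.isClosed_of_isOpen _ hd.isOpen_ker⟩ : ClosedSubgroup GQ)

theorem CocData.exists_kummer_gen {ζ : Ω} (hζ : IsPrimitiveRoot ζ p) :
    ∃ A : Ω, A ≠ 0 ∧ ∀ h : GQ, cycloChar p h = 1 → h A = trze ζ (a h) * A := by
  classical
  have hp : p.Prime := Fact.out
  haveI : NeZero p := ⟨hp.ne_zero⟩
  have hζ1 := hζ.pow_eq_one
  obtain ⟨h₀, hh₀, hh₀a⟩ := hd.ne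
  have hpow : ∀ k : ℕ, a (h₀ ^ k) = k := fun k => by rw [hd.map_pow hh₀, hh₀a, mul_one]
  have hpowχ : ∀ k : ℕ, cycloChar p (h₀ ^ k) = 1 := fun k => by rw [_root_.map_pow, hh₀, one_pow]
  let L₀ := IntermediateField.fixedField hd.ker
  let f : Fin p → (L₀ →* Ω) := fun i =>
    ((h₀ ^ (i : ℕ) : GQ) : Ω →* Ω).comp (algebraMap L₀ Ω : L₀ →* Ω)
  have hf : ∀ (i : Fin p) (x : L₀), f i x = (h₀ ^ (i : ℕ)) (x : Ω) := fun i x => rfl
  have hinj : Function.Injective f := by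
    intro i j hij
    have h1 : (h₀ ^ (j : ℕ))⁻¹ * h₀ ^ (i : ℕ) ∈ L₀.fixingSubgroup := by
      intro x
      show ((h₀ ^ (j : ℕ))⁻¹ * h₀ ^ (i : ℕ)) (x : Ω) = x
      have h2 := DFunLike.congr_fun hij x
      rw [hf, hf] at h2
      rw [AlgEquiv.mul_apply, h2]
      show ((h₀ ^ (j : ℕ))⁻¹ * (h₀ ^ (j : ℕ))) (x : Ω) = x
      rw [inv_mul_cancel]
      rfl
    rw [hd.fixing_fixed] at h1
    have h3 := h1.2
    rw [hd.mul_of_eq_one _ (hpowχ _), hd.map_inv, hpowχ, inv_one, Units.val_one, hpow, hpow] at h3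
    have h4 : ((i : ℕ) : ZMod p) = ((j : ℕ) : ZMod p) := by linear_combination h3
    have h5 := congrArg ZMod.val h4
    rw [ZMod.val_natCast, ZMod.val_natCast, Nat.mod_eq_of_lt i.2, Nat.mod_eq_of_lt j.2] at h5
    exact Fin.ext h5
  have hli := (linearIndependent_monoidHom L₀ Ω).comp f hinj
  rw [Fintype.linearIndependent_iff] at hli
  obtain ⟨θ, hθ⟩ : ∃ θ : L₀, ∑ i : Fin p, trze ζ (-((i : ℕ) : ZMod p)) * f i θ ≠ 0 := by
    by_contra hcon
    push Not at hcon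
    have h1 := hli (fun i => trze ζ (-((i : ℕ) : ZMod p))) (by
      ext θ
      simpa using hcon θ) ⟨0, hp.pos⟩
    have h2 : trze ζ (-(((⟨0, hp.pos⟩ : Fin p) : ℕ) : ZMod p)) = 1 := by
      simp [trze_zero]
    rw [h2] at h1
    exact one_ne_zero h1
  let F : ℕ → Ω := fun i => trze ζ (-(i : ZMod p)) * (h₀ ^ i) (θ : Ω)
  have hsum : ∑ i : Fin p, trze ζ (-((i : ℕ) : ZMod p)) * f i θ = ∑ i ∈ Finset.range p, F i :=
    (Finset.sum_range F).symm
  rw [hsum] at hθ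
  have hθfix : ∀ h ∈ hd.ker, h (θ : Ω) = θ := fun h hh => θ.2 ⟨h, hh⟩
  have hfixze : ∀ (h : GQ), cycloChar p h = 1 → ∀ x : ZMod p, h (trze ζ x) = trze ζ x := by
    intro h hh x
    rw [apply_trze h hζ1, hh, Units.val_one, one_mul]
  -- `h₀` multiplies by `ζ`
  have hA₀ : h₀ (∑ i ∈ Finset.range p, F i) = ζ * ∑ i ∈ Finset.range p, F i := by
    have e1 : ∀ i, h₀ (F i) = ζ * F (i + 1) := by
      intro i
      show h₀ (trze ζ (-(i : ZMod p)) * (h₀ ^ i) (θ : Ω)) =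
        ζ * (trze ζ (-((i + 1 : ℕ) : ZMod p)) * (h₀ ^ (i + 1)) (θ : Ω))
      rw [map_mul, hfixze h₀ hh₀, ← mul_assoc]
      congr 1
      · have e0 : ζ * trze ζ (-((i + 1 : ℕ) : ZMod p)) =
            trze ζ (1 : ZMod p) * trze ζ (-((i + 1 : ℕ) : ZMod p)) := by rw [trze_one]
        rw [e0, ← trze_add hζ1]
        congr 1
        push_cast
        ring
      · rw [pow_succ', AlgEquiv.mul_apply]
    have e2 : F p = F 0 := by
      show trze ζ (-(p : ZMod p)) * (h₀ ^ p) (θ : Ω) = trze ζ (-((0 : ℕ) : ZMod p)) * (h₀ ^ 0) (θ : Ω)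
      rw [hθfix (h₀ ^ p) ⟨hpowχ p, by rw [hpow, ZMod.natCast_self]⟩, ZMod.natCast_self,
        Nat.cast_zero, pow_zero]
      rfl
    have e3 : ∑ i ∈ Finset.range p, F (i + 1) = ∑ i ∈ Finset.range p, F i := by
      have := Finset.sum_range_succ' F p
      rw [Finset.sum_range_succ, e2] at this
      exact (add_right_cancel this).symm
    rw [map_sum, Finset.sum_congr rfl (fun i _ => e1 i), ← Finset.mul_sum, e3]
  -- `ker` fixes it
  have hA₁ : ∀ h ∈ hd.ker, h (∑ i ∈ Finset.range p, F i) = ∑ i ∈ Finset.range p, F i := by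
    intro h hh
    rw [map_sum]
    refine Finset.sum_congr rfl (fun i _ => ?_)
    show h (trze ζ (-(i : ZMod p)) * (h₀ ^ i) (θ : Ω)) = trze ζ (-(i : ZMod p)) * (h₀ ^ i) (θ : Ω)
    rw [map_mul, hfixze h hh.1]
    congr 1
    have e1 := hθfix _ (hd.conj_mem_ker (h₀ ^ i) hh)
    have e2 : h * h₀ ^ i = h₀ ^ i * ((h₀ ^ i)⁻¹ * h * h₀ ^ i) := by group
    calc h ((h₀ ^ i) (θ : Ω)) = (h * h₀ ^ i) (θ : Ω) := rfl
      _ = (h₀ ^ i * ((h₀ ^ i)⁻¹ * h * h₀ ^ i)) (θ : Ω) := by rw [← e2]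
      _ = (h₀ ^ i) (((h₀ ^ i)⁻¹ * h * h₀ ^ i) (θ : Ω)) := rfl
      _ = (h₀ ^ i) (θ : Ω) := by rw [e1]
  refine ⟨∑ i ∈ Finset.range p, F i, hθ, fun h hh => ?_⟩
  set A := ∑ i ∈ Finset.range p, F i with hAdef
  have hpowA : ∀ k : ℕ, (h₀ ^ k) A = ζ ^ k * A := by
    intro k
    induction k with
    | zero => rw [pow_zero, pow_zero, one_mul]; rfl
    | succ k ih =>
      rw [pow_succ', AlgEquiv.mul_apply, ih, map_mul, _root_.map_pow,
        (cycloChar_eq_one_iff h₀ hζ).mp hh₀, hA₀]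
      ring
  have hmem : (h₀ ^ (a h).val)⁻¹ * h ∈ hd.ker := by
    refine ⟨by rw [map_mul, _root_.map_inv, hpowχ, hh, inv_one, one_mul], ?_⟩
    rw [hd.mul_of_eq_one _ hh, hd.map_inv, hpowχ, inv_one, Units.val_one, hpow,
      ZMod.natCast_zmod_val]
    ring
  have e1 : h = h₀ ^ (a h).val * ((h₀ ^ (a h).val)⁻¹ * h) := by group
  calc h A = (h₀ ^ (a h).val * ((h₀ ^ (a h).val)⁻¹ * h)) A := by rw [← e1]
    _ = (h₀ ^ (a h).val) (((h₀ ^ (a h).val)⁻¹ * h) A) := rfl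
    _ = (h₀ ^ (a h).val) A := by rw [hA₁ _ hmem]
    _ = trze ζ (a h) * A := hpowA _

theorem CocData.conj_gen {ζ : Ω} (hζ : IsPrimitiveRoot ζ p) {A : Ω}
    (hA : ∀ h : GQ, cycloChar p h = 1 → h A = trze ζ (a h) * A) (g : GQ) (k : ℕ)
    (hg : g ζ = ζ ^ k) (h : GQ) (hh : cycloChar p h = 1) :
    h (g A / A ^ (k ^ 2)) = g A / A ^ (k ^ 2) := by
  have hp : p.Prime := Fact.out
  haveI : NeZero p := ⟨hp.ne_zero⟩
  have hζ1 := hζ.pow_eq_one
  have hχ : (cycloChar p g : ZMod p) = (k : ZMod p) := by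
    have h1 := tr_apply_root g hζ1
    rw [hg, ← trze_natCast hζ1 k] at h1
    have h2 := hζ.pow_inj (ZMod.val_lt _) (ZMod.val_lt _) h1
    exact (ZMod.val_injective p h2).symm
  have hconjχ : cycloChar p (g⁻¹ * h * g) = 1 := by
    rw [map_mul, map_mul, hh, mul_one, _root_.map_inv, inv_mul_cancel]
  have e1 : h (g A) = trze ζ (a h * ((k ^ 2 : ℕ) : ZMod p)) * g A := by
    have e0 : h * g = g * (g⁻¹ * h * g) := by group
    calc h (g A) = (h * g) A := rfl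
      _ = (g * (g⁻¹ * h * g)) A := by rw [← e0]
      _ = g ((g⁻¹ * h * g) A) := rfl
      _ = g (trze ζ (a (g⁻¹ * h * g)) * A) := by rw [hA _ hconjχ]
      _ = trze ζ (a h * ((k ^ 2 : ℕ) : ZMod p)) * g A := by
        rw [map_mul, apply_trze g hζ1, hd.map_conj' g hh, hχ]
        congr 2
        push_cast
        ring
  have e2 : h (A ^ (k ^ 2)) = trze ζ (a h * ((k ^ 2 : ℕ) : ZMod p)) * A ^ (k ^ 2) := by
    rw [_root_.map_pow, hA h hh, mul_pow, trze_mul_natCast hζ1]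
  have hz : trze ζ (a h * ((k ^ 2 : ℕ) : ZMod p)) ≠ 0 := pow_ne_zero _ (hζ.ne_zero hp.ne_zero)
  rw [map_div₀, e1, e2, mul_div_mul_left _ _ hz]

omit hd in
theorem mem_adjoin_zeta {ζ : Ω} (hζ : IsPrimitiveRoot ζ p) {x : Ω}
    (hx : ∀ h : GQ, cycloChar p h = 1 → h x = x) : x ∈ IntermediateField.adjoin ℚ {ζ} := by
  rw [← InfiniteGalois.fixedField_fixingSubgroup (IntermediateField.adjoin ℚ {ζ}),
    IntermediateField.mem_fixedField_iff]
  intro h hh
  apply hx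
  rw [cycloChar_eq_one_iff h hζ]
  exact hh ⟨ζ, IntermediateField.mem_adjoin_simple_self ℚ ζ⟩

end coc

end FA14
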