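import Mathlib
import Fermat.Agent.CFT.TrKum
import Fermat.Agent.CFT.TrArith

/-! S14 package [TR], part 6: `ExtVanishingCts p` from the statement [CORE]. -/

set_option autoImplicit false
set_option linter.style.haveILetI false

namespace FA14

open scoped NumberField
open ExtCitation IsDedekindDomain

local notation "Ω" => AlgebraicClosure ℚ
local notation "GQ" => (AlgebraicClosure ℚ ≃ₐ[ℚ] AlgebraicClosure ℚ)

local instance isAlgebraicQbar_trf : Algebra.IsAlgebraic ℚ (AlgebraicClosure ℚ) :=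
  AlgebraicClosure.isAlgebraic ℚ
local instance isAlgClosureQbar_trf : IsAlgClosure ℚ (AlgebraicClosure ℚ) :=
  ⟨inferInstance, inferInstance⟩
local instance normalQbar_trf : Normal ℚ (AlgebraicClosure ℚ) :=
  IsAlgClosure.normal ℚ (AlgebraicClosure ℚ)
local instance isGaloisQbar_trf : IsGalois ℚ (AlgebraicClosure ℚ) :=
  IsAlgClosure.isGalois ℚ (AlgebraicClosure ℚ)

/-- the statement of [CORE] -/
def CoreStatement (p : ℕ) [Fact p.Prime] : Prop :=
  ∀ (K : Type) [Field K] [NumberField K] [IsCyclotomicExtension {p} ℚ K] (ζ : K)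
    (_ : IsPrimitiveRoot ζ p) (α : K) (_ : α ≠ 0)
    (_ : ∀ v : Pr K, (p : ℤ) ∣ ordv v α)
    (_ : ∀ v : Pr K, 0 < ordv v (p : K) → ∀ n : ℤ, LocPow p n v α)
    (_ : ∀ (δ : K ≃ₐ[ℚ] K) (k : ℕ), δ ζ = ζ ^ k → ∃ β : K, δ α = α ^ (k ^ 2) * β ^ p),
    ∃ c : K, c ^ p = α

theorem tr_exists_prime_mem {K : Type*} [Field K] [NumberField K] (v : Pr K) :
    ∃ q : ℕ, q.Prime ∧ (q : 𝓞 K) ∈ v.asIdeal := by
  haveI : v.asIdeal.IsMaximal := v.isPrime.isMaximal v.ne_bot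
  letI : Field (𝓞 K ⧸ v.asIdeal) := Ideal.Quotient.field _
  haveI : Finite (𝓞 K ⧸ v.asIdeal) := Ideal.finiteQuotientOfFreeOfNeBot _ v.ne_bot
  obtain ⟨q, hq⟩ := CharP.exists (𝓞 K ⧸ v.asIdeal)
  refine ⟨q, CharP.char_is_prime (𝓞 K ⧸ v.asIdeal) q, ?_⟩
  rw [← Ideal.Quotient.eq_zero_iff_mem, map_natCast]
  exact CharP.cast_eq_zero _ q

theorem extVanishingCts_of_core {p : ℕ} [Fact p.Prime] (h3 : 3 ≤ p) (core : CoreStatement p) :
    ExtVanishingCts p := by
  intro V _ _ _ _ C hadm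
  by_contra hns
  have hp : p.Prime := Fact.out
  haveI : NeZero p := ⟨hp.ne_zero⟩
  obtain ⟨a, hd⟩ := exists_cocData hadm (exists_cycloChar_ne_one h3) hns
  obtain ⟨ζ, hζ⟩ := HasEnoughRootsOfUnity.exists_primitiveRoot Ω p
  obtain ⟨A, hA0, hA⟩ := hd.exists_kummer_gen hζ
  have hζ1 := hζ.pow_eq_one
  let K₀ : IntermediateField ℚ Ω := IntermediateField.adjoin ℚ {ζ}
  have hζK₀ : ζ ∈ K₀ := IntermediateField.mem_adjoin_simple_self ℚ ζ
  haveI : IsCyclotomicExtension {p} ℚ K₀ := hζ.intermediateField_adjoin_isCyclotomicExtension ℚ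
  haveI : NumberField K₀ := IsCyclotomicExtension.numberField {p} ℚ K₀
  haveI : IsGalois ℚ K₀ := IsCyclotomicExtension.isGalois {p} ℚ K₀
  let ζK : K₀ := ⟨ζ, hζK₀⟩
  have hζK : IsPrimitiveRoot ζK p :=
    (show IsPrimitiveRoot (algebraMap K₀ Ω ζK) p from hζ).of_map_of_injective
      (algebraMap K₀ Ω).injective
  have hαmem : A ^ p ∈ K₀ := mem_adjoin_zeta hζ (by
    intro h hh
    rw [map_pow, hA h hh, mul_pow, trze_pow_p hζ1, one_mul])
  let αK : K₀ := ⟨A ^ p, hαmem⟩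
  have hαK0 : αK ≠ 0 := by
    intro h
    exact pow_ne_zero p hA0 (congrArg Subtype.val h)
  have hAα : A ^ p = algebraMap K₀ Ω αK := rfl
  have hfixK : ∀ τ : GQ, (∀ x : K₀, τ (algebraMap K₀ Ω x) = algebraMap K₀ Ω x) →
      cycloChar p τ = 1 := by
    intro τ hτ
    rw [cycloChar_eq_one_iff τ hζ]
    exact hτ ζK
  have key : ∀ (v : Pr K₀) (q : ℕ), q.Prime → (q : 𝓞 K₀) ∈ v.asIdeal →
      (q ≠ p → (p : ℤ) ∣ ordv v αK) ∧ (q = p → ∀ n : ℤ, LocPow p n v αK) := by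
    intro v q hq hqv
    obtain ⟨𝔸, h𝔸v⟩ := exists_valuationSubring_over
      ((algebraMap K₀ Ω).comp (algebraMap (𝓞 K₀) K₀))
      ((algebraMap K₀ Ω).injective.comp NumberField.RingOfIntegers.coe_injective)
      v.asIdeal v.isPrime.ne_top
    have h𝔸 : 𝔸.LiesOverPrime q := by
      have := h𝔸v _ hqv
      show (q : Ω) ∈ 𝔸.nonunits
      simpa using this
    obtain ⟨h1, h2⟩ := tr_arith (K := K₀) hp.ne_zero hζK hαK0 hAα v 𝔸 hq h𝔸 h𝔸v
    constructor
    · intro hqp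
      apply h1
      intro τ hτ _
      obtain ⟨e1, e2⟩ := hd.unram q hq hqp 𝔸 h𝔸 τ hτ
      rw [hA τ e1, e2, trze_zero, one_mul]
    · intro hqp
      subst hqp
      apply h2
      intro τ hτ hτK
      have e1 := hfixK τ hτK
      rw [hA τ e1, hd.split 𝔸 h𝔸 τ hτ e1, trze_zero, one_mul]
  obtain ⟨c, hc⟩ := core K₀ ζK hζK αK hαK0 (by
      intro v
      obtain ⟨q, hq, hqv⟩ := tr_exists_prime_mem v
      by_cases hqp : q = p
      · exact ((key v q hq hqv).2 hqp 1).dvd_ordv one_pos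
      · exact (key v q hq hqv).1 hqp) (by
      intro v hv
      refine (key v p hp ?_).2 rfl
      rw [← ordGE_algebraMap_one_iff, map_natCast]
      right
      omega) (by
      intro δ k hδ
      obtain ⟨g, hg⟩ := AlgEquiv.restrictNormalHom_surjective Ω δ
      have hcomm : ∀ x : K₀, g (algebraMap K₀ Ω x) = algebraMap K₀ Ω (δ x) := by
        intro x
        rw [← hg]
        exact (AlgEquiv.restrictNormal_commutes g K₀ x).symm
      have hgζ : g ζ = ζ ^ k := by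
        have := hcomm ζK
        rw [hδ] at this
        exact this
      have hβ : g A / A ^ (k ^ 2) ∈ K₀ := mem_adjoin_zeta hζ (hd.conj_gen hζ hA g k hgζ)
      refine ⟨⟨_, hβ⟩, ?_⟩
      apply Subtype.ext
      show algebraMap K₀ Ω (δ αK) = (A ^ p) ^ (k ^ 2) * (g A / A ^ (k ^ 2)) ^ p
      rw [← hcomm]
      show g (A ^ p) = _
      rw [map_pow, div_pow, ← pow_mul, ← pow_mul, mul_comm p, mul_div_cancel₀]
      exact pow_ne_zero _ hA0)
  -- contradiction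
  obtain ⟨h₀, hh₀, hh₀a⟩ := hd.ne
  have hc' : (c : Ω) ^ p = A ^ p := congrArg Subtype.val hc
  have hc0 : (c : Ω) ≠ 0 := by
    intro h
    rw [h, zero_pow hp.ne_zero] at hc'
    exact pow_ne_zero p hA0 hc'.symm
  have h1 : (A / (c : Ω)) ^ p = 1 := by rw [div_pow, hc', div_self (pow_ne_zero p hA0)]
  obtain ⟨i, -, hi⟩ := hζ.eq_pow_of_pow_eq_one h1
  have h2 : A = ζ ^ i * c := by rw [hi, div_mul_cancel₀ _ hc0]
  have hh₀ζ : h₀ ζ = ζ := (cycloChar_eq_one_iff h₀ hζ).mp hh₀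
  have hfix : ∀ x : K₀, h₀ (x : Ω) = x := by
    intro x
    have h4 : ((h₀ : Ω →ₐ[ℚ] Ω).comp K₀.val) = K₀.val :=
      IntermediateField.adjoin_algHom_ext ℚ (by
        intro y hy
        rw [Set.mem_singleton_iff] at hy
        subst hy
        exact hh₀ζ)
    exact DFunLike.congr_fun h4 x
  have h3 : h₀ A = A := by
    conv_lhs => rw [h2]
    rw [map_mul, map_pow, hh₀ζ, hfix c, ← h2]
  rw [hA h₀ hh₀, hh₀a, trze_one] at h3
  have h5 : ζ = 1 := mul_right_cancel₀ hA0 (by rw [h3, one_mul])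
  exact hζ.ne_one hp.one_lt h5

end FA14
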