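import Fermat.Agent.CFT.Core3
import Fermat.Agent.CFT.S5
import Fermat.Agent.CFT.Cyc
import Fermat.Agent.CFT.TrFinal

/-! S14: everything relative to the first inequality [F]. -/

set_option autoImplicit false

open IsDedekindDomain NumberField

namespace FA14

/-- the statement of [F] for fields in `Type`. -/
def HypF (p : ℕ) : Prop :=
  ∀ (E : Type) [Field E] [NumberField E] (ζ : E) (_ : IsPrimitiveRoot ζ p) (y : E) (_ : y ≠ 0)
    (_ : ∀ c : E, c ^ p ≠ y) (_ : ∀ v : Pr E, 0 < ordv v (p : E) → LocPow p (nv p v) v y),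
    ∃ χ : Dv E →+ ZMod p, χ ≠ 0 ∧
      IsXD p y {t | ¬ (p : ℤ) ∣ ordv t y} {t | ¬ (p : ℤ) ∣ ordv t y} χ

variable {p : ℕ} [Fact p.Prime]

theorem core_of_first_ineq (HF : HypF p) (hp2 : p ≠ 2) : CoreStatement p :=
  fun K _ _ _ ζ hζ α hα0 hU hP hEq =>
    core_of
      (fun E _ _ ζ hζ y hy0 Z hZ χ₁ χ₂ h₁ h₂ hne =>
        second_ineq_of_first_ineq (fun y h0 h1 h2 => HF E ζ hζ y h0 h1 h2)
          hp2 ζ hζ y hy0 Z hZ χ₁ χ₂ h₁ h₂ hne)
      (fun _ _ _ ζ hζ α hα0 hU hP m hm0 hm C _ _ _ Y hY =>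
        art_isXD_of_cyclotomic hp2 ζ hζ α hα0 hU hP m hm0 hm C Y hY)
      hp2 K ζ hζ α hα0 hU hP hEq
      (fun hcon => HF K ζ hζ α hα0 hcon (fun v hv => hP v hv _))

/-- S14 relative to [F]. -/
theorem extVanishingCts_of_first_ineq (HF : HypF p) (h3 : 3 ≤ p) : ExtCitation.ExtVanishingCts p :=
  extVanishingCts_of_core h3 (core_of_first_ineq HF (by omega))

end FA14

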