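import Mathlib

/-! S14, package [CROSS'], part A: field theory over `K = ℚ(ζ_p)`. -/

set_option autoImplicit false

namespace FA14

open Polynomial IntermediateField NumberField

section irr

variable {p : ℕ} [Fact p.Prime] (K : Type*) [Field K] [NumberField K]
  [IsCyclotomicExtension {p} ℚ K]

/-- `Φ_m` stays irreducible over `ℚ(ζ_p)` for `m` prime to `p`. -/
theorem cyclotomic_irreducible_of_coprime {m : ℕ} (hm : 0 < m) (hpm : Nat.Coprime p m) :
    Irreducible (cyclotomic m K) := by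
  have : NeZero m := ⟨hm.ne'⟩
  have hp : p.Prime := Fact.out
  have : NeZero p := ⟨hp.ne_zero⟩
  let C := CyclotomicField m K
  have hz : IsPrimitiveRoot (IsCyclotomicExtension.zeta m K C) m :=
    IsCyclotomicExtension.zeta_spec m K C
  set z := IsCyclotomicExtension.zeta m K C with hzdef
  have hζ : IsPrimitiveRoot (algebraMap K C (IsCyclotomicExtension.zeta p ℚ K)) p :=
    (IsCyclotomicExtension.zeta_spec p ℚ K).map_of_injective (algebraMap K C).injective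
  have : FiniteDimensional K C := IsCyclotomicExtension.finiteDimensional {m} K C
  have : FiniteDimensional ℚ C := FiniteDimensional.trans ℚ K C
  have h1 := IsPrimitiveRoot.lcm_totient_le_finrank (K := ℚ) hζ hz
    (cyclotomic.irreducible_rat (Nat.lcm_pos hp.pos hm))
  rw [hpm.lcm_eq_mul, Nat.totient_mul hpm, ← Module.finrank_mul_finrank ℚ K C,
    IsCyclotomicExtension.finrank K (cyclotomic.irreducible_rat hp.pos)] at h1
  have h2 : m.totient ≤ Module.finrank K C :=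
    Nat.le_of_mul_le_mul_left h1 (Nat.totient_pos.2 hp.pos)
  rw [(hz.powerBasis K).finrank, IsPrimitiveRoot.powerBasis_dim K hz] at h2
  have h3 : minpoly K z ∣ cyclotomic m K := by
    apply minpoly.dvd
    rw [aeval_def, eval₂_eq_eval_map, map_cyclotomic]
    exact (isRoot_cyclotomic_iff.2 hz)
  have h4 : cyclotomic m K = minpoly K z :=
    eq_of_monic_of_dvd_of_natDegree_le (minpoly.monic (IsIntegral.of_finite K z))
      (cyclotomic.monic m K) h3 (by rw [natDegree_cyclotomic]; exact h2)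
  rw [h4]
  exact minpoly.irreducible (IsIntegral.of_finite K z)

end irr

section notpow

variable {p : ℕ} [Fact p.Prime] {K : Type*} [Field K] [NumberField K]
  [IsCyclotomicExtension {p} ℚ K]

/-- there is an automorphism of `ℚ(ζ_p)` with `ζ ↦ ζ ^ 2`. -/
theorem exists_aut_sq (hp2 : p ≠ 2) {ζ : K} (hζ : IsPrimitiveRoot ζ p) :
    ∃ δ : K ≃ₐ[ℚ] K, δ ζ = ζ ^ 2 := by
  have hp : p.Prime := Fact.out
  have : NeZero p := ⟨hp.ne_zero⟩
  have h2 : Nat.Coprime 2 p := (Nat.coprime_primes Nat.prime_two hp).2 (Ne.symm hp2)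
  refine ⟨(IsCyclotomicExtension.Rat.galEquivZMod p K).symm (ZMod.unitOfCoprime 2 h2), ?_⟩
  rw [IsCyclotomicExtension.Rat.galEquivZMod_apply_of_pow_eq p K _ hζ.pow_eq_one,
    MulEquiv.apply_symm_apply, ZMod.coe_unitOfCoprime, ZMod.val_natCast,
    Nat.mod_eq_of_lt (lt_of_le_of_ne hp.two_le (Ne.symm hp2))]

/-- **`L ∩ K(ζ_m) = K`**: `α` does not become a `p`-th power in a cyclotomic extension of
`K = ℚ(ζ_p)`, because `K(α^(1/p))/ℚ` is not abelian. -/
theorem not_pow_cyclotomic (hp2 : p ≠ 2) {ζ : K} (hζ : IsPrimitiveRoot ζ p) {α : K} (hα0 : α ≠ 0)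
    (hα : ¬ ∃ c : K, c ^ p = α)
    (hEq : ∀ δ : K ≃ₐ[ℚ] K, δ ζ = ζ ^ 2 → ∃ β : K, δ α = α ^ 4 * β ^ p)
    (m : ℕ) [NeZero m] (C : Type*) [Field C] [Algebra K C] [IsCyclotomicExtension {m} K C] :
    ¬ ∃ Y : C, Y ^ p = algebraMap K C α := by
  rintro ⟨Y, hY⟩
  have hp : p.Prime := Fact.out
  have : NeZero p := ⟨hp.ne_zero⟩
  have : CharZero C := charZero_of_injective_algebraMap (algebraMap K C).injective
  have hcyc : IsCyclotomicExtension ({p} ∪ {m}) ℚ C :=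
    IsCyclotomicExtension.trans {p} {m} ℚ K C (algebraMap K C).injective
  have hcomm : IsMulCommutative (C ≃ₐ[ℚ] C) :=
    IsCyclotomicExtension.isMulCommutative ({p} ∪ {m}) ℚ C
  have hgalQ : IsGalois ℚ C := IsCyclotomicExtension.isGalois ({p} ∪ {m}) ℚ C
  have hgalK : IsGalois K C := IsCyclotomicExtension.isGalois {m} K C
  have : FiniteDimensional K C := IsCyclotomicExtension.finiteDimensional {m} K C
  obtain ⟨δ₀, hδ₀⟩ := exists_aut_sq hp2 hζ
  obtain ⟨β, hβ⟩ := hEq δ₀ hδ₀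
  let δ : C ≃ₐ[ℚ] C := δ₀.liftNormal C
  have hδ : ∀ x : K, δ (algebraMap K C x) = algebraMap K C (δ₀ x) :=
    fun x => δ₀.liftNormal_commutes C x
  -- an automorphism over `K` moving `Y`
  have hYK : Y ∉ Set.range (algebraMap K C) := by
    rintro ⟨c, rfl⟩
    apply hα
    refine ⟨c, (algebraMap K C).injective ?_⟩
    rw [map_pow, hY]
  rw [IsGalois.mem_range_algebraMap_iff_fixed] at hYK
  push Not at hYK
  obtain ⟨γ, hγ⟩ := hYK
  have hY0 : Y ≠ 0 := by
    rintro rfl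
    rw [zero_pow hp.ne_zero] at hY
    exact hα0 ((map_eq_zero _).1 hY.symm)
  have hζC : IsPrimitiveRoot (algebraMap K C ζ) p := hζ.map_of_injective (algebraMap K C).injective
  -- `γ Y = a Y`
  obtain ⟨i, -, hi⟩ := hζC.eq_pow_of_pow_eq_one (ξ := γ Y / Y) (by
    rw [div_pow, ← map_pow, hY, AlgEquiv.commutes, div_self]
    rw [← hY]; exact pow_ne_zero _ hY0)
  set a : C := algebraMap K C ζ ^ i with hadef
  have hγY : γ Y = a * Y := by rw [hi]; field_simp
  have ha1 : a ≠ 1 := by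
    intro h
    rw [h, one_mul] at hγY
    exact hγ hγY
  have hap : a ^ p = 1 := by rw [hadef, ← pow_mul, mul_comm, pow_mul, hζC.pow_eq_one, one_pow]
  have hδa : δ a = a ^ 2 := by
    rw [hadef, map_pow, hδ, hδ₀, map_pow, ← pow_mul, ← pow_mul, mul_comm]
  -- `δ Y = c Y^4 β`
  have hW0 : Y ^ 4 * algebraMap K C β ≠ 0 := by
    intro h0
    have : δ (Y ^ p) = (Y ^ 4 * algebraMap K C β) ^ p := by
      rw [hY, hδ, hβ, map_mul, map_pow, map_pow, ← hY]; ring
    rw [h0, zero_pow hp.ne_zero] at this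
    exact pow_ne_zero _ hY0 ((map_eq_zero _).1 this)
  obtain ⟨j, -, hj⟩ := hζC.eq_pow_of_pow_eq_one (ξ := δ Y / (Y ^ 4 * algebraMap K C β)) (by
    rw [div_pow, ← map_pow, hY, hδ, hβ, map_mul, map_pow, map_pow, ← hY]
    rw [div_eq_one_iff_eq (pow_ne_zero _ hW0)]
    ring)
  have hδY : δ Y = algebraMap K C ζ ^ j * (Y ^ 4 * algebraMap K C β) := by
    rw [hj, div_mul_cancel₀ _ hW0]
  have hδY0 : δ Y ≠ 0 := fun h => hY0 ((map_eq_zero _).1 h)
  have h1 : γ (δ Y) = a ^ 4 * δ Y := by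
    rw [hδY, map_mul, map_mul, map_pow, map_pow, AlgEquiv.commutes, AlgEquiv.commutes, hγY]
    ring
  have h2 : δ (γ Y) = a ^ 2 * δ Y := by
    rw [hγY, map_mul, hδa]
  have h3 : γ (δ Y) = δ (γ Y) := by
    have := hcomm.is_comm.comm (γ.restrictScalars ℚ) δ
    exact DFunLike.congr_fun this Y
  rw [h1, h2] at h3
  have h4 : a ^ 4 = a ^ 2 := mul_right_cancel₀ hδY0 h3
  have ha0 : a ≠ 0 := by
    intro h
    rw [h, zero_pow hp.ne_zero] at hap
    exact zero_ne_one hap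
  have h5 : a ^ 2 = 1 := by
    have : a ^ 2 * a ^ 2 = a ^ 2 * 1 := by rw [mul_one, ← pow_add]; exact h4
    exact mul_left_cancel₀ (pow_ne_zero _ ha0) this
  apply ha1
  have hcop : Nat.Coprime 2 p := (Nat.coprime_primes Nat.prime_two hp).2 (Ne.symm hp2)
  have := pow_gcd_eq_one.2 ⟨h5, hap⟩
  rwa [hcop.gcd_eq_one, pow_one] at this

end notpow

section beta

/-- the automorphism of a cyclotomic extension attached to a unit acts on all roots of unity by
the expected power. -/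
theorem autEquivPow_symm_apply_of_pow_eq {n : ℕ} [NeZero n] {K : Type*} [Field K] (L : Type*)
    [Field L] [Algebra K L] [IsCyclotomicExtension {n} K L] (h : Irreducible (cyclotomic n K))
    (t : (ZMod n)ˣ) {x : L} (hx : x ^ n = 1) :
    (IsCyclotomicExtension.autEquivPow L h).symm t x = x ^ (t : ZMod n).val := by
  obtain ⟨a, -, rfl⟩ := (IsCyclotomicExtension.zeta_spec n K L).eq_pow_of_pow_eq_one hx
  set σ := (IsCyclotomicExtension.autEquivPow L h).symm t with hσ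
  have h1 : IsCyclotomicExtension.autEquivPow L h σ = t := by rw [hσ, MulEquiv.apply_symm_apply]
  rw [map_pow, pow_right_comm, ← h1, IsCyclotomicExtension.autEquivPow_apply, OneHom.toFun_eq_coe,
    MonoidHom.toOneHom_coe, IsPrimitiveRoot.autToPow_spec]

variable {p : ℕ} [Fact p.Prime] {K : Type*} [Field K] [NumberField K]
  [IsCyclotomicExtension {p} ℚ K]

/-- existence of `β ∈ Gal(Ω/K)` moving `Y = α^(1/p)` with prescribed action on `ζ_m`. -/
theorem exists_beta (hp2 : p ≠ 2) {ζ : K} (hζ : IsPrimitiveRoot ζ p) {α : K} (hα0 : α ≠ 0)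
    (hα : ¬ ∃ c : K, c ^ p = α)
    (hEq : ∀ δ : K ≃ₐ[ℚ] K, δ ζ = ζ ^ 2 → ∃ β : K, δ α = α ^ 4 * β ^ p)
    (m : ℕ) [NeZero m] (hpm : Nat.Coprime p m)
    (Ω : Type*) [Field Ω] [Algebra K Ω] [FiniteDimensional K Ω] [IsGalois K Ω]
    {Y z : Ω} (hY : Y ^ p = algebraMap K Ω α) (hz : IsPrimitiveRoot z m) (b : (ZMod m)ˣ) :
    ∃ β : Ω ≃ₐ[K] Ω, β Y ≠ Y ∧ β z = z ^ (b : ZMod m).val := by
  have hcyc : IsCyclotomicExtension {m} K K⟮z⟯ :=
    hz.intermediateField_adjoin_isCyclotomicExtension K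
  have hirr := cyclotomic_irreducible_of_coprime K (NeZero.pos m) hpm
  let σ₀ : K⟮z⟯ ≃ₐ[K] K⟮z⟯ := (IsCyclotomicExtension.autEquivPow K⟮z⟯ hirr).symm b
  have hσ₀ : σ₀ (AdjoinSimple.gen K z) = AdjoinSimple.gen K z ^ (b : ZMod m).val :=
    autEquivPow_symm_apply_of_pow_eq K⟮z⟯ hirr b (by
      apply Subtype.ext
      simp [hz.pow_eq_one])
  let β₀ : Ω ≃ₐ[K] Ω := σ₀.liftNormal Ω
  have hβ₀ : β₀ z = z ^ (b : ZMod m).val := by
    have := σ₀.liftNormal_commutes Ω (AdjoinSimple.gen K z)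
    rw [hσ₀, map_pow, AdjoinSimple.algebraMap_gen] at this
    exact this
  have hYC : Y ∉ K⟮z⟯ := by
    intro hmem
    apply not_pow_cyclotomic hp2 hζ hα0 hα hEq m K⟮z⟯
    refine ⟨⟨Y, hmem⟩, Subtype.ext ?_⟩
    simpa using hY
  rw [← IsGalois.fixedField_fixingSubgroup K⟮z⟯, IntermediateField.mem_fixedField_iff] at hYC
  push Not at hYC
  obtain ⟨γ₁, hγ₁, hγ₁Y⟩ := hYC
  have hγ₁z : γ₁ z = z :=
    (IntermediateField.mem_fixingSubgroup_iff _ _).1 hγ₁ z (mem_adjoin_simple_self K z)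
  by_cases h : β₀ Y = Y
  · refine ⟨β₀ * γ₁, ?_, ?_⟩
    · intro h'
      rw [AlgEquiv.mul_apply] at h'
      exact hγ₁Y (β₀.injective (h'.trans h.symm))
    · rw [AlgEquiv.mul_apply, hγ₁z, hβ₀]
  · exact ⟨β₀, h, hβ₀⟩

end beta

section group

variable {K Ω : Type*} [Field K] [Field Ω] [Algebra K Ω]

/-- the Kummer character `γ ↦ γ Y / Y`. -/
noncomputable def kumChar {p : ℕ} {ζ : K} (hζ : IsPrimitiveRoot ζ p) (hp : p ≠ 0) {α : K} {Y : Ω}
    (hY0 : Y ≠ 0) (hY : Y ^ p = algebraMap K Ω α) : (Ω ≃ₐ[K] Ω) →* Ωˣ :=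
  MonoidHom.mk' (fun γ => Units.mk0 (γ Y / Y)
      (div_ne_zero (fun h => hY0 ((map_eq_zero _).1 h)) hY0)) (by
    intro γ γ'
    apply Units.ext
    have : NeZero p := ⟨hp⟩
    have hζΩ : IsPrimitiveRoot (algebraMap K Ω ζ) p :=
      hζ.map_of_injective (algebraMap K Ω).injective
    obtain ⟨i, -, hi⟩ := hζΩ.eq_pow_of_pow_eq_one (ξ := γ' Y / Y) (by
      rw [div_pow, ← map_pow, hY, AlgEquiv.commutes, div_self]
      rw [← hY]; exact pow_ne_zero _ hY0)
    have h1 : γ' Y = algebraMap K Ω ζ ^ i * Y := by rw [hi, div_mul_cancel₀ _ hY0]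
    simp only [Units.val_mk0, Units.val_mul, AlgEquiv.mul_apply]
    rw [h1, map_mul, map_pow, AlgEquiv.commutes]
    field_simp)

theorem kumChar_apply {p : ℕ} {ζ : K} (hζ : IsPrimitiveRoot ζ p) (hp : p ≠ 0) {α : K} {Y : Ω}
    (hY0 : Y ≠ 0) (hY : Y ^ p = algebraMap K Ω α) (γ : Ω ≃ₐ[K] Ω) :
    (kumChar hζ hp hY0 hY γ : Ω) = γ Y / Y := rfl

theorem kumChar_pow {p : ℕ} {ζ : K} (hζ : IsPrimitiveRoot ζ p) (hp : p ≠ 0) {α : K} {Y : Ω}
    (hY0 : Y ≠ 0) (hY : Y ^ p = algebraMap K Ω α) (γ : Ω ≃ₐ[K] Ω) :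
    kumChar hζ hp hY0 hY γ ^ p = 1 := by
  apply Units.ext
  rw [Units.val_pow_eq_pow_val, kumChar_apply, div_pow, ← map_pow, hY, AlgEquiv.commutes,
    div_self, Units.val_one]
  rw [← hY]; exact pow_ne_zero _ hY0

theorem autToPow_eq_of_apply {m : ℕ} [NeZero m] {z : Ω} (hz : IsPrimitiveRoot z m)
    (γ : Ω ≃ₐ[K] Ω) (c : (ZMod m)ˣ) (h : γ z = z ^ (c : ZMod m).val) : hz.autToPow K γ = c := by
  have h1 := hz.autToPow_spec K γ
  rw [h] at h1
  apply Units.ext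
  apply ZMod.val_injective
  exact hz.pow_inj (ZMod.val_lt _) (ZMod.val_lt _) h1

/-- **the group theoretic heart of Artin's crossing**: the elements of `⟨φ, β⟩` fixing `ζ_m`
fix `Y`. -/
theorem fix_of_mem_closure {p : ℕ} {ζ : K} (hζ : IsPrimitiveRoot ζ p) (hp : p ≠ 0) {α : K} {Y : Ω}
    (hY0 : Y ≠ 0) (hY : Y ^ p = algebraMap K Ω α) {m : ℕ} [NeZero m] {z : Ω}
    (hz : IsPrimitiveRoot z m) {l : ℕ} (hl : Nat.Coprime l m) (b : (ZMod m)ˣ)
    (hpl : p ∣ orderOf (ZMod.unitOfCoprime l hl)) (hpb : p ∣ orderOf b)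
    (hdisj : ∀ x, x ∈ Subgroup.zpowers (ZMod.unitOfCoprime l hl) → x ∈ Subgroup.zpowers b → x = 1)
    {φ β : Ω ≃ₐ[K] Ω} (hφ : φ z = z ^ l) (hβ : β z = z ^ (b : ZMod m).val)
    {γ : Ω ≃ₐ[K] Ω} (hγ : γ ∈ Subgroup.closure {φ, β}) (hγz : γ z = z) : γ Y = Y := by
  set κ := kumChar hζ hp hY0 hY with hκ
  set u := hz.autToPow K with hu
  have huφ : u φ = ZMod.unitOfCoprime l hl := by
    apply autToPow_eq_of_apply
    rw [hφ, ZMod.coe_unitOfCoprime, ZMod.val_natCast, hz.eq_orderOf, pow_mod_orderOf]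
  have huβ : u β = b := autToPow_eq_of_apply hz β b hβ
  have huγ : u γ = 1 := by
    apply autToPow_eq_of_apply
    rw [hγz]
    rcases Nat.lt_or_ge 1 m with h1 | h1
    · have : Fact (1 < m) := ⟨h1⟩
      rw [Units.val_one, ZMod.val_one, pow_one]
    · have hm1 : m = 1 := le_antisymm h1 (NeZero.pos m)
      subst hm1
      rw [IsPrimitiveRoot.one_right_iff.1 hz, one_pow]
  have hmem : (κ.prod u) γ ∈ Subgroup.closure {(κ.prod u) φ, (κ.prod u) β} := by
    have := Subgroup.mem_map_of_mem (κ.prod u) hγ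
    rwa [MonoidHom.map_closure, Set.image_pair] at this
  obtain ⟨i, j, hij⟩ := Subgroup.mem_closure_pair.1 hmem
  have h1 : κ φ ^ i * κ β ^ j = κ γ := congrArg Prod.fst hij
  have h2 : u φ ^ i * u β ^ j = u γ := congrArg Prod.snd hij
  rw [huφ, huβ, huγ] at h2
  have h3 : ZMod.unitOfCoprime l hl ^ i = 1 := by
    apply hdisj _ ⟨i, rfl⟩
    refine ⟨-j, ?_⟩
    simp only [zpow_neg]
    exact (eq_inv_of_mul_eq_one_left h2).symm
  have h4 : b ^ j = 1 := by rwa [h3, one_mul] at h2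
  have hi : (p : ℤ) ∣ i := (Int.natCast_dvd_natCast.2 hpl).trans (orderOf_dvd_iff_zpow_eq_one.2 h3)
  have hj : (p : ℤ) ∣ j := (Int.natCast_dvd_natCast.2 hpb).trans (orderOf_dvd_iff_zpow_eq_one.2 h4)
  obtain ⟨i', rfl⟩ := hi
  obtain ⟨j', rfl⟩ := hj
  rw [zpow_mul, zpow_mul, zpow_natCast, zpow_natCast, hκ, kumChar_pow, kumChar_pow, one_zpow,
    one_zpow, one_mul] at h1
  have h5 := congrArg Units.val h1
  rw [kumChar_apply, Units.val_one] at h5
  exact ((div_eq_one_iff_eq hY0).1 h5.symm)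

end group

end FA14
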