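import Fermat.Agent.CFT.Defs

/-! S14 basic API: `ordv`, `OrdGE`, `divOf`. -/

set_option autoImplicit false

open IsDedekindDomain NumberField

namespace FA14

variable {E : Type*} [Field E] [NumberField E] (v : Pr E)

@[simp] lemma ordv_zero : ordv v (0 : E) = 0 := by simp [ordv]
@[simp] lemma ordv_one : ordv v (1 : E) = 0 := by simp [ordv]

lemma val_ne_zero {x : E} (hx : x ≠ 0) : v.valuation E x ≠ 0 := by
  simpa using hx

lemma ordv_mul {x y : E} (hx : x ≠ 0) (hy : y ≠ 0) : ordv v (x * y) = ordv v x + ordv v y := by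
  simp only [ordv, map_mul]
  rw [WithZero.log_mul (val_ne_zero v hx) (val_ne_zero v hy)]; ring

lemma ordv_inv (x : E) : ordv v x⁻¹ = - ordv v x := by
  simp only [ordv, map_inv₀, WithZero.log_inv]

lemma ordv_pow (x : E) (n : ℕ) : ordv v (x ^ n) = n * ordv v x := by
  simp only [ordv, map_pow, WithZero.log_pow]; simp

lemma ordv_zpow (x : E) (n : ℤ) : ordv v (x ^ n) = n * ordv v x := by
  simp only [ordv, map_zpow₀, WithZero.log_zpow]; simp

lemma ordv_div {x y : E} (hx : x ≠ 0) (hy : y ≠ 0) : ordv v (x / y) = ordv v x - ordv v y := by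
  rw [div_eq_mul_inv, ordv_mul v hx (inv_ne_zero hy), ordv_inv]; ring

@[simp] lemma ordv_neg (x : E) : ordv v (-x) = ordv v x := by
  simp only [ordv, Valuation.map_neg]

lemma ordv_prod {ι : Type*} (s : Finset ι) (f : ι → E) (hf : ∀ i ∈ s, f i ≠ 0) :
    ordv v (∏ i ∈ s, f i) = ∑ i ∈ s, ordv v (f i) := by
  classical
  induction s using Finset.induction_on with
  | empty => simp
  | insert a s ha ih =>
    rw [Finset.prod_insert ha, Finset.sum_insert ha,
      ordv_mul v (hf a (Finset.mem_insert_self a s))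
        (Finset.prod_ne_zero_iff.mpr fun i hi => hf i (Finset.mem_insert_of_mem hi)),
      ih fun i hi => hf i (Finset.mem_insert_of_mem hi)]

lemma val_eq_exp {x : E} (hx : x ≠ 0) : v.valuation E x = WithZero.exp (- ordv v x) := by
  simp only [ordv, neg_neg]
  exact (WithZero.exp_log (val_ne_zero v hx)).symm

/-- the bridge to Mathlib's multiplicative valuation -/
lemma ordGE_iff {x : E} {n : ℤ} : OrdGE v x n ↔ v.valuation E x ≤ WithZero.exp (-n) := by
  unfold OrdGE
  by_cases hx : x = 0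
  · simp [hx]
  · simp only [hx, false_or]
    rw [val_eq_exp v hx, WithZero.exp_le_exp]; omega

lemma ordGE_of_ne {x : E} {n : ℤ} (hx : x ≠ 0) : OrdGE v x n ↔ n ≤ ordv v x := by
  simp [OrdGE, hx]

variable {v}

lemma OrdGE.le {x : E} {n : ℤ} (h : OrdGE v x n) (hx : x ≠ 0) : n ≤ ordv v x :=
  (ordGE_of_ne v hx).1 h

@[simp] lemma OrdGE.zero (n : ℤ) : OrdGE v (0 : E) n := Or.inl rfl

lemma OrdGE.mono {x : E} {n m : ℤ} (h : OrdGE v x n) (hm : m ≤ n) : OrdGE v x m := by
  rcases h with h | h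
  · exact Or.inl h
  · exact Or.inr (hm.trans h)

lemma OrdGE.add {x y : E} {n : ℤ} (hx : OrdGE v x n) (hy : OrdGE v y n) : OrdGE v (x + y) n := by
  rw [ordGE_iff] at *
  exact (Valuation.map_add_le _ hx hy)

lemma OrdGE.neg {x : E} {n : ℤ} (hx : OrdGE v x n) : OrdGE v (-x) n := by
  rw [ordGE_iff] at *
  rwa [Valuation.map_neg]

lemma OrdGE.sub {x y : E} {n : ℤ} (hx : OrdGE v x n) (hy : OrdGE v y n) : OrdGE v (x - y) n := by
  rw [sub_eq_add_neg]; exact hx.add hy.neg

lemma OrdGE.mul {x y : E} {n m : ℤ} (hx : OrdGE v x n) (hy : OrdGE v y m) :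
    OrdGE v (x * y) (n + m) := by
  rcases hx with rfl | hx
  · simp
  rcases hy with rfl | hy
  · simp
  by_cases hx0 : x = 0
  · simp [hx0]
  by_cases hy0 : y = 0
  · simp [hy0]
  right; rw [ordv_mul v hx0 hy0]; omega

lemma OrdGE.pow {x : E} {n : ℤ} (hx : OrdGE v x n) (k : ℕ) : OrdGE v (x ^ k) (k * n) := by
  rcases hx with rfl | hx
  · rcases k with _ | k
    · right; simp
    · simp
  right; rw [ordv_pow]; exact mul_le_mul_of_nonneg_left hx (by positivity)

lemma OrdGE.sum {ι : Type*} {s : Finset ι} {f : ι → E} {n : ℤ} (h : ∀ i ∈ s, OrdGE v (f i) n) :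
    OrdGE v (∑ i ∈ s, f i) n := by
  classical
  induction s using Finset.induction_on with
  | empty => simp
  | insert a s ha ih =>
    rw [Finset.sum_insert ha]
    exact (h a (Finset.mem_insert_self a s)).add (ih fun i hi => h i (Finset.mem_insert_of_mem hi))

lemma OrdGE.mul_left {x y : E} {n : ℤ} (hx : OrdGE v x 0) (hy : OrdGE v y n) :
    OrdGE v (x * y) n := by simpa using hx.mul hy

lemma OrdGE.mul_right {x y : E} {n : ℤ} (hx : OrdGE v x n) (hy : OrdGE v y 0) :
    OrdGE v (x * y) n := by simpa using hx.mul hy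

lemma ordGE_self {x : E} : OrdGE v x (ordv v x) := Or.inr le_rfl

lemma ordGE_one : OrdGE v (1 : E) 0 := Or.inr (by simp)

/-- integers are integral -/
lemma ordGE_algebraMap (a : 𝓞 E) : OrdGE v (algebraMap (𝓞 E) E a) 0 := by
  rw [ordGE_iff]; simpa using v.valuation_le_one a

lemma ordGE_natCast (n : ℕ) : OrdGE v (n : E) 0 := by
  simpa using ordGE_algebraMap (v := v) (n : 𝓞 E)

lemma ordGE_intCast (n : ℤ) : OrdGE v (n : E) 0 := by
  simpa using ordGE_algebraMap (v := v) (n : 𝓞 E)

lemma ordv_natCast_nonneg (n : ℕ) : 0 ≤ ordv v (n : E) := by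
  rcases ordGE_natCast (v := v) n with h | h
  · simp [h]
  · exact h

lemma ordGE_algebraMap_iff (a : 𝓞 E) (n : ℕ) :
    OrdGE v (algebraMap (𝓞 E) E a) n ↔ a ∈ v.asIdeal ^ n := by
  rw [ordGE_iff, HeightOneSpectrum.valuation_of_algebraMap,
    ← HeightOneSpectrum.intValuation_le_pow_iff_mem]

lemma ordGE_algebraMap_one_iff (a : 𝓞 E) :
    OrdGE v (algebraMap (𝓞 E) E a) 1 ↔ a ∈ v.asIdeal := by
  have := ordGE_algebraMap_iff (v := v) a 1
  simpa using this

/-- dominant term -/
lemma ordv_eq_of_ordGE_sub {x y : E} {n : ℤ} (h : OrdGE v (x - y) n) (hy0 : y ≠ 0)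
    (hy : ordv v y < n) : ordv v x = ordv v y := by
  have hx0 : x ≠ 0 := by
    rintro rfl
    have := h.le (by simpa using hy0)
    simp at this; omega
  have h1 : OrdGE v x (ordv v y) := by
    have := (h.mono hy.le).add (ordGE_self (v := v) (x := y))
    simpa using this
  have h1' := h1.le hx0
  by_contra hne
  have hlt : ordv v y + 1 ≤ ordv v x := by omega
  have h2 : OrdGE v y (ordv v y + 1) := by
    have hx1 : OrdGE v x (ordv v y + 1) := Or.inr hlt
    have := hx1.sub (h.mono (by omega : ordv v y + 1 ≤ n))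
    simpa using this
  have := h2.le hy0
  omega

/-- `x ≡ 1 mod v` implies `x` is a unit at `v` -/
lemma ordv_eq_zero_of_sub_one {x : E} {n : ℤ} (h : OrdGE v (x - 1) n) (hn : 0 < n) :
    ordv v x = 0 := by
  have := ordv_eq_of_ordGE_sub (v := v) h one_ne_zero (by simpa using hn)
  simpa using this

lemma ne_zero_of_sub_one {x : E} {n : ℤ} (h : OrdGE v (x - 1) n) (hn : 0 < n) : x ≠ 0 := by
  rintro rfl
  have := h.le (by simp)
  simp at this; omega

variable (v)

lemma exists_uniformizer : ∃ π : E, ordv v π = 1 := by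
  obtain ⟨π, hπ⟩ := v.valuation_exists_uniformizer E
  refine ⟨π, ?_⟩
  simp [ordv, hπ]

lemma exists_ordv_eq (n : ℤ) : ∃ x : E, x ≠ 0 ∧ ordv v x = n := by
  obtain ⟨π, hπ⟩ := exists_uniformizer v
  have h0 : π ≠ 0 := by rintro rfl; simp at hπ
  exact ⟨π ^ n, zpow_ne_zero _ h0, by rw [ordv_zpow, hπ, mul_one]⟩

/-- everywhere integral elements are integers -/
lemma exists_integer_of_forall_ordGE {x : E} (h : ∀ v : Pr E, OrdGE v x 0) :
    ∃ a : 𝓞 E, algebraMap (𝓞 E) E a = x :=
  HeightOneSpectrum.mem_integers_of_valuation_le_one E x fun v => by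
    simpa using (ordGE_iff v).1 (h v)

/-- approximating a `v`-integral element by an integer -/
lemma exists_integer_sub {x : E} (h : OrdGE v x 0) (n : ℕ) :
    ∃ a : 𝓞 E, OrdGE v (x - algebraMap (𝓞 E) E a) n := by
  have h' : v.valuation E x ≤ 1 := by simpa using (ordGE_iff v).1 h
  obtain ⟨a, ha⟩ := v.exists_valuation_sub_lt_of_integer (K := E) h'
    (γ := Units.mk0 (WithZero.exp (-(n : ℤ))) WithZero.exp_ne_zero)
  refine ⟨a, ?_⟩
  rw [ordGE_iff]
  exact le_of_lt (by simpa [Valuation.map_sub_swap] using ha)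

@[simp] lemma divOf_apply (x : E) : divOf x v = ordv v x := rfl

variable {v}

@[simp] lemma divOf_one : divOf (1 : E) = 0 := by ext v; simp
@[simp] lemma divOf_zero : divOf (0 : E) = 0 := by ext v; simp

lemma divOf_mul {x y : E} (hx : x ≠ 0) (hy : y ≠ 0) : divOf (x * y) = divOf x + divOf y := by
  ext v; simp [ordv_mul v hx hy]

lemma divOf_inv (x : E) : divOf x⁻¹ = - divOf x := by
  ext v; simp [ordv_inv]

lemma divOf_pow (x : E) (n : ℕ) : divOf (x ^ n) = n • divOf x := by
  ext v; simp [ordv_pow]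

lemma divOf_zpow (x : E) (n : ℤ) : divOf (x ^ n) = n • divOf x := by
  ext v; simp [ordv_zpow]

lemma divOf_div {x y : E} (hx : x ≠ 0) (hy : y ≠ 0) : divOf (x / y) = divOf x - divOf y := by
  ext v; simp [ordv_div v hx hy]

/-- a character evaluated on a divisor -/
lemma hom_apply_eq_sum {A : Type*} [AddCommGroup A] (χ : Dv E →+ A) (D : Dv E) :
    χ D = D.sum fun q n => n • χ (Finsupp.single q 1) := by
  conv_lhs => rw [← Finsupp.sum_single D]
  rw [Finsupp.sum, map_sum]
  refine Finset.sum_congr rfl fun q _ => ?_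
  show χ (Finsupp.single q (D q)) = D q • χ (Finsupp.single q 1)
  rw [← map_zsmul]; simp

lemma hom_ext_single {A : Type*} [AddCommGroup A] {χ ψ : Dv E →+ A}
    (h : ∀ q, χ (Finsupp.single q 1) = ψ (Finsupp.single q 1)) : χ = ψ := by
  ext q
  simpa using h q

end FA14
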