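import Fermat.Agent.CFT.CrossB
import Fermat.Agent.CFT.Art
import Fermat.Agent.CFT.Ord

/-! S14, package [CROSS'], part C: assembly. -/

set_option autoImplicit false
set_option linter.unusedSectionVars false

namespace FA14

open Polynomial IntermediateField NumberField Ideal IsDedekindDomain

section api

variable {E : Type*} [Field E] [NumberField E] {E' : Type*} [Field E'] [NumberField E']

theorem cross_Nq_mapPr (δ : E ≃+* E') (q : Pr E) : Nq (mapPr δ q) = Nq q := by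
  unfold Nq
  rw [absNorm_apply, absNorm_apply, Submodule.cardQuot_apply, Submodule.cardQuot_apply]
  refine Nat.card_congr (Ideal.quotientEquiv _ _ (RingOfIntegers.mapRingEquiv δ).symm ?_).toEquiv
  exact (Ideal.map_comap_of_surjective _ (RingOfIntegers.mapRingEquiv δ).symm.surjective _).symm

variable [Algebra E E']

instance cross_liesOver (Q : Pr E') : Q.asIdeal.LiesOver (below E Q).asIdeal := ⟨rfl⟩

theorem cross_ordv_algebraMap (Q : Pr E') (x : E) :
    ∃ e : ℕ, e ≠ 0 ∧ ordv Q (algebraMap E E' x) = e * ordv (below E Q) x := by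
  refine ⟨(below E Q).asIdeal.ramificationIdx' Q.asIdeal,
    IsDedekindDomain.ramificationIdx'_ne_zero_of_liesOver _ (below E Q).ne_bot, ?_⟩
  unfold ordv
  rw [← HeightOneSpectrum.valuation_liesOver E' (below E Q) Q x, WithZero.log_pow]
  simp

theorem cross_ordGE_algebraMap (Q : Pr E') {x : E} (h : OrdGE (below E Q) x 1) :
    OrdGE Q (algebraMap E E' x) 1 := by
  rcases h with rfl | h
  · left; simp
  · right
    obtain ⟨e, he, h1⟩ := cross_ordv_algebraMap Q x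
    rw [h1]
    have : (1 : ℤ) ≤ e := by exact_mod_cast Nat.pos_of_ne_zero he
    nlinarith

theorem cross_ordv_eq_zero (Q : Pr E') {x : E} (h : ordv Q (algebraMap E E' x) = 0) :
    ordv (below E Q) x = 0 := by
  obtain ⟨e, he, h1⟩ := cross_ordv_algebraMap Q x
  rw [h1] at h
  rcases mul_eq_zero.1 h with h | h
  · exact absurd (by exact_mod_cast h) he
  · exact h

theorem cross_fdeg_eq_one (Q : Pr E') (h : Nq (below E Q) = Nq Q) : fdeg E Q = 1 := by
  have h1 := Ideal.absNorm_pow_inertiaDeg (below E Q).asIdeal Q.asIdeal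
  unfold Nq at h
  unfold fdeg
  have h2 : 1 < absNorm (below E Q).asIdeal := by
    have h3 : absNorm (below E Q).asIdeal ≠ 0 := by
      rw [Ne, Ideal.absNorm_eq_zero_iff]
      exact (below E Q).ne_bot
    have h4 : absNorm (below E Q).asIdeal ≠ 1 := by
      rw [Ne, Ideal.absNorm_eq_one_iff]
      exact (below E Q).isPrime.ne_top
    omega
  rw [← h] at h1
  exact Nat.pow_right_injective h2 (by simpa using h1)

end api

/-- the statement of [AN-K1] (for fields in `Type`). -/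
def ANK1 (p : ℕ) : Prop :=
  ∀ (E : Type) [Field E] [NumberField E] (ζ : E) (_ : IsPrimitiveRoot ζ p) (x : E) (_ : x ≠ 0)
    (_ : ∀ c : E, c ^ p ≠ x) (Z : Set (Pr E)) (_ : Z.Finite),
    ∃ T : Pr E, T ∉ Z ∧ (Nq T).Prime ∧ ordv T (p : E) = 0 ∧ ordv T x = 0 ∧ ¬ LocPow p 1 T x

theorem finite_primesDiv (E : Type*) [Field E] [NumberField E] {m : ℕ} :
    (primesDiv E m).Finite :=
  (finite_ordv_ne_zero (m : E)).subset fun _ hv => ne_of_gt hv

section main

variable {p : ℕ} [Fact p.Prime]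

/-- the big field `Ω = K(α^(1/p), ζ_m)`. -/
theorem exists_Omega (K : Type) [Field K] [NumberField K] (α : K) (m : ℕ) (hm : 0 < m) :
    ∃ (Ω : Type) (_ : Field Ω) (_ : NumberField Ω) (_ : Algebra K Ω) (_ : IsGalois K Ω) (Y z : Ω),
      Y ^ p = algebraMap K Ω α ∧ IsPrimitiveRoot z m := by
  have hp : p.Prime := Fact.out
  let f : K[X] := (X ^ p - C α) * cyclotomic m K
  let Ω := f.SplittingField
  have : CharZero Ω := charZero_of_injective_algebraMap (algebraMap K Ω).injective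
  have hnf : NumberField Ω :=
    { to_charZero := inferInstance
      to_finiteDimensional := FiniteDimensional.trans ℚ K Ω }
  have hgal : IsGalois K Ω := { }
  have hsplit : (f.map (algebraMap K Ω)).Splits := SplittingField.splits f
  have hf1 : (X ^ p - C α : K[X]) ≠ 0 := (monic_X_pow_sub_C α hp.ne_zero).ne_zero
  have hf0 : f.map (algebraMap K Ω) ≠ 0 := by
    rw [Ne, Polynomial.map_eq_zero]
    exact mul_ne_zero hf1 (cyclotomic_ne_zero m K)
  have h1 : ((X ^ p - C α : K[X]).map (algebraMap K Ω)).Splits :=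
    hsplit.of_dvd hf0 (Polynomial.map_dvd _ (dvd_mul_right _ _))
  have h2 : ((cyclotomic m K).map (algebraMap K Ω)).Splits :=
    hsplit.of_dvd hf0 (Polynomial.map_dvd _ (dvd_mul_left _ _))
  obtain ⟨Y, hY⟩ := h1.exists_eval_eq_zero (by
    rw [degree_map, degree_X_pow_sub_C hp.pos]
    exact_mod_cast hp.ne_zero)
  obtain ⟨z, hz⟩ := h2.exists_eval_eq_zero (by
    rw [degree_map, degree_cyclotomic]
    exact_mod_cast (Nat.totient_pos.2 hm).ne')
  have : NeZero (m : Ω) := ⟨by exact_mod_cast hm.ne'⟩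
  refine ⟨Ω, inferInstance, hnf, inferInstance, hgal, Y, z, ?_, ?_⟩
  · simpa [sub_eq_zero] using hY
  · rw [map_cyclotomic] at hz
    exact isRoot_cyclotomic_iff.1 hz

/-- **[CROSS']** relative to [AN-K1]. -/
theorem exists_cross_of (hAN : ANK1 p) (hp2 : p ≠ 2) (K : Type) [Field K] [NumberField K]
    [IsCyclotomicExtension {p} ℚ K] (ζ : K) (hζ : IsPrimitiveRoot ζ p) (α : K) (hα0 : α ≠ 0)
    (hα : ∀ c : K, c ^ p ≠ α)
    (hEq : ∀ (δ : K ≃ₐ[ℚ] K) (k : ℕ), δ ζ = ζ ^ k → ∃ β : K, δ α = α ^ (k ^ 2) * β ^ p)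
    (q : Pr K) (l : ℕ) (hl : l.Prime) (hq : Nq q = l) :
    ∃ m : ℕ, 0 < m ∧ m.Coprime p ∧ m.Coprime l ∧ ∃ q' : Pr K, q' ∉ primesDiv K m ∧
      ordv q' (p : K) = 0 ∧ ordv q' α = 0 ∧ ¬ LocPow p 1 q' α ∧
      ∀ δ : K ≃ₐ[ℚ] K, ∃ (Eδ : Type) (_ : Field Eδ) (_ : NumberField Eδ) (_ : Algebra K Eδ)
        (Q Q' : Pr Eδ) (C : Type) (_ : Field C) (_ : Algebra Eδ C)
        (_ : IsCyclotomicExtension {m} Eδ C) (Y : C),
        below K Q = mapPr (δ : K ≃+* K) q ∧ fdeg K Q = 1 ∧ below K Q' = q' ∧ fdeg K Q' = 1 ∧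
        Y ^ p = algebraMap Eδ C (algebraMap K Eδ α) := by
  have hp : p.Prime := Fact.out
  have : NeZero p := ⟨hp.ne_zero⟩
  obtain ⟨m, hlm, b, hm1, hmp, hpl, hpb, hdisj⟩ := exists_art p hp2 l hl.two_le 1 one_ne_zero
  have hm0 : 0 < m := by omega
  have : NeZero m := ⟨hm0.ne'⟩
  have hmp' : m.Coprime p := by simpa using hmp
  obtain ⟨Ω, _, _, _, _, Y, z, hY, hz⟩ := exists_Omega (p := p) K α m hm0
  have hY0 : Y ≠ 0 := by
    rintro rfl
    rw [zero_pow hp.ne_zero] at hY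
    exact hα0 ((map_eq_zero _).1 hY.symm)
  obtain ⟨β, hβY, hβz⟩ := exists_beta hp2 hζ hα0 (by push Not; exact hα)
    (fun δ h => by simpa using hEq δ 2 h) m hmp'.symm Ω hY hz b
  -- the field `E'`
  let H' : Subgroup (Ω ≃ₐ[K] Ω) := Subgroup.closure {β}
  let E' : IntermediateField K Ω := fixedField H'
  have hβH' : β ∈ H' := Subgroup.subset_closure rfl
  have hζΩ : IsPrimitiveRoot (algebraMap K Ω ζ) p := hζ.map_of_injective (algebraMap K Ω).injective
  have hx : ∀ c : E', c ^ p ≠ algebraMap K E' α := by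
    intro c hc
    have hc' : (c : Ω) ^ p = algebraMap K Ω α := congrArg (fun x : E' => (x : Ω)) hc
    have hc0 : (c : Ω) ≠ 0 := by
      intro h0
      rw [h0, zero_pow hp.ne_zero] at hc'
      exact hα0 ((map_eq_zero _).1 hc'.symm)
    obtain ⟨i, -, hi⟩ := hζΩ.eq_pow_of_pow_eq_one (ξ := Y / c) (by
      rw [div_pow, hY, hc', div_self]
      rw [← hY]; exact pow_ne_zero _ hY0)
    have hYc : Y = algebraMap K Ω ζ ^ i * c := by rw [hi, div_mul_cancel₀ _ hc0]
    apply hβY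
    have hβc : β (c : Ω) = c := (IntermediateField.mem_fixedField_iff H' _).1 c.2 β hβH'
    conv_lhs => rw [hYc]
    rw [map_mul, map_pow, AlgEquiv.commutes, hβc, ← hYc]
  obtain ⟨T, hTZ, hTN, hTp, hTα, hTloc⟩ := hAN E' (algebraMap K E' ζ)
    (hζ.map_of_injective (algebraMap K E').injective) (algebraMap K E' α)
    (by simpa using hα0) hx (primesDiv E' m) (finite_primesDiv E')
  have := T.isMaximal
  obtain ⟨𝔗, h𝔗m, h𝔗T⟩ := exists_maximal_ideal_liesOver_of_isIntegral (S := 𝓞 Ω) T.asIdeal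
  have h𝔗0 : 𝔗 ≠ ⊥ := Ring.ne_bot_of_isMaximal_of_not_isField h𝔗m (RingOfIntegers.not_isField Ω)
  have h𝔗N : absNorm (𝔗.under (𝓞 E')) = Nq T := by rw [← h𝔗T.over]; rfl
  refine ⟨m, hm0, hmp', hlm.symm, below K T, ?_, ?_, ?_, ?_, ?_⟩
  · intro h
    apply hTZ
    obtain ⟨e, he, h1⟩ := cross_ordv_algebraMap (E := K) T (m : K)
    rw [map_natCast] at h1
    change 0 < ordv T (m : E')
    rw [h1]
    have h2 : 0 < ordv (below K T) (m : K) := h
    have : (0 : ℤ) < e := by exact_mod_cast Nat.pos_of_ne_zero he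
    positivity
  · exact cross_ordv_eq_zero T (x := (p : K)) (by rw [map_natCast]; exact hTp)
  · exact cross_ordv_eq_zero T hTα
  · rintro ⟨c, hc0, hc⟩
    apply hTloc
    refine ⟨algebraMap K E' c, by simpa using hc0, ?_⟩
    have := cross_ordGE_algebraMap T hc
    simpa only [map_sub, map_mul, map_pow, map_one] using this
  intro δ
  set q₁ : Pr K := mapPr (δ : K ≃+* K) q with hq₁def
  have hq₁ : absNorm q₁.asIdeal = l := (cross_Nq_mapPr _ q).trans hq
  have := q₁.isMaximal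
  obtain ⟨𝔔, φ, h𝔔m, h𝔔q, hφ, hφz⟩ :=
    exists_frob (Ω := Ω) q₁.asIdeal hq₁ hlm hz.pow_eq_one hm0.ne'
  have h𝔔0 : 𝔔 ≠ ⊥ := Ring.ne_bot_of_isMaximal_of_not_isField h𝔔m (RingOfIntegers.not_isField Ω)
  let H : Subgroup (Ω ≃ₐ[K] Ω) := Subgroup.closure {φ, β}
  let Eδ : IntermediateField K Ω := fixedField H
  have hle : Eδ ≤ E' := by
    intro x hx
    rw [IntermediateField.mem_fixedField_iff] at hx ⊢
    intro f hf
    apply hx
    exact (Subgroup.closure_mono (by simp) : H' ≤ H) hf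
  let 𝔔' : Pr Ω := ⟨𝔔, h𝔔m.isPrime, h𝔔0⟩
  let 𝔗' : Pr Ω := ⟨𝔗, h𝔗m.isPrime, h𝔗0⟩
  have hcyc : IsCyclotomicExtension {m} Eδ Eδ⟮z⟯ :=
    hz.intermediateField_adjoin_isCyclotomicExtension Eδ
  have hYmem : Y ∈ Eδ⟮z⟯ := mem_adjoin_fixedField H Y z (fun γ hγ hγz =>
    fix_of_mem_closure hζ hp.ne_zero hY0 hY hz hlm b hpl hpb hdisj hφz hβz hγ hγz)
  have hl𝔔 : (l : 𝓞 Ω) ∈ 𝔔 := by
    have h1 : (l : 𝓞 K) ∈ q₁.asIdeal := hq₁ ▸ absNorm_mem q₁.asIdeal
    rw [h𝔔q.over, Ideal.mem_comap, map_natCast] at h1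
    exact h1
  have hb1 : below K (below Eδ 𝔔') = q₁ := by
    apply HeightOneSpectrum.ext
    change (𝔔.under (𝓞 Eδ)).under (𝓞 K) = q₁.asIdeal
    rw [Ideal.under_under]
    exact h𝔔q.over.symm
  have hb2 : below K (below Eδ 𝔗') = below K T := by
    apply HeightOneSpectrum.ext
    change (𝔗.under (𝓞 Eδ)).under (𝓞 K) = T.asIdeal.under (𝓞 K)
    rw [Ideal.under_under, h𝔗T.over, Ideal.under_under]
  refine ⟨Eδ, inferInstance, inferInstance, inferInstance, below Eδ 𝔔', below Eδ 𝔗', Eδ⟮z⟯,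
    inferInstance, inferInstance, hcyc, ⟨Y, hYmem⟩, hb1, ?_, hb2, ?_, ?_⟩
  · apply cross_fdeg_eq_one
    rw [hb1]
    have : 𝔔.IsPrime := h𝔔m.isPrime
    exact hq₁.trans (absNorm_under_fixedField 𝔔 hl hφ hl𝔔 H (Subgroup.subset_closure (by simp))).symm
  · apply cross_fdeg_eq_one
    rw [hb2]
    have : 𝔗.IsPrime := h𝔗m.isPrime
    have h1 : Nq (below Eδ 𝔗') = Nq T :=
      absNorm_under_of_factor Eδ E' (exists_integer_of_le hle) 𝔗 hTN h𝔗N
    have h2 : Nq (below K T) = Nq T := by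
      have h3 := absNorm_under_of_factor K E'
        (fun x => ⟨algebraMap (𝓞 K) (𝓞 E') x, (IsScalarTower.algebraMap_apply _ _ _ x).symm⟩)
        𝔗 hTN h𝔗N
      rw [← h3]
      change absNorm (T.asIdeal.under (𝓞 K)) = _
      rw [h𝔗T.over, Ideal.under_under]
    rw [h1, h2]
  · apply Subtype.ext
    simpa using hY

end main

end FA14
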