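import Mathlib

/-! S14, package [CYC], part 2: norms and congruences. -/

set_option autoImplicit false

open NumberField Ideal

namespace FA14

section ring
variable {R : Type*} [CommRing R]

theorem cyc_pow_sub_pow_mem (I J : Ideal R) (m : ℕ) (hm : (m : R) ∈ J) (hIJ : I ≤ J) {x y : R}
    (h : x - y ∈ I) : x ^ m - y ^ m ∈ I * J := by
  have h1 : x ^ m - y ^ m = (x - y) * ∑ i ∈ Finset.range m, x ^ i * y ^ (m - 1 - i) :=
    ((Commute.all x y).mul_geom_sum₂ m).symm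
  rw [h1]
  refine Ideal.mul_mem_mul h ?_
  rw [← Ideal.Quotient.eq_zero_iff_mem, map_sum]
  have hxy : Ideal.Quotient.mk J x = Ideal.Quotient.mk J y :=
    (Ideal.Quotient.eq).mpr (hIJ h)
  have h2 : ∀ i ∈ Finset.range m, Ideal.Quotient.mk J (x ^ i * y ^ (m - 1 - i)) =
      (Ideal.Quotient.mk J y) ^ (m - 1) := by
    intro i hi
    rw [Finset.mem_range] at hi
    rw [map_mul, map_pow, map_pow, hxy, ← pow_add]
    congr 1
    omega
  rw [Finset.sum_congr rfl h2, Finset.sum_const, Finset.card_range, nsmul_eq_mul]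
  have h3 : ((m : ℕ) : R ⧸ J) = 0 := by
    rw [← map_natCast (Ideal.Quotient.mk J), Ideal.Quotient.eq_zero_iff_mem]
    exact hm
  rw [h3, zero_mul]

theorem cyc_pow_pow_sub_mem (J : Ideal R) (m : ℕ) (hm : (m : R) ∈ J) {x y : R}
    (h : x - y ∈ J) (k : ℕ) : x ^ (m ^ k) - y ^ (m ^ k) ∈ J ^ (k + 1) := by
  induction k with
  | zero => simpa using h
  | succ k ih =>
    rw [pow_succ m k, pow_mul, pow_mul, pow_succ J (k + 1)]
    exact cyc_pow_sub_pow_mem (J ^ (k + 1)) J m hm (Ideal.pow_le_self (by omega)) ih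

theorem cyc_exists_pow_sub_mem [IsNoetherianRing R] (m : ℕ) {x y : R}
    (h : ∀ t : Ideal R, t.IsPrime → (m : R) ∈ t → x - y ∈ t) :
    ∃ k : ℕ, x ^ (m ^ k) - y ^ (m ^ k) ∈ Ideal.span {(m : R)} := by
  set I : Ideal R := Ideal.span {(m : R)} with hI
  obtain ⟨n, hn⟩ := Ideal.exists_radical_pow_le_of_fg I (IsNoetherian.noetherian _)
  have hx : x - y ∈ I.radical := by
    rw [Ideal.radical_eq_sInf, Ideal.mem_sInf]
    rintro t ⟨h1, h2⟩
    exact h t h2 (h1 (Ideal.mem_span_singleton_self _))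
  have hm : (m : R) ∈ I.radical := Ideal.le_radical (Ideal.mem_span_singleton_self _)
  refine ⟨n, hn ?_⟩
  exact Ideal.pow_le_pow_right (Nat.le_succ n) (cyc_pow_pow_sub_mem I.radical m hm hx n)

end ring

variable {E : Type*} [Field E] [NumberField E]

theorem cyc_norm_congr (m : ℕ) (a b : 𝓞 E) (h : a - b ∈ Ideal.span {(m : 𝓞 E)}) :
    ((Algebra.norm ℤ a : ℤ) : ZMod m) = ((Algebra.norm ℤ b : ℤ) : ZMod m) := by
  classical
  obtain ⟨c, hc⟩ := Ideal.mem_span_singleton'.mp h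
  have ha : a = b + c * m := by rw [hc]; ring
  set B := RingOfIntegers.basis E
  rw [Algebra.norm_eq_matrix_det B a, Algebra.norm_eq_matrix_det B b]
  have e1 : ∀ M : Matrix (Module.Free.ChooseBasisIndex ℤ (𝓞 E))
      (Module.Free.ChooseBasisIndex ℤ (𝓞 E)) ℤ, ((M.det : ℤ) : ZMod m) =
      ((Int.castRingHom (ZMod m)).mapMatrix M).det := by
    intro M
    exact RingHom.map_det (Int.castRingHom (ZMod m)) M
  rw [e1, e1]
  congr 1
  rw [ha, map_add, map_mul, map_add, map_mul, map_natCast, map_natCast]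
  have : ((m : ℕ) : Matrix (Module.Free.ChooseBasisIndex ℤ (𝓞 E))
      (Module.Free.ChooseBasisIndex ℤ (𝓞 E)) (ZMod m)) = 0 := by
    ext i j
    simp [Matrix.natCast_apply]
  rw [this, mul_zero, add_zero]

/-- the final congruence on absolute norms -/
theorem cyc_absNorm_congr (m : ℕ) (x y : 𝓞 E)
    (h : ∀ t : Ideal (𝓞 E), t.IsPrime → (m : 𝓞 E) ∈ t → x - y ∈ t) :
    ∃ k : ℕ, ((absNorm (span {x}) ^ (2 * m ^ k) : ℕ) : ZMod m) =
      ((absNorm (span {y}) ^ (2 * m ^ k) : ℕ) : ZMod m) := by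
  obtain ⟨k, hk⟩ := cyc_exists_pow_sub_mem m h
  refine ⟨k, ?_⟩
  have h1 := cyc_norm_congr m _ _ hk
  rw [map_pow, map_pow] at h1
  have e : ∀ z : 𝓞 E, ((absNorm (span {z}) ^ (2 * m ^ k) : ℕ) : ZMod m) =
      (((Algebra.norm ℤ z) ^ (m ^ k) : ℤ) : ZMod m) ^ 2 := by
    intro z
    rw [Ideal.absNorm_span_singleton]
    have : (((Algebra.norm ℤ z).natAbs ^ (2 * m ^ k) : ℕ) : ℤ) =
        ((Algebra.norm ℤ z) ^ (m ^ k)) ^ 2 := by
      push_cast
      rw [pow_mul, sq_abs, ← pow_mul, ← pow_mul, mul_comm]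
    rw [← Int.cast_natCast, this, Int.cast_pow]
  rw [e, e, h1]

end FA14
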