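import Fermat.Agent.CFT.Ord3

/-! S14, package [CYC], part 3: the decomposition group acts trivially on `y^{1/p}` when `y` is
locally a `p`-th power. -/

set_option autoImplicit false

open IsDedekindDomain NumberField

namespace FA14

variable {C : Type*} [Field C] [NumberField C] {p : ℕ} [Fact p.Prime]

lemma cyc_ordv_unit (v : Pr C) (u : (𝓞 C)ˣ) : ordv v (algebraMap (𝓞 C) C (u : 𝓞 C)) = 0 := by
  have h1 : v.valuation C (algebraMap (𝓞 C) C (u : 𝓞 C)) = 1 := by
    rw [HeightOneSpectrum.valuation_eq_one_iff_notMem]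
    intro h
    exact v.isPrime.ne_top (Ideal.eq_top_of_isUnit_mem _ h u.isUnit)
  simp [ordv, h1]

lemma cyc_ordv_zeta_pow {ζ : C} (hζ : IsPrimitiveRoot ζ p) (v : Pr C) (k : ℕ) (hk : ¬ p ∣ k) :
    ordv v (ζ ^ k - 1) = ordv v (ζ - 1) := by
  have hp : p.Prime := Fact.out
  have : NeZero p := ⟨hp.ne_zero⟩
  have hcop : k.Coprime p := ((Nat.Prime.coprime_iff_not_dvd hp).mpr hk).symm
  obtain ⟨u, hu⟩ := (hζ.toInteger_isPrimitiveRoot).associated_sub_one_pow_sub_one_of_coprime hcop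
  have h1 := congrArg (algebraMap (𝓞 C) C) hu
  have e1 : algebraMap (𝓞 C) C hζ.toInteger = ζ := rfl
  rw [map_mul, map_sub, map_sub, map_pow, map_one, e1] at h1
  have hne : ζ - 1 ≠ 0 := sub_ne_zero.mpr (hζ.ne_one hp.one_lt)
  have hu0 : algebraMap (𝓞 C) C (u : 𝓞 C) ≠ 0 := by
    simp
  rw [← h1, ordv_mul v hne hu0, cyc_ordv_unit, add_zero]

lemma cyc_ordv_zeta {ζ : C} (hζ : IsPrimitiveRoot ζ p) (v : Pr C) :
    ((p : ℤ) - 1) * ordv v (ζ - 1) = ordv v (p : C) := by
  have hp : p.Prime := Fact.out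
  obtain ⟨n, hn⟩ : ∃ n, p = n + 1 := ⟨p - 1, by have := hp.one_lt; omega⟩
  have hζ' : IsPrimitiveRoot ζ (n + 1) := hn ▸ hζ
  have h1 := hζ'.prod_one_sub_pow_eq_order
  have h2 : ∀ k ∈ Finset.range n, (1 - ζ ^ (k + 1)) ≠ 0 := by
    intro k hk h
    rw [Finset.mem_range] at hk
    have := hζ'.pow_ne_one_of_pos_of_lt (Nat.succ_ne_zero k) (by omega : k + 1 < n + 1)
    exact this (sub_eq_zero.mp h).symm
  have h3 := ordv_prod v (Finset.range n) (fun k => 1 - ζ ^ (k + 1)) h2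
  rw [h1] at h3
  have h4 : ∀ k ∈ Finset.range n, ordv v (1 - ζ ^ (k + 1)) = ordv v (ζ - 1) := by
    intro k hk
    rw [Finset.mem_range] at hk
    rw [← ordv_neg, neg_sub]
    apply cyc_ordv_zeta_pow hζ
    intro hd
    have := Nat.le_of_dvd (Nat.succ_pos k) hd
    omega
  rw [Finset.sum_congr rfl h4, Finset.sum_const, Finset.card_range, nsmul_eq_mul] at h3
  rw [hn]
  push_cast
  rw [h3]
  ring

/-- **The decomposition group fixes `p`-th roots of local `p`-th powers.** -/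
theorem cyc_dec_core {ζ : C} (hζ : IsPrimitiveRoot ζ p) (Q : Pr C) (Y' : C)
    (hY : OrdGE Q (Y' ^ p - 1) (1 + p * ordv Q (p : C))) (φ : C ≃+* C) (hφζ : φ ζ = ζ)
    (hφQ : ∀ x, ordv Q (φ x) = ordv Q x) (hφY : φ (Y' ^ p) = Y' ^ p) : φ Y' = Y' := by
  have hp : p.Prime := Fact.out
  have : NeZero p := ⟨hp.ne_zero⟩
  set a : ℤ := ordv Q (ζ - 1) with ha
  have ha1 : ((p : ℤ) - 1) * a = ordv Q (p : C) := cyc_ordv_zeta hζ Q
  have hp2 : (2 : ℤ) ≤ p := by exact_mod_cast hp.two_le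
  have hpn : 0 ≤ ordv Q (p : C) := ordv_natCast_nonneg p
  have ha0 : 0 ≤ a := by
    by_contra h
    push Not at h
    have : ((p : ℤ) - 1) * a < 0 := mul_neg_of_pos_of_neg (by omega) h
    omega
  have hY0 : Y' ≠ 0 := by
    have h1 := ne_zero_of_sub_one hY (by positivity)
    intro h
    rw [h, zero_pow hp.ne_zero] at h1
    exact h1 rfl
  -- φ Y' = ζ^i Y'
  have h1 : (φ Y' / Y') ^ p = 1 := by
    rw [div_pow, ← map_pow, hφY, div_self (pow_ne_zero _ hY0)]
  obtain ⟨i, hi, hiY⟩ := hζ.eq_pow_of_pow_eq_one h1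
  have hiY' : φ Y' = ζ ^ i * Y' := by
    rw [hiY, div_mul_cancel₀ _ hY0]
  -- some factor is highly divisible
  have hprod : Y' ^ p - 1 = ∏ j ∈ Finset.range p, (Y' - ζ ^ j) := by
    have := X_pow_sub_C_eq_prod hζ hp.pos (one_pow p)
    have h2 := congrArg (Polynomial.eval Y') this
    simpa [Polynomial.eval_prod] using h2
  have hex : ∃ j, OrdGE Q (Y' - ζ ^ j) (a + 1) := by
    by_contra hcon
    push Not at hcon
    have hne : ∀ j ∈ Finset.range p, Y' - ζ ^ j ≠ 0 := by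
      intro j _ h
      exact hcon j (Or.inl h)
    have hle : ∀ j ∈ Finset.range p, ordv Q (Y' - ζ ^ j) ≤ a := by
      intro j hj
      by_contra h
      push Not at h
      exact hcon j (Or.inr (by omega))
    have h3 := ordv_prod Q (Finset.range p) (fun j => Y' - ζ ^ j) hne
    rw [← hprod] at h3
    have h4 : ∑ j ∈ Finset.range p, ordv Q (Y' - ζ ^ j) ≤ p * a := by
      have := Finset.sum_le_card_nsmul (Finset.range p) (fun j => ordv Q (Y' - ζ ^ j)) a hle
      simpa using this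
    have h5 : Y' ^ p - 1 ≠ 0 := by
      rw [hprod]
      exact Finset.prod_ne_zero_iff.mpr hne
    have h6 := hY.le h5
    rw [← ha1] at h6
    have h7 : (p : ℤ) * a ≤ p * (((p : ℤ) - 1) * a) := by
      apply mul_le_mul_of_nonneg_left _ (by omega)
      nlinarith
    omega
  obtain ⟨j, hj⟩ := hex
  have hζ0 : ζ ≠ 0 := hζ.ne_zero hp.ne_zero
  have hζint : ∀ k : ℕ, OrdGE Q (ζ ^ k) 0 := by
    intro k
    have := ordGE_algebraMap (v := Q) (hζ.toInteger ^ k)
    rwa [map_pow] at this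
  -- apply φ
  have hj1 : OrdGE Q (φ (Y' - ζ ^ j)) (a + 1) := by
    rcases hj with h | h
    · left; rw [h, map_zero]
    · right; rw [hφQ]; exact h
  rw [map_sub, map_pow, hφζ, hiY'] at hj1
  have hj2 : OrdGE Q (ζ ^ i * (Y' - ζ ^ j)) (a + 1) := (hζint i).mul_left hj
  have hj3 := hj2.sub hj1
  have e : ζ ^ i * (Y' - ζ ^ j) - (ζ ^ i * Y' - ζ ^ j) = - (ζ ^ j * (ζ ^ i - 1)) := by ring
  rw [e] at hj3
  have hj4 := hj3.neg
  rw [neg_neg] at hj4
  by_cases hi0 : i = 0
  · rw [hiY', hi0, pow_zero, one_mul]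
  exfalso
  have hpi : ¬ p ∣ i := fun h => by
    have := Nat.le_of_dvd (Nat.pos_of_ne_zero hi0) h
    omega
  have h8 : ζ ^ i - 1 ≠ 0 := sub_ne_zero.mpr (hζ.pow_ne_one_of_pos_of_lt hi0 hi)
  have h9 := hj4.le (mul_ne_zero (pow_ne_zero _ hζ0) h8)
  rw [ordv_mul Q (pow_ne_zero _ hζ0) h8, cyc_ordv_zeta_pow hζ Q i hpi] at h9
  have h10 : ordv Q (ζ ^ j) = 0 := by
    have h11 : (p : ℤ) * ordv Q ζ = 0 := by
      rw [← ordv_pow, hζ.pow_eq_one, ordv_one]
    have h12 : ordv Q ζ = 0 := by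
      rcases mul_eq_zero.mp h11 with h | h
      · omega
      · exact h
    rw [ordv_pow, h12, mul_zero]
  omega

/-- relative version: this is "(M2)". -/
theorem cyc_dec {E : Type*} [Field E] [NumberField E] [Algebra E C] {ζ : E}
    (hζ : IsPrimitiveRoot ζ p) (Q : Pr C) (y : E) (hy : LocPow p (nv p (below E Q)) (below E Q) y)
    (Y : C) (hY : Y ^ p = algebraMap E C y) (φ : C ≃ₐ[E] C)
    (hφ : mapPr (φ : C ≃+* C) Q = Q) : φ Y = Y := by
  have hp : p.Prime := Fact.out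
  obtain ⟨c, hc0, hc⟩ := hy
  have hζC : IsPrimitiveRoot (algebraMap E C ζ) p :=
    hζ.map_of_injective (algebraMap E C).injective
  have hcC : algebraMap E C c ≠ 0 := by simpa using hc0
  have e1 : (Y * algebraMap E C c) ^ p = algebraMap E C (y * c ^ p) := by
    rw [mul_pow, hY, map_mul, map_pow]
  have h1 : OrdGE Q ((Y * algebraMap E C c) ^ p - 1) (1 + p * ordv Q (p : C)) := by
    rw [e1]
    have e2 : algebraMap E C (y * c ^ p) - 1 = algebraMap E C (y * c ^ p - 1) := by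
      rw [map_sub, map_one]
    rw [e2]
    rcases hc with h | h
    · left; rw [h, map_zero]
    · right
      rw [ordv_algebraMap E Q]
      have e3 : ordv Q (p : C) = eram E Q * ordv (below E Q) (p : E) := by
        rw [← ordv_algebraMap E Q, map_natCast]
      rw [e3]
      unfold nv at h
      have he : (1 : ℤ) ≤ eram E Q := by exact_mod_cast eram_pos E Q
      calc 1 + (p : ℤ) * (eram E Q * ordv (below E Q) (p : E))
          ≤ eram E Q * (1 + p * ordv (below E Q) (p : E)) := by nlinarith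
        _ ≤ _ := mul_le_mul_of_nonneg_left h (by omega)
  have h2 := cyc_dec_core hζC Q (Y * algebraMap E C c) h1 (φ : C ≃+* C) (by simp)
    (fun x => by
      conv_lhs => rw [← hφ]
      exact ordv_mapPr _ _ _)
    (by rw [e1]; simp)
  have h3 : φ (Y * algebraMap E C c) = Y * algebraMap E C c := h2
  rw [map_mul, AlgEquiv.commutes] at h3
  exact mul_right_cancel₀ hcC h3

end FA14
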