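import Fermat.Agent.CFT.Cyc3

/-! S14, package [CYC], part 4: Frobenius elements. -/

set_option autoImplicit false

open IsDedekindDomain NumberField

namespace FA14

section one
variable {C : Type*} [Field C] [NumberField C]

lemma cyc_ordv_of_notMem (v : Pr C) {a : 𝓞 C} (ha : a ∉ v.asIdeal) :
    ordv v (algebraMap (𝓞 C) C a) = 0 := by
  have h1 : v.valuation C (algebraMap (𝓞 C) C a) = 1 := by
    rw [HeightOneSpectrum.valuation_eq_one_iff_notMem]
    exact ha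
  simp [ordv, h1]

lemma cyc_ordGE_of_mul {v : Pr C} {z s : C} {n : ℤ} (h : OrdGE v (z * s) n) (hs0 : s ≠ 0)
    (hs : ordv v s = 0) : OrdGE v z n := by
  by_cases hz : z = 0
  · left; exact hz
  right
  have := h.le (mul_ne_zero hz hs0)
  rw [ordv_mul v hz hs0, hs, add_zero] at this
  exact this

end one

variable {E C : Type*} [Field E] [NumberField E] [Field C] [NumberField C] [Algebra E C]
  [IsGalois E C]

/-- **Frobenius elements.** -/
theorem cyc_exists_frob (q : Pr E) : ∃ (Q : Pr C) (φ : C ≃ₐ[E] C), below E Q = q ∧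
    mapPr (φ : C ≃+* C) Q = Q ∧ (∀ x : C, OrdGE Q x 0 → OrdGE Q (φ x - x ^ Nq q) 1) ∧
    (∀ (m : ℕ) (μ : C), μ ^ m = 1 → m ≠ 0 → ordv q (m : E) = 0 → φ μ = μ ^ Nq q) := by
  obtain ⟨Q, hQ⟩ := exists_above E (E' := C) q
  have : Finite (𝓞 C ⧸ Q.asIdeal) := Ideal.finiteQuotientOfFreeOfNeBot Q.asIdeal Q.ne_bot
  obtain ⟨σ, hσ⟩ := IsArithFrobAt.exists_of_isInvariant (𝓞 E) (C ≃ₐ[E] C) Q.asIdeal
  have hu : Q.asIdeal.under (𝓞 E) = q.asIdeal := by rw [← hQ]; rfl
  have hN : Nat.card (𝓞 E ⧸ Q.asIdeal.under (𝓞 E)) = Nq q := by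
    rw [hu, Nq, Ideal.absNorm_apply, Submodule.cardQuot_apply]
  have hfr : ∀ a : 𝓞 C, MulSemiringAction.toAlgHom (𝓞 E) (𝓞 C) σ a - a ^ Nq q ∈ Q.asIdeal := by
    intro a
    have := hσ a
    rwa [hN] at this
  have ecoe : ∀ a : 𝓞 C, algebraMap (𝓞 C) C (MulSemiringAction.toAlgHom (𝓞 E) (𝓞 C) σ a) =
      σ (algebraMap (𝓞 C) C a) := fun a => rfl
  refine ⟨Q, σ, hQ, ?_, ?_, ?_⟩
  · apply HeightOneSpectrum.ext
    rw [mapPr_asIdeal]
    have hc := hσ.comap_eq
    ext a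
    rw [Ideal.mem_comap]
    have hmem : ∀ b : 𝓞 C, MulSemiringAction.toAlgHom (𝓞 E) (𝓞 C) σ b ∈ Q.asIdeal ↔
        b ∈ Q.asIdeal := fun b => by rw [← Ideal.mem_comap, hc]
    have : MulSemiringAction.toAlgHom (𝓞 E) (𝓞 C) σ
        ((RingOfIntegers.mapRingEquiv (σ : C ≃+* C)).symm a) = a := by
      apply RingOfIntegers.ext
      show σ (σ.symm a) = a
      simp
    rw [← hmem, this]
  · intro x hx
    have hv : Q.valuation C x ≤ 1 := by simpa using (ordGE_iff Q).1 hx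
    obtain ⟨n, ⟨d, hd⟩, hnd⟩ := Q.exists_primeCompl_mul_eq_of_integer x hv
    have hd' : d ∉ Q.asIdeal := hd
    set σn := MulSemiringAction.toAlgHom (𝓞 E) (𝓞 C) σ n
    set σd := MulSemiringAction.toAlgHom (𝓞 E) (𝓞 C) σ d
    have hnd' : x * algebraMap (𝓞 C) C d = algebraMap (𝓞 C) C n := hnd
    have h1 : σ x * algebraMap (𝓞 C) C σd = algebraMap (𝓞 C) C σn := by
      rw [ecoe, ecoe, ← map_mul, hnd']
    have key : (σ x - x ^ Nq q) * algebraMap (𝓞 C) C (σd * d ^ Nq q) =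
        algebraMap (𝓞 C) C ((σn - n ^ Nq q) * d ^ Nq q - n ^ Nq q * (σd - d ^ Nq q)) := by
      simp only [map_mul, map_sub, map_pow]
      rw [← h1, ← hnd']
      ring
    have hmem : (σn - n ^ Nq q) * d ^ Nq q - n ^ Nq q * (σd - d ^ Nq q) ∈ Q.asIdeal :=
      Q.asIdeal.sub_mem (Q.asIdeal.mul_mem_right _ (hfr n)) (Q.asIdeal.mul_mem_left _ (hfr d))
    have hdN : d ^ Nq q ∉ Q.asIdeal := fun h => hd' (Q.isPrime.mem_of_pow_mem _ h)
    have hσd : σd ∉ Q.asIdeal := by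
      intro h
      apply hdN
      have h5 := Q.asIdeal.sub_mem h (hfr d)
      have e5 : σd - (σd - d ^ Nq q) = d ^ Nq q := by ring
      rwa [e5] at h5
    have hs : σd * d ^ Nq q ∉ Q.asIdeal := by
      intro h
      rcases Q.isPrime.mem_or_mem h with h | h
      · exact hσd h
      · exact hdN h
    have hs0 : algebraMap (𝓞 C) C (σd * d ^ Nq q) ≠ 0 := by
      intro h
      apply hs
      have : σd * d ^ Nq q = 0 := by
        apply FaithfulSMul.algebraMap_injective (𝓞 C) C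
        rw [h, map_zero]
      rw [this]
      exact Q.asIdeal.zero_mem
    apply cyc_ordGE_of_mul (s := algebraMap (𝓞 C) C (σd * d ^ Nq q)) _ hs0 (cyc_ordv_of_notMem Q hs)
    rw [key, ordGE_algebraMap_one_iff]
    exact hmem
  · intro m μ hμ hm hqm
    have hint : IsIntegral ℤ μ := ⟨Polynomial.X ^ m - 1,
      Polynomial.monic_X_pow_sub_C 1 hm, by simp [hμ]⟩
    set μ' : 𝓞 C := ⟨μ, hint⟩ with hμ'
    have h1 : μ' ^ m = 1 := RingOfIntegers.ext hμ
    have hmq : ((m : ℕ) : 𝓞 E) ∉ q.asIdeal := by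
      intro h
      rw [← ordGE_algebraMap_one_iff, map_natCast] at h
      have := h.le (by exact_mod_cast hm)
      omega
    have hmQ : ((m : ℕ) : 𝓞 C) ∉ Q.asIdeal := by
      intro h
      apply hmq
      rw [← hu, Ideal.under, Ideal.mem_comap, map_natCast]
      exact h
    have h2 := hσ.apply_of_pow_eq_one h1 hmQ
    rw [hN] at h2
    have h3 := congrArg (algebraMap (𝓞 C) C) h2
    rw [ecoe, map_pow] at h3
    exact h3

end FA14
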