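import Fermat.Agent.CFT.LocPow

/-! S14 basic API VI: the power residue symbol `psym` and `art`. -/

set_option autoImplicit false

open IsDedekindDomain NumberField

namespace FA14

variable {E : Type*} [Field E] [NumberField E] {q : Pr E} {p : ℕ} [Fact p.Prime] {ζ : E}

lemma pow_val_natCast {M : Type*} [Monoid M] {η : M} (h : η ^ p = 1) (n : ℕ) :
    η ^ ((n : ZMod p).val) = η ^ n := by
  rw [ZMod.val_natCast, ← pow_eq_pow_mod n h]

lemma pow_val_add {M : Type*} [Monoid M] {η : M} (h : η ^ p = 1) (i j : ZMod p) :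
    η ^ (i + j).val = η ^ i.val * η ^ j.val := by
  rw [ZMod.val_add, ← pow_eq_pow_mod _ h, pow_add]

lemma pow_val_mul {M : Type*} [Monoid M] {η : M} (h : η ^ p = 1) (i j : ZMod p) :
    η ^ (i * j).val = (η ^ i.val) ^ j.val := by
  rw [ZMod.val_mul, ← pow_eq_pow_mod _ h, pow_mul]

lemma pow_val_inj {M : Type*} [CommMonoid M] {η : M} (h : IsPrimitiveRoot η p) {i j : ZMod p}
    (hij : η ^ i.val = η ^ j.val) : i = j :=
  ZMod.val_injective p (h.pow_inj (ZMod.val_lt i) (ZMod.val_lt j) hij)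

/-- the residue symbol of a unit, as an element of the residue field -/
noncomputable def rs (p : ℕ) (q : Pr E) (u : E) : kres q := red q u ^ ((Nq q - 1) / p)

lemma rs_mul {u w : E} (hu : ordv q u = 0) (hw : ordv q w = 0) :
    rs p q (u * w) = rs p q u * rs p q w := by
  rw [rs, rs, rs, red_mul (ordGE_zero_of_ordv hu) (ordGE_zero_of_ordv hw), mul_pow]

lemma rs_pow_p (hζ : IsPrimitiveRoot ζ p) (hq : ordv q (p : E) = 0) {d : E} (hd0 : d ≠ 0)
    (hd : ordv q d = 0) : rs p q (d ^ p) = 1 := by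
  have hd' := ordGE_zero_of_ordv hd
  rw [rs, red_pow hd', ← pow_mul, Nat.mul_div_cancel' (dvd_Nq_sub_one hζ hq)]
  exact red_pow_Nq_sub_one ((red_ne_zero_iff hd' hd0).2 hd)

lemma rs_pow_eq_one (hζ : IsPrimitiveRoot ζ p) (hq : ordv q (p : E) = 0) {u : E} (hu0 : u ≠ 0)
    (hu : ordv q u = 0) : rs p q u ^ p = 1 := by
  have hu' := ordGE_zero_of_ordv hu
  rw [rs, ← pow_mul, Nat.div_mul_cancel (dvd_Nq_sub_one hζ hq)]
  exact red_pow_Nq_sub_one ((red_ne_zero_iff hu' hu0).2 hu)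

lemma ordGE_zeta (hζ : IsPrimitiveRoot ζ p) : OrdGE q ζ 0 :=
  ordGE_zero_of_ordv (ordv_eq_zero_of_pow_eq_one (Fact.out : p.Prime).ne_zero hζ.pow_eq_one)

lemma exists_rs_eq (hζ : IsPrimitiveRoot ζ p) (hq : ordv q (p : E) = 0) {u : E} (hu0 : u ≠ 0)
    (hu : ordv q u = 0) : ∃ i : ZMod p, rs p q u = red q ζ ^ i.val := by
  haveI : NeZero p := ⟨(Fact.out : p.Prime).ne_zero⟩
  obtain ⟨i, hi, h⟩ := (isPrimitiveRoot_red hζ hq).eq_pow_of_pow_eq_one (rs_pow_eq_one hζ hq hu0 hu)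
  refine ⟨(i : ZMod p), ?_⟩
  rw [ZMod.val_natCast, Nat.mod_eq_of_lt hi, h]

/-- the defining condition of `psym`, in the residue field -/
lemma psym_cond_iff (hζ : IsPrimitiveRoot ζ p) {u : E} (hu : ordv q u = 0) (i : ZMod p) :
    OrdGE q (u ^ ((Nq q - 1) / p) - ζ ^ i.val) 1 ↔ rs p q u = red q ζ ^ i.val := by
  have hu' := ordGE_zero_of_ordv hu
  rw [← red_eq_iff (hu'.pow_zero _) ((ordGE_zeta hζ).pow_zero _), red_pow hu',
    red_pow (ordGE_zeta hζ), rs]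

lemma rs_indep (hζ : IsPrimitiveRoot ζ p) (hq : ordv q (p : E) = 0) {y c d : E} (hy : y ≠ 0)
    (hc : c ≠ 0) (hd : d ≠ 0) (h1 : ordv q (y * c ^ p) = 0) (h2 : ordv q (y * d ^ p) = 0) :
    rs p q (y * c ^ p) = rs p q (y * d ^ p) := by
  have hp : (p : ℤ) ≠ 0 := by exact_mod_cast (Fact.out : p.Prime).ne_zero
  have hcd : ordv q (c / d) = 0 := by
    rw [ordv_mul q hy (pow_ne_zero _ hc), ordv_pow] at h1
    rw [ordv_mul q hy (pow_ne_zero _ hd), ordv_pow] at h2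
    rw [ordv_div q hc hd]
    have : (p : ℤ) * (ordv q c - ordv q d) = 0 := by linarith
    rcases mul_eq_zero.1 this with h | h
    · exact absurd h hp
    · exact h
  have e : y * c ^ p = (y * d ^ p) * (c / d) ^ p := by
    rw [div_pow]; field_simp
  have hcd' : ordv q ((c / d) ^ p) = 0 := by rw [ordv_pow, hcd, mul_zero]
  rw [e, rs_mul h2 hcd', rs_pow_p hζ hq (div_ne_zero hc hd) hcd, mul_one]

/-- **characterisation of `psym`** -/
theorem psym_eq_iff (hζ : IsPrimitiveRoot ζ p) (hq : ordv q (p : E) = 0) {y c : E} (hy : y ≠ 0)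
    (hc : c ≠ 0) (h0 : ordv q (y * c ^ p) = 0) (i : ZMod p) :
    psym p ζ q y = i ↔ rs p q (y * c ^ p) = red q ζ ^ i.val := by
  have hu0 : y * c ^ p ≠ 0 := mul_ne_zero hy (pow_ne_zero _ hc)
  obtain ⟨j, hj⟩ := exists_rs_eq hζ hq hu0 h0
  have hex : ∃ i : ZMod p, ∃ c : E, c ≠ 0 ∧ ordv q (y * c ^ p) = 0 ∧
      OrdGE q ((y * c ^ p) ^ ((Nq q - 1) / p) - ζ ^ i.val) 1 :=
    ⟨j, c, hc, h0, (psym_cond_iff hζ h0 j).2 hj⟩
  have hps : psym p ζ q y = j := by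
    rw [psym, dif_pos hex]
    obtain ⟨d, hd, hd0, hd1⟩ := hex.choose_spec
    rw [psym_cond_iff hζ hd0, rs_indep hζ hq hy hd hc hd0 h0, hj] at hd1
    exact (pow_val_inj (isPrimitiveRoot_red hζ hq) hd1).symm
  rw [hps, hj]
  constructor
  · rintro rfl; rfl
  · intro h; exact pow_val_inj (isPrimitiveRoot_red hζ hq) h

theorem psym_spec (hζ : IsPrimitiveRoot ζ p) (hq : ordv q (p : E) = 0) {y c : E} (hy : y ≠ 0)
    (hc : c ≠ 0) (h0 : ordv q (y * c ^ p) = 0) :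
    rs p q (y * c ^ p) = red q ζ ^ (psym p ζ q y).val :=
  (psym_eq_iff hζ hq hy hc h0 _).1 rfl

/-- `OrdGE` form -/
theorem psym_eq_iff_ordGE (hζ : IsPrimitiveRoot ζ p) (hq : ordv q (p : E) = 0) {y c : E}
    (hy : y ≠ 0) (hc : c ≠ 0) (h0 : ordv q (y * c ^ p) = 0) (i : ZMod p) :
    psym p ζ q y = i ↔ OrdGE q ((y * c ^ p) ^ ((Nq q - 1) / p) - ζ ^ i.val) 1 := by
  rw [psym_eq_iff hζ hq hy hc h0, psym_cond_iff hζ h0]

theorem psym_mul (hζ : IsPrimitiveRoot ζ p) (hq : ordv q (p : E) = 0) {y z : E} (hy : y ≠ 0)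
    (hz : z ≠ 0) (hyp : (p : ℤ) ∣ ordv q y) (hzp : (p : ℤ) ∣ ordv q z) :
    psym p ζ q (y * z) = psym p ζ q y + psym p ζ q z := by
  obtain ⟨c, hc, hc0⟩ := exists_unit_mul_pow hy hyp
  obtain ⟨d, hd, hd0⟩ := exists_unit_mul_pow hz hzp
  have e : y * z * (c * d) ^ p = (y * c ^ p) * (z * d ^ p) := by ring
  have h0 : ordv q (y * z * (c * d) ^ p) = 0 := by
    rw [e, ordv_mul q (mul_ne_zero hy (pow_ne_zero _ hc)) (mul_ne_zero hz (pow_ne_zero _ hd)),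
      hc0, hd0, add_zero]
  rw [psym_eq_iff hζ hq (mul_ne_zero hy hz) (mul_ne_zero hc hd) h0, e, rs_mul hc0 hd0,
    psym_spec hζ hq hy hc hc0, psym_spec hζ hq hz hd hd0,
    pow_val_add (isPrimitiveRoot_red hζ hq).pow_eq_one]

theorem psym_pow_p (hζ : IsPrimitiveRoot ζ p) (hq : ordv q (p : E) = 0) {c : E} (hc : c ≠ 0) :
    psym p ζ q (c ^ p) = 0 := by
  have e : c ^ p * (c⁻¹) ^ p = 1 := by rw [← mul_pow, mul_inv_cancel₀ hc, one_pow]
  rw [psym_eq_iff hζ hq (pow_ne_zero _ hc) (inv_ne_zero hc) (by rw [e]; simp), e]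
  simp [rs]

/-- **`psym = 0` iff local `p`-th power** -/
theorem psym_eq_zero_iff (hζ : IsPrimitiveRoot ζ p) (hq : ordv q (p : E) = 0) {y : E} (hy : y ≠ 0)
    (hyp : (p : ℤ) ∣ ordv q y) : psym p ζ q y = 0 ↔ LocPow p 1 q y := by
  obtain ⟨c, hc, hc0⟩ := exists_unit_mul_pow hy hyp
  have hu0 : y * c ^ p ≠ 0 := mul_ne_zero hy (pow_ne_zero _ hc)
  rw [psym_eq_iff hζ hq hy hc hc0, ← locPow_mul_pow_iff hc,
    locPow_one_iff_red (Fact.out : p.Prime).ne_zero hu0 hc0,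
    exists_pow_eq_iff (dvd_Nq_sub_one hζ hq)
      ((red_ne_zero_iff (ordGE_zero_of_ordv hc0) hu0).2 hc0)]
  simp [rs]

/-- transport -/
theorem psym_mapPr {E' : Type*} [Field E'] [NumberField E'] (δ : E ≃+* E')
    (hζ : IsPrimitiveRoot ζ p) (hq : ordv q (p : E) = 0) {y : E} (hy : y ≠ 0)
    (hyp : (p : ℤ) ∣ ordv q y) : psym p (δ ζ) (mapPr δ q) (δ y) = psym p ζ q y := by
  obtain ⟨c, hc, hc0⟩ := exists_unit_mul_pow hy hyp
  have hq' : ordv (mapPr δ q) (p : E') = 0 := by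
    have := ordv_mapPr δ q (p : E); rw [map_natCast] at this; rw [this, hq]
  have hζ' : IsPrimitiveRoot (δ ζ) p := hζ.map_of_injective δ.injective
  have h0' : ordv (mapPr δ q) (δ y * (δ c) ^ p) = 0 := by
    rw [← map_pow, ← map_mul, ordv_mapPr, hc0]
  rw [psym_eq_iff_ordGE hζ' hq' (by simpa using hy) (by simpa using hc) h0', Nq_mapPr]
  have := (psym_eq_iff_ordGE hζ hq hy hc hc0 _).1 rfl
  rw [← ordGE_mapPr δ] at this
  simpa using this

/-- change of the root of unity -/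
theorem psym_zeta_pow (hζ : IsPrimitiveRoot ζ p) (hq : ordv q (p : E) = 0) {y : E} (hy : y ≠ 0)
    (hyp : (p : ℤ) ∣ ordv q y) (k : ℕ) (hk : IsPrimitiveRoot (ζ ^ k) p) :
    psym p ζ q y = (k : ZMod p) * psym p (ζ ^ k) q y := by
  obtain ⟨c, hc, hc0⟩ := exists_unit_mul_pow hy hyp
  rw [psym_eq_iff hζ hq hy hc hc0, psym_spec hk hq hy hc hc0,
    pow_val_mul (isPrimitiveRoot_red hζ hq).pow_eq_one,
    pow_val_natCast (isPrimitiveRoot_red hζ hq).pow_eq_one, red_pow (ordGE_zeta hζ)]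

end FA14
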