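import Fermat.Agent.CFT.Cyc4
import Fermat.Agent.CFT.Psym

/-! S14, package [CYC], part 5: Frobenius and the power residue symbol; multiplicativity. -/

set_option autoImplicit false

open IsDedekindDomain NumberField

namespace FA14

variable {E C : Type*} [Field E] [NumberField E] [Field C] [NumberField C] [Algebra E C]
  {p : ℕ} [Fact p.Prime]

lemma cyc_ordGE_one_down (Q : Pr C) {z : E} (h : OrdGE Q (algebraMap E C z) 1) :
    OrdGE (below E Q) z 1 := by
  by_cases hz : z = 0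
  · left; exact hz
  right
  have h1 := h.le (by simpa using hz)
  rw [ordv_algebraMap E Q] at h1
  have he : (0 : ℤ) < eram E Q := by exact_mod_cast eram_pos E Q
  by_contra hcon
  push Not at hcon
  have : (eram E Q : ℤ) * ordv (below E Q) z ≤ 0 :=
    mul_nonpos_of_nonneg_of_nonpos he.le (by omega)
  omega

/-- the Frobenius acts on `α^{1/p}` through the power residue symbol. -/
theorem cyc_frob_psym {ζ : E} (hζ : IsPrimitiveRoot ζ p) {α : E} (hα0 : α ≠ 0) (Q : Pr C)
    (hq : ordv (below E Q) (p : E) = 0) (hU : (p : ℤ) ∣ ordv (below E Q) α) (Y : C)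
    (hY : Y ^ p = algebraMap E C α) (φ : C ≃ₐ[E] C)
    (hfr : ∀ x : C, OrdGE Q x 0 → OrdGE Q (φ x - x ^ Nq (below E Q)) 1) :
    φ Y = algebraMap E C ζ ^ (psym p ζ (below E Q) α).val * Y := by
  have hp : p.Prime := Fact.out
  have : NeZero p := ⟨hp.ne_zero⟩
  set q := below E Q with hqdef
  obtain ⟨c, hc, hc0⟩ := exists_unit_mul_pow hα0 hU
  have hζC : IsPrimitiveRoot (algebraMap E C ζ) p :=
    hζ.map_of_injective (algebraMap E C).injective
  have hcC : algebraMap E C c ≠ 0 := by simpa using hc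
  set u := α * c ^ p with hu
  have hu0 : u ≠ 0 := mul_ne_zero hα0 (pow_ne_zero _ hc)
  set Y' := Y * algebraMap E C c with hY'
  have e1 : Y' ^ p = algebraMap E C u := by
    rw [hY', mul_pow, hY, hu, map_mul, map_pow]
  have hY'0 : Y' ≠ 0 := by
    intro h
    rw [h, zero_pow hp.ne_zero] at e1
    exact hu0 (by simpa using e1.symm)
  have hordY : ordv Q Y' = 0 := by
    have h1 : (p : ℤ) * ordv Q Y' = 0 := by
      rw [← ordv_pow, e1, ordv_algebraMap E Q, ← hqdef, hc0, mul_zero]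
    rcases mul_eq_zero.mp h1 with h | h
    · exact absurd h (by exact_mod_cast hp.ne_zero)
    · exact h
  have h1 : (φ Y' / Y') ^ p = 1 := by
    rw [div_pow, ← map_pow, e1, AlgEquiv.commutes, div_self (by simpa using hu0)]
  obtain ⟨i, hi, hiY⟩ := hζC.eq_pow_of_pow_eq_one h1
  have hiY' : φ Y' = algebraMap E C ζ ^ i * Y' := by
    rw [hiY, div_mul_cancel₀ _ hY'0]
  have h2 := hfr Y' (Or.inr hordY.ge)
  obtain ⟨k, hk⟩ := dvd_Nq_sub_one hζ hq
  have hN : Nq q = 1 + p * k := by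
    have := one_lt_Nq q
    omega
  have hk' : (Nq q - 1) / p = k := by
    rw [hk, Nat.mul_div_cancel_left _ hp.pos]
  have e2 : φ Y' - Y' ^ Nq q = algebraMap E C (ζ ^ i - u ^ k) * Y' := by
    rw [hiY', hN, pow_add, pow_one, pow_mul, e1, map_sub, map_pow, map_pow]
    ring
  rw [e2] at h2
  have h3 := cyc_ordGE_one_down Q (cyc_ordGE_of_mul h2 hY'0 hordY)
  have h4 : psym p ζ q α = (i : ZMod p) := by
    rw [psym_eq_iff_ordGE hζ hq hα0 hc hc0, hk', ZMod.val_natCast_of_lt hi]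
    have := h3.neg
    rwa [neg_sub] at this
  rw [h4, ZMod.val_natCast_of_lt hi]
  have h5 : φ Y * algebraMap E C c = algebraMap E C ζ ^ i * Y * algebraMap E C c := by
    have := hiY'
    rw [hY', map_mul, AlgEquiv.commutes] at this
    rw [this]; ring
  exact mul_right_cancel₀ hcC h5

/-- the relation "some element of the Galois group acts by `a` on `μ` and by `i` on `Y`" -/
def CycRel (p : ℕ) (ζ : E) (μ Y : C) (a : ℕ) (i : ZMod p) : Prop :=
  ∃ φ : C ≃ₐ[E] C, φ μ = μ ^ a ∧ φ Y = algebraMap E C ζ ^ i.val * Y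

lemma CycRel.one (ζ : E) (μ Y : C) : CycRel p ζ μ Y 1 0 :=
  ⟨1, by simp, by simp⟩

lemma CycRel.mul {ζ : E} (hζ : ζ ^ p = 1) {μ Y : C} {a b : ℕ} {i j : ZMod p}
    (h1 : CycRel p ζ μ Y a i) (h2 : CycRel p ζ μ Y b j) : CycRel p ζ μ Y (a * b) (i + j) := by
  obtain ⟨φ, hφ1, hφ2⟩ := h1
  obtain ⟨ψ, hψ1, hψ2⟩ := h2
  have hζC : algebraMap E C ζ ^ p = 1 := by rw [← map_pow, hζ, map_one]
  refine ⟨φ * ψ, ?_, ?_⟩
  · rw [AlgEquiv.mul_apply, hψ1, map_pow, hφ1, ← pow_mul]
  · rw [AlgEquiv.mul_apply, hψ2, map_mul, map_pow, AlgEquiv.commutes, hφ2, pow_val_add hζC]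
    ring

lemma CycRel.pow {ζ : E} (hζ : ζ ^ p = 1) {μ Y : C} {a : ℕ} {i : ZMod p}
    (h : CycRel p ζ μ Y a i) (n : ℕ) : CycRel p ζ μ Y (a ^ n) (n • i) := by
  induction n with
  | zero => simpa using CycRel.one ζ μ Y
  | succ n ih =>
    rw [pow_succ, succ_nsmul]
    exact ih.mul hζ h

lemma CycRel.prod {ζ : E} (hζ : ζ ^ p = 1) {μ Y : C} {ι : Type*} (S : Finset ι) (N : ι → ℕ)
    (n : ι → ℕ) (χ : ι → ZMod p) (h : ∀ v ∈ S, CycRel p ζ μ Y (N v) (χ v)) :
    CycRel p ζ μ Y (∏ v ∈ S, N v ^ n v) (∑ v ∈ S, n v • χ v) := by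
  classical
  induction S using Finset.induction_on with
  | empty => simpa using CycRel.one ζ μ Y
  | insert a s ha ih =>
    rw [Finset.prod_insert ha, Finset.sum_insert ha]
    exact ((h a (Finset.mem_insert_self a s)).pow hζ (n a)).mul hζ
      (ih fun v hv => h v (Finset.mem_insert_of_mem hv))

/-- the action on `μ` determines the action on `Y`. -/
lemma CycRel.unique {ζ : E} (hζ : IsPrimitiveRoot ζ p) {μ Y : C} (hY0 : Y ≠ 0) {m : ℕ}
    (hμ : μ ^ m = 1) (htop : Algebra.adjoin E {μ} = ⊤) {a b : ℕ} {i j : ZMod p}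
    (hab : (a : ZMod m) = (b : ZMod m))
    (h1 : CycRel p ζ μ Y a i) (h2 : CycRel p ζ μ Y b j) : i = j := by
  obtain ⟨φ, hφ1, hφ2⟩ := h1
  obtain ⟨ψ, hψ1, hψ2⟩ := h2
  have hζC : IsPrimitiveRoot (algebraMap E C ζ) p :=
    hζ.map_of_injective (algebraMap E C).injective
  have hpow : μ ^ a = μ ^ b := by
    rw [ZMod.natCast_eq_natCast_iff'] at hab
    rw [pow_eq_pow_mod a hμ, pow_eq_pow_mod b hμ, hab]
  have heq : (φ : C →ₐ[E] C) = (ψ : C →ₐ[E] C) := by
    apply AlgHom.ext_of_adjoin_eq_top htop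
    intro x hx
    rw [Set.mem_singleton_iff] at hx
    subst hx
    show φ x = ψ x
    rw [hφ1, hψ1, hpow]
  have h3 : φ Y = ψ Y := DFunLike.congr_fun heq Y
  rw [hφ2, hψ2] at h3
  exact pow_val_inj hζC (mul_right_cancel₀ hY0 h3)

open Classical in
lemma cyc_art_single (ζ y : E) (Z : Set (Pr E)) (q : Pr E) :
    art p ζ y Z (Finsupp.single q 1) =
      if q ∈ Z ∨ 0 < ordv q (p : E) then 0 else psym p ζ q y := by
  unfold art
  rw [Finsupp.liftAddHom_apply_single]
  split_ifs <;> simp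

lemma cyc_ordv_eq_count (v : Pr E) {x : 𝓞 E} (hx : x ≠ 0) :
    ordv v (algebraMap (𝓞 E) E x) =
      ((Associates.mk v.asIdeal).count (Associates.mk (Ideal.span {x})).factors : ℤ) := by
  rw [ordv, HeightOneSpectrum.valuation_of_algebraMap, HeightOneSpectrum.intValuation_if_neg v hx]
  simp

lemma cyc_absNorm_eq_prod {x : 𝓞 E} (hx : x ≠ 0) :
    Ideal.absNorm (Ideal.span {x}) = ∏ v ∈ (divOf (algebraMap (𝓞 E) E x)).support,
      Nq v ^ (ordv v (algebraMap (𝓞 E) E x)).toNat := by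
  have hI : Ideal.span {x} ≠ 0 := by simpa using hx
  have h := Ideal.finprod_heightOneSpectrum_factorization hI
  conv_lhs => rw [← h]
  rw [finprod_eq_prod_of_mulSupport_subset (s := (divOf (algebraMap (𝓞 E) E x)).support), map_prod]
  · refine Finset.prod_congr rfl fun v _ => ?_
    rw [HeightOneSpectrum.maxPowDividing, map_pow, cyc_ordv_eq_count v hx, Int.toNat_natCast]
    rfl
  · intro v hv
    rw [Function.mem_mulSupport] at hv
    rw [Finset.mem_coe, Finsupp.mem_support_iff, divOf_apply, cyc_ordv_eq_count v hx]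
    intro h0
    apply hv
    rw [HeightOneSpectrum.maxPowDividing]
    have : (Associates.mk v.asIdeal).count (Associates.mk (Ideal.span {x})).factors = 0 := by
      exact_mod_cast h0
    rw [this, pow_zero]

end FA14
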