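import Fermat.Agent.CFT.Cyc2
import Fermat.Agent.CFT.Cyc5

/-! S14, package [CYC], part 6: assembly. -/

set_option autoImplicit false

open IsDedekindDomain NumberField

namespace FA14

section den
variable {E : Type*} [Field E] [NumberField E]

lemma cyc_one_mul {v : Pr E} {x y : E} (hx : OrdGE v (x - 1) 1) (hy : OrdGE v (y - 1) 1) :
    OrdGE v (x * y - 1) 1 := by
  have hy0 : OrdGE v y 0 := by
    have := (hy.mono (by norm_num : (0 : ℤ) ≤ 1)).add (ordGE_one (v := v))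
    simpa using this
  have h1 := (hx.mul_right hy0).add hy
  have e : (x - 1) * y + (y - 1) = x * y - 1 := by ring
  rwa [e] at h1

lemma cyc_one_pow {v : Pr E} {x : E} (hx : OrdGE v (x - 1) 1) (n : ℕ) :
    OrdGE v (x ^ n - 1) 1 := by
  induction n with
  | zero => simp
  | succ n ih =>
    rw [pow_succ]
    exact cyc_one_mul ih hx

/-- a common denominator prime to a finite set of primes -/
lemma cyc_exists_den (S : Finset (Pr E)) (b : E) (hb : ∀ v ∈ S, OrdGE v b 0) :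
    ∃ y x : 𝓞 E, y ≠ 0 ∧ (∀ v ∈ S, y ∉ v.asIdeal) ∧
      b * algebraMap (𝓞 E) E y = algebraMap (𝓞 E) E x := by
  classical
  by_cases hS : S = ∅
  · obtain ⟨a, d, hd, rfl⟩ := exists_frac b
    refine ⟨d, a, hd, by simp [hS], ?_⟩
    rw [div_mul_cancel₀]
    simpa using hd
  obtain ⟨v0, hv0⟩ := Finset.nonempty_iff_ne_empty.mpr hS
  let D : Ideal (𝓞 E) :=
    { carrier := {d | ∃ n : 𝓞 E, b * algebraMap (𝓞 E) E d = algebraMap (𝓞 E) E n}
      add_mem' := by
        rintro d d' ⟨n, hn⟩ ⟨n', hn'⟩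
        exact ⟨n + n', by rw [map_add, map_add, mul_add, hn, hn']⟩
      zero_mem' := ⟨0, by simp⟩
      smul_mem' := by
        rintro c d ⟨n, hn⟩
        refine ⟨c * n, ?_⟩
        rw [smul_eq_mul, map_mul, map_mul, ← hn]
        ring }
  have hD : ∀ d, d ∈ D ↔ ∃ n : 𝓞 E, b * algebraMap (𝓞 E) E d = algebraMap (𝓞 E) E n :=
    fun d => Iff.rfl
  by_contra hcon
  push Not at hcon
  have hsub : (D : Set (𝓞 E)) ⊆ ⋃ v ∈ (S : Set (Pr E)), (v.asIdeal : Set (𝓞 E)) := by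
    intro d hd
    obtain ⟨n, hn⟩ := (hD d).1 hd
    by_cases hd0 : d = 0
    · simp only [Set.mem_iUnion]
      exact ⟨v0, hv0, by rw [hd0]; exact v0.asIdeal.zero_mem⟩
    by_contra hnot
    simp only [Set.mem_iUnion, not_exists] at hnot
    exact hcon d n hd0 (fun v hv hmem => hnot v hv hmem) hn
  obtain ⟨v, hv, hle⟩ := (Ideal.subset_union_prime (f := fun v : Pr E => v.asIdeal) v0 v0
    (fun v _ _ _ => v.isPrime)).1 hsub
  have hval : v.valuation E b ≤ 1 := by simpa using (ordGE_iff v).1 (hb v hv)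
  obtain ⟨n, ⟨d, hd⟩, hnd⟩ := v.exists_primeCompl_mul_eq_of_integer b hval
  exact hd (hle ((hD d).2 ⟨n, hnd⟩))

end den

variable {E C : Type*} [Field E] [NumberField E] [Field C] [NumberField C] [Algebra E C]
  [IsGalois E C] {p : ℕ} [Fact p.Prime]

theorem cyc_rel_prime {ζ : E} (hζ : IsPrimitiveRoot ζ p) {α : E} (hα0 : α ≠ 0)
    (hU : ∀ v : Pr E, (p : ℤ) ∣ ordv v α)
    (hP : ∀ v : Pr E, 0 < ordv v (p : E) → LocPow p (nv p v) v α)
    {m : ℕ} (hm0 : m ≠ 0) {μ Y : C} (hμ : μ ^ m = 1) (hY : Y ^ p = algebraMap E C α)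
    (q : Pr E) (hq : q ∉ primesDiv E m) :
    CycRel p ζ μ Y (Nq q) (art p ζ α (primesDiv E m) (Finsupp.single q 1)) := by
  obtain ⟨Q, φ, hQ, hfix, hfr, hroot⟩ := cyc_exists_frob (C := C) q
  have hqm : ordv q (m : E) = 0 := by
    have h1 : ¬ 0 < ordv q (m : E) := hq
    have h2 := ordv_natCast_nonneg (v := q) m
    omega
  refine ⟨φ, hroot m μ hμ hm0 hqm, ?_⟩
  rw [cyc_art_single]
  subst hQ
  by_cases hqp : 0 < ordv (below E Q) (p : E)
  · rw [if_pos (Or.inr hqp), ZMod.val_zero, pow_zero, one_mul]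
    exact cyc_dec hζ Q α (hP _ hqp) Y hY φ hfix
  · rw [if_neg (by tauto)]
    have h2 := ordv_natCast_nonneg (v := below E Q) p
    exact cyc_frob_psym hζ hα0 Q (by omega) (hU _) Y hY φ hfr

theorem cyc_rel_int {ζ : E} (hζ : IsPrimitiveRoot ζ p) {α : E} (hα0 : α ≠ 0)
    (hU : ∀ v : Pr E, (p : ℤ) ∣ ordv v α)
    (hP : ∀ v : Pr E, 0 < ordv v (p : E) → LocPow p (nv p v) v α)
    {m : ℕ} (hm0 : m ≠ 0) {μ Y : C} (hμ : μ ^ m = 1) (hY : Y ^ p = algebraMap E C α)
    (x : 𝓞 E) (hx : x ≠ 0) (hxZ : ∀ t ∈ primesDiv E m, x ∉ t.asIdeal) :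
    CycRel p ζ μ Y (Ideal.absNorm (Ideal.span {x}))
      (art p ζ α (primesDiv E m) (divOf (algebraMap (𝓞 E) E x))) := by
  rw [cyc_absNorm_eq_prod hx, hom_apply_eq_sum, Finsupp.sum]
  have h1 := CycRel.prod (μ := μ) (Y := Y) hζ.pow_eq_one (divOf (algebraMap (𝓞 E) E x)).support
    (fun v => Nq v) (fun v => (ordv v (algebraMap (𝓞 E) E x)).toNat)
    (fun v => art p ζ α (primesDiv E m) (Finsupp.single v 1)) (by
      intro v hv
      apply cyc_rel_prime hζ hα0 hU hP hm0 hμ hY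
      intro hvZ
      rw [Finsupp.mem_support_iff, divOf_apply] at hv
      exact hv (cyc_ordv_of_notMem v (hxZ v hvZ)))
  have e : ∑ v ∈ (divOf (algebraMap (𝓞 E) E x)).support, (divOf (algebraMap (𝓞 E) E x)) v •
      art p ζ α (primesDiv E m) (Finsupp.single v 1) =
      ∑ v ∈ (divOf (algebraMap (𝓞 E) E x)).support, (ordv v (algebraMap (𝓞 E) E x)).toNat •
      art p ζ α (primesDiv E m) (Finsupp.single v 1) := by
    refine Finset.sum_congr rfl fun v _ => ?_
    rw [divOf_apply]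
    conv_lhs => rw [← Int.toNat_of_nonneg (ordv_algebraMap_nonneg v x)]
    rw [natCast_zsmul]
  rw [e]
  exact h1

theorem cyc_prin (hp2 : p ≠ 2) {ζ : E} (hζ : IsPrimitiveRoot ζ p) {α : E} (hα0 : α ≠ 0)
    (hU : ∀ v : Pr E, (p : ℤ) ∣ ordv v α)
    (hP : ∀ v : Pr E, 0 < ordv v (p : E) → LocPow p (nv p v) v α)
    {m : ℕ} (hm0 : m ≠ 0) (hm : m.Coprime p) {μ Y : C} (hμ : μ ^ m = 1)
    (htop : Algebra.adjoin E {μ} = ⊤) (hY : Y ^ p = algebraMap E C α)
    (b : E) (hb0 : b ≠ 0) (hbR : ∀ t ∈ primesDiv E m, LocPow p (nv p t) t b) :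
    art p ζ α (primesDiv E m) (divOf b) = 0 := by
  classical
  have hp : p.Prime := Fact.out
  set Z := primesDiv E m with hZ
  have hZfin : Z.Finite :=
    (finite_ordv_ne_zero (m : E)).subset (fun v hv => ne_of_gt hv)
  set S := hZfin.toFinset with hS
  have hmemS : ∀ v, v ∈ S ↔ v ∈ Z := fun v => hZfin.mem_toFinset
  -- the local roots
  let c : Pr E → E := fun t => if h : t ∈ Z then (hbR t h).choose else 1
  have hc0 : ∀ t ∈ S, c t ≠ 0 := by
    intro t ht
    have ht' := (hmemS t).1 ht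
    simp only [c, dif_pos ht']
    exact (hbR t ht').choose_spec.1
  have hc1 : ∀ t ∈ S, OrdGE t (b * c t ^ p - 1) 1 := by
    intro t ht
    have ht' := (hmemS t).1 ht
    simp only [c, dif_pos ht']
    exact (hbR t ht').choose_spec.2.mono (by have := nv_pos p t; omega)
  obtain ⟨z, hz0, hz⟩ := weak_approx_mul S c hc0 1
  set b' := b * z ^ p with hb'
  have hb'0 : b' ≠ 0 := mul_ne_zero hb0 (pow_ne_zero _ hz0)
  have hb'1 : ∀ t ∈ S, OrdGE t (b' - 1) 1 := by
    intro t ht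
    have h1 := cyc_one_mul (hc1 t ht) (cyc_one_pow (hz t ht).1 p)
    have e : b * c t ^ p * (z / c t) ^ p = b' := by
      rw [hb', div_pow]
      field_simp [hc0 t ht]
    rwa [e] at h1
  obtain ⟨y, x, hy0, hyS, hxy⟩ := cyc_exists_den S b' (by
    intro v hv
    have := ((hb'1 v hv).mono (by norm_num : (0 : ℤ) ≤ 1)).add (ordGE_one (v := v))
    simpa using this)
  have hyE : algebraMap (𝓞 E) E y ≠ 0 := by simpa using hy0
  have hx0 : x ≠ 0 := by
    rintro rfl
    rw [map_zero] at hxy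
    exact (mul_ne_zero hb'0 hyE) hxy
  have hxE : algebraMap (𝓞 E) E x ≠ 0 := by simpa using hx0
  have hsub : ∀ t ∈ S, x - y ∈ t.asIdeal := by
    intro t ht
    rw [← ordGE_algebraMap_one_iff, map_sub, ← hxy]
    have h1 := (hb'1 t ht).mul_right (ordGE_algebraMap (v := t) y)
    have e : (b' - 1) * algebraMap (𝓞 E) E y =
        b' * algebraMap (𝓞 E) E y - algebraMap (𝓞 E) E y := by ring
    rwa [e] at h1
  have hxS : ∀ t ∈ S, x ∉ t.asIdeal := by
    intro t ht h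
    apply hyS t ht
    have := t.asIdeal.sub_mem h (hsub t ht)
    simpa using this
  have hRx := cyc_rel_int hζ hα0 hU hP hm0 hμ hY x hx0 (fun t ht => hxS t ((hmemS t).2 ht))
  have hRy := cyc_rel_int hζ hα0 hU hP hm0 hμ hY y hy0 (fun t ht => hyS t ((hmemS t).2 ht))
  obtain ⟨k, hk⟩ := cyc_absNorm_congr m x y (by
    intro t ht hmt
    have hne : t ≠ ⊥ := by
      rintro rfl
      rw [Ideal.mem_bot] at hmt
      exact hm0 (by exact_mod_cast hmt)
    let v : Pr E := ⟨t, ht, hne⟩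
    have hvZ : v ∈ Z := by
      have h1 : OrdGE v (algebraMap (𝓞 E) E (m : 𝓞 E)) 1 := (ordGE_algebraMap_one_iff _).2 hmt
      rw [map_natCast] at h1
      have := h1.le (by exact_mod_cast hm0)
      show 0 < ordv v (m : E)
      omega
    exact hsub v ((hmemS v).2 hvZ))
  have hY0 : Y ≠ 0 := by
    intro h
    rw [h, zero_pow hp.ne_zero] at hY
    exact hα0 (by simpa using hY.symm)
  have huniq := CycRel.unique hζ hY0 hμ htop hk (hRx.pow hζ.pow_eq_one (2 * m ^ k))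
    (hRy.pow hζ.pow_eq_one (2 * m ^ k))
  rw [nsmul_eq_mul, nsmul_eq_mul] at huniq
  have hunit : ((2 * m ^ k : ℕ) : ZMod p) ≠ 0 := by
    rw [Ne, ZMod.natCast_eq_zero_iff]
    intro hd
    rcases (Nat.Prime.dvd_mul hp).1 hd with h | h
    · exact hp2 ((Nat.prime_dvd_prime_iff_eq hp Nat.prime_two).1 h)
    · have h1 := hp.dvd_of_dvd_pow h
      have h2 : p ∣ Nat.gcd m p := Nat.dvd_gcd h1 dvd_rfl
      rw [hm] at h2
      exact hp.one_lt.ne' (Nat.dvd_one.1 h2)
  have heq := mul_left_cancel₀ hunit huniq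
  -- conclusion
  have e1 : b' = algebraMap (𝓞 E) E x / algebraMap (𝓞 E) E y := by
    rw [← hxy, mul_div_cancel_right₀ _ hyE]
  have e2 : divOf b' = divOf b + p • divOf z := by
    rw [hb', divOf_mul hb0 (pow_ne_zero _ hz0), divOf_pow]
  have e3 : divOf b' = divOf (algebraMap (𝓞 E) E x) - divOf (algebraMap (𝓞 E) E y) := by
    rw [e1, divOf_div hxE hyE]
  have e4 : art p ζ α Z (divOf b') = 0 := by
    rw [e3, map_sub, heq, sub_self]
  rw [e2, map_add, map_nsmul, nsmul_eq_mul, ZMod.natCast_self, zero_mul, add_zero] at e4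
  exact e4

end FA14
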