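import Mathlib

set_option autoImplicit false

open IsDedekindDomain NumberField

namespace FA14

/-- primes of a number field -/
abbrev Pr (E : Type*) [Field E] [NumberField E] := HeightOneSpectrum (𝓞 E)

/-- divisors (additive) -/
abbrev Dv (E : Type*) [Field E] [NumberField E] := Pr E →₀ ℤ

section basic
variable {E : Type*} [Field E] [NumberField E]

/-- additive valuation; `ordv v 0 = 0` (junk) -/
noncomputable def ordv (v : Pr E) (x : E) : ℤ := - WithZero.log (v.valuation E x)

/-- `x ≡ 0 mod v^n` -/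
def OrdGE (v : Pr E) (x : E) (n : ℤ) : Prop := x = 0 ∨ n ≤ ordv v x

theorem finite_ordv_ne_zero (x : E) : {v : Pr E | ordv v x ≠ 0}.Finite := by
  obtain ⟨a, b, hb, rfl⟩ := IsFractionRing.div_surjective (A := 𝓞 E) x
  have hb0 : b ≠ 0 := nonZeroDivisors.ne_zero hb
  by_cases ha : a = 0
  · simp [ha, ordv]
  have h1 := Ideal.finite_factors (R := 𝓞 E) (I := Ideal.span {a}) (by simpa using ha)
  have h2 := Ideal.finite_factors (R := 𝓞 E) (I := Ideal.span {b}) (by simpa using hb0)
  refine (h1.union h2).subset ?_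
  intro v hv
  by_contra hcon
  simp only [Set.mem_union, Set.mem_setOf_eq, not_or] at hcon
  apply hv
  have e1 : v.valuation E (algebraMap (𝓞 E) E a) = 1 := by
    rw [HeightOneSpectrum.valuation_eq_one_iff_notMem]
    intro h; exact hcon.1 (by rwa [Ideal.dvd_span_singleton])
  have e2 : v.valuation E (algebraMap (𝓞 E) E b) = 1 := by
    rw [HeightOneSpectrum.valuation_eq_one_iff_notMem]
    intro h; exact hcon.2 (by rwa [Ideal.dvd_span_singleton])
  simp [ordv, map_div₀, e1, e2]

/-- principal divisor -/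
noncomputable def divOf (x : E) : Dv E :=
  Finsupp.ofSupportFinite (fun v => ordv v x) (finite_ordv_ne_zero x)

/-- absolute norm of a prime -/
noncomputable def Nq (v : Pr E) : ℕ := Ideal.absNorm v.asIdeal

/-- `x` is a `p`-th power modulo `v^n` (multiplicatively; forces `p ∣ ordv v x` when `n ≥ 1`) -/
def LocPow (p : ℕ) (n : ℤ) (v : Pr E) (x : E) : Prop :=
  ∃ c : E, c ≠ 0 ∧ OrdGE v (x * c ^ p - 1) n

/-- the exponent that guarantees `p`-th powers: `1` for `v ∤ p`, `1 + p e_v` for `v ∣ p` -/
noncomputable def nv (p : ℕ) (v : Pr E) : ℤ := 1 + p * ordv v (p : E)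

/-- the dual "ray class characters killing the primes split in `E(y^{1/p})`" -/
structure IsXD (p : ℕ) (y : E) (Z R : Set (Pr E)) (χ : Dv E →+ ZMod p) : Prop where
  supp : ∀ q ∈ Z, χ (Finsupp.single q 1) = 0
  split : ∀ q ∉ Z, LocPow p (nv p q) q y → χ (Finsupp.single q 1) = 0
  prin : ∀ b : E, b ≠ 0 → (∀ q ∈ Z, ordv q b = 0) → (∀ t ∈ R, LocPow p (nv p t) t b) →
    χ (divOf b) = 0

open Classical in
/-- power residue symbol: `(y c^p)^((Nq-1)/p) ≡ ζ^i mod q`; junk value `0`. -/
noncomputable def psym (p : ℕ) (ζ : E) (q : Pr E) (y : E) : ZMod p :=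
  if h : ∃ i : ZMod p, ∃ c : E, c ≠ 0 ∧ ordv q (y * c ^ p) = 0 ∧
      OrdGE q ((y * c ^ p) ^ ((Nq q - 1) / p) - ζ ^ i.val) 1 then h.choose else 0

open Classical in
/-- the "Artin map" of `E(y^{1/p})/E` in Kummer form, `0` on `Z` and on the primes over `p`. -/
noncomputable def art (p : ℕ) (ζ : E) (y : E) (Z : Set (Pr E)) : Dv E →+ ZMod p :=
  Finsupp.liftAddHom (fun q =>
    if q ∈ Z ∨ 0 < ordv q (p : E) then 0 else (zmultiplesHom (ZMod p)) (psym p ζ q y))

/-- restriction of a character off `Z` -/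
noncomputable def resOff {A : Type*} [AddCommGroup A] (Z : Set (Pr E)) (χ : Dv E →+ A) : Dv E →+ A :=
  by classical exact Finsupp.liftAddHom (fun q =>
    if q ∈ Z then 0 else (zmultiplesHom A) (χ (Finsupp.single q 1)))

/-- the primes dividing a natural number -/
def primesDiv (E : Type*) [Field E] [NumberField E] (m : ℕ) : Set (Pr E) :=
  {v | 0 < ordv v (m : E)}

/-- transport of primes along a field isomorphism: `ordv (mapPr δ v) (δ x) = ordv v x`. -/
noncomputable def mapPr {E' : Type*} [Field E'] [NumberField E'] (δ : E ≃+* E') : Pr E ≃ Pr E' :=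
  HeightOneSpectrum.equivOfRingEquiv (NumberField.RingOfIntegers.mapRingEquiv δ)

end basic

section ext
variable (E : Type*) [Field E] [NumberField E] {E' : Type*} [Field E'] [NumberField E'] [Algebra E E']

/-- the prime below -/
noncomputable def below (Q : Pr E') : Pr E := Q.under (𝓞 E)

/-- residue degree -/
noncomputable def fdeg (Q : Pr E') : ℕ := Q.asIdeal.inertiaDeg (𝓞 E)

/-- ramification index -/
noncomputable def eram (Q : Pr E') : ℕ := Q.asIdeal.ramificationIdx (𝓞 E)

/-- norm of divisors -/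
noncomputable def normD : Dv E' →+ Dv E :=
  Finsupp.liftAddHom (fun Q => (zmultiplesHom (Dv E)) (Finsupp.single (below E Q) (fdeg E Q : ℤ)))

end ext

end FA14
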