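import Fermat.Agent.CFT.FH90
import Fermat.Agent.CFT.FUnits
import Fermat.Agent.CFT.HQ3
import Fermat.Agent.CFT.ANK2

/-! S14 [F] (M5b): the Herbrand quotient of the units `≡ 1 mod S`. -/

set_option autoImplicit false
set_option linter.unusedSectionVars false

open IsDedekindDomain NumberField

namespace FA14

variable {p : ℕ} [Fact p.Prime] {E M : Type*} [Field E] [NumberField E] [Field M] [NumberField M]
  [Algebra E M] {ζ y : E}

theorem KumData.mem_range_of_fixed (D : KumData p ζ y M) (x : M) (h : D.σ x = x) :
    ∃ a : E, algebraMap E M a = x := by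
  have := D.hgal
  have : FiniteDimensional E M := Module.Finite.of_restrictScalars_finite ℚ E M
  have h1 : x ∈ Set.range (algebraMap E M) := by
    rw [IsGalois.mem_range_algebraMap_iff_fixed]
    intro f
    obtain ⟨i, rfl⟩ := D.hgen f
    induction i with
    | zero => simp
    | succ i ih => rw [pow_succ, AlgEquiv.mul_apply, h, ih]
  exact h1

/-- units of `E` congruent to `1` on `R`, viewed in `M`. -/
def upU (M : Type*) [Field M] [NumberField M] [Algebra E M] (R : Set (Pr E)) :
    US R →* US (upS M R) :=
  ((Units.map (algebraMap E M : E →* M)).comp (US R).subtype).codRestrict (US (upS M R)) (by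
    intro x
    refine ⟨fun T hT => ?_, fun Q => ?_⟩
    · have h1 := ordGE_algebraMap_of E T (x.2.1 _ hT) zero_le_one
      rw [map_sub, map_one] at h1
      exact h1
    · have h1 := ordv_algebraMap E Q ((x : Eˣ) : E)
      rw [x.2.2, mul_zero] at h1
      exact h1)

lemma coe_upU (R : Set (Pr E)) (x : US R) :
    (((upU M R x : US (upS M R)) : Mˣ) : M) = algebraMap E M ((x : Eˣ) : E) := rfl

theorem KumData.finrank_fixed (D : KumData p ζ y M) (R : Set (Pr E)) :
    Module.finrank ℤ (dE (actU R D.σ)).ker = Module.finrank ℤ (Additive (US R)) := by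
  let φ : Additive (US R) →+ (dE (actU R D.σ)).ker :=
    (MonoidHom.toAdditive (upU M R)).codRestrict (dE (actU R D.σ)).ker (by
      intro a
      rw [AddMonoidHom.mem_ker, dE_apply, sub_eq_zero]
      apply US_ext
      rw [coe_actU]
      exact D.σ.commutes _)
  have hinj : Function.Injective φ := by
    intro a b hab
    have h1 := congrArg (fun u : (dE (actU R D.σ)).ker =>
      (((Additive.toMul (u : Additive (US (upS M R))) : US (upS M R)) : Mˣ) : M)) hab
    exact US_ext ((algebraMap E M).injective h1)
  have hsurj : Function.Surjective φ := by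
    rintro ⟨u, hu⟩
    rw [AddMonoidHom.mem_ker, dE_apply, sub_eq_zero] at hu
    have h1 := congrArg (fun u : Additive (US (upS M R)) =>
      (((Additive.toMul u : US (upS M R)) : Mˣ) : M)) hu
    simp only [coe_actU] at h1
    obtain ⟨a, ha⟩ := D.mem_range_of_fixed _ h1
    have hu' := (Additive.toMul u : US (upS M R)).2
    have ha0 : a ≠ 0 := by
      rintro rfl
      rw [map_zero] at ha
      exact (Units.ne_zero _) ha.symm
    have hmem : Units.mk0 a ha0 ∈ US R := by
      refine ⟨fun t ht => ?_, fun q => ?_⟩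
      · obtain ⟨T, rfl⟩ := exists_above (E' := M) E t
        apply ank_ordGE_one_down T
        have := hu'.1 T ht
        rw [← ha] at this
        simpa only [map_sub, map_one, Units.val_mk0] using this
      · obtain ⟨Q, rfl⟩ := exists_above (E' := M) E q
        apply ank_ordv_eq_zero_down Q
        have := hu'.2 Q
        rw [← ha] at this
        exact this
    refine ⟨Additive.ofMul ⟨Units.mk0 a ha0, hmem⟩, Subtype.ext (US_ext ?_)⟩
    exact ha
  exact ((AddEquiv.ofBijective φ ⟨hinj, hsurj⟩).toIntLinearEquiv.finrank_eq).symm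

theorem KumData.herbrand_of (D : KumData p ζ y M) (hp2 : p ≠ 2) (hζ : IsPrimitiveRoot ζ p)
    (R : Set (Pr E)) (hR : R.Finite)
    (hfix : Module.finrank ℤ (dE (actU R D.σ)).ker = Module.finrank ℤ (Additive (US R))) :
    (nE p (actU R D.σ)).range.relIndex (dE (actU R D.σ)).ker ≠ 0 ∧
      (nE p (actU R D.σ)).range.relIndex (dE (actU R D.σ)).ker <
        (dE (actU R D.σ)).range.relIndex (nE p (actU R D.σ)).ker := by
  have hp : p.Prime := Fact.out
  have hfin : (upS M R).Finite := finite_below_mem R hR
  have : Module.Finite ℤ (Additive (US (upS M R))) := finite_US _ hfin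
  have hσ : actU R D.σ ^ p = 1 := by rw [← actU_pow, D.hσp, actU_one]
  have hE := two_mul_rank_add_one hp2 ζ hζ
  have hM := two_mul_rank_add_one hp2 (algebraMap E M ζ)
    (hζ.map_of_injective (algebraMap E M).injective)
  have hdeg : Module.finrank ℚ M = Module.finrank ℚ E * p := by
    rw [← Module.finrank_mul_finrank ℚ E M, D.hdeg]
  have hU : Module.finrank ℤ (Additive (US (upS M R))) + 1 = p * (NumberField.Units.rank E + 1) := by
    rw [finrank_US _ hfin]
    rw [hdeg, ← hE] at hM
    have : 2 * (NumberField.Units.rank M + 1) = 2 * (p * (NumberField.Units.rank E + 1)) := by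
      rw [hM]; ring
    exact Nat.eq_of_mul_eq_mul_left two_pos this
  have hA : Module.finrank ℤ (dE (actU R D.σ)).ker + 1 = NumberField.Units.rank E + 1 := by
    rw [hfix, finrank_US R hR]
  obtain ⟨c1, _, c3⟩ := herbrand_units hσ _ hU hA
  refine ⟨c1, lt_of_lt_of_le ?_ c3⟩
  exact lt_mul_of_one_lt_right (Nat.pos_of_ne_zero c1) hp.one_lt

/-- **(M5b)** -/
theorem KumData.herbrand (D : KumData p ζ y M) (hp2 : p ≠ 2) (hζ : IsPrimitiveRoot ζ p)
    (R : Set (Pr E)) (hR : R.Finite) :
    (nE p (actU R D.σ)).range.relIndex (dE (actU R D.σ)).ker ≠ 0 ∧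
      (nE p (actU R D.σ)).range.relIndex (dE (actU R D.σ)).ker <
        (dE (actU R D.σ)).range.relIndex (nE p (actU R D.σ)).ker :=
  D.herbrand_of hp2 hζ R hR (D.finrank_fixed R)

end FA14
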