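import Mathlib

set_option autoImplicit false

namespace FA14

lemma fx_exists_addHom {F V : Type*} [Field F] [AddCommGroup V] [Module F V] {v : V} (hv : v ≠ 0) :
    ∃ f : V →+ F, f v ≠ 0 := by
  by_contra hcon
  push_neg at hcon
  exact hv ((Module.forall_dual_apply_eq_zero_iff F v).1 fun φ => hcon φ.toAddMonoidHom)

/-- a proper subgroup containing `pA` is killed by a nonzero character with values in `ZMod p` -/
theorem exists_char_of_ne_top {A : Type*} [AddCommGroup A] (p : ℕ) [Fact p.Prime]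
    (H : AddSubgroup A) (hH : H ≠ ⊤) (hp : ∀ a : A, p • a ∈ H) :
    ∃ χ : A →+ ZMod p, χ ≠ 0 ∧ ∀ h ∈ H, χ h = 0 := by
  classical
  letI : Module (ZMod p) (A ⧸ H) := AddCommGroup.zmodModule (n := p) (by
    intro x
    obtain ⟨a, rfl⟩ := QuotientAddGroup.mk_surjective x
    rw [← QuotientAddGroup.mk_nsmul, QuotientAddGroup.eq_zero_iff]
    exact hp a)
  obtain ⟨a, ha⟩ : ∃ a : A, a ∉ H := by
    by_contra hcon
    push_neg at hcon
    exact hH (eq_top_iff.2 fun x _ => hcon x)
  have hne : (QuotientAddGroup.mk a : A ⧸ H) ≠ 0 := by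
    rwa [Ne, QuotientAddGroup.eq_zero_iff]
  obtain ⟨f, hf⟩ := fx_exists_addHom (F := ZMod p) hne
  refine ⟨f.comp (QuotientAddGroup.mk' H), ?_, ?_⟩
  · intro h0
    apply hf
    have := DFunLike.congr_fun h0 a
    simpa using this
  · intro h hh
    have : (QuotientAddGroup.mk h : A ⧸ H) = 0 := (QuotientAddGroup.eq_zero_iff h).2 hh
    simp [this]

end FA14
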