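import Fermat.Agent.CFT.FFin
import Fermat.Agent.CFT.FHerb
import Fermat.Agent.CFT.FX

/-! S14 [F]: the first inequality (tame form). -/

set_option autoImplicit false

open IsDedekindDomain NumberField Polynomial

namespace FA14

variable {p : ℕ} [Fact p.Prime]

/-- [F] first inequality (tame). -/
theorem first_ineq {E : Type*} [Field E] [NumberField E] (hp2 : p ≠ 2) (ζ : E)
    (hζ : IsPrimitiveRoot ζ p) (y : E) (hy0 : y ≠ 0) (hy : ∀ c : E, c ^ p ≠ y)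
    (hP : ∀ v : Pr E, 0 < ordv v (p : E) → LocPow p (nv p v) v y) :
    ∃ χ : Dv E →+ ZMod p, χ ≠ 0 ∧
      IsXD p y {t | ¬ (p : ℤ) ∣ ordv t y} {t | ¬ (p : ℤ) ∣ ordv t y} χ := by
  obtain ⟨M, _, _, _, ⟨D⟩⟩ := exists_kumData ζ hζ y hy
  have hR : (ramSet p y).Finite := finite_ramSet y
  have hfin : (upS M (ramSet p y)).Finite := finite_below_mem _ hR
  have hRp : ∀ t ∈ ramSet p y, ordv t (p : E) = 0 := by
    intro t ht
    by_contra h
    have h0 : 0 ≤ ordv t (p : E) := ordv_natCast_nonneg p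
    exact ht ((hP t (lt_of_le_of_ne h0 (Ne.symm h))).dvd_ordv (nv_pos p t))
  obtain ⟨hh0, hh1⟩ := D.herbrand hp2 hζ (ramSet p y) hR
  obtain ⟨a, ha, hna⟩ := Fabs p (actU (ramSet p y) D.σ) (actP (ramSet p y) D.σ)
    (actI (ramSet p y) D.σ) (ioS _) (iS _) (ioS_injective _) (ioS_range _)
    (ioS_actU _ D.σ) (iS_actP _ D.σ)
    (by rw [← actP_pow, D.hσp, actP_one]) (by rw [← actI_pow, D.hσp, actI_one])
    (finite_rayClass _ hfin) (D.hilbert90_PS hζ hy0 hRp) hh0 hh1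
  have htop : D.HF (ramSet p y) ≠ ⊤ :=
    D.HF_ne_top _ ⟨a, ha, fun h => hna ((D.mem_GG _).1 h)⟩
  obtain ⟨χ, hχ0, hχ⟩ := exists_char_of_ne_top p (D.HF (ramSet p y)) htop (D.nsmul_mem_HF _)
  refine ⟨χ, hχ0, ?_, ?_, ?_⟩
  · intro q hq
    exact hχ _ (D.single_mem_HF_of_mem _ hq 1)
  · intro q hq hloc
    obtain ⟨Q0, rfl⟩ := exists_above E (E' := M) q
    exact hχ _ (D.single_mem_HF_of_not_fixed _ hq
      (mapPr_ne_of_locPow hζ hy0 D.hY D.σ D.hσY Q0 hloc) 1)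
  · intro b hb h0 h1
    refine hχ _ (D.divOf_mem_HF _ (D.unram hζ hy0 hP) hR hb h0 fun t ht => ?_)
    have := h1 t ht
    rwa [nv_eq_one (hRp t ht)] at this

end FA14
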