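import Fermat.Agent.CFT.FDec

/-! S14 [F]: Galois action on ray groups and divisors. -/

set_option autoImplicit false

open IsDedekindDomain NumberField Polynomial

namespace FA14

section ext
variable {M : Type*} [Field M] [NumberField M]

lemma PS_ext {S : Set (Pr M)} {x y : Additive (PS S)}
    (h : (((Additive.toMul x : PS S) : Mˣ) : M) = (((Additive.toMul y : PS S) : Mˣ) : M)) :
    x = y := by
  apply Additive.toMul.injective
  exact Subtype.ext (Units.ext h)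

lemma US_ext {S : Set (Pr M)} {x y : Additive (US S)}
    (h : (((Additive.toMul x : US S) : Mˣ) : M) = (((Additive.toMul y : US S) : Mˣ) : M)) :
    x = y := by
  apply Additive.toMul.injective
  exact Subtype.ext (Units.ext h)

end ext

section act
variable {E M : Type*} [Field E] [NumberField E] [Field M] [NumberField M] [Algebra E M]

/-- the primes of `M` above a set of primes of `E` -/
def upS (M : Type*) [Field M] [NumberField M] [Algebra E M] (R : Set (Pr E)) : Set (Pr M) :=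
  {T | below E T ∈ R}

variable (R : Set (Pr E))

lemma mem_upS {T : Pr M} : T ∈ upS M R ↔ below E T ∈ R := Iff.rfl

lemma gPr_mem_upS (τ : M ≃ₐ[E] M) (T : Pr M) : gPr τ T ∈ upS M R ↔ T ∈ upS M R := by
  rw [mem_upS, mem_upS, below_gPr]

lemma gPr_symm_mem_upS (τ : M ≃ₐ[E] M) (T : Pr M) : (gPr τ).symm T ∈ upS M R ↔ T ∈ upS M R := by
  rw [← gPr_mem_upS R τ, Equiv.apply_symm_apply]

lemma ordGE_gal (τ : M ≃ₐ[E] M) (T : Pr M) (x : M) (n : ℤ) :
    OrdGE T (τ x) n ↔ OrdGE ((gPr τ).symm T) x n := by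
  rw [← ordGE_mapPr (τ : M ≃+* M) ((gPr τ).symm T) x n]
  show _ ↔ OrdGE (gPr τ ((gPr τ).symm T)) (τ x) n
  rw [Equiv.apply_symm_apply]

lemma ordv_gal (τ : M ≃ₐ[E] M) (T : Pr M) (x : M) :
    ordv T (τ x) = ordv ((gPr τ).symm T) x := by
  rw [← ordv_gPr τ ((gPr τ).symm T) x, Equiv.apply_symm_apply]

/-- the action on units of `M` -/
def gU (τ : M ≃ₐ[E] M) : Mˣ →* Mˣ := Units.map (τ : M →* M)

omit [NumberField E] [NumberField M] in
@[simp] lemma coe_gU (τ : M ≃ₐ[E] M) (x : Mˣ) : ((gU τ x : Mˣ) : M) = τ (x : M) := rfl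

lemma gU_mem_PS (τ : M ≃ₐ[E] M) {x : Mˣ} (hx : x ∈ PS (upS M R)) : gU τ x ∈ PS (upS M R) := by
  intro T hT
  have h1 : ((gU τ x : Mˣ) : M) - 1 = τ ((x : M) - 1) := by simp
  rw [h1, ordGE_gal]
  exact hx _ ((gPr_symm_mem_upS R τ T).2 hT)

lemma gU_mem_US (τ : M ≃ₐ[E] M) {x : Mˣ} (hx : x ∈ US (upS M R)) : gU τ x ∈ US (upS M R) := by
  refine ⟨gU_mem_PS R τ hx.1, fun Q => ?_⟩
  rw [coe_gU, ordv_gal]
  exact hx.2 _

/-- the action on `P_S` -/
def actP (τ : M ≃ₐ[E] M) : AddMonoid.End (Additive (PS (upS M R))) :=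
  MonoidHom.toAdditive (((gU τ).comp (PS (upS M R)).subtype).codRestrict (PS (upS M R))
    (fun x => gU_mem_PS R τ x.2))

/-- the action on `U_S` -/
def actU (τ : M ≃ₐ[E] M) : AddMonoid.End (Additive (US (upS M R))) :=
  MonoidHom.toAdditive (((gU τ).comp (US (upS M R)).subtype).codRestrict (US (upS M R))
    (fun x => gU_mem_US R τ x.2))

lemma coe_actP (τ : M ≃ₐ[E] M) (x : Additive (PS (upS M R))) :
    (((Additive.toMul (actP R τ x) : PS (upS M R)) : Mˣ) : M) =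
      τ (((Additive.toMul x : PS (upS M R)) : Mˣ) : M) := rfl

lemma coe_actU (τ : M ≃ₐ[E] M) (x : Additive (US (upS M R))) :
    (((Additive.toMul (actU R τ x) : US (upS M R)) : Mˣ) : M) =
      τ (((Additive.toMul x : US (upS M R)) : Mˣ) : M) := rfl

lemma actP_one : actP R (1 : M ≃ₐ[E] M) = 1 := by
  refine AddMonoidHom.ext fun x => PS_ext ?_
  rfl

lemma actP_mul (τ₁ τ₂ : M ≃ₐ[E] M) : actP R (τ₁ * τ₂) = actP R τ₁ * actP R τ₂ := by
  refine AddMonoidHom.ext fun x => PS_ext ?_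
  rfl

lemma actP_pow (τ : M ≃ₐ[E] M) (n : ℕ) : actP R (τ ^ n) = actP R τ ^ n := by
  induction n with
  | zero => rw [pow_zero, pow_zero, actP_one]
  | succ n ih => rw [pow_succ, pow_succ, actP_mul, ih]

lemma actU_one : actU R (1 : M ≃ₐ[E] M) = 1 := by
  refine AddMonoidHom.ext fun x => US_ext ?_
  rfl

lemma actU_mul (τ₁ τ₂ : M ≃ₐ[E] M) : actU R (τ₁ * τ₂) = actU R τ₁ * actU R τ₂ := by
  refine AddMonoidHom.ext fun x => US_ext ?_
  rfl

lemma actU_pow (τ : M ≃ₐ[E] M) (n : ℕ) : actU R (τ ^ n) = actU R τ ^ n := by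
  induction n with
  | zero => rw [pow_zero, pow_zero, actU_one]
  | succ n ih => rw [pow_succ, pow_succ, actU_mul, ih]

/-- the action on divisors -/
noncomputable def actD (τ : M ≃ₐ[E] M) : Dv M →+ Dv M := Finsupp.mapDomain.addMonoidHom (gPr τ)

lemma actD_apply (τ : M ≃ₐ[E] M) (D : Dv M) (Q : Pr M) : actD τ D Q = D ((gPr τ).symm Q) :=
  Finsupp.mapDomain_equiv_apply D Q

lemma actD_apply' (τ : M ≃ₐ[E] M) (D : Dv M) (Q : Pr M) : actD τ D (gPr τ Q) = D Q := by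
  rw [actD_apply, Equiv.symm_apply_apply]

lemma actD_single (τ : M ≃ₐ[E] M) (Q : Pr M) (n : ℤ) :
    actD τ (Finsupp.single Q n) = Finsupp.single (gPr τ Q) n :=
  Finsupp.mapDomain_single

lemma actD_divOf (τ : M ≃ₐ[E] M) (x : M) : actD τ (divOf x) = divOf (τ x) := by
  ext Q
  rw [actD_apply, divOf_apply, divOf_apply, ordv_gal]

lemma actD_mem_IS (τ : M ≃ₐ[E] M) {D : Dv M} (hD : D ∈ IS (upS M R)) :
    actD τ D ∈ IS (upS M R) := by
  intro T hT
  rw [actD_apply]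
  exact hD _ ((gPr_symm_mem_upS R τ T).2 hT)

/-- the action on `I_S` -/
noncomputable def actI (τ : M ≃ₐ[E] M) : AddMonoid.End (IS (upS M R)) :=
  ((actD τ).comp (IS (upS M R)).subtype).codRestrict (IS (upS M R)) (fun D => actD_mem_IS R τ D.2)

lemma coe_actI (τ : M ≃ₐ[E] M) (D : IS (upS M R)) :
    ((actI R τ D : IS (upS M R)) : Dv M) = actD τ (D : Dv M) := rfl

lemma actD_one (D : Dv M) : actD (1 : M ≃ₐ[E] M) D = D := by
  ext Q
  rw [← gPr_one (E := E) Q, actD_apply', gPr_one]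

lemma actD_mul (τ₁ τ₂ : M ≃ₐ[E] M) (D : Dv M) : actD (τ₁ * τ₂) D = actD τ₁ (actD τ₂ D) := by
  ext Q
  obtain ⟨Q', rfl⟩ := (gPr (τ₁ * τ₂)).surjective Q
  rw [actD_apply', gPr_mul, actD_apply', actD_apply']

lemma actI_one : actI R (1 : M ≃ₐ[E] M) = 1 := by
  ext D : 1
  exact Subtype.ext (actD_one _)

lemma actI_mul (τ₁ τ₂ : M ≃ₐ[E] M) : actI R (τ₁ * τ₂) = actI R τ₁ * actI R τ₂ := by
  ext D : 1
  exact Subtype.ext (actD_mul _ _ _)

lemma actI_pow (τ : M ≃ₐ[E] M) (n : ℕ) : actI R (τ ^ n) = actI R τ ^ n := by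
  induction n with
  | zero => rw [pow_zero, pow_zero, actI_one]
  | succ n ih => rw [pow_succ, pow_succ, actI_mul, ih]

lemma ioS_actU (τ : M ≃ₐ[E] M) (u : Additive (US (upS M R))) :
    ioS (upS M R) (actU R τ u) = actP R τ (ioS (upS M R) u) := rfl

lemma iS_actP (τ : M ≃ₐ[E] M) (x : Additive (PS (upS M R))) :
    iS (upS M R) (actP R τ x) = actI R τ (iS (upS M R) x) := by
  apply Subtype.ext
  rw [coe_actI, coe_iS, coe_iS, actD_divOf, coe_actP]

end act

end FA14
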