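import Fermat.Agent.CFT.FKum

/-! S14 [F]: decomposition of primes in a Galois extension of prime degree. -/

set_option autoImplicit false

open IsDedekindDomain NumberField Polynomial
open scoped Pointwise

namespace FA14

section gal
variable {E M : Type*} [Field E] [NumberField E] [Field M] [NumberField M] [Algebra E M]

/-- the action of the Galois group on primes -/
noncomputable abbrev gPr (τ : M ≃ₐ[E] M) : Pr M ≃ Pr M := mapPr (τ : M ≃+* M)

lemma ordv_gPr (τ : M ≃ₐ[E] M) (Q : Pr M) (x : M) : ordv (gPr τ Q) (τ x) = ordv Q x :=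
  ordv_mapPr (τ : M ≃+* M) Q x

lemma ordv_gPr_algebraMap (τ : M ≃ₐ[E] M) (Q : Pr M) (x : E) :
    ordv (gPr τ Q) (algebraMap E M x) = ordv Q (algebraMap E M x) := by
  rw [← ordv_gPr τ Q, AlgEquiv.commutes]

lemma below_gPr (τ : M ≃ₐ[E] M) (Q : Pr M) : below E (gPr τ Q) = below E Q := by
  apply Pr_ext
  intro x hx
  have h1 := ordv_gPr_algebraMap τ Q x
  rw [ordv_algebraMap, ordv_algebraMap] at h1
  have e1 := eram_pos E (gPr τ Q)
  have e2 := eram_pos E Q
  by_contra hcon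
  push Not at hcon
  have : (0 : ℤ) < (eram E (gPr τ Q) : ℤ) * ordv (below E (gPr τ Q)) x := by positivity
  have : (eram E Q : ℤ) * ordv (below E Q) x ≤ 0 :=
    mul_nonpos_of_nonneg_of_nonpos (by positivity) hcon
  omega

lemma eram_gPr (τ : M ≃ₐ[E] M) (Q : Pr M) : eram E (gPr τ Q) = eram E Q := by
  obtain ⟨x, hx⟩ := exists_uniformizer (below E Q)
  have h1 := ordv_gPr_algebraMap τ Q x
  rw [ordv_algebraMap, ordv_algebraMap, below_gPr, hx, mul_one, mul_one] at h1
  exact_mod_cast h1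

lemma gPr_mul (τ₁ τ₂ : M ≃ₐ[E] M) (Q : Pr M) : gPr (τ₁ * τ₂) Q = gPr τ₁ (gPr τ₂ Q) := by
  rw [gPr, gPr, gPr, mapPr_mapPr]
  rfl

lemma gPr_one (Q : Pr M) : gPr (1 : M ≃ₐ[E] M) Q = Q := mapPr_refl Q

lemma gPr_asIdeal (τ : M ≃ₐ[E] M) (Q : Pr M) : (gPr τ Q).asIdeal = τ • Q.asIdeal := by
  rw [gPr, mapPr_asIdeal, Ideal.comap_symm, Ideal.pointwise_smul_def]
  rfl

variable [IsGalois E M]

/-- transitivity of the Galois action on the primes above a given prime -/
theorem exists_gPr_eq {Q Q' : Pr M} (h : below E Q = below E Q') :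
    ∃ τ : M ≃ₐ[E] M, gPr τ Q = Q' := by
  haveI : Q'.asIdeal.LiesOver (below E Q).asIdeal := h ▸ liesOver_below E Q'
  obtain ⟨τ, hτ⟩ := Ideal.exists_smul_eq_of_isGaloisGroup (below E Q).asIdeal Q.asIdeal Q'.asIdeal
    (M ≃ₐ[E] M)
  exact ⟨τ, HeightOneSpectrum.ext (by rw [gPr_asIdeal, hτ])⟩

/-- the fundamental identity -/
theorem fdec_ncard_mul_eram_mul_fdeg (Q : Pr M) :
    ((below E Q).asIdeal.primesOver (𝓞 M)).ncard * (eram E Q * fdeg E Q) =
      Module.finrank E M := by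
  have h := Ideal.ncard_primesOver_mul_ramificationIdxIn_mul_inertiaDegIn (below E Q).asIdeal
    (𝓞 M) (M ≃ₐ[E] M)
  rw [Ideal.ramificationIdxIn_eq_ramificationIdx (below E Q).asIdeal Q.asIdeal (M ≃ₐ[E] M),
    Ideal.inertiaDegIn_eq_inertiaDeg (below E Q).asIdeal Q.asIdeal (M ≃ₐ[E] M),
    IsGalois.card_aut_eq_finrank] at h
  exact h

end gal

section residue
variable {E M : Type*} [Field E] [NumberField E] [Field M] [NumberField M] [Algebra E M]

/-- if the residue degree is one, every integer of `M` is congruent to an integer of `E`. -/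
theorem exists_int_sub_mem_of_fdeg (T : Pr M) (hf : fdeg E T = 1) (a : 𝓞 M) :
    ∃ b : 𝓞 E, a - algebraMap (𝓞 E) (𝓞 M) b ∈ T.asIdeal := by
  set t := below E T with ht
  have hle : t.asIdeal ≤ T.asIdeal.comap (algebraMap (𝓞 E) (𝓞 M)) := le_of_eq rfl
  let φ : 𝓞 E ⧸ t.asIdeal →+* 𝓞 M ⧸ T.asIdeal := Ideal.quotientMap T.asIdeal _ hle
  have hinj : Function.Injective φ := Ideal.quotientMap_injective' (le_of_eq rfl)
  have : Finite (𝓞 M ⧸ T.asIdeal) := Ideal.finiteQuotientOfFreeOfNeBot _ T.ne_bot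
  have hcard : Nat.card (𝓞 M ⧸ T.asIdeal) ≤ Nat.card (𝓞 E ⧸ t.asIdeal) := by
    have h1 := Nq_eq_pow E T
    rw [hf, pow_one] at h1
    unfold Nq at h1
    rw [Ideal.absNorm_apply, Ideal.absNorm_apply, Submodule.cardQuot_apply,
      Submodule.cardQuot_apply] at h1
    exact le_of_eq h1
  obtain ⟨c, hc⟩ := (hinj.bijective_of_nat_card_le hcard).2 (Ideal.Quotient.mk _ a)
  obtain ⟨b, rfl⟩ := Ideal.Quotient.mk_surjective c
  refine ⟨b, ?_⟩
  rw [← Ideal.Quotient.eq]
  exact hc.symm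

/-- if the residue degree is one, every `T`-integral element of `M` is congruent to an element
of `E`. -/
theorem exists_sub_of_fdeg (T : Pr M) (hf : fdeg E T = 1) {u : M} (hu : OrdGE T u 0) :
    ∃ w : E, OrdGE (below E T) w 0 ∧ OrdGE T (u - algebraMap E M w) 1 := by
  obtain ⟨a, ha⟩ := exists_integer_sub T hu 1
  obtain ⟨b, hb⟩ := exists_int_sub_mem_of_fdeg T hf a
  refine ⟨algebraMap (𝓞 E) E b, ordGE_algebraMap b, ?_⟩
  have h1 : OrdGE T (algebraMap (𝓞 M) M (a - algebraMap (𝓞 E) (𝓞 M) b)) 1 :=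
    (ordGE_algebraMap_one_iff _).2 hb
  have h2 : u - algebraMap E M (algebraMap (𝓞 E) E b) =
      (u - algebraMap (𝓞 M) M a) + algebraMap (𝓞 M) M (a - algebraMap (𝓞 E) (𝓞 M) b) := by
    rw [map_sub, ← IsScalarTower.algebraMap_apply (𝓞 E) (𝓞 M) M,
      ← IsScalarTower.algebraMap_apply (𝓞 E) E M]
    ring
  rw [h2]
  exact OrdGE.add (by simpa using ha) h1

end residue

section kum
variable {E M : Type*} [Field E] [NumberField E] [Field M] [NumberField M] [Algebra E M]
  {p : ℕ} [Fact p.Prime] {ζ y : E} (D : KumData p ζ y M)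

lemma gPr_pow_fixed {τ : M ≃ₐ[E] M} {Q : Pr M} (h : gPr τ Q = Q) (m : ℕ) : gPr (τ ^ m) Q = Q := by
  induction m with
  | zero => rw [pow_zero]; exact gPr_one Q
  | succ m ih => rw [pow_succ, gPr_mul, h, ih]

include D in
lemma KumData.gPr_fixed {Q : Pr M} (h : gPr D.σ Q = Q) (τ : M ≃ₐ[E] M) : gPr τ Q = Q := by
  obtain ⟨i, rfl⟩ := D.hgen τ
  exact gPr_pow_fixed h i

/-- a fixed prime is the only prime above its restriction -/
lemma KumData.eq_of_fixed {Q Q' : Pr M} (h : gPr D.σ Q = Q) (h' : below E Q = below E Q') :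
    Q' = Q := by
  have := D.hgal
  obtain ⟨τ, hτ⟩ := exists_gPr_eq h'
  rw [← hτ, D.gPr_fixed h]

/-- if some nontrivial power of `σ` fixes `Q` then `σ` fixes `Q` -/
lemma KumData.fixed_of_pow_fixed {Q : Pr M} {d : ℕ} (hd : ¬ p ∣ d) (h : gPr (D.σ ^ d) Q = Q) :
    gPr D.σ Q = Q := by
  have hp : p.Prime := Fact.out
  have hcop : Nat.Coprime d p := ((Nat.Prime.coprime_iff_not_dvd hp).2 hd).symm
  obtain ⟨m, -, hm⟩ := Nat.exists_mul_mod_eq_one_of_coprime hcop hp.one_lt
  have h1 := gPr_pow_fixed h m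
  rw [← pow_mul] at h1
  have h2 : D.σ ^ (d * m) = D.σ := by
    conv_lhs => rw [← Nat.div_add_mod (d * m) p, hm, pow_add, pow_mul, D.hσp, one_pow, one_mul,
      pow_one]
  rwa [h2] at h1

lemma KumData.injOn_of_not_fixed {Q : Pr M} (h : gPr D.σ Q ≠ Q) :
    Set.InjOn (fun i : ℕ => gPr (D.σ ^ i) Q) (Finset.range p : Set ℕ) := by
  have key : ∀ i j : ℕ, i < j → j < p → gPr (D.σ ^ i) Q ≠ gPr (D.σ ^ j) Q := by
    intro i j hij hj heq
    apply h
    apply D.fixed_of_pow_fixed (d := j - i)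
    · intro hdvd
      have := Nat.le_of_dvd (by omega) hdvd
      omega
    · have h1 : D.σ ^ j = D.σ ^ i * D.σ ^ (j - i) := by rw [← pow_add]; congr 1; omega
      rw [h1, gPr_mul] at heq
      exact ((gPr (D.σ ^ i)).injective heq).symm
  intro i hi j hj heq
  simp only [Finset.coe_range, Set.mem_Iio] at hi hj
  rcases lt_trichotomy i j with hlt | heq' | hlt
  · exact absurd heq (key i j hlt hj)
  · exact heq'
  · exact absurd heq.symm (key j i hlt hi)

/-- a prime which is not fixed is unramified of degree one -/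
lemma KumData.eram_fdeg_of_not_fixed {Q : Pr M} (h : gPr D.σ Q ≠ Q) :
    eram E Q = 1 ∧ fdeg E Q = 1 := by
  have := D.hgal
  have hid := fdec_ncard_mul_eram_mul_fdeg (E := E) Q
  rw [D.hdeg] at hid
  have hp : p.Prime := Fact.out
  have hcard : p ≤ ((below E Q).asIdeal.primesOver (𝓞 M)).ncard := by
    have hsub : (fun i : ℕ => (gPr (D.σ ^ i) Q).asIdeal) '' (Finset.range p : Set ℕ) ⊆
        (below E Q).asIdeal.primesOver (𝓞 M) := by
      rintro _ ⟨i, -, rfl⟩
      refine ⟨(gPr (D.σ ^ i) Q).isPrime, ?_⟩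
      have := liesOver_below E (gPr (D.σ ^ i) Q)
      rwa [below_gPr] at this
    have h1 := Set.ncard_le_ncard hsub (IsDedekindDomain.primesOver_finite _ _)
    rw [Set.InjOn.ncard_image, Set.ncard_coe_finset, Finset.card_range] at h1
    · exact h1
    · intro i hi j hj heq
      exact D.injOn_of_not_fixed h hi hj (HeightOneSpectrum.ext heq)
  have he := eram_pos E Q
  have hf := fdeg_pos E Q
  have hef : eram E Q * fdeg E Q = 1 := by
    have h2 : 0 < eram E Q * fdeg E Q := Nat.mul_pos he hf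
    by_contra hne
    have h3 : 2 ≤ eram E Q * fdeg E Q := by omega
    have : p * 2 ≤ p := by
      calc p * 2 ≤ ((below E Q).asIdeal.primesOver (𝓞 M)).ncard * (eram E Q * fdeg E Q) :=
            Nat.mul_le_mul hcard h3
        _ = p := hid
    have := hp.pos
    omega
  exact ⟨Nat.eq_one_of_mul_eq_one_right hef, Nat.eq_one_of_mul_eq_one_left hef⟩

/-- in the non-fixed case the primes above `below Q` are the `σ^i Q`, `i < p`. -/
lemma KumData.exists_pow_eq {Q Q' : Pr M} (h' : below E Q = below E Q') :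
    ∃ i < p, gPr (D.σ ^ i) Q = Q' := by
  have := D.hgal
  have hp : p.Prime := Fact.out
  obtain ⟨τ, hτ⟩ := exists_gPr_eq h'
  obtain ⟨i, rfl⟩ := D.hgen τ
  refine ⟨i % p, Nat.mod_lt _ hp.pos, ?_⟩
  rw [← hτ]
  congr 2
  conv_rhs => rw [← Nat.div_add_mod i p, pow_add, pow_mul, D.hσp, one_pow, one_mul]

/-- the ramified primes -/
lemma KumData.ramified {T : Pr M} (hT : ¬ (p : ℤ) ∣ ordv (below E T) y) :
    eram E T = p ∧ fdeg E T = 1 ∧ gPr D.σ T = T := by
  have := D.hgal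
  have hp : p.Prime := Fact.out
  have hid := fdec_ncard_mul_eram_mul_fdeg (E := E) T
  rw [D.hdeg] at hid
  have h1 : (p : ℤ) * ordv T D.Y = eram E T * ordv (below E T) y := by
    rw [← ordv_pow, D.hY, ordv_algebraMap]
  have h2 : (p : ℤ) ∣ (eram E T : ℤ) := by
    have : (p : ℤ) ∣ eram E T * ordv (below E T) y := ⟨_, h1.symm⟩
    exact ((Nat.prime_iff_prime_int.1 hp).dvd_or_dvd this).resolve_right hT
  have h3 : p ∣ eram E T := by exact_mod_cast h2
  have h4 : eram E T ∣ p :=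
    ⟨((below E T).asIdeal.primesOver (𝓞 M)).ncard * fdeg E T, by rw [← hid]; ring⟩
  have he : eram E T = p := Nat.dvd_antisymm h4 h3
  rw [he] at hid
  have h5 : ((below E T).asIdeal.primesOver (𝓞 M)).ncard * fdeg E T = 1 := by
    have : p * (((below E T).asIdeal.primesOver (𝓞 M)).ncard * fdeg E T) = p * 1 := by
      rw [mul_one]
      calc p * (((below E T).asIdeal.primesOver (𝓞 M)).ncard * fdeg E T)
          = ((below E T).asIdeal.primesOver (𝓞 M)).ncard * (p * fdeg E T) := by ring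
        _ = p := hid
    exact Nat.eq_of_mul_eq_mul_left hp.pos this
  refine ⟨he, Nat.eq_one_of_mul_eq_one_left h5, ?_⟩
  have h6 := Nat.eq_one_of_mul_eq_one_right h5
  rw [Set.ncard_eq_one] at h6
  obtain ⟨I, hI⟩ := h6
  have m1 : T.asIdeal ∈ (below E T).asIdeal.primesOver (𝓞 M) := ⟨T.isPrime, liesOver_below E T⟩
  have m2 : (gPr D.σ T).asIdeal ∈ (below E T).asIdeal.primesOver (𝓞 M) := by
    refine ⟨(gPr D.σ T).isPrime, ?_⟩
    have := liesOver_below E (gPr D.σ T)
    rwa [below_gPr] at this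
  rw [hI, Set.mem_singleton_iff] at m1 m2
  exact HeightOneSpectrum.ext (m2.trans m1.symm)

end kum

end FA14
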