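import Fermat.Agent.CFT.HQ3

/-! S14 [Fabs]: the abstract cohomological lemma behind the first inequality. -/

set_option autoImplicit false

namespace FA14

open AddSubgroup

/-- comparison of relative indices through a relation -/
theorem relIndex_le_of_rel {X Y : Type*} [AddCommGroup X] [AddCommGroup Y] (H K : AddSubgroup X)
    (H' K' : AddSubgroup Y) (hfin : H'.relIndex K' ≠ 0) (R : X → Y → Prop)
    (hex : ∀ x ∈ K, ∃ y ∈ K', R x y)
    (hR : ∀ x1 x2 y1 y2, R x1 y1 → R x2 y2 → y1 - y2 ∈ H' → x1 - x2 ∈ H) :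
    H.relIndex K ≠ 0 ∧ H.relIndex K ≤ H'.relIndex K' := by
  classical
  choose! g hgK hgR using hex
  have hfi : (H'.addSubgroupOf K').FiniteIndex := ⟨hfin⟩
  have hF : Finite (K' ⧸ H'.addSubgroupOf K') := inferInstance
  let G : (K ⧸ H.addSubgroupOf K) → (K' ⧸ H'.addSubgroupOf K') :=
    fun q => QuotientAddGroup.mk ⟨g q.out, hgK _ q.out.2⟩
  have hG : Function.Injective G := by
    intro q1 q2 h
    have h1 : -(⟨g q1.out, hgK _ q1.out.2⟩ : K') + ⟨g q2.out, hgK _ q2.out.2⟩ ∈
        H'.addSubgroupOf K' := QuotientAddGroup.eq.1 h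
    have h2 : g q2.out - g q1.out ∈ H' := by
      have : -(g q1.out) + g q2.out ∈ H' := h1
      rwa [neg_add_eq_sub] at this
    have h3 := hR _ _ _ _ (hgR _ q2.out.2) (hgR _ q1.out.2) h2
    have h4 : (QuotientAddGroup.mk q1.out : K ⧸ H.addSubgroupOf K) = QuotientAddGroup.mk q2.out := by
      rw [QuotientAddGroup.eq]
      show -(q1.out : X) + (q2.out : X) ∈ H
      rwa [neg_add_eq_sub]
    simpa using h4
  have hF2 : Finite (K ⧸ H.addSubgroupOf K) := Finite.of_injective G hG
  refine ⟨?_, Nat.card_le_card_of_injective G hG⟩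
  show Nat.card (K ⧸ H.addSubgroupOf K) ≠ 0
  exact Nat.card_pos.ne'

section equivariance

variable {X Y : Type*} [AddCommGroup X] [AddCommGroup Y] {sX : AddMonoid.End X}
  {sY : AddMonoid.End Y} (f : X →+ Y) (h : ∀ x, f (sX x) = sY (f x))

include h

lemma map_pow_end (n : ℕ) (x : X) : f ((sX ^ n) x) = (sY ^ n) (f x) := by
  induction n generalizing x with
  | zero => simp
  | succ n ih =>
    rw [pow_succ, pow_succ]
    show f ((sX ^ n) (sX x)) = (sY ^ n) (sY (f x))
    rw [ih, h]

lemma map_nE (p : ℕ) (x : X) : f (nE p sX x) = nE p sY (f x) := by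
  rw [nE_apply, nE_apply, map_sum]
  exact Finset.sum_congr rfl fun n _ => map_pow_end f h n x

lemma map_dE (x : X) : f (dE sX x) = dE sY (f x) := by
  rw [dE_apply, dE_apply, map_sub, h]

end equivariance

/-- the Herbrand quotient of a finite module is `1`. -/
theorem herbrand_finite {C : Type*} [AddCommGroup C] [Finite C] {p : ℕ} {σ : AddMonoid.End C}
    (hσ : σ ^ p = 1) :
    (dE σ).range.relIndex (nE p σ).ker = (nE p σ).range.relIndex (dE σ).ker := by
  have h1 : (dE σ).range ≤ (nE p σ).ker := by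
    rintro _ ⟨x, rfl⟩; exact nE_dE hσ x
  have h2 : (nE p σ).range ≤ (dE σ).ker := by
    rintro _ ⟨x, rfl⟩; exact dE_nE hσ x
  have e1 := card_mul_relIndex_of_le h1
  have e2 := card_mul_relIndex_of_le h2
  have e3 : Nat.card (dE σ).ker * Nat.card (dE σ).range = Nat.card C := by
    rw [← AddSubgroup.index_ker]; exact AddSubgroup.card_mul_index _
  have e4 : Nat.card (nE p σ).ker * Nat.card (nE p σ).range = Nat.card C := by
    rw [← AddSubgroup.index_ker]; exact AddSubgroup.card_mul_index _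
  have hD : Nat.card (dE σ).range ≠ 0 := Nat.card_pos.ne'
  have hN : Nat.card (nE p σ).range ≠ 0 := Nat.card_pos.ne'
  have key : Nat.card (dE σ).range * Nat.card (nE p σ).range *
      (dE σ).range.relIndex (nE p σ).ker =
      Nat.card (dE σ).range * Nat.card (nE p σ).range *
      (nE p σ).range.relIndex (dE σ).ker := by
    calc Nat.card (dE σ).range * Nat.card (nE p σ).range * (dE σ).range.relIndex (nE p σ).ker
        = (Nat.card (dE σ).range * (dE σ).range.relIndex (nE p σ).ker) *
            Nat.card (nE p σ).range := by ring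
      _ = Nat.card C := by rw [e1, e4]
      _ = (Nat.card (nE p σ).range * (nE p σ).range.relIndex (dE σ).ker) *
            Nat.card (dE σ).range := by rw [e2, e3]
      _ = _ := by ring
  exact Nat.eq_of_mul_eq_mul_left (Nat.pos_of_ne_zero (mul_ne_zero hD hN)) key

/-- **[Fabs]** -/
theorem Fabs {U P I : Type*} [AddCommGroup U] [AddCommGroup P] [AddCommGroup I] (p : ℕ)
    (sU : AddMonoid.End U) (sP : AddMonoid.End P) (sI : AddMonoid.End I) (io : U →+ P) (i : P →+ I)
    (hio : Function.Injective io) (hex : io.range = i.ker) (h1 : ∀ u, io (sU u) = sP (io u))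
    (h2 : ∀ x, i (sP x) = sI (i x)) (hP : sP ^ p = 1) (hI : sI ^ p = 1)
    (hC : Finite (I ⧸ i.range)) (hH : ∀ x, nE p sP x = 0 → ∃ z, x = sP z - z)
    (h0 : (nE p sU).range.relIndex (dE sU).ker ≠ 0)
    (hlt : (nE p sU).range.relIndex (dE sU).ker < (dE sU).range.relIndex (nE p sU).ker) :
    ∃ a : I, sI a = a ∧ ¬ ∃ (x : P) (c : I), sP x = x ∧ a = i x + nE p sI c := by
  by_contra hcon
  push Not at hcon
  -- the quotient `C = I / i(P)` with its endomorphism
  have hle : i.range ≤ i.range.comap (sI : I →+ I) := by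
    rintro _ ⟨x, rfl⟩
    exact ⟨sP x, h2 x⟩
  let sC : AddMonoid.End (I ⧸ i.range) := QuotientAddGroup.map i.range i.range (sI : I →+ I) hle
  let mk : I →+ (I ⧸ i.range) := QuotientAddGroup.mk' i.range
  have hmk : ∀ c, mk (sI c) = sC (mk c) := fun c => rfl
  have hmk_surj : Function.Surjective mk := QuotientAddGroup.mk'_surjective _
  have hmk0 : ∀ c, mk c = 0 ↔ c ∈ i.range := fun c => QuotientAddGroup.eq_zero_iff c
  have hCp : sC ^ p = 1 := by
    ext cb
    obtain ⟨c, rfl⟩ := hmk_surj cb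
    rw [← map_pow_end mk hmk, hI]
    rfl
  -- the subgroups of `I`
  set KB : AddSubgroup I := i.range ⊓ (nE p sI).ker with hKB
  set DB : AddSubgroup I := i.range.map (dE sI) with hDB
  -- (b)
  have hb := relIndex_le_of_rel DB KB (nE p sU).range (dE sU).ker h0
    (fun b u => ∃ x, i x = b ∧ nE p sP x = io u)
    (by
      rintro b ⟨⟨x, rfl⟩, hN⟩
      have hN' : nE p sI (i x) = 0 := hN
      rw [← map_nE i h2] at hN'
      have : nE p sP x ∈ io.range := by rw [hex]; exact hN'
      obtain ⟨u, hu⟩ := this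
      refine ⟨u, ?_, x, rfl, hu.symm⟩
      show dE sU u = 0
      apply hio
      rw [map_dE io h1, hu, dE_nE hP, map_zero])
    (by
      rintro b1 b2 u1 u2 ⟨x1, rfl, e1⟩ ⟨x2, rfl, e2⟩ ⟨w, hw⟩
      have : nE p sP (x1 - x2 - io w) = 0 := by
        rw [map_sub, map_sub, e1, e2, ← map_nE io h1, hw, map_sub]
        abel
      obtain ⟨z, hz⟩ := hH _ this
      refine ⟨i z, ⟨z, rfl⟩, ?_⟩
      rw [← map_dE i h2, dE_apply, ← hz, map_sub, map_sub]
      have : i (io w) = 0 := by
        have : io w ∈ i.ker := by rw [← hex]; exact ⟨w, rfl⟩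
        exact this
      rw [this, sub_zero])
  -- (a)
  have ha := relIndex_le_of_rel (nE p sC).range (dE sC).ker DB KB hb.1
    (fun cb b => ∃ c, mk c = cb ∧ b = dE sI c)
    (by
      intro cb hcb
      obtain ⟨c, rfl⟩ := hmk_surj cb
      have hcb' : dE sC (mk c) = 0 := hcb
      rw [← map_dE mk hmk, hmk0] at hcb'
      exact ⟨dE sI c, ⟨hcb', nE_dE hI c⟩, c, rfl, rfl⟩)
    (by
      rintro _ _ _ _ ⟨c1, rfl, rfl⟩ ⟨c2, rfl, rfl⟩ ⟨_, ⟨y, rfl⟩, hb'⟩
      have hfix : sI (c1 - c2 - i y) = c1 - c2 - i y := by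
        have : dE sI (c1 - c2 - i y) = 0 := by
          rw [map_sub, map_sub, hb']; abel
        rw [dE_apply, sub_eq_zero] at this
        exact this
      obtain ⟨x, c, -, hxc⟩ := hcon _ hfix
      refine ⟨mk c, ?_⟩
      rw [← map_nE mk hmk, ← map_sub]
      have e : c1 - c2 = nE p sI c + i (x + y) := by
        rw [map_add]
        have : c1 - c2 = (c1 - c2 - i y) + i y := by abel
        rw [this, hxc]; abel
      rw [e, map_add]
      have : mk (i (x + y)) = 0 := (hmk0 _).2 ⟨_, rfl⟩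
      rw [this, add_zero])
  -- (c)
  have hfinC : (dE sC).range.relIndex (nE p sC).ker ≠ 0 := by
    rw [herbrand_finite hCp]; exact ha.1
  have hc := relIndex_le_of_rel (dE sU).range (nE p sU).ker (dE sC).range (nE p sC).ker hfinC
    (fun u cb => ∃ x x0 c, io u = dE sP x ∧ sP x0 = x0 ∧ i x = i x0 + nE p sI c ∧ mk c = cb)
    (by
      intro u hu
      have hu' : nE p sU u = 0 := hu
      have h3 : nE p sP (io u) = 0 := by rw [← map_nE io h1, hu', map_zero]
      obtain ⟨x, hx⟩ := hH _ h3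
      have hfix : sI (i x) = i x := by
        have : dE sI (i x) = 0 := by
          rw [← map_dE i h2, dE_apply, ← hx]
          have : io u ∈ i.ker := by rw [← hex]; exact ⟨u, rfl⟩
          exact this
        rw [dE_apply, sub_eq_zero] at this
        exact this
      obtain ⟨x0, c, hx0, hxc⟩ := hcon _ hfix
      refine ⟨mk c, ?_, x, x0, c, hx, hx0, hxc, rfl⟩
      show nE p sC (mk c) = 0
      rw [← map_nE mk hmk, hmk0]
      exact ⟨x - x0, by rw [map_sub, hxc]; abel⟩)
    (by
      rintro u1 u2 _ _ ⟨x1, x01, c1, e1, f1, g1, rfl⟩ ⟨x2, x02, c2, e2, f2, g2, rfl⟩ ⟨cb, hcb⟩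
      obtain ⟨c', rfl⟩ := hmk_surj cb
      rw [← map_dE mk hmk, ← map_sub, ← sub_eq_zero, ← map_sub, hmk0] at hcb
      obtain ⟨y, hy⟩ := hcb
      -- `dE c' - (c1 - c2) = i y`
      have hN : nE p sI c1 - nE p sI c2 = - i (nE p sP y) := by
        rw [map_nE i h2, hy, map_sub, nE_dE hI, map_sub]; abel
      have hker : x1 - x01 - (x2 - x02) + nE p sP y ∈ i.ker := by
        show i (x1 - x01 - (x2 - x02) + nE p sP y) = 0
        rw [map_add, map_sub, map_sub, map_sub, g1, g2]
        have : i x01 + nE p sI c1 - i x01 - (i x02 + nE p sI c2 - i x02) =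
            nE p sI c1 - nE p sI c2 := by abel
        rw [this, hN]; abel
      rw [← hex] at hker
      obtain ⟨w, hw⟩ := hker
      refine ⟨w, ?_⟩
      apply hio
      rw [map_dE io h1, hw, map_sub, e1, e2, map_add, map_sub, map_sub, map_sub, dE_nE hP]
      have d1 : dE sP x01 = 0 := by rw [dE_apply, f1, sub_self]
      have d2 : dE sP x02 = 0 := by rw [dE_apply, f2, sub_self]
      rw [d1, d2]; abel)
  have := hc.2
  rw [herbrand_finite hCp] at this
  exact absurd (lt_of_lt_of_le hlt (this.trans (ha.2.trans hb.2))) (lt_irrefl _)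

end FA14
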