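import Fermat.Agent.CFT.Ord3
import Fermat.Agent.CFT.Fabs

/-! S14 [F]: definitions (ray groups, divisors off `S`, Galois action). -/

set_option autoImplicit false

open IsDedekindDomain NumberField

namespace FA14

section ray
variable {M : Type*} [Field M] [NumberField M] (S : Set (Pr M))

/-- `x ≡ 1 mod T` for all `T ∈ S` -/
def PS : Subgroup Mˣ where
  carrier := {x | ∀ T ∈ S, OrdGE T ((x : M) - 1) 1}
  mul_mem' := by
    intro a b ha hb T hT
    have h1 : ((a * b : Mˣ) : M) - 1 = ((a : M) - 1) * (b : M) + ((b : M) - 1) := by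
      push_cast; ring
    rw [h1]
    have hb0 : OrdGE T (b : M) 0 := Or.inr (by rw [ordv_eq_zero_of_sub_one (hb T hT) one_pos])
    exact ((ha T hT).mul_right hb0).add (hb T hT)
  one_mem' := by intro T _; simp
  inv_mem' := by
    intro a ha T hT
    have h0 : ordv T (a : M) = 0 := ordv_eq_zero_of_sub_one (ha T hT) one_pos
    have h1 : ((a⁻¹ : Mˣ) : M) - 1 = -(((a : M) - 1) * ((a : M))⁻¹) := by
      have : (a : M) ≠ 0 := a.ne_zero
      push_cast; field_simp; ring
    rw [h1]
    have hb0 : OrdGE T ((a : M))⁻¹ 0 := Or.inr (by rw [ordv_inv, h0]; simp)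
    exact ((ha T hT).mul_right hb0).neg

variable {S} in
lemma mem_PS {x : Mˣ} : x ∈ PS S ↔ ∀ T ∈ S, OrdGE T ((x : M) - 1) 1 := Iff.rfl

/-- divisors prime to `S` -/
def IS : AddSubgroup (Dv M) where
  carrier := {D | ∀ T ∈ S, D T = 0}
  add_mem' := by
    intro a b ha hb T hT
    rw [Finsupp.add_apply, ha T hT, hb T hT, add_zero]
  zero_mem' := by intro T _; rfl
  neg_mem' := by
    intro a ha T hT
    rw [Finsupp.neg_apply, ha T hT, neg_zero]

variable {S} in
lemma mem_IS {D : Dv M} : D ∈ IS S ↔ ∀ T ∈ S, D T = 0 := Iff.rfl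

/-- units `≡ 1 mod T` for all `T ∈ S` -/
def US : Subgroup Mˣ where
  carrier := {x | x ∈ PS S ∧ ∀ Q : Pr M, ordv Q (x : M) = 0}
  mul_mem' := by
    rintro a b ⟨ha, ha'⟩ ⟨hb, hb'⟩
    refine ⟨mul_mem ha hb, fun Q => ?_⟩
    rw [Units.val_mul, ordv_mul Q a.ne_zero b.ne_zero, ha', hb', add_zero]
  one_mem' := ⟨one_mem _, fun Q => by simp⟩
  inv_mem' := by
    rintro a ⟨ha, ha'⟩
    refine ⟨inv_mem ha, fun Q => ?_⟩
    rw [Units.val_inv_eq_inv_val, ordv_inv, ha', neg_zero]

variable {S} in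
lemma mem_US {x : Mˣ} : x ∈ US S ↔ x ∈ PS S ∧ ∀ Q : Pr M, ordv Q (x : M) = 0 := Iff.rfl

/-- the divisor map on all of `Mˣ` -/
noncomputable def divU : Additive Mˣ →+ Dv M where
  toFun x := divOf ((Additive.toMul x : Mˣ) : M)
  map_zero' := by simp
  map_add' x y := by
    show divOf (((Additive.toMul x * Additive.toMul y : Mˣ)) : M) = _
    rw [Units.val_mul, divOf_mul (Units.ne_zero _) (Units.ne_zero _)]

lemma divU_apply (x : Additive Mˣ) : divU x = divOf ((Additive.toMul x : Mˣ) : M) := rfl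

/-- the divisor map `P_S → I_S` -/
noncomputable def iS : Additive (PS S) →+ IS S where
  toFun x := ⟨divOf (((Additive.toMul x : PS S) : Mˣ) : M), fun T hT => by
    rw [divOf_apply]
    exact ordv_eq_zero_of_sub_one ((Additive.toMul x : PS S).2 T hT) one_pos⟩
  map_zero' := by
    apply Subtype.ext
    simp
  map_add' x y := by
    apply Subtype.ext
    show divOf ((((Additive.toMul x * Additive.toMul y : PS S)) : Mˣ) : M) = _
    rw [Subgroup.coe_mul, Units.val_mul, divOf_mul (Units.ne_zero _) (Units.ne_zero _)]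
    rfl

lemma coe_iS (x : Additive (PS S)) :
    ((iS S x : IS S) : Dv M) = divOf (((Additive.toMul x : PS S) : Mˣ) : M) := rfl

lemma US_le_PS : US S ≤ PS S := fun _ hx => hx.1

/-- the inclusion `U_S → P_S` -/
def ioS : Additive (US S) →+ Additive (PS S) :=
  MonoidHom.toAdditive (Subgroup.inclusion (US_le_PS S))

lemma ioS_injective : Function.Injective (ioS S) :=
  Subgroup.inclusion_injective (US_le_PS S)

lemma ioS_range : (ioS S).range = (iS S).ker := by
  ext x
  constructor
  · rintro ⟨u, rfl⟩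
    rw [AddMonoidHom.mem_ker]
    apply Subtype.ext
    ext Q
    rw [coe_iS, divOf_apply]
    exact (Additive.toMul u : US S).2.2 Q
  · intro hx
    rw [AddMonoidHom.mem_ker] at hx
    have h1 : ∀ Q : Pr M, ordv Q (((Additive.toMul x : PS S) : Mˣ) : M) = 0 := by
      intro Q
      have := congrArg (fun D : IS S => (D : Dv M) Q) hx
      simpa [coe_iS, divOf_apply] using this
    exact ⟨Additive.ofMul ⟨(Additive.toMul x : PS S), (Additive.toMul x : PS S).2, h1⟩, rfl⟩

end ray

end FA14
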