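import Fermat.Agent.CFT.Cyc3
import Fermat.Agent.CFT.Psym
import Fermat.Agent.CFT.ANK2

/-!
# S14-[F], lemmas (M1), (M2): decomposition of primes in a Kummer extension
-/

set_option autoImplicit false
set_option linter.unusedSectionVars false

open IsDedekindDomain NumberField

namespace FA14

variable {p : ℕ} [hpF : Fact p.Prime]
variable {E M : Type*} [Field E] [NumberField E] [Field M] [NumberField M] [Algebra E M]

/-- the fundamental identity in the Galois case, in the notation of `Defs`. -/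
theorem ncard_mul_eram_mul_fdeg [IsGalois E M] (Q : Pr M) :
    ((below E Q).asIdeal.primesOver (𝓞 M)).ncard * (eram E Q * fdeg E Q) =
      Module.finrank E M := by
  have := Ideal.ncard_primesOver_mul_ramificationIdxIn_mul_inertiaDegIn (below E Q).asIdeal (𝓞 M)
    Gal(M/E)
  rw [Ideal.ramificationIdxIn_eq_ramificationIdx (below E Q).asIdeal Q.asIdeal Gal(M/E),
    Ideal.inertiaDegIn_eq_inertiaDeg (below E Q).asIdeal Q.asIdeal Gal(M/E),
    IsGalois.card_aut_eq_finrank] at this
  exact this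

/-- residue degree one: every integer is congruent to an integer of the base field. -/
theorem exists_sub_mem_of_fdeg_eq_one (Q : Pr M) (hf : fdeg E Q = 1) (a : 𝓞 M) :
    ∃ w : 𝓞 E, a - algebraMap (𝓞 E) (𝓞 M) w ∈ Q.asIdeal := by
  let φ : kres (below E Q) →+* kres Q :=
    Ideal.quotientMap Q.asIdeal (algebraMap (𝓞 E) (𝓞 M)) (le_of_eq rfl)
  have hinj : Function.Injective φ := φ.injective
  have hbij : Function.Bijective φ := hinj.bijective_of_nat_card_le (by
    rw [card_kres, card_kres, Nq_eq_pow E Q, hf, pow_one])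
  obtain ⟨t, ht⟩ := hbij.2 (Ideal.Quotient.mk _ a)
  obtain ⟨w, rfl⟩ := Ideal.Quotient.mk_surjective t
  refine ⟨w, ?_⟩
  rw [← Ideal.Quotient.eq, ← ht]
  rfl

/-- residue degree one: every `Q`-integral element is congruent to an element of the base field. -/
theorem exists_ordGE_sub_of_fdeg_eq_one (Q : Pr M) (hf : fdeg E Q = 1) {Y : M}
    (hY : OrdGE Q Y 0) : ∃ w : 𝓞 E, OrdGE Q (Y - algebraMap E M (algebraMap (𝓞 E) E w)) 1 := by
  obtain ⟨a, ha⟩ := exists_integer_sub Q hY 1
  obtain ⟨w, hw⟩ := exists_sub_mem_of_fdeg_eq_one (E := E) Q hf a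
  refine ⟨w, ?_⟩
  have h1 := (ordGE_algebraMap_one_iff (v := Q) _).mpr hw
  rw [map_sub] at h1
  have := OrdGE.add (by simpa using ha) h1
  rw [algebraMap_algebraMap_int]
  simpa using this

variable {ζ y : E} {Y : M} (hζ : IsPrimitiveRoot ζ p) (hy0 : y ≠ 0)
  (hY : Y ^ p = algebraMap E M y) (σ : M ≃ₐ[E] M) (hσ : σ Y = algebraMap E M ζ * Y)

include hζ hy0 hY hσ in
/-- **(M2)** a prime where `y` is a local `p`-th power is moved by `σ`. -/
theorem mapPr_ne_of_locPow (Q : Pr M) (h : LocPow p (nv p (below E Q)) (below E Q) y) :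
    mapPr (σ : M ≃+* M) Q ≠ Q := by
  intro hfix
  have h1 := cyc_dec hζ Q y h Y hY σ hfix
  rw [hσ] at h1
  have hY0 : Y ≠ 0 := by
    rintro rfl
    rw [zero_pow hpF.out.ne_zero] at hY
    exact hy0 ((map_eq_zero _).mp hY.symm)
  have h2 : algebraMap E M ζ = 1 := mul_right_cancel₀ hY0 (by rw [h1, one_mul])
  have h3 : ζ = 1 := (algebraMap E M).injective (by rw [h2, map_one])
  exact hζ.ne_one hpF.out.one_lt h3

include hζ hy0 hY hσ in
/-- residue degree one at a tame prime where `p ∣ ord y` forces `y` to be a local `p`-th power. -/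
theorem locPow_of_fdeg_eq_one (Q : Pr M) (hy : (p : ℤ) ∣ ordv (below E Q) y)
    (hf : fdeg E Q = 1) : LocPow p 1 (below E Q) y := by
  have hp0 : p ≠ 0 := hpF.out.ne_zero
  obtain ⟨c, hc0, hc⟩ := exists_unit_mul_pow (v := below E Q) hy0 hy
  set u := y * c ^ p with hu
  have hu0 : u ≠ 0 := mul_ne_zero hy0 (pow_ne_zero _ hc0)
  set Y' := Y * algebraMap E M c with hY'
  have hY'p : Y' ^ p = algebraMap E M u := by
    rw [hY', mul_pow, hY, hu, map_mul, map_pow]
  have huQ : ordv Q (algebraMap E M u) = 0 := by rw [ordv_algebraMap, hc, mul_zero]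
  have hY'0 : ordv Q Y' = 0 := by
    have := ordv_pow Q Y' p
    rw [hY'p, huQ] at this
    have hp' : (p : ℤ) ≠ 0 := by exact_mod_cast hp0
    exact (mul_eq_zero.mp this.symm).resolve_left hp'
  have hYint : OrdGE Q Y' 0 := Or.inr hY'0.ge
  obtain ⟨w, hw⟩ := exists_ordGE_sub_of_fdeg_eq_one (E := E) Q hf hYint
  set w' : E := algebraMap (𝓞 E) E w with hw'
  have hwint : OrdGE Q (algebraMap E M w') 0 := by
    rw [hw', algebraMap_algebraMap_int]
    exact ordGE_algebraMap _
  have h5 := ank_ordGE_pow_sub_pow hw hYint hwint p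
  have h6 : OrdGE (below E Q) (u - w' ^ p) 1 := by
    apply ank_ordGE_one_down Q
    rw [map_sub, map_pow, ← hY'p]
    exact h5
  have h7 : ordv (below E Q) (w' ^ p) = 0 := by
    have := ordv_eq_of_ordGE_sub (v := below E Q) (x := w' ^ p) (y := u) (n := 1)
      (by simpa using h6.neg) hu0 (by omega)
    rw [this, hc]
  have hw0 : w' ≠ 0 := by
    intro h0
    rw [h0, zero_pow hp0, sub_zero] at h6
    have := h6.le hu0
    omega
  refine ⟨c * w'⁻¹, mul_ne_zero hc0 (inv_ne_zero hw0), ?_⟩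
  have e : y * (c * w'⁻¹) ^ p - 1 = (u - w' ^ p) * (w' ^ p)⁻¹ := by
    rw [sub_mul, mul_inv_cancel₀ (pow_ne_zero p hw0), hu, mul_pow, inv_pow]
    ring
  rw [e]
  exact h6.mul_right (Or.inr (by rw [ordv_inv, h7]; simp))

include hζ hy0 hY hσ in
/-- **(M1)** a tame prime with `p ∣ ord y` which is fixed by `σ` is unramified. -/
theorem eram_eq_one_of_fixed [IsGalois E M] (hdeg : Module.finrank E M = p) (Q : Pr M)
    (hp : ordv Q (p : M) = 0) (hy : (p : ℤ) ∣ ordv (below E Q) y)
    (hfix : mapPr (σ : M ≃+* M) Q = Q) : eram E Q = 1 := by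
  have hefg := ncard_mul_eram_mul_fdeg (E := E) Q
  rw [hdeg] at hefg
  have hdvd : eram E Q ∣ p := ⟨((below E Q).asIdeal.primesOver (𝓞 M)).ncard * fdeg E Q, by
    rw [← hefg]; ring⟩
  rcases (Nat.dvd_prime hpF.out).mp hdvd with h1 | h1
  · exact h1
  exfalso
  have hf : fdeg E Q = 1 := by
    rw [h1] at hefg
    have h2 : p * (((below E Q).asIdeal.primesOver (𝓞 M)).ncard * fdeg E Q) = p * 1 := by
      rw [mul_one]
      refine Eq.trans ?_ hefg
      ring
    have h3 := Nat.eq_of_mul_eq_mul_left hpF.out.pos h2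
    exact Nat.eq_one_of_mul_eq_one_left h3
  have hloc := locPow_of_fdeg_eq_one hζ hy0 hY σ hσ Q hy hf
  have hpq : ordv (below E Q) (p : E) = 0 := ank_ordv_eq_zero_down Q (by simpa using hp)
  refine mapPr_ne_of_locPow hζ hy0 hY σ hσ Q ?_ hfix
  rw [nv_eq_one hpq]
  exact hloc

end FA14
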