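import Fermat.Agent.CFT.FDefs
import Fermat.Agent.CFT.Res

/-! S14 [F], (M4): the ray class group `I_S / i(P_S)` is finite. -/

set_option autoImplicit false

open IsDedekindDomain NumberField nonZeroDivisors

namespace FA14

variable {M : Type*} [Field M] [NumberField M]

theorem ray_ordv_algebraMap (v : Pr M) {a : 𝓞 M} (ha : a ≠ 0) :
    ordv v (algebraMap (𝓞 M) M a) =
      (Associates.mk v.asIdeal).count (Associates.mk (Ideal.span {a})).factors := by
  rw [ordv, HeightOneSpectrum.valuation_of_algebraMap, v.intValuation_if_neg ha, WithZero.log_exp,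
    neg_neg]

theorem ray_count_spanSingleton (v : Pr M) {x : M} (hx : x ≠ 0) :
    FractionalIdeal.count M v (FractionalIdeal.spanSingleton (𝓞 M)⁰ x) = ordv v x := by
  obtain ⟨a, b, hb, rfl⟩ := IsFractionRing.div_surjective (A := 𝓞 M) x
  have hb0 : b ≠ 0 := nonZeroDivisors.ne_zero hb
  have ha0 : a ≠ 0 := by
    rintro rfl
    simp at hx
  have hb1 : algebraMap (𝓞 M) M b ≠ 0 := by simpa using hb0
  have ha1 : algebraMap (𝓞 M) M a ≠ 0 := by simpa using ha0
  have h1 : FractionalIdeal.spanSingleton (𝓞 M)⁰ (algebraMap (𝓞 M) M a / algebraMap (𝓞 M) M b) =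
      FractionalIdeal.spanSingleton (𝓞 M)⁰ (algebraMap (𝓞 M) M b)⁻¹ *
        ((Ideal.span {a} : Ideal (𝓞 M)) : FractionalIdeal (𝓞 M)⁰ M) := by
    rw [FractionalIdeal.coeIdeal_span_singleton, FractionalIdeal.spanSingleton_mul_spanSingleton,
      div_eq_inv_mul]
  rw [FractionalIdeal.count_well_defined M v
    (by rw [Ne, FractionalIdeal.spanSingleton_eq_zero_iff]; exact hx) h1,
    ordv_div v ha1 hb1, ray_ordv_algebraMap v ha0, ray_ordv_algebraMap v hb0]

/-- the fractional ideal of a divisor. -/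
noncomputable def rayIdeal (D : Dv M) : FractionalIdeal (𝓞 M)⁰ M :=
  D.prod fun v n => (v.asIdeal : FractionalIdeal (𝓞 M)⁰ M) ^ n

theorem rayIdeal_ne_zero (D : Dv M) : rayIdeal D ≠ 0 := by
  rw [rayIdeal, Finsupp.prod, Finset.prod_ne_zero_iff]
  exact fun v _ => zpow_ne_zero _ (FractionalIdeal.coeIdeal_ne_zero.mpr v.ne_bot)

theorem count_rayIdeal (D : Dv M) (v : Pr M) : FractionalIdeal.count M v (rayIdeal D) = D v :=
  FractionalIdeal.count_finsuppProd M v D

/-- the ideal class of a divisor. -/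
noncomputable def rayClass (D : Dv M) : ClassGroup (𝓞 M) :=
  ClassGroup.mk M (Units.mk0 (rayIdeal D) (rayIdeal_ne_zero D))

theorem sub_mem_range_divU_of_rayClass_eq {D D' : Dv M} (h : rayClass D = rayClass D') :
    D - D' ∈ (divU (M := M)).range := by
  rw [rayClass, rayClass, ← div_eq_one, ← map_div, ClassGroup.mk_eq_one_iff,
    FractionalIdeal.isPrincipal_iff] at h
  obtain ⟨x, hx⟩ := h
  rw [Units.val_div_eq_div_val, Units.val_mk0, Units.val_mk0,
    div_eq_iff (rayIdeal_ne_zero D')] at hx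
  have hx0 : x ≠ 0 := by
    rintro rfl
    rw [FractionalIdeal.spanSingleton_zero, zero_mul] at hx
    exact rayIdeal_ne_zero D hx
  refine ⟨Additive.ofMul (Units.mk0 x hx0), ?_⟩
  ext v
  have h1 := congrArg (FractionalIdeal.count M v) hx
  rw [FractionalIdeal.count_mul M v
    (by rw [Ne, FractionalIdeal.spanSingleton_eq_zero_iff]; exact hx0) (rayIdeal_ne_zero D'),
    count_rayIdeal, count_rayIdeal, ray_count_spanSingleton v hx0] at h1
  rw [divU_apply, divOf_apply, Finsupp.sub_apply, h1]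
  simp

theorem finite_Dv_quot : Finite (Dv M ⧸ (divU (M := M)).range) := by
  classical
  let Φ : ClassGroup (𝓞 M) → Dv M ⧸ (divU (M := M)).range := fun c =>
    if h : ∃ D : Dv M, rayClass D = c then QuotientAddGroup.mk h.choose else 0
  refine Finite.of_surjective Φ ?_
  intro X
  obtain ⟨D, rfl⟩ := QuotientAddGroup.mk_surjective X
  refine ⟨rayClass D, ?_⟩
  have h : ∃ D' : Dv M, rayClass D' = rayClass D := ⟨D, rfl⟩
  show (if h : ∃ D' : Dv M, rayClass D' = rayClass D then
    (QuotientAddGroup.mk h.choose : Dv M ⧸ (divU (M := M)).range) else 0) = _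
  rw [dif_pos h, QuotientAddGroup.eq]
  have h1 := sub_mem_range_divU_of_rayClass_eq h.choose_spec.symm
  rwa [sub_eq_neg_add] at h1

/-- the elements of `Mˣ` prime to `S`. -/
def MS (S : Set (Pr M)) : Subgroup Mˣ where
  carrier := {x | ∀ T ∈ S, ordv T (x : M) = 0}
  mul_mem' := by
    intro a b ha hb T hT
    rw [Units.val_mul, ordv_mul T a.ne_zero b.ne_zero, ha T hT, hb T hT, add_zero]
  one_mem' := by intro T _; simp
  inv_mem' := by
    intro a ha T hT
    rw [Units.val_inv_eq_inv_val, ordv_inv, ha T hT, neg_zero]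

/-- reduction modulo the primes of `S`. -/
noncomputable def rayRed (S : Set (Pr M)) : MS S →* ((T : S) → (kres T.1)ˣ) where
  toFun x T := Units.mk0 (red T.1 ((x : Mˣ) : M))
    ((red_ne_zero_iff (ordGE_zero_of_ordv (x.2 T.1 T.2)) (x : Mˣ).ne_zero).2 (x.2 T.1 T.2))
  map_one' := by
    ext T
    simp
  map_mul' x y := by
    ext T
    simp only [Subgroup.coe_mul, Units.val_mul, Pi.mul_apply, Units.val_mk0]
    exact red_mul (ordGE_zero_of_ordv (x.2 T.1 T.2)) (ordGE_zero_of_ordv (y.2 T.1 T.2))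

theorem rayRed_ker (S : Set (Pr M)) : (rayRed S).ker = (PS S).subgroupOf (MS S) := by
  ext x
  rw [MonoidHom.mem_ker, Subgroup.mem_subgroupOf, mem_PS]
  constructor
  · intro h T hT
    have h1 := congrArg (fun f => ((f ⟨T, hT⟩ : (kres T)ˣ) : kres T)) h
    simp only [rayRed, MonoidHom.coe_mk, OneHom.coe_mk, Units.val_mk0, Pi.one_apply,
      Units.val_one] at h1
    rw [← red_one (v := T), red_eq_iff (ordGE_zero_of_ordv (x.2 T hT)) ordGE_one] at h1
    exact h1
  · intro h
    ext T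
    simp only [rayRed, MonoidHom.coe_mk, OneHom.coe_mk, Units.val_mk0, Pi.one_apply,
      Units.val_one]
    rw [← red_one (v := T.1), red_eq_iff (ordGE_zero_of_ordv (x.2 T.1 T.2)) ordGE_one]
    exact h T.1 T.2

theorem finite_MS_quot (S : Set (Pr M)) (hS : S.Finite) :
    Finite (MS S ⧸ (PS S).subgroupOf (MS S)) := by
  have : Finite S := hS.to_subtype
  rw [← Subgroup.index_ne_zero_iff_finite, ← rayRed_ker, Subgroup.index_ker]
  exact Nat.card_pos.ne'

/-- (M4) the ray class group is finite. -/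
theorem finite_rayClass (S : Set (Pr M)) (hS : S.Finite) : Finite (IS S ⧸ (iS S).range) := by
  classical
  have h1 := finite_Dv_quot (M := M)
  have h2 := finite_MS_quot S hS
  let dv : MS S → IS S := fun x => ⟨divOf ((x : Mˣ) : M), fun T hT => by
    rw [divOf_apply]; exact x.2 T hT⟩
  let rep : Dv M ⧸ (divU (M := M)).range → IS S := fun c =>
    if h : ∃ D : IS S, (QuotientAddGroup.mk (D : Dv M) : Dv M ⧸ (divU (M := M)).range) = c
      then h.choose else 0
  let Ψ : (Dv M ⧸ (divU (M := M)).range) × (MS S ⧸ (PS S).subgroupOf (MS S)) →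
      IS S ⧸ (iS S).range := fun z => QuotientAddGroup.mk (rep z.1 + dv z.2.out)
  refine Finite.of_surjective Ψ ?_
  intro X
  obtain ⟨D, rfl⟩ := QuotientAddGroup.mk_surjective X
  set c : Dv M ⧸ (divU (M := M)).range := QuotientAddGroup.mk (D : Dv M) with hc
  have hex : ∃ D' : IS S, (QuotientAddGroup.mk (D' : Dv M) : Dv M ⧸ (divU (M := M)).range) = c :=
    ⟨D, rfl⟩
  have hrep : rep c = hex.choose := dif_pos hex
  have h3 : (QuotientAddGroup.mk ((rep c : IS S) : Dv M) : Dv M ⧸ (divU (M := M)).range) =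
      QuotientAddGroup.mk (D : Dv M) := by
    rw [hrep]; exact hex.choose_spec
  rw [QuotientAddGroup.eq] at h3
  obtain ⟨x, hx⟩ := h3
  have hxS : Additive.toMul x ∈ MS S := by
    intro T hT
    have h4 := congrArg (fun E : Dv M => E T) hx
    simp only [divU_apply, divOf_apply, Finsupp.add_apply, Finsupp.neg_apply] at h4
    rw [h4, (rep c).2 T hT, D.2 T hT]
    simp
  set r : MS S ⧸ (PS S).subgroupOf (MS S) := QuotientGroup.mk ⟨Additive.toMul x, hxS⟩ with hr
  have h5 : (r.out)⁻¹ * ⟨Additive.toMul x, hxS⟩ ∈ (PS S).subgroupOf (MS S) := by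
    rw [← QuotientGroup.eq, QuotientGroup.out_eq']
  rw [Subgroup.mem_subgroupOf] at h5
  refine ⟨(c, r), ?_⟩
  show (QuotientAddGroup.mk (rep c + dv r.out) : IS S ⧸ (iS S).range) = QuotientAddGroup.mk D
  rw [QuotientAddGroup.eq]
  refine ⟨Additive.ofMul ⟨_, h5⟩, ?_⟩
  apply Subtype.ext
  rw [coe_iS]
  have h6 : ((-(rep c + dv r.out) + D : IS S) : Dv M) =
      (-((rep c : IS S) : Dv M) + (D : Dv M)) - divOf (((r.out : MS S) : Mˣ) : M) := by
    show -(((rep c : IS S) : Dv M) + divOf (((r.out : MS S) : Mˣ) : M)) + (D : Dv M) = _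
    abel
  rw [h6, ← hx, divU_apply]
  show divOf ((((r.out)⁻¹ * ⟨Additive.toMul x, hxS⟩ : MS S) : Mˣ) : M) = _
  rw [Subgroup.coe_mul, Units.val_mul, divOf_mul (Units.ne_zero _) (Units.ne_zero _),
    Subgroup.coe_inv, Units.val_inv_eq_inv_val, divOf_inv]
  abel

end FA14

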