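import Fermat.Agent.CFT.FH90
import Fermat.Agent.CFT.FM1
import Fermat.Agent.CFT.FRay

/-! S14 [F]: the subgroup `HF` of divisors of `E` whose conorm is in `i(P^G) + N_G(I)`. -/

set_option autoImplicit false
set_option linter.unusedSectionVars false

open IsDedekindDomain NumberField Polynomial

namespace FA14

section fin
variable {E M : Type*} [Field E] [NumberField E] [Field M] [NumberField M] [Algebra E M]
  {p : ℕ} [Fact p.Prime] {ζ y : E} (D : KumData p ζ y M)

include D in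
/-- `M/E` is unramified outside the primes `t` with `p ∤ ord_t y`. -/
theorem KumData.unram (hζ : IsPrimitiveRoot ζ p) (hy0 : y ≠ 0)
    (hP : ∀ v : Pr E, 0 < ordv v (p : E) → LocPow p (nv p v) v y) (Q : Pr M)
    (hQ : Q ∉ upS M (ramSet p y)) : eram E Q = 1 := by
  by_cases hfix : gPr D.σ Q = Q
  · have := D.hgal
    have hQp : ordv (below E Q) (p : E) = 0 := by
      by_contra h
      have h0 : 0 ≤ ordv (below E Q) (p : E) := ordv_natCast_nonneg p
      exact mapPr_ne_of_locPow hζ hy0 D.hY D.σ D.hσY Q (hP _ (lt_of_le_of_ne h0 (Ne.symm h))) hfix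
    refine eram_eq_one_of_fixed hζ hy0 D.hY D.σ D.hσY D.hdeg Q ?_ ?_ hfix
    · have : (p : M) = algebraMap E M (p : E) := by simp
      rw [this, ordv_algebraMap, hQp, mul_zero]
    · by_contra h
      exact hQ h
  · exact (D.eram_fdeg_of_not_fixed hfix).1

variable (R : Set (Pr E))

/-- the subgroup `i(P^G) + N_G(I)` -/
noncomputable def KumData.GG : AddSubgroup (IS (upS M R)) :=
  ((dE (actP R D.σ)).ker.map (iS (upS M R))) ⊔ (nE p (actI R D.σ)).range

lemma KumData.mem_GG {g : IS (upS M R)} :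
    g ∈ D.GG R ↔ ∃ (x : Additive (PS (upS M R))) (c : IS (upS M R)),
      actP R D.σ x = x ∧ g = iS (upS M R) x + nE p (actI R D.σ) c := by
  rw [KumData.GG, AddSubgroup.mem_sup]
  constructor
  · rintro ⟨_, ⟨x, hx, rfl⟩, _, ⟨c, rfl⟩, rfl⟩
    refine ⟨x, c, ?_, rfl⟩
    have hx' : dE (actP R D.σ) x = 0 := hx
    rw [dE_apply, sub_eq_zero] at hx'
    exact hx'
  · rintro ⟨x, c, hx, rfl⟩
    refine ⟨_, ⟨x, ?_, rfl⟩, _, ⟨c, rfl⟩, rfl⟩
    show dE (actP R D.σ) x = 0
    rw [dE_apply, hx, sub_self]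

/-- divisors of `E` whose conorm (off `R`) is in `GG` -/
noncomputable def KumData.HF : AddSubgroup (Dv E) where
  carrier := {d | ∃ g ∈ D.GG R, ∀ Q : Pr M, Q ∉ upS M R → (g : Dv M) Q = d (below E Q)}
  add_mem' := by
    rintro a b ⟨g, hg, h⟩ ⟨g', hg', h'⟩
    refine ⟨g + g', add_mem hg hg', fun Q hQ => ?_⟩
    rw [AddSubgroup.coe_add, Finsupp.add_apply, Finsupp.add_apply, h Q hQ, h' Q hQ]
  zero_mem' := ⟨0, zero_mem _, fun Q _ => rfl⟩
  neg_mem' := by
    rintro a ⟨g, hg, h⟩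
    refine ⟨-g, neg_mem hg, fun Q hQ => ?_⟩
    rw [AddSubgroup.coe_neg, Finsupp.neg_apply, Finsupp.neg_apply, h Q hQ]

lemma KumData.mem_HF {d : Dv E} : d ∈ D.HF R ↔
    ∃ g ∈ D.GG R, ∀ Q : Pr M, Q ∉ upS M R → (g : Dv M) Q = d (below E Q) := Iff.rfl

lemma coe_nE_actI (τ : M ≃ₐ[E] M) (c : IS (upS M R)) :
    ((nE p (actI R τ) c : IS (upS M R)) : Dv M) =
      ∑ i ∈ Finset.range p, actD (τ ^ i) (c : Dv M) := by
  rw [nE_apply, AddSubgroup.val_finsetSum]
  refine Finset.sum_congr rfl fun i _ => ?_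
  rw [← actI_pow, coe_actI]

lemma KumData.nE_mem_GG (c : IS (upS M R)) : nE p (actI R D.σ) c ∈ D.GG R :=
  (D.mem_GG R).2 ⟨0, c, map_zero _, by rw [map_zero, zero_add]⟩

/-- (1) primes in `R` -/
lemma KumData.single_mem_HF_of_mem {t : Pr E} (ht : t ∈ R) (n : ℤ) :
    Finsupp.single t n ∈ D.HF R := by
  classical
  refine ⟨0, zero_mem _, fun Q hQ => ?_⟩
  rw [Finsupp.single_apply, if_neg]
  · rfl
  · rintro rfl
    exact hQ ht

/-- a single prime off `R` as an element of `I` -/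
noncomputable def sglI {Q : Pr M} (hQ : Q ∉ upS M R) (n : ℤ) : IS (upS M R) :=
  ⟨Finsupp.single Q n, fun T hT => by
    classical
    rw [Finsupp.single_apply, if_neg]
    rintro rfl
    exact hQ hT⟩

/-- (2) primes that are not fixed -/
lemma KumData.single_mem_HF_of_not_fixed {Q0 : Pr M} (hQ0 : Q0 ∉ upS M R)
    (hfix : gPr D.σ Q0 ≠ Q0) (n : ℤ) : Finsupp.single (below E Q0) n ∈ D.HF R := by
  classical
  refine ⟨nE p (actI R D.σ) (sglI R hQ0 n), D.nE_mem_GG R _, fun Q _ => ?_⟩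
  rw [coe_nE_actI, Finsupp.finsetSum_apply]
  have h1 : ∀ i ∈ Finset.range p, (actD (D.σ ^ i) ((sglI R hQ0 n : IS (upS M R)) : Dv M)) Q =
      if gPr (D.σ ^ i) Q0 = Q then n else 0 := by
    intro i _
    show (actD (D.σ ^ i) (Finsupp.single Q0 n)) Q = _
    rw [actD_single, Finsupp.single_apply]
  rw [Finset.sum_congr rfl h1, Finsupp.single_apply]
  by_cases hq : below E Q0 = below E Q
  · rw [if_pos hq]
    obtain ⟨i0, hi0, hi0'⟩ := D.exists_pow_eq hq
    rw [Finset.sum_eq_single i0]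
    · rw [if_pos hi0']
    · intro j hj hne
      rw [if_neg]
      intro hj'
      exact hne (D.injOn_of_not_fixed hfix (by simpa using hj) (by simpa using hi0)
        (hj'.trans hi0'.symm))
    · intro h
      exact absurd (Finset.mem_range.2 hi0) h
  · rw [if_neg hq]
    refine Finset.sum_eq_zero fun i _ => ?_
    rw [if_neg]
    intro h
    apply hq
    rw [← h, below_gPr]

/-- (3) `p` times a fixed prime -/
lemma KumData.nsmul_single_mem_HF_of_fixed {Q0 : Pr M} (hQ0 : Q0 ∉ upS M R)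
    (hfix : gPr D.σ Q0 = Q0) (n : ℤ) : p • Finsupp.single (below E Q0) n ∈ D.HF R := by
  classical
  refine ⟨nE p (actI R D.σ) (sglI R hQ0 n), D.nE_mem_GG R _, fun Q _ => ?_⟩
  rw [coe_nE_actI, Finsupp.finsetSum_apply]
  have h1 : ∀ i ∈ Finset.range p, (actD (D.σ ^ i) ((sglI R hQ0 n : IS (upS M R)) : Dv M)) Q =
      if Q0 = Q then n else 0 := by
    intro i _
    show (actD (D.σ ^ i) (Finsupp.single Q0 n)) Q = _
    rw [actD_single, Finsupp.single_apply, gPr_pow_fixed hfix]
  rw [Finset.sum_congr rfl h1, Finsupp.smul_apply, Finsupp.single_apply, Finset.sum_const,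
    Finset.card_range]
  by_cases hq : below E Q0 = below E Q
  · rw [if_pos hq, if_pos (D.eq_of_fixed hfix hq).symm]
  · rw [if_neg hq, if_neg]
    rintro rfl
    exact hq rfl

/-- `p • d ∈ HF` -/
lemma KumData.nsmul_mem_HF (d : Dv E) : p • d ∈ D.HF R := by
  induction d using Finsupp.induction_linear with
  | zero => rw [smul_zero]; exact zero_mem _
  | add a b ha hb => rw [smul_add]; exact add_mem ha hb
  | single q n =>
    by_cases hq : q ∈ R
    · exact nsmul_mem (D.single_mem_HF_of_mem R hq n) p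
    · obtain ⟨Q0, rfl⟩ := exists_above E (E' := M) q
      by_cases hfix : gPr D.σ Q0 = Q0
      · exact D.nsmul_single_mem_HF_of_fixed R hq hfix n
      · exact nsmul_mem (D.single_mem_HF_of_not_fixed R hq hfix n) p

lemma ordGE_pow_sub_one {T : Pr M} {a : M} (ha : OrdGE T (a - 1) 1) (n : ℕ) :
    OrdGE T (a ^ n - 1) 1 := by
  induction n with
  | zero => simp
  | succ n ih => rw [pow_succ]; exact ordGE_mul_sub_one ih ha

/-- (4) principal divisors -/
lemma KumData.divOf_mem_HF (hunr : ∀ Q : Pr M, Q ∉ upS M R → eram E Q = 1) (hR : R.Finite)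
    {b : E} (hb : b ≠ 0) (h0 : ∀ t ∈ R, ordv t b = 0) (h1 : ∀ t ∈ R, LocPow p 1 t b) :
    divOf b ∈ D.HF R := by
  have hp : p.Prime := Fact.out
  have hloc : ∀ t : Pr E, ∃ c : E, c ≠ 0 ∧ (t ∈ R → OrdGE t (b * c ^ p - 1) 1) := by
    intro t
    by_cases ht : t ∈ R
    · obtain ⟨c, hc, h⟩ := h1 t ht
      exact ⟨c, hc, fun _ => h⟩
    · exact ⟨1, one_ne_zero, fun h => absurd h ht⟩
  choose C hC0 hC using hloc
  obtain ⟨c, hc0, hc⟩ := weak_approx_mul hR.toFinset C (fun v _ => hC0 v) 1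
  have hbc : ∀ t ∈ R, OrdGE t (b * c ^ p - 1) 1 := by
    intro t ht
    have e1 := ordGE_mul_sub_one (hC t ht)
      (ordGE_pow_sub_one (hc t (hR.mem_toFinset.2 ht)).1 p)
    have e2 : b * C t ^ p * (c / C t) ^ p = b * c ^ p := by
      have := hC0 t
      rw [div_pow]; field_simp
    rwa [e2] at e1
  have hordc : ∀ t ∈ R, ordv t c = 0 := by
    intro t ht
    have e1 := ordv_eq_zero_of_sub_one (hbc t ht) one_pos
    rw [ordv_mul t hb (pow_ne_zero _ hc0), h0 t ht, zero_add, ordv_pow] at e1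
    rcases mul_eq_zero.1 e1 with h | h
    · exact absurd (by exact_mod_cast h) hp.ne_zero
    · exact h
  have hbc0 : b * c ^ p ≠ 0 := mul_ne_zero hb (pow_ne_zero _ hc0)
  have hbcM : algebraMap E M (b * c ^ p) ≠ 0 := by simpa using hbc0
  have hcM : algebraMap E M c ≠ 0 := by simpa using hc0
  have hbM : algebraMap E M b ≠ 0 := by simpa using hb
  let x : Additive (PS (upS M R)) := mkP (algebraMap E M (b * c ^ p)) hbcM (fun T hT => by
    have : algebraMap E M (b * c ^ p) - 1 = algebraMap E M (b * c ^ p - 1) := by simp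
    rw [this]
    exact ordGE_algebraMap_of E T (hbc _ hT) zero_le_one)
  let cI : IS (upS M R) := ⟨divOf (algebraMap E M c), fun T hT => by
    rw [divOf_apply, ordv_algebraMap, hordc _ hT, mul_zero]⟩
  have hx : actP R D.σ x = x := by
    apply valP_injective
    rw [valP_actP, valP_mkP, AlgEquiv.commutes]
  refine ⟨iS (upS M R) x + nE p (actI R D.σ) (-cI), (D.mem_GG R).2 ⟨x, -cI, hx, rfl⟩,
    fun Q hQ => ?_⟩
  rw [AddSubgroup.coe_add, coe_nE_actI, coe_iS]
  have e1 : ∀ i ∈ Finset.range p, actD (D.σ ^ i) (((-cI : IS (upS M R))) : Dv M) =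
      - divOf (algebraMap E M c) := by
    intro i _
    show actD (D.σ ^ i) (- divOf (algebraMap E M c)) = _
    rw [map_neg, actD_divOf, AlgEquiv.commutes]
  rw [Finset.sum_congr rfl e1, Finset.sum_const, Finset.card_range]
  show (divOf (algebraMap E M (b * c ^ p)) + p • -divOf (algebraMap E M c)) Q = _
  rw [Finsupp.add_apply, Finsupp.smul_apply, Finsupp.neg_apply, divOf_apply, divOf_apply,
    divOf_apply, map_mul, map_pow, ordv_mul Q hbM (pow_ne_zero _ hcM), ordv_pow,
    ordv_algebraMap E Q b, hunr Q hQ]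
  simp

/-- invariant divisors are invariant under the whole group -/
lemma KumData.apply_gPr_of_fixed {a : IS (upS M R)} (ha : actI R D.σ a = a) (τ : M ≃ₐ[E] M)
    (Q : Pr M) : (a : Dv M) (gPr τ Q) = (a : Dv M) Q := by
  obtain ⟨i, rfl⟩ := D.hgen τ
  have h1 : actI R (D.σ ^ i) a = a := by
    rw [actI_pow]
    induction i with
    | zero => rfl
    | succ i ih => rw [pow_succ]; show (actI R D.σ ^ i) (actI R D.σ a) = a; rw [ha, ih]
  have h2 := congrArg (fun d : IS (upS M R) => (d : Dv M) (gPr (D.σ ^ i) Q)) h1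
  simp only [coe_actI, actD_apply'] at h2
  exact h2.symm

/-- (5) `HF` is a proper subgroup -/
lemma KumData.HF_ne_top (h : ∃ a : IS (upS M R), actI R D.σ a = a ∧ a ∉ D.GG R) :
    D.HF R ≠ ⊤ := by
  have := D.hgal
  obtain ⟨a, ha, hna⟩ := h
  intro htop
  let f : Pr E → Pr M := fun q => (exists_above E (E' := M) q).choose
  have hf : ∀ q, below E (f q) = q := fun q => (exists_above E (E' := M) q).choose_spec
  have hinj : Function.Injective f := fun q q' h => by rw [← hf q, h, hf]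
  let d : Dv E := Finsupp.comapDomain f (a : Dv M) hinj.injOn
  have hd : d ∈ D.HF R := by rw [htop]; trivial
  obtain ⟨g, hg, hgd⟩ := hd
  apply hna
  have : a = g := by
    apply Subtype.ext
    ext Q
    by_cases hQ : Q ∈ upS M R
    · rw [a.2 Q hQ, g.2 Q hQ]
    · rw [hgd Q hQ]
      show _ = (a : Dv M) (f (below E Q))
      obtain ⟨τ, hτ⟩ := exists_gPr_eq (hf (below E Q)).symm
      rw [← hτ, D.apply_gPr_of_fixed R ha]
  rw [this]
  exact hg

end fin

end FA14
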