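import Fermat.Agent.CFT.FLoc

/-! S14 [F]: Hilbert 90 for the ray group `P_S` (M3). -/

set_option autoImplicit false

open IsDedekindDomain NumberField Polynomial

namespace FA14

section valP
variable {M : Type*} [Field M] [NumberField M] {S : Set (Pr M)}

/-- the underlying element of `M` -/
def valP (x : Additive (PS S)) : M := (((Additive.toMul x : PS S) : Mˣ) : M)

lemma valP_zero : valP (0 : Additive (PS S)) = 1 := rfl
lemma valP_add (x y : Additive (PS S)) : valP (x + y) = valP x * valP y := rfl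
lemma valP_neg (x : Additive (PS S)) : valP (-x) = (valP x)⁻¹ := by
  show (((((Additive.toMul x : PS S))⁻¹ : PS S) : Mˣ) : M) = _
  simp [valP]
lemma valP_sub (x y : Additive (PS S)) : valP (x - y) = valP x / valP y := by
  rw [sub_eq_add_neg, valP_add, valP_neg, div_eq_mul_inv]
lemma valP_ne_zero (x : Additive (PS S)) : valP x ≠ 0 := Units.ne_zero _
lemma valP_injective : Function.Injective (valP (S := S)) := fun _ _ h => PS_ext h
lemma valP_sum {ι : Type*} (s : Finset ι) (f : ι → Additive (PS S)) :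
    valP (∑ i ∈ s, f i) = ∏ i ∈ s, valP (f i) := by
  classical
  induction s using Finset.induction_on with
  | empty => simp [valP_zero]
  | insert a s ha ih => rw [Finset.sum_insert ha, Finset.prod_insert ha, valP_add, ih]
lemma valP_mem (x : Additive (PS S)) {T : Pr M} (hT : T ∈ S) : OrdGE T (valP x - 1) 1 :=
  (Additive.toMul x : PS S).2 T hT

/-- constructor -/
def mkP (z : M) (hz : z ≠ 0) (h : ∀ T ∈ S, OrdGE T (z - 1) 1) : Additive (PS S) :=
  Additive.ofMul ⟨Units.mk0 z hz, h⟩

lemma valP_mkP (z : M) (hz : z ≠ 0) (h : ∀ T ∈ S, OrdGE T (z - 1) 1) : valP (mkP z hz h) = z := rfl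

end valP

section h90
variable {E M : Type*} [Field E] [NumberField E] [Field M] [NumberField M] [Algebra E M]
  {p : ℕ} [Fact p.Prime] {ζ y : E} (D : KumData p ζ y M)

lemma valP_actP (R : Set (Pr E)) (τ : M ≃ₐ[E] M) (x : Additive (PS (upS M R))) :
    valP (actP R τ x) = τ (valP x) := rfl

include D in
lemma KumData.finiteDimensional : FiniteDimensional E M :=
  Module.finite_of_finrank_pos (by rw [D.hdeg]; exact (Fact.out : p.Prime).pos)

lemma KumData.mem_zpowers (τ : M ≃ₐ[E] M) : τ ∈ Subgroup.zpowers D.σ := by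
  obtain ⟨i, rfl⟩ := D.hgen τ
  exact Subgroup.npow_mem_zpowers _ _

lemma KumData.bijective_pow : Function.Bijective (fun i : Fin p => D.σ ^ (i : ℕ)) := by
  have := D.finiteDimensional
  have := D.hgal
  have hp : p.Prime := Fact.out
  have hsurj : Function.Surjective (fun i : Fin p => D.σ ^ (i : ℕ)) := by
    intro τ
    obtain ⟨i, rfl⟩ := D.hgen τ
    refine ⟨⟨i % p, Nat.mod_lt _ hp.pos⟩, ?_⟩
    show D.σ ^ (i % p) = D.σ ^ i
    conv_rhs => rw [← Nat.div_add_mod i p, pow_add, pow_mul, D.hσp, one_pow, one_mul]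
  apply hsurj.bijective_of_nat_card_le
  rw [IsGalois.card_aut_eq_finrank, D.hdeg, Nat.card_eq_fintype_card, Fintype.card_fin]

/-- **Hilbert 90** for the cyclic extension `M/E` (any universe). -/
theorem KumData.hilbert90 {x : M} (hx : ∏ i ∈ Finset.range p, (D.σ ^ i) x = 1) :
    ∃ w : M, w ≠ 0 ∧ x * D.σ w = w := by
  have hp : p.Prime := Fact.out
  let c : ℕ → M := fun i => ∏ j ∈ Finset.range i, (D.σ ^ j) x
  have hc0 : c 0 = 1 := by simp [c]
  have hcp : c p = 1 := hx
  have hcs : ∀ i, c (i + 1) = x * D.σ (c i) := by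
    intro i
    simp only [c]
    rw [Finset.prod_range_succ', map_prod, pow_zero, mul_comm]
    congr 1
    refine Finset.prod_congr rfl fun j _ => ?_
    rw [pow_succ']
    rfl
  have key : ∀ θ : M, x * D.σ (∑ i ∈ Finset.range p, c i * (D.σ ^ i) θ) =
      ∑ i ∈ Finset.range p, c i * (D.σ ^ i) θ := by
    intro θ
    rw [map_sum, Finset.mul_sum]
    have h1 : ∀ i ∈ Finset.range p, x * D.σ (c i * (D.σ ^ i) θ) =
        c (i + 1) * (D.σ ^ (i + 1)) θ := by
      intro i _
      rw [map_mul, hcs, pow_succ', mul_assoc]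
      rfl
    rw [Finset.sum_congr rfl h1]
    have h2 := Finset.sum_range_succ' (fun i => c i * (D.σ ^ i) θ) p
    have h3 := Finset.sum_range_succ (fun i => c i * (D.σ ^ i) θ) p
    rw [h2] at h3
    simp only [hc0, hcp, D.hσp, pow_zero, one_mul, AlgEquiv.one_apply] at h3
    exact add_right_cancel h3
  by_contra hcon
  push Not at hcon
  have hzero : ∀ θ : M, ∑ i ∈ Finset.range p, c i * (D.σ ^ i) θ = 0 := by
    intro θ
    by_contra h
    exact hcon _ h (key θ)
  have hli := linearIndependent_monoidHom M M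
  let g : Fin p → (M →* M) := fun i => ((D.σ ^ (i : ℕ) : M ≃ₐ[E] M) : M →* M)
  have hg : Function.Injective g := by
    intro i j hij
    apply D.bijective_pow.1
    ext θ
    exact DFunLike.congr_fun hij θ
  have hli' := hli.comp g hg
  rw [Fintype.linearIndependent_iff] at hli'
  have h0 := hli' (fun i => c i) (by
    funext θ
    rw [Finset.sum_apply]
    have := hzero θ
    rw [← Fin.sum_univ_eq_sum_range (fun i => c i * (D.σ ^ i) θ)] at this
    simpa [g] using this) ⟨0, hp.pos⟩
  simp [hc0] at h0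

/-- the set of ramified primes -/
def ramSet (p : ℕ) (y : E) : Set (Pr E) := {t | ¬ (p : ℤ) ∣ ordv t y}

omit [Fact p.Prime] in
lemma finite_ramSet (y : E) : (ramSet p y).Finite := by
  refine (finite_ordv_ne_zero y).subset ?_
  intro t ht h0
  apply ht
  rw [h0]
  exact dvd_zero _

/-- (M3) -/
theorem KumData.hilbert90_PS (hζ : IsPrimitiveRoot ζ p) (hy0 : y ≠ 0)
    (hRp : ∀ t ∈ ramSet p y, ordv t (p : E) = 0) (x : Additive (PS (upS M (ramSet p y))))
    (hx : nE p (actP (ramSet p y) D.σ) x = 0) :
    ∃ z, x = actP (ramSet p y) D.σ z - z := by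
  -- the norm of `x` is one
  have hnorm : ∏ i ∈ Finset.range p, (D.σ ^ i) (valP x) = 1 := by
    rw [nE_apply] at hx
    have h1 := congrArg valP hx
    rw [valP_sum, valP_zero] at h1
    rw [← h1]
    refine Finset.prod_congr rfl fun i _ => ?_
    rw [← actP_pow, valP_actP]
  obtain ⟨y0, hy00, hy0'⟩ := D.hilbert90 hnorm
  set z0 : M := y0⁻¹ with hz0
  have hz00 : z0 ≠ 0 := inv_ne_zero hy00
  have hquot : D.σ z0 / z0 = valP x := by
    have h1 : D.σ y0 ≠ 0 := by simpa using hy00
    rw [hz0, map_inv₀]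
    field_simp
    rw [mul_comm]
    exact hy0'.symm
  -- local components
  have hloc : ∀ t : Pr E, ∃ b : E, b ≠ 0 ∧
      (t ∈ ramSet p y → ∀ T : Pr M, below E T = t → OrdGE T (z0 / algebraMap E M b - 1) 1) := by
    intro t
    by_cases ht : t ∈ ramSet p y
    · obtain ⟨T0, hT0⟩ := exists_above E (E' := M) t
      have hT0R : ¬ (p : ℤ) ∣ ordv (below E T0) y := by rw [hT0]; exact ht
      have hT0p : ordv T0 (p : M) = 0 := by
        have : (p : M) = algebraMap E M (p : E) := by simp
        rw [this, ordv_algebraMap, hT0, hRp t ht, mul_zero]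
      have hx0 : OrdGE T0 (D.σ z0 / z0 - 1) 1 := by
        rw [hquot]
        exact valP_mem x (by rw [mem_upS, hT0]; exact ht)
      obtain ⟨b, hb0, hb⟩ := D.local_struct hζ hy0 hT0R hT0p hz00 hx0
      refine ⟨b, hb0, fun _ T hT => ?_⟩
      have : T = T0 := D.eq_of_fixed (D.ramified hT0R).2.2 (by rw [hT0, hT])
      rw [this]
      exact hb
    · exact ⟨1, one_ne_zero, fun h => absurd h ht⟩
  choose B hB0 hB using hloc
  obtain ⟨b, hb0, hb⟩ := weak_approx_mul (finite_ramSet (p := p) y).toFinset B (fun v _ => hB0 v) 1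
  have hbM : algebraMap E M b ≠ 0 := by simpa using hb0
  have hzmem : ∀ T ∈ upS M (ramSet p y), OrdGE T (z0 / algebraMap E M b - 1) 1 := by
    intro T hT
    have ht : below E T ∈ ramSet p y := hT
    have h1 := hB (below E T) ht T rfl
    have h2 := (hb (below E T) ((finite_ramSet (p := p) y).mem_toFinset.2 ht)).1
    have h3 : OrdGE T (algebraMap E M (b / B (below E T)) - 1) 1 := by
      have : algebraMap E M (b / B (below E T)) - 1 = algebraMap E M (b / B (below E T) - 1) := by
        simp
      rw [this]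
      exact ordGE_algebraMap_of E T h2 zero_le_one
    have h4 := ordGE_div_sub_one h1 h3
    have hBM : algebraMap E M (B (below E T)) ≠ 0 := by simpa using hB0 (below E T)
    have h5 : z0 / algebraMap E M (B (below E T)) / algebraMap E M (b / B (below E T)) =
        z0 / algebraMap E M b := by
      rw [map_div₀]; field_simp
    rwa [h5] at h4
  refine ⟨mkP (z0 / algebraMap E M b) (div_ne_zero hz00 hbM) hzmem, ?_⟩
  apply valP_injective
  rw [valP_sub, valP_actP, valP_mkP, ← hquot, map_div₀, AlgEquiv.commutes]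
  have : D.σ z0 ≠ 0 := by simpa using hz00
  field_simp

end h90

end FA14
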