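import Fermat.Agent.CFT.FDefs

/-! S14 [F]: the Kummer extension `M = E(y^{1/p})`. -/

set_option autoImplicit false

open IsDedekindDomain NumberField Polynomial

namespace FA14

/-- the data of a Kummer extension of degree `p` -/
structure KumData (p : ℕ) {E : Type*} [Field E] (ζ y : E) (M : Type*) [Field M] [Algebra E M] where
  Y : M
  σ : M ≃ₐ[E] M
  hY : Y ^ p = algebraMap E M y
  hσY : σ Y = algebraMap E M ζ * Y
  hgal : IsGalois E M
  hdeg : Module.finrank E M = p
  hgen : ∀ τ : M ≃ₐ[E] M, ∃ i : ℕ, τ = σ ^ i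
  hσp : σ ^ p = 1

universe u

theorem exists_kumData {p : ℕ} [Fact p.Prime] {E : Type u} [Field E] [NumberField E] (ζ : E)
    (hζ : IsPrimitiveRoot ζ p) (y : E) (hy : ∀ c : E, c ^ p ≠ y) :
    ∃ (M : Type u) (_ : Field M) (_ : Algebra E M) (_ : NumberField M),
      Nonempty (KumData p ζ y M) := by
  have hp : p.Prime := Fact.out
  have : NeZero p := ⟨hp.ne_zero⟩
  have H : Irreducible (X ^ p - C y : E[X]) := X_pow_sub_C_irreducible_of_prime hp hy
  have hζ' : (primitiveRoots p E).Nonempty := ⟨ζ, (mem_primitiveRoots hp.pos).2 hζ⟩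
  let M := (X ^ p - C y : E[X]).SplittingField
  have hfd : FiniteDimensional E M := Polynomial.IsSplittingField.finiteDimensional M (X ^ p - C y)
  have hnf : NumberField M := NumberField.of_module_finite E M
  refine ⟨M, inferInstance, inferInstance, hnf, ⟨?_⟩⟩
  have hα := rootOfSplitsXPowSubC_pow y M (n := p)
  let e := autEquivZmod H M hζ
  have hpow : ∀ i : ℕ, (e.symm (Multiplicative.ofAdd (1 : ZMod p))) ^ i =
      e.symm (Multiplicative.ofAdd (i : ZMod p)) := by
    intro i
    rw [← map_pow, ← ofAdd_nsmul]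
    simp
  refine
    { Y := rootOfSplitsXPowSubC (NeZero.pos p) y M
      σ := e.symm (Multiplicative.ofAdd (1 : ZMod p))
      hY := hα
      hσY := ?_
      hgal := isGalois_of_isSplittingField_X_pow_sub_C hζ' H M
      hdeg := finrank_of_isSplittingField_X_pow_sub_C hζ' H M
      hgen := ?_
      hσp := ?_ }
  · have := autEquivZmod_symm_apply_natCast H M hα hζ 1
    rw [Nat.cast_one, pow_one, Algebra.smul_def] at this
    exact this
  · intro τ
    refine ⟨(Multiplicative.toAdd (e τ)).val, ?_⟩
    rw [hpow, ZMod.natCast_zmod_val, ofAdd_toAdd, MulEquiv.symm_apply_apply]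
  · rw [hpow, ZMod.natCast_self, ofAdd_zero, map_one]

end FA14
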