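import Fermat.Agent.CFT.FAct
import Fermat.Agent.CFT.Cyc3
import Fermat.Agent.CFT.Res

/-! S14 [F]: local structure at the (tamely) ramified primes. -/

set_option autoImplicit false

open IsDedekindDomain NumberField Polynomial

namespace FA14

section loc
variable {E M : Type*} [Field E] [NumberField E] [Field M] [NumberField M] [Algebra E M]
  {p : ℕ} [Fact p.Prime] {ζ y : E} (D : KumData p ζ y M)

include D in
lemma KumData.Y_ne_zero (hy0 : y ≠ 0) : D.Y ≠ 0 := by
  intro h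
  have := D.hY
  rw [h, zero_pow (Fact.out : p.Prime).ne_zero] at this
  exact hy0 ((map_eq_zero _).1 this.symm)

/-- congruence to `1` is stable under products and quotients -/
lemma ordGE_mul_sub_one {T : Pr M} {a b : M} (ha : OrdGE T (a - 1) 1) (hb : OrdGE T (b - 1) 1) :
    OrdGE T (a * b - 1) 1 := by
  have h1 : a * b - 1 = (a - 1) * b + (b - 1) := by ring
  rw [h1]
  have hb0 : OrdGE T b 0 := Or.inr (by rw [ordv_eq_zero_of_sub_one hb one_pos])
  exact (ha.mul_right hb0).add hb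

lemma ordGE_inv_sub_one {T : Pr M} {a : M} (ha : OrdGE T (a - 1) 1) : OrdGE T (a⁻¹ - 1) 1 := by
  have h0 : ordv T a = 0 := ordv_eq_zero_of_sub_one ha one_pos
  have ha0 : a ≠ 0 := ne_zero_of_sub_one ha one_pos
  have h1 : a⁻¹ - 1 = -((a - 1) * a⁻¹) := by field_simp; ring
  rw [h1]
  have hb0 : OrdGE T a⁻¹ 0 := Or.inr (by rw [ordv_inv, h0]; simp)
  exact (ha.mul_right hb0).neg

lemma ordGE_div_sub_one {T : Pr M} {a b : M} (ha : OrdGE T (a - 1) 1) (hb : OrdGE T (b - 1) 1) :
    OrdGE T (a / b - 1) 1 := by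
  rw [div_eq_mul_inv]
  exact ordGE_mul_sub_one ha (ordGE_inv_sub_one hb)

/-- **local structure**: if `σ z / z ≡ 1 mod T` at a tamely ramified `T` then `z ∈ Eˣ (1 + T)`. -/
theorem KumData.local_struct (hζ : IsPrimitiveRoot ζ p) (hy0 : y ≠ 0) {T : Pr M}
    (hT : ¬ (p : ℤ) ∣ ordv (below E T) y) (hTp : ordv T (p : M) = 0) {z : M} (hz : z ≠ 0)
    (hx : OrdGE T (D.σ z / z - 1) 1) :
    ∃ b : E, b ≠ 0 ∧ OrdGE T (z / algebraMap E M b - 1) 1 := by
  have hp : p.Prime := Fact.out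
  obtain ⟨he, hf, hfix⟩ := D.ramified hT
  have hY0 := D.Y_ne_zero hy0
  set t := below E T with ht
  set a := ordv t y with ha
  have hpZ : (p : ℤ) ≠ 0 := by exact_mod_cast hp.ne_zero
  have hYa : ordv T D.Y = a := by
    have h1 : (p : ℤ) * ordv T D.Y = p * a := by
      rw [← ordv_pow, D.hY, ordv_algebraMap, he]
    exact mul_left_cancel₀ hpZ h1
  -- the exponent `k`
  obtain ⟨k, m, hk⟩ : ∃ (k : ℕ) (m : ℤ), ordv T z - k * a = p * m := by
    have ha0 : (a : ZMod p) ≠ 0 := by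
      rw [Ne, ZMod.intCast_zmod_eq_zero_iff_dvd]
      exact hT
    refine ⟨(((ordv T z : ℤ) : ZMod p) * (a : ZMod p)⁻¹).val, ?_⟩
    have : (p : ℤ) ∣ ordv T z - ((((ordv T z : ℤ) : ZMod p) * (a : ZMod p)⁻¹).val : ℕ) * a := by
      rw [← ZMod.intCast_zmod_eq_zero_iff_dvd]
      push_cast
      rw [ZMod.natCast_zmod_val, mul_assoc, inv_mul_cancel₀ ha0, mul_one, sub_self]
    obtain ⟨m, hm⟩ := this
    exact ⟨m, hm⟩
  obtain ⟨c, hc0, hc⟩ := exists_ordv_eq t m
  have hcM : algebraMap E M c ≠ 0 := by simpa using hc0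
  have hYk : D.Y ^ k ≠ 0 := pow_ne_zero _ hY0
  set u := z / (D.Y ^ k * algebraMap E M c) with hu
  have hu0 : u ≠ 0 := div_ne_zero hz (mul_ne_zero hYk hcM)
  have hordu : ordv T u = 0 := by
    rw [hu, ordv_div T hz (mul_ne_zero hYk hcM), ordv_mul T hYk hcM, ordv_pow, hYa,
      ordv_algebraMap, he, ← ht, hc]
    linarith
  obtain ⟨w, -, hw⟩ := exists_sub_of_fdeg T hf (u := u) (Or.inr (le_of_eq hordu.symm))
  have hw0 : w ≠ 0 := by
    rintro rfl
    rw [map_zero, sub_zero] at hw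
    have := hw.le hu0
    omega
  have hwM : algebraMap E M w ≠ 0 := by simpa using hw0
  have hordw : ordv T (algebraMap E M w) = 0 := by
    have h1 : OrdGE T (algebraMap E M w - u) 1 := by
      have := hw.neg
      rwa [neg_sub] at this
    rw [ordv_eq_of_ordGE_sub h1 hu0 (by omega), hordu]
  set u' := u / algebraMap E M w with hu'
  have hu'1 : OrdGE T (u' - 1) 1 := by
    have h1 : u' - 1 = (u - algebraMap E M w) * (algebraMap E M w)⁻¹ := by
      rw [hu']; field_simp
    rw [h1]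
    exact hw.mul_right (Or.inr (by rw [ordv_inv, hordw]; simp))
  have hu'0 : u' ≠ 0 := div_ne_zero hu0 hwM
  have hz_eq : z = D.Y ^ k * algebraMap E M (c * w) * u' := by
    rw [hu', hu, map_mul]; field_simp
  -- `σ u' ≡ 1`
  have hσu' : OrdGE T (D.σ u' - 1) 1 := by
    have h1 : D.σ u' - 1 = D.σ (u' - 1) := by simp
    rw [h1, ordGE_gal]
    have h2 : (gPr D.σ).symm T = T := by
      rw [Equiv.symm_apply_eq, hfix]
    rw [h2]
    exact hu'1
  have hv := ordGE_div_sub_one hσu' hu'1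
  set ζM := algebraMap E M ζ with hζM
  have hζM' : IsPrimitiveRoot ζM p := hζ.map_of_injective (algebraMap E M).injective
  have hquot : D.σ z / z = ζM ^ k * (D.σ u' / u') := by
    have hσu0 : D.σ u' ≠ 0 := by simpa using hu'0
    have hcw : algebraMap E M (c * w) ≠ 0 := by simpa using mul_ne_zero hc0 hw0
    rw [hz_eq, map_mul, map_mul, map_pow, D.hσY, AlgEquiv.commutes, mul_pow, ← hζM]
    field_simp
  have hζk0 : OrdGE T (ζM ^ k) 0 := by
    right
    rw [ordv_pow, ordv_eq_zero_of_pow_eq_one hp.ne_zero hζM'.pow_eq_one, mul_zero]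
  have hζk : OrdGE T (ζM ^ k - 1) 1 := by
    have h1 : ζM ^ k - 1 = (D.σ z / z - 1) - ζM ^ k * (D.σ u' / u' - 1) := by
      rw [hquot]; ring
    rw [h1]
    exact hx.sub (hζk0.mul_left hv)
  have hpk : p ∣ k := by
    by_contra hpk
    have h1 := cyc_ordv_zeta_pow hζM' T k hpk
    have h2 := cyc_ordv_zeta hζM' T
    rw [hTp] at h2
    have h3 : ordv T (ζM - 1) = 0 := by
      rcases mul_eq_zero.1 h2 with h | h
      · have := hp.one_lt
        have : (p : ℤ) = 1 := by linarith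
        have : p = 1 := by exact_mod_cast this
        omega
      · exact h
    have h4 : ζM ^ k - 1 ≠ 0 := by
      intro h
      exact hpk ((hζM'.pow_eq_one_iff_dvd k).1 (sub_eq_zero.1 h))
    have := hζk.le h4
    omega
  obtain ⟨k', rfl⟩ := hpk
  refine ⟨y ^ k' * (c * w), mul_ne_zero (pow_ne_zero _ hy0) (mul_ne_zero hc0 hw0), ?_⟩
  have h1 : z / algebraMap E M (y ^ k' * (c * w)) = u' := by
    have hcw : algebraMap E M (c * w) ≠ 0 := by simpa using mul_ne_zero hc0 hw0
    have hyk : algebraMap E M y ^ k' ≠ 0 := pow_ne_zero _ (by simpa using hy0)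
    rw [hz_eq, pow_mul, D.hY, map_mul (algebraMap E M) (y ^ k'), map_pow]
    field_simp
  rw [h1]
  exact hu'1

end loc

end FA14
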