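import Fermat.Agent.CFT.ZPoly

/-! S14, package [HQ], part 1: on a finitely generated group killed by the norm element,
`σ - 1` has index `≥ p ^ b` times the order of its kernel. -/

set_option autoImplicit false

namespace FA14

open Polynomial

section isog

variable {B : Type*} [AddCommGroup B] [Module.Finite ℤ B]

/-- an endomorphism as an additive homomorphism -/
def hom (f : AddMonoid.End B) : B →+ B := f

omit [Module.Finite ℤ B] in
lemma hom_apply (f : AddMonoid.End B) (x : B) : hom f x = f x := rfl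

omit [Module.Finite ℤ B] in
lemma hom_natCast (n : ℕ) : hom (n : AddMonoid.End B) = nsmulAddMonoidHom n := rfl

omit [Module.Finite ℤ B] in
lemma hom_mul (f g : AddMonoid.End B) : hom (f * g) = (hom f).comp (hom g) := rfl

omit [Module.Finite ℤ B] in
lemma hom_one : hom (1 : AddMonoid.End B) = AddMonoidHom.id B := rfl

lemma kc_ne_zero_of_mul (f f' : AddMonoid.End B) {n : ℕ} (hn : n ≠ 0) (h : f' * f = n) :
    kc (hom f) ≠ 0 := by
  have hle : (hom f).ker ≤ (nsmulAddMonoidHom (α := B) n).ker := by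
    intro x hx
    rw [AddMonoidHom.mem_ker] at hx ⊢
    have := congrArg (fun φ : AddMonoid.End B => hom φ x) h
    simp only [hom_mul, hom_natCast, AddMonoidHom.comp_apply] at this
    rw [hx, map_zero] at this
    exact this.symm
  have h0 := kc_nsmul_ne_zero (B := B) hn
  have : Finite (nsmulAddMonoidHom (α := B) n).ker := Nat.finite_of_card_ne_zero h0
  have : Finite (hom f).ker :=
    Finite.of_injective (AddSubgroup.inclusion hle) (AddSubgroup.inclusion_injective hle)
  exact Nat.card_pos.ne'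

lemma cc_ne_zero_of_mul (f f' : AddMonoid.End B) {n : ℕ} (hn : n ≠ 0) (h : f * f' = n) :
    cc (hom f) ≠ 0 := by
  have hle : (nsmulAddMonoidHom (α := B) n).range ≤ (hom f).range := by
    rintro _ ⟨x, rfl⟩
    have := congrArg (fun φ : AddMonoid.End B => hom φ x) h
    simp only [hom_mul, hom_natCast, AddMonoidHom.comp_apply] at this
    exact ⟨hom f' x, this⟩
  have h0 : cc (nsmulAddMonoidHom (α := B) n) ≠ 0 := by
    rw [cc_nsmul hn]
    exact mul_ne_zero (kc_nsmul_ne_zero hn) (pow_ne_zero _ hn)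
  exact ne_zero_of_dvd_ne_zero h0 (AddSubgroup.index_dvd_of_le hle)

/-- the multiplicative index `cc / kc`. -/
noncomputable def chi (f : AddMonoid.End B) : ℚ := (cc (hom f) : ℚ) / (kc (hom f) : ℚ)

omit [Module.Finite ℤ B] in
lemma chi_mul (f g : AddMonoid.End B) (hf : kc (hom f) ≠ 0) (hg : kc (hom g) ≠ 0)
    (hfg : kc (hom (f * g)) ≠ 0) : chi (f * g) = chi f * chi g := by
  have h := cc_comp (hom f) (hom g)
  rw [← hom_mul] at h
  have h' : (cc (hom (f * g)) : ℚ) * ((kc (hom f) : ℚ) * (kc (hom g) : ℚ)) =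
      (cc (hom f) : ℚ) * (cc (hom g) : ℚ) * (kc (hom (f * g)) : ℚ) := by
    exact_mod_cast h
  unfold chi
  have h1 : (kc (hom f) : ℚ) ≠ 0 := by exact_mod_cast hf
  have h2 : (kc (hom g) : ℚ) ≠ 0 := by exact_mod_cast hg
  have h3 : (kc (hom (f * g)) : ℚ) ≠ 0 := by exact_mod_cast hfg
  field_simp
  linarith

end isog

section main

variable {B : Type*} [AddCommGroup B] [Module.Finite ℤ B] (p : ℕ) [Fact p.Prime]
  (s : AddMonoid.End B)

/-- polynomials in `s` -/
noncomputable def evE : ℤ[X] →ₐ[ℤ] AddMonoid.End B := aeval s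

/-- `P(s)` is an isogeny -/
def Iso (P : ℤ[X]) : Prop := ∃ (Q : ℤ[X]) (n : ℕ), n ≠ 0 ∧ evE s (P * Q) = n

variable {s}

omit [Module.Finite ℤ B] in
lemma Iso.mul {P P' : ℤ[X]} (h : Iso s P) (h' : Iso s P') : Iso s (P * P') := by
  obtain ⟨Q, n, hn, e⟩ := h
  obtain ⟨Q', n', hn', e'⟩ := h'
  refine ⟨Q * Q', n * n', mul_ne_zero hn hn', ?_⟩
  have : P * P' * (Q * Q') = (P * Q) * (P' * Q') := by ring
  rw [this, map_mul, e, e']
  push_cast
  rfl

omit [Module.Finite ℤ B] in
lemma Iso.pow {P : ℤ[X]} (h : Iso s P) (m : ℕ) : Iso s (P ^ m) := by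
  induction m with
  | zero => exact ⟨1, 1, one_ne_zero, by simp⟩
  | succ m ih => rw [pow_succ]; exact ih.mul h

lemma Iso.kc_ne {P : ℤ[X]} (h : Iso s P) : kc (hom (evE s P)) ≠ 0 := by
  obtain ⟨Q, n, hn, e⟩ := h
  exact kc_ne_zero_of_mul (evE s P) (evE s Q) hn (by rw [← map_mul, mul_comm, e])

lemma Iso.cc_ne {P : ℤ[X]} (h : Iso s P) : cc (hom (evE s P)) ≠ 0 := by
  obtain ⟨Q, n, hn, e⟩ := h
  exact cc_ne_zero_of_mul (evE s P) (evE s Q) hn (by rw [← map_mul, e])

lemma Iso.chi_mul {P P' : ℤ[X]} (h : Iso s P) (h' : Iso s P') :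
    chi (evE s (P * P')) = chi (evE s P) * chi (evE s P') := by
  have := (h.mul h').kc_ne
  rw [map_mul] at this ⊢
  exact FA14.chi_mul _ _ h.kc_ne h'.kc_ne this

lemma Iso.chi_pow {P : ℤ[X]} (h : Iso s P) (m : ℕ) :
    chi (evE s (P ^ m)) = chi (evE s P) ^ m := by
  induction m with
  | zero =>
    rw [pow_zero, pow_zero, map_one]
    have h1 : kc (hom (1 : AddMonoid.End B)) = 1 := by
      have : (AddMonoidHom.id B).ker = ⊥ := by
        ext x
        simp [AddMonoidHom.mem_ker]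
      unfold kc
      rw [hom_one, this]
      simp
    have h2 : cc (hom (1 : AddMonoid.End B)) = 1 := by
      have : (AddMonoidHom.id B).range = ⊤ := by
        ext x
        simp only [AddSubgroup.mem_top, iff_true]
        exact ⟨x, rfl⟩
      unfold cc
      rw [hom_one, this]
      simp
    unfold chi
    rw [h1, h2]
    simp
  | succ m ih => rw [pow_succ, (h.pow m).chi_mul h, ih, pow_succ]

/-- **key inequality** -/
theorem chi_ge (hs : ∑ i ∈ Finset.range p, s ^ i = 0) (b : ℕ)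
    (hb : Module.finrank ℤ B = (p - 1) * b) :
    kc (hom (s - 1)) ≠ 0 ∧ cc (hom (s - 1)) ≠ 0 ∧ p ^ b * kc (hom (s - 1)) ≤ cc (hom (s - 1)) := by
  have hp : p.Prime := Fact.out
  obtain ⟨g, hg⟩ := exists_poly_g p
  obtain ⟨h, hh⟩ := exists_poly_h p
  have hN : evE s (∑ i ∈ Finset.range p, X ^ i) = 0 := by
    rw [map_sum, ← hs]
    refine Finset.sum_congr rfl fun i _ => ?_
    rw [map_pow, evE, aeval_X]
  have hCp : evE s (C (p : ℤ)) = (p : AddMonoid.End B) := by
    rw [evE, aeval_C]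
    simp
  have hd : evE s (X - 1) = s - 1 := by
    rw [map_sub, map_one, evE, aeval_X]
  have e1 : evE s ((X - 1) * h) = (p : AddMonoid.End B) := by
    rw [← hCp, hh, map_add, hN, add_zero]
  have e2 : evE s ((X - 1) ^ (p - 1)) = evE s (C (p : ℤ) * g) := by
    rw [hg, map_add, hN, zero_add]
  have isoD : Iso s (X - 1) := ⟨h, p, hp.ne_zero, e1⟩
  have isoP : Iso s (C (p : ℤ)) := ⟨1, p, hp.ne_zero, by rw [mul_one, hCp]⟩
  have isoG : Iso s g := by
    refine ⟨C (p : ℤ) * h ^ (p - 1), p ^ (p - 1), pow_ne_zero _ hp.ne_zero, ?_⟩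
    have : g * (C (p : ℤ) * h ^ (p - 1)) = (C (p : ℤ) * g) * h ^ (p - 1) := by ring
    rw [this, map_mul, ← e2, ← map_mul, ← mul_pow, map_pow, e1]
    push_cast
    rfl
  have hchiP : chi (evE s (C (p : ℤ))) = (p : ℚ) ^ ((p - 1) * b) := by
    unfold chi
    rw [hCp]
    have h1 : cc (hom (p : AddMonoid.End B)) =
        kc (hom (p : AddMonoid.End B)) * p ^ Module.finrank ℤ B := cc_nsmul hp.ne_zero
    have h2 : (kc (hom (p : AddMonoid.End B)) : ℚ) ≠ 0 := by
      have : kc (hom (p : AddMonoid.End B)) ≠ 0 := kc_nsmul_ne_zero hp.ne_zero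
      exact_mod_cast this
    rw [h1, hb]
    push_cast
    field_simp
  have hchiG : 1 ≤ chi (evE s g) := by
    unfold chi
    have h1 := kc_le_cc _ isoG.kc_ne isoG.cc_ne
    have h2 : (0 : ℚ) < kc (hom (evE s g)) := by
      have := Nat.pos_of_ne_zero isoG.kc_ne
      exact_mod_cast this
    rw [le_div_iff₀ h2, one_mul]
    exact_mod_cast h1
  have hmain : ((p : ℚ) ^ b) ^ (p - 1) ≤ chi (evE s (X - 1)) ^ (p - 1) := by
    rw [← isoD.chi_pow, e2, isoP.chi_mul isoG, hchiP, ← pow_mul, mul_comm b]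
    have : (0 : ℚ) ≤ (p : ℚ) ^ ((p - 1) * b) := by positivity
    nlinarith
  have hnn : (0 : ℚ) ≤ chi (evE s (X - 1)) := by
    unfold chi
    positivity
  have hle : (p : ℚ) ^ b ≤ chi (evE s (X - 1)) :=
    le_of_pow_le_pow_left₀ (by have := hp.two_le; omega) hnn hmain
  rw [← hd]
  refine ⟨isoD.kc_ne, isoD.cc_ne, ?_⟩
  unfold chi at hle
  have h2 : (0 : ℚ) < kc (hom (evE s (X - 1))) := by
    have := Nat.pos_of_ne_zero isoD.kc_ne
    exact_mod_cast this
  rw [le_div_iff₀ h2] at hle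
  exact_mod_cast hle

end main

end FA14
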