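import Fermat.Agent.CFT.HQ1

/-! S14, package [HQ], part 2: the Herbrand quotient inequality for a finitely generated abelian
group with an automorphism of prime order. -/

set_option autoImplicit false

namespace FA14

section res

variable {U : Type*} [AddCommGroup U]

/-- restriction of an endomorphism to a stable subgroup -/
def resH (f : U →+ U) (H : AddSubgroup U) (hf : ∀ x ∈ H, f x ∈ H) : H →+ H :=
  (f.comp H.subtype).codRestrict H fun x => hf x x.2

lemma coe_resH (f : U →+ U) (H : AddSubgroup U) (hf : ∀ x ∈ H, f x ∈ H) (x : H) :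
    ((resH f H hf x : H) : U) = f x := rfl

lemma cc_resH (f : U →+ U) (H : AddSubgroup U) (hf : ∀ x ∈ H, f x ∈ H) :
    cc (resH f H hf) = (H.map f).relIndex H := by
  unfold cc AddSubgroup.relIndex
  congr 1
  ext y
  rw [AddSubgroup.mem_addSubgroupOf, AddMonoidHom.mem_range, AddSubgroup.mem_map]
  constructor
  · rintro ⟨x, rfl⟩
    exact ⟨x, x.2, rfl⟩
  · rintro ⟨x, hx, e⟩
    exact ⟨⟨x, hx⟩, Subtype.ext e⟩

lemma kc_resH (f : U →+ U) (H : AddSubgroup U) (hf : ∀ x ∈ H, f x ∈ H) :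
    kc (resH f H hf) = Nat.card (f.ker ⊓ H : AddSubgroup U) := by
  unfold kc
  have : (resH f H hf).ker = f.ker.addSubgroupOf H := by
    ext x
    rw [AddMonoidHom.mem_ker, AddSubgroup.mem_addSubgroupOf, AddMonoidHom.mem_ker,
      Subtype.ext_iff, coe_resH]
    rfl
  rw [this, ← AddSubgroup.card_map_of_injective H.subtype_injective,
    AddSubgroup.addSubgroupOf_map_subtype]

lemma index_mul_relIndex (f : U →+ U) (S H : AddSubgroup U) (hker : f.ker ≤ S)
    (hrange : f.range ≤ H) : S.index * f.range.relIndex H = (S.map f).relIndex H := by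
  have h1 : (S.map f).relIndex f.range = S.index := by
    rw [AddMonoidHom.range_eq_map, ← AddSubgroup.relIndex_comap, AddSubgroup.comap_map_eq,
      sup_eq_left.mpr hker, AddSubgroup.relIndex_top_right]
  rw [← h1]
  exact AddSubgroup.relIndex_mul_relIndex _ _ _ (AddSubgroup.map_le_range f S) hrange

instance finite_addSubgroup [Module.Finite ℤ U] (H : AddSubgroup U) : Module.Finite ℤ H :=
  inferInstanceAs (Module.Finite ℤ (AddSubgroup.toIntSubmodule H))

end res

section main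

variable {U : Type*} [AddCommGroup U] (p : ℕ) (σ : AddMonoid.End U)

/-- `σ - 1` -/
def dE : U →+ U := hom (σ - 1)

/-- the norm `1 + σ + ... + σ ^ (p - 1)` -/
def nE : U →+ U := hom (∑ i ∈ Finset.range p, σ ^ i)

lemma dE_apply (x : U) : dE σ x = σ x - x := rfl

variable {p σ}

lemma nE_dE (hσ : σ ^ p = 1) (x : U) : nE p σ (dE σ x) = 0 := by
  have h : (∑ i ∈ Finset.range p, σ ^ i) * (σ - 1) = 0 := by rw [geom_sum_mul, hσ, sub_self]
  exact congrArg (fun φ : AddMonoid.End U => hom φ x) h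

lemma dE_nE (hσ : σ ^ p = 1) (x : U) : dE σ (nE p σ x) = 0 := by
  have h : (σ - 1) * (∑ i ∈ Finset.range p, σ ^ i) = 0 := by rw [mul_geom_sum, hσ, sub_self]
  exact congrArg (fun φ : AddMonoid.End U => hom φ x) h

lemma nE_comm (x : U) : nE p σ (σ x) = σ (nE p σ x) := by
  have h : (∑ i ∈ Finset.range p, σ ^ i) * σ = σ * (∑ i ∈ Finset.range p, σ ^ i) := by
    rw [Finset.sum_mul, Finset.mul_sum]
    exact Finset.sum_congr rfl fun i _ => by rw [← pow_succ, ← pow_succ']
  exact congrArg (fun φ : AddMonoid.End U => hom φ x) h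

lemma pow_apply_of_fixed {x : U} (hx : σ x = x) (i : ℕ) : (σ ^ i) x = x := by
  induction i with
  | zero => rfl
  | succ i ih =>
    rw [pow_succ]
    show (σ ^ i) (σ x) = x
    rw [hx, ih]

lemma nE_apply (x : U) : nE p σ x = ∑ i ∈ Finset.range p, (σ ^ i) x := by
  show (∑ i ∈ Finset.range p, σ ^ i : AddMonoid.End U) x = _
  exact map_sum (AddMonoidHom.eval x : (U →+ U) →+ U) _ _

lemma nE_of_fixed {x : U} (hx : x ∈ (dE σ).ker) : nE p σ x = p • x := by
  have hx' : σ x = x := by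
    rw [AddMonoidHom.mem_ker, dE_apply, sub_eq_zero] at hx
    exact hx
  rw [nE_apply, Finset.sum_congr rfl fun i _ => pow_apply_of_fixed hx' i]
  simp

/-- `σ` restricted to the kernel of the norm -/
def sB (p : ℕ) (σ : AddMonoid.End U) : AddMonoid.End (nE p σ).ker :=
  resH (hom σ) (nE p σ).ker fun x hx => by
    rw [AddMonoidHom.mem_ker] at hx ⊢
    show nE p σ (σ x) = 0
    rw [nE_comm, hx, map_zero]

lemma coe_sB_pow (i : ℕ) (x : (nE p σ).ker) : (((sB p σ) ^ i) x : U) = (σ ^ i) (x : U) := by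
  induction i generalizing x with
  | zero => rfl
  | succ i ih =>
    rw [pow_succ, pow_succ]
    show (((sB p σ) ^ i) (sB p σ x) : U) = (σ ^ i) (σ (x : U))
    rw [ih]
    rfl

lemma sum_sB_pow : ∑ i ∈ Finset.range p, (sB p σ) ^ i = 0 := by
  have key : ∀ x : (nE p σ).ker, (∑ i ∈ Finset.range p, (sB p σ) ^ i : AddMonoid.End _) x = 0 := by
    intro x
    have e : (∑ i ∈ Finset.range p, (sB p σ) ^ i : AddMonoid.End _) x =
        ∑ i ∈ Finset.range p, ((sB p σ) ^ i) x :=
      map_sum (AddMonoidHom.eval x : ((nE p σ).ker →+ (nE p σ).ker) →+ (nE p σ).ker) _ _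
    rw [e]
    apply Subtype.ext
    rw [AddSubgroup.val_finsetSum]
    simp only [coe_sB_pow]
    rw [← nE_apply]
    exact x.2
  exact AddMonoidHom.ext key

lemma dE_mem (hσ : σ ^ p = 1) (x : U) : dE σ x ∈ (nE p σ).ker := nE_dE hσ x

lemma hom_sB_sub_one (hσ : σ ^ p = 1) :
    hom (sB p σ - 1) = resH (dE σ) (nE p σ).ker fun x _ => dE_mem hσ x := rfl

/-- **Herbrand quotient inequality.**  `U` a finitely generated abelian group, `σ` an
endomorphism with `σ ^ p = 1`, `A = ker (σ - 1)`, `B = ker N`; if `rk A = a` and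
`rk B = (p - 1) b` then `|H⁰| p ^ b ≤ |H¹| p ^ a`, and both orders are finite. -/
theorem herbrand_ge [Module.Finite ℤ U] [Fact p.Prime] (hσ : σ ^ p = 1) (a b : ℕ)
    (ha : Module.finrank ℤ (dE σ).ker = a) (hb : Module.finrank ℤ (nE p σ).ker = (p - 1) * b) :
    (nE p σ).range.relIndex (dE σ).ker ≠ 0 ∧ (dE σ).range.relIndex (nE p σ).ker ≠ 0 ∧
      (nE p σ).range.relIndex (dE σ).ker * p ^ b ≤ (dE σ).range.relIndex (nE p σ).ker * p ^ a := by
  have hp : p.Prime := Fact.out
  set A := (dE σ).ker with hA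
  set Bs := (nE p σ).ker with hBs
  set x := (A ⊔ Bs).index with hx
  obtain ⟨c1, c2, c3⟩ := chi_ge p (s := sB p σ) sum_sB_pow b hb
  rw [hom_sB_sub_one hσ] at c1 c2 c3
  rw [cc_resH] at c2 c3
  rw [kc_resH] at c1 c3
  -- the norm side
  have hNr : (nE p σ).range ≤ A := by
    rintro _ ⟨y, rfl⟩
    exact dE_nE hσ y
  have hDr : (dE σ).range ≤ Bs := by
    rintro _ ⟨y, rfl⟩
    exact nE_dE hσ y
  have hpA : ∀ y ∈ A, nsmulAddMonoidHom (α := U) p y ∈ A := fun y hy => A.nsmul_mem hy p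
  have E1 : x * (nE p σ).range.relIndex A = (A.map (nsmulAddMonoidHom p)).relIndex A := by
    rw [hx, index_mul_relIndex (nE p σ) (A ⊔ Bs) A le_sup_right hNr, AddSubgroup.map_sup,
      (AddSubgroup.map_eq_bot_iff Bs).mpr le_rfl, sup_bot_eq]
    congr 1
    ext z
    simp only [AddSubgroup.mem_map]
    constructor
    · rintro ⟨y, hy, rfl⟩
      exact ⟨y, hy, (nE_of_fixed hy).symm⟩
    · rintro ⟨y, hy, rfl⟩
      exact ⟨y, hy, nE_of_fixed hy⟩
  have E2 : x * (dE σ).range.relIndex Bs = (Bs.map (dE σ)).relIndex Bs := by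
    rw [hx, index_mul_relIndex (dE σ) (A ⊔ Bs) Bs le_sup_left hDr, AddSubgroup.map_sup,
      (AddSubgroup.map_eq_bot_iff A).mpr le_rfl, bot_sup_eq]
  have hres : resH (nsmulAddMonoidHom p) A hpA = nsmulAddMonoidHom (α := A) p := rfl
  have E3 : (A.map (nsmulAddMonoidHom p)).relIndex A =
      Nat.card ((nsmulAddMonoidHom (α := U) p).ker ⊓ A : AddSubgroup U) * p ^ a := by
    rw [← cc_resH _ A hpA, ← kc_resH _ A hpA, hres, cc_nsmul hp.ne_zero, ha]
  have E4 : ((nsmulAddMonoidHom (α := U) p).ker ⊓ A : AddSubgroup U) = (dE σ).ker ⊓ Bs := by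
    ext y
    simp only [AddSubgroup.mem_inf]
    constructor
    · rintro ⟨h1, h2⟩
      refine ⟨h2, ?_⟩
      rw [hBs, AddMonoidHom.mem_ker, nE_of_fixed h2]
      exact h1
    · rintro ⟨h1, h2⟩
      refine ⟨?_, h1⟩
      rw [hBs, AddMonoidHom.mem_ker, nE_of_fixed h1] at h2
      exact h2
  rw [E4] at E3
  rw [← E2] at c2 c3
  rw [E3] at E1
  have hx0 : x ≠ 0 := fun h => c2 (by rw [h, zero_mul])
  refine ⟨fun h => ?_, fun h => c2 (by rw [h, mul_zero]), ?_⟩
  · rw [h, mul_zero] at E1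
    exact mul_ne_zero c1 (pow_ne_zero _ hp.ne_zero) E1.symm
  · apply Nat.le_of_mul_le_mul_left _ (Nat.pos_of_ne_zero hx0)
    calc x * ((nE p σ).range.relIndex A * p ^ b)
        = (x * (nE p σ).range.relIndex A) * p ^ b := by ring
      _ = p ^ a * (p ^ b * Nat.card ((dE σ).ker ⊓ Bs : AddSubgroup U)) := by rw [E1]; ring
      _ ≤ p ^ a * (x * (dE σ).range.relIndex Bs) := Nat.mul_le_mul_left _ c3
      _ = x * ((dE σ).range.relIndex Bs * p ^ a) := by ring

end main

end FA14
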