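import Mathlib

/-!
# S14-[JAC], part 1: the residue character and the Jacobi sum modulo `Q` (abstract form)
-/

set_option autoImplicit false
set_option linter.unusedSectionVars false

namespace FA14

open Finset

/-- `∑ x^m (1-x)^m = 0` over a finite field with more than `2m+1` elements. -/
theorem sum_pow_mul_one_sub_pow {F : Type*} [Field F] [Fintype F] (m : ℕ)
    (h : 2 * m < Fintype.card F - 1) : ∑ x : F, x ^ m * (1 - x) ^ m = 0 := by
  have h1 : ∀ x : F, x ^ m * (1 - x) ^ m =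
      ∑ k ∈ range (m + 1), ((-1) ^ k * (m.choose k : F)) * x ^ (m + k) := by
    intro x
    rw [sub_eq_neg_add, add_pow, Finset.mul_sum]
    refine Finset.sum_congr rfl fun k _ => ?_
    rw [one_pow, mul_one, neg_pow, pow_add]
    ring
  simp_rw [h1]
  rw [Finset.sum_comm]
  refine Finset.sum_eq_zero fun k hk => ?_
  rw [← Finset.mul_sum, FiniteField.sum_pow_lt_card_sub_one F _ (by
    have := Finset.mem_range.mp hk
    omega), mul_zero]

section abstract

variable {R F : Type*} [CommRing R] [IsDomain R] [Field F] [Fintype F]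
  (π : R →+* F) {p n : ℕ} {ζ : R}

/-- the property characterising the residue character. -/
def IsResChar (π : R →+* F) (ζ : R) (n : ℕ) (χ : MulChar F R) : Prop :=
  ∀ x : F, x ≠ 0 → ∃ j : ℕ, χ x = ζ ^ j ∧ x ^ n = π ζ ^ j

theorem exists_isResChar (hp : 0 < p) (hζ : IsPrimitiveRoot ζ p) (hζ' : IsPrimitiveRoot (π ζ) p)
    (hcard : Fintype.card F - 1 = p * n) : ∃ χ : MulChar F R, IsResChar π ζ n χ := by
  classical
  have : NeZero p := ⟨hp.ne'⟩
  obtain ⟨g, hg⟩ := IsCyclic.exists_generator (α := Fˣ)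
  have hgp : ((g : F) ^ n) ^ p = 1 := by
    rw [← pow_mul, mul_comm, ← hcard]
    exact FiniteField.pow_card_sub_one_eq_one _ g.ne_zero
  obtain ⟨a, -, ha⟩ := hζ'.eq_pow_of_pow_eq_one hgp
  set u : Rˣ := (hζ.isUnit hp.ne').unit ^ a with hu
  have huval : (u : R) = ζ ^ a := by
    rw [hu, Units.val_pow_eq_pow_val, IsUnit.unit_spec]
  have hmem : u ∈ rootsOfUnity (Fintype.card Fˣ) R := by
    rw [mem_rootsOfUnity, Fintype.card_units, hcard]
    ext
    rw [Units.val_pow_eq_pow_val, huval, Units.val_one, ← pow_mul, mul_comm, mul_assoc, pow_mul,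
      hζ.pow_eq_one, one_pow]
  refine ⟨MulChar.ofRootOfUnity hmem hg, fun x hx => ?_⟩
  obtain ⟨k, hk⟩ := (mem_powers_iff_mem_zpowers).mpr (hg (Units.mk0 x hx))
  have hxk : x = (g : F) ^ k := by
    have := congrArg (Units.val) hk
    simpa using this.symm
  refine ⟨a * k, ?_, ?_⟩
  · rw [hxk, map_pow, MulChar.ofRootOfUnity_spec, huval, pow_mul]
  · rw [hxk, ← pow_mul, mul_comm k n, pow_mul, ← ha, pow_mul]

variable {π}

theorem IsResChar.map_apply {χ : MulChar F R} (h : IsResChar π ζ n χ) (hn : 0 < n) (x : F) :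
    π (χ x) = x ^ n := by
  rcases eq_or_ne x 0 with rfl | hx
  · rw [MulChar.map_zero, map_zero, zero_pow hn.ne']
  · obtain ⟨j, h1, h2⟩ := h x hx
    rw [h1, map_pow, h2]

theorem IsResChar.map_hom_apply {χ : MulChar F R} (h : IsResChar π ζ n χ) (hn : 0 < n)
    (τ : R →+* R) {c : ℕ} (hc : 0 < c) (hτ : τ ζ = ζ ^ c) (x : F) :
    π (τ (χ x)) = x ^ (n * c) := by
  rcases eq_or_ne x 0 with rfl | hx
  · rw [MulChar.map_zero, map_zero, map_zero, zero_pow (Nat.mul_pos hn hc).ne']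
  · obtain ⟨j, h1, h2⟩ := h x hx
    rw [h1, map_pow, hτ, ← pow_mul, map_pow, mul_comm c j, pow_mul, ← h2, pow_mul]

theorem IsResChar.map_jacobiSum {χ : MulChar F R} (h : IsResChar π ζ n χ) (hn : 0 < n)
    (τ : R →+* R) {c : ℕ} (hc : 0 < c) (hτ : τ ζ = ζ ^ c) :
    π (τ (jacobiSum χ χ)) = ∑ x : F, x ^ (n * c) * (1 - x) ^ (n * c) := by
  rw [jacobiSum, map_sum, map_sum]
  refine Finset.sum_congr rfl fun x _ => ?_
  rw [map_mul, map_mul, h.map_hom_apply hn τ hc hτ, h.map_hom_apply hn τ hc hτ]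

/-- the key vanishing. -/
theorem IsResChar.map_jacobiSum_eq_zero {χ : MulChar F R} (h : IsResChar π ζ n χ) (hn : 0 < n)
    (hcard : Fintype.card F - 1 = p * n)
    (τ : R →+* R) {c : ℕ} (hc : 0 < c) (hc2 : 2 * c < p) (hτ : τ ζ = ζ ^ c) :
    π (τ (jacobiSum χ χ)) = 0 := by
  rw [h.map_jacobiSum hn τ hc hτ]
  refine sum_pow_mul_one_sub_pow _ ?_
  rw [hcard]
  calc 2 * (n * c) = (2 * c) * n := by ring
    _ < p * n := Nat.mul_lt_mul_of_pos_right hc2 hn

theorem IsResChar.pow_ne_one {χ : MulChar F R} (h : IsResChar π ζ n χ) (hn : 0 < n)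
    (hcard : Fintype.card F - 1 = p * n) {i : ℕ} (hi : 0 < i) (hip : i < p) : χ ^ i ≠ 1 := by
  intro h1
  have h2 : ∀ x : Fˣ, x ^ (n * i) = 1 := by
    intro x
    ext
    rw [Units.val_pow_eq_pow_val, Units.val_one, pow_mul, ← h.map_apply hn, ← map_pow,
      ← MulChar.pow_apply_coe, h1, MulChar.one_apply_coe, map_one]
  rw [FiniteField.forall_pow_eq_one_iff, hcard, mul_comm n i] at h2
  have := Nat.le_of_dvd hi (Nat.dvd_of_mul_dvd_mul_right hn h2)
  omega

theorem IsResChar.ringHomComp_eq_inv {χ : MulChar F R} (h : IsResChar π ζ n χ)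
    (hζ : IsPrimitiveRoot ζ p) (hp : 0 < p) (τ : R →+* R) (hτ : τ ζ = ζ ^ (p - 1)) :
    χ.ringHomComp τ = χ⁻¹ := by
  ext x
  obtain ⟨j, h1, -⟩ := h x x.ne_zero
  rw [MulChar.ringHomComp_apply, h1, map_pow, hτ]
  have h2 : χ⁻¹ (x : F) * χ (x : F) = 1 := by
    rw [← MulChar.mul_apply, inv_mul_cancel, MulChar.one_apply_coe]
  have h3 : (ζ ^ (p - 1)) ^ j * χ (x : F) = 1 := by
    rw [h1, ← mul_pow, ← pow_succ, Nat.sub_add_cancel hp, hζ.pow_eq_one, one_pow]
  have hne : χ (x : F) ≠ 0 := by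
    intro h0
    rw [h0, mul_zero] at h2
    exact zero_ne_one h2
  exact mul_right_cancel₀ hne (h3.trans h2.symm)

/-- `J * τ_{p-1} J = q`. -/
theorem IsResChar.jacobiSum_mul {χ : MulChar F R} (h : IsResChar π ζ n χ) (hn : 0 < n)
    (hcard : Fintype.card F - 1 = p * n) (hζ : IsPrimitiveRoot ζ p) (hp : 2 < p)
    [CharZero R] (τ : R →+* R) (hτ : τ ζ = ζ ^ (p - 1)) :
    jacobiSum χ χ * τ (jacobiSum χ χ) = (Fintype.card F : R) := by
  have hinj := IsFractionRing.injective R (FractionRing R)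
  have hχ : χ ≠ 1 := by
    have := h.pow_ne_one hn hcard (i := 1) one_pos (by omega)
    rwa [pow_one] at this
  have hχ2 : χ * χ ≠ 1 := by
    have := h.pow_ne_one hn hcard (i := 2) two_pos hp
    rwa [pow_two] at this
  apply hinj
  rw [← jacobiSum_ringHomComp, h.ringHomComp_eq_inv hζ (by omega) τ hτ, map_mul,
    ← jacobiSum_ringHomComp, ← jacobiSum_ringHomComp, ← MulChar.ringHomComp_inv, map_natCast]
  have hchar : ringChar (FractionRing R) ≠ ringChar F := by
    have : CharZero (FractionRing R) := charZero_of_injective_algebraMap hinj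
    rw [ringChar.eq_zero]
    intro h0
    obtain ⟨q, hq⟩ := CharP.exists F
    have := hq
    have hq0 : q ≠ 0 := by
      intro hq0
      subst hq0
      have : CharZero F := CharP.charP_to_charZero F
      exact not_finite F
    rw [ringChar.eq F q] at h0
    exact hq0 h0.symm
  refine jacobiSum_mul_jacobiSum_inv hchar ?_ ?_ ?_
  · exact (MulChar.ringHomComp_ne_one_iff hinj).mpr hχ
  · exact (MulChar.ringHomComp_ne_one_iff hinj).mpr hχ
  · rw [← MulChar.ringHomComp_mul]
    exact (MulChar.ringHomComp_ne_one_iff hinj).mpr hχ2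

end abstract

end FA14
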