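import Mathlib

/-! S14, package [LOCa], part 1: `#{u ∈ (O/v^n)ˣ | u^p = 1} ≤ p * #(O/(p, v^n))`. -/

set_option autoImplicit false

namespace FA14

open Polynomial IsDedekindDomain

/-- in a finite commutative group the cokernel and the kernel of `x ↦ x^p` have the same order. -/
theorem index_range_pow_eq_card_ker (G : Type*) [CommGroup G] [Finite G] (p : ℕ) :
    (powMonoidHom p : G →* G).range.index = Nat.card (powMonoidHom p : G →* G).ker := by
  set f := (powMonoidHom p : G →* G)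
  have h1 := Subgroup.index_ker f
  have h2 := Subgroup.card_mul_index f.ker
  have h3 := Subgroup.card_mul_index f.range
  rw [h1] at h2
  have h4 : 0 < Nat.card f.range := Nat.card_pos
  have h5 : Nat.card f.range * f.range.index = Nat.card f.range * Nat.card f.ker := by
    rw [h3, ← h2, mul_comm]
  exact Nat.eq_of_mul_eq_mul_left h4 h5

theorem index_range_nsmul_eq_card_ker (G : Type*) [AddCommGroup G] [Finite G] (p : ℕ) :
    (nsmulAddMonoidHom p : G →+ G).range.index = Nat.card (nsmulAddMonoidHom p : G →+ G).ker := by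
  set f := (nsmulAddMonoidHom p : G →+ G)
  have h1 := AddSubgroup.index_ker f
  have h2 := AddSubgroup.card_mul_index f.ker
  have h3 := AddSubgroup.card_mul_index f.range
  rw [h1] at h2
  have h4 : 0 < Nat.card f.range := Nat.card_pos
  have h5 : Nat.card f.range * f.range.index = Nat.card f.range * Nat.card f.ker := by
    rw [h3, ← h2, mul_comm]
  exact Nat.eq_of_mul_eq_mul_left h4 h5

section roots

variable {O : Type*} [CommRing O] [IsDomain O]

/-- `∏_{μ' ≠ μ} (μ - μ') = p μ^(p-1)`. -/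
theorem prod_erase_root_sub [DecidableEq O] {p : ℕ} (hp : 0 < p) {ζ : O} (hζ : IsPrimitiveRoot ζ p)
    {μ : O} (hμ : μ ∈ nthRootsFinset p (1 : O)) :
    ∏ μ' ∈ (nthRootsFinset p (1 : O)).erase μ, (μ - μ') = p * μ ^ (p - 1) := by
  have h1 := X_pow_sub_one_eq_prod hp hζ
  rw [← Finset.mul_prod_erase _ _ hμ] at h1
  have h2 := congrArg (fun f => eval μ (derivative f)) h1
  simp only [derivative_sub, derivative_X_pow, derivative_one, sub_zero, derivative_mul,
    derivative_X, derivative_C, eval_add, eval_mul, eval_sub, eval_X, eval_C, sub_self, zero_mul,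
    add_zero, one_mul, eval_pow, eval_natCast, map_natCast, eval_prod] at h2
  exact h2.symm

end roots

section core

variable {O : Type*} [CommRing O] [IsDedekindDomain O] (v : HeightOneSpectrum O)

/-- a `p`-th root of unity modulo `v^n` is close to a genuine one. -/
theorem exists_root_mul_sub_mem {p : ℕ} (hp : 0 < p) {ζ : O} (hζ : IsPrimitiveRoot ζ p) (a : O)
    (n : ℕ) (ha : a ^ p - 1 ∈ v.asIdeal ^ n) :
    ∃ μ ∈ nthRootsFinset p (1 : O), (p : O) * (a - μ) ∈ v.asIdeal ^ n := by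
  classical
  set s := nthRootsFinset p (1 : O) with hs
  have hprod : a ^ p - 1 = ∏ μ ∈ s, (a - μ) := by
    have := hζ.pow_sub_pow_eq_prod_sub_mul a 1 hp
    simpa using this
  have hne : s.Nonempty := ⟨1, by rw [hs, mem_nthRootsFinset hp]; simp⟩
  obtain ⟨μ, hμ, hmin⟩ := Finset.exists_min_image s (fun μ => v.intValuation (a - μ)) hne
  refine ⟨μ, hμ, ?_⟩
  rw [← v.intValuation_le_pow_iff_mem] at ha ⊢
  refine le_trans ?_ ha
  have hμp : μ ^ p = 1 := by
    rw [hs, mem_nthRootsFinset hp] at hμ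
    exact hμ
  have h1 : v.intValuation (p : O) ≤ v.intValuation (∏ μ' ∈ s.erase μ, (μ - μ')) := by
    rw [prod_erase_root_sub hp hζ hμ]
    have h2 : (p : O) = (p * μ ^ (p - 1)) * μ := by
      rw [mul_assoc, ← pow_succ, Nat.sub_add_cancel hp, hμp, mul_one]
    conv_lhs => rw [h2, map_mul]
    exact mul_le_of_le_one_right' (v.intValuation_le_one μ)
  have h3 : v.intValuation (∏ μ' ∈ s.erase μ, (μ - μ')) ≤
      ∏ μ' ∈ s.erase μ, v.intValuation (a - μ') := by
    rw [map_prod]
    refine Finset.prod_le_prod' fun μ' hμ' => ?_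
    have h4 : μ - μ' = (a - μ') - (a - μ) := by ring
    rw [h4]
    refine (Valuation.map_sub _ _ _).trans ?_
    rw [max_le_iff]
    exact ⟨le_rfl, hmin μ' (Finset.mem_of_mem_erase hμ')⟩
  rw [hprod, map_prod, ← Finset.mul_prod_erase _ _ hμ, map_mul, mul_comm]
  exact mul_le_mul_right (h1.trans h3) _

/-- the number of `p`-th roots of unity in `(O/v^n)ˣ`. -/
theorem card_ker_pow_units_le {p : ℕ} (hp : 0 < p) {ζ : O} (hζ : IsPrimitiveRoot ζ p) (n : ℕ)
    [Finite (O ⧸ v.asIdeal ^ n)] :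
    Nat.card (powMonoidHom p : (O ⧸ v.asIdeal ^ n)ˣ →* (O ⧸ v.asIdeal ^ n)ˣ).ker ≤
      p * Nat.card (nsmulAddMonoidHom p : (O ⧸ v.asIdeal ^ n) →+ (O ⧸ v.asIdeal ^ n)).ker := by
  classical
  set R := O ⧸ v.asIdeal ^ n with hR
  set s := nthRootsFinset p (1 : O) with hs
  have key : ∀ u : (powMonoidHom p : Rˣ →* Rˣ).ker, ∃ μ : s,
      ((u : Rˣ) : R) - Ideal.Quotient.mk _ (μ : O) ∈ (nsmulAddMonoidHom p : R →+ R).ker := by
    rintro ⟨u, hu⟩
    obtain ⟨a, ha⟩ := Ideal.Quotient.mk_surjective (u : R)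
    have hu' : (u : R) ^ p = 1 := by
      have : u ^ p = 1 := hu
      rw [← Units.val_pow_eq_pow_val, this, Units.val_one]
    have h1 : a ^ p - 1 ∈ v.asIdeal ^ n := by
      rw [← Ideal.Quotient.eq_zero_iff_mem, map_sub, map_pow, ha, hu', map_one, sub_self]
    obtain ⟨μ, hμ, h2⟩ := exists_root_mul_sub_mem v hp hζ a n h1
    refine ⟨⟨μ, hμ⟩, ?_⟩
    rw [AddMonoidHom.mem_ker, nsmulAddMonoidHom_apply, nsmul_eq_mul]
    rw [← Ideal.Quotient.eq_zero_iff_mem, map_mul, map_sub, ha, map_natCast] at h2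
    exact h2
  choose μ hμ using key
  let F : (powMonoidHom p : Rˣ →* Rˣ).ker → s × (nsmulAddMonoidHom p : R →+ R).ker :=
    fun u => (μ u, ⟨_, hμ u⟩)
  have hF : Function.Injective F := by
    intro u u' h
    have h1 : μ u = μ u' := congrArg Prod.fst h
    have h2 : ((u : Rˣ) : R) - Ideal.Quotient.mk _ (μ u : O) =
        ((u' : Rˣ) : R) - Ideal.Quotient.mk _ (μ u' : O) :=
      congrArg (fun z => ((z.2 : (nsmulAddMonoidHom p : R →+ R).ker) : R)) h
    rw [h1] at h2
    exact Subtype.ext (Units.ext (sub_left_injective h2))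
  have h3 := Nat.card_le_card_of_injective F hF
  have h4 : Nat.card s = p := by
    rw [Nat.card_eq_fintype_card, Fintype.card_coe, hs, hζ.card_nthRootsFinset]
  rw [Nat.card_prod, h4] at h3
  exact h3

omit [IsDedekindDomain O] in
/-- `#(O/v^n)[p] = #O/(p, v^n)`. -/
theorem card_ker_nsmul_quot (p n : ℕ) [Finite (O ⧸ v.asIdeal ^ n)] :
    Nat.card (nsmulAddMonoidHom p : (O ⧸ v.asIdeal ^ n) →+ (O ⧸ v.asIdeal ^ n)).ker =
      (Ideal.span {(p : O)} ⊔ v.asIdeal ^ n).toAddSubgroup.index := by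
  rw [← index_range_nsmul_eq_card_ker]
  have hsurj : Function.Surjective (Ideal.Quotient.mk (v.asIdeal ^ n)).toAddMonoidHom :=
    Ideal.Quotient.mk_surjective
  rw [← AddSubgroup.index_comap_of_surjective _ hsurj]
  congr 1
  ext x
  rw [AddSubgroup.mem_comap, AddMonoidHom.mem_range, Submodule.mem_toAddSubgroup,
    Ideal.mem_span_singleton_sup]
  constructor
  · rintro ⟨r, hr⟩
    obtain ⟨y, rfl⟩ := Ideal.Quotient.mk_surjective r
    refine ⟨y, x - y * p, ?_, by ring⟩
    rw [← Ideal.Quotient.eq_zero_iff_mem, map_sub, map_mul, map_natCast]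
    rw [nsmulAddMonoidHom_apply, nsmul_eq_mul] at hr
    have hx : (Ideal.Quotient.mk (v.asIdeal ^ n)).toAddMonoidHom x =
      Ideal.Quotient.mk (v.asIdeal ^ n) x := rfl
    rw [hx] at hr
    rw [← hr]
    ring
  · rintro ⟨a, b, hb, rfl⟩
    refine ⟨Ideal.Quotient.mk _ a, ?_⟩
    rw [nsmulAddMonoidHom_apply, nsmul_eq_mul]
    show _ = Ideal.Quotient.mk (v.asIdeal ^ n) (a * p + b)
    rw [map_add, map_mul, map_natCast, Ideal.Quotient.eq_zero_iff_mem.2 hb, add_zero, mul_comm]

end core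

end FA14
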