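import Fermat.Agent.CFT.Defs
import Fermat.Agent.CFT.LocA1

/-! S14, package [LOCa], part 2: the subgroup `NN p v n = {x | LocPow p n v x}` of `Eˣ`
and the bound for its index. -/

set_option autoImplicit false
set_option linter.unusedSectionVars false

open IsDedekindDomain NumberField

namespace FA14

variable {E : Type*} [Field E] [NumberField E]

theorem ordGE_iff_val {v : Pr E} {x : E} {n : ℤ} :
    OrdGE v x n ↔ v.valuation E x ≤ WithZero.exp (-n) := by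
  rcases eq_or_ne x 0 with rfl | hx
  · simp [OrdGE]
  · have h0 : v.valuation E x ≠ 0 := (Valuation.ne_zero_iff _).2 hx
    rw [OrdGE, or_iff_right hx, ordv, ← WithZero.log_le_iff_le_exp h0]
    omega

/-- `x ≡ 1 mod v^n`. -/
def IsU1 (v : Pr E) (n : ℤ) (x : E) : Prop := v.valuation E (x - 1) ≤ WithZero.exp (-n)

theorem IsU1.val_eq_one {v : Pr E} {n : ℤ} (hn : 1 ≤ n) {x : E} (hx : IsU1 v n x) :
    v.valuation E x = 1 := by
  have h1 : v.valuation E (x - 1) < 1 := by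
    refine lt_of_le_of_lt hx ?_
    rw [← WithZero.exp_zero, WithZero.exp_lt_exp]
    omega
  have h2 := Valuation.map_one_add_of_lt _ h1
  rwa [add_sub_cancel] at h2

theorem IsU1.mul {v : Pr E} {n : ℤ} (hn : 1 ≤ n) {x y : E} (hx : IsU1 v n x) (hy : IsU1 v n y) :
    IsU1 v n (x * y) := by
  have h1 : x * y - 1 = (x - 1) * y + (y - 1) := by ring
  rw [IsU1, h1]
  refine (Valuation.map_add _ _ _).trans (max_le ?_ hy)
  rw [map_mul, hy.val_eq_one hn, mul_one]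
  exact hx

theorem IsU1.inv {v : Pr E} {n : ℤ} (hn : 1 ≤ n) {x : E} (hx : IsU1 v n x) : IsU1 v n x⁻¹ := by
  have hv := hx.val_eq_one hn
  have hx0 : x ≠ 0 := by
    rintro rfl
    simp at hv
  have h1 : x⁻¹ - 1 = -((x - 1) * x⁻¹) := by field_simp; ring
  rw [IsU1, h1, Valuation.map_neg, map_mul, map_inv₀, hv, inv_one, mul_one]
  exact hx

theorem locPow_iff {p : ℕ} {n : ℤ} {v : Pr E} {x : E} :
    LocPow p n v x ↔ ∃ c : E, c ≠ 0 ∧ IsU1 v n (x * c ^ p) := by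
  simp only [LocPow, ordGE_iff_val, IsU1]

/-- the subgroup of the elements of `Eˣ` that are `p`-th powers modulo `v^n`. -/
def NN (p : ℕ) (v : Pr E) (n : ℤ) (hn : 1 ≤ n) : Subgroup Eˣ where
  carrier := {x | LocPow p n v (x : E)}
  one_mem' := ⟨1, one_ne_zero, Or.inl (by simp)⟩
  mul_mem' := by
    intro x y hx hy
    rw [Set.mem_ofPred_eq, locPow_iff] at hx hy ⊢
    obtain ⟨c, hc, h1⟩ := hx
    obtain ⟨d, hd, h2⟩ := hy
    refine ⟨c * d, mul_ne_zero hc hd, ?_⟩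
    have := h1.mul hn h2
    rwa [show (x : E) * c ^ p * ((y : E) * d ^ p) = ((x * y : Eˣ) : E) * (c * d) ^ p by
      rw [Units.val_mul]; ring] at this
  inv_mem' := by
    intro x hx
    rw [Set.mem_ofPred_eq, locPow_iff] at hx ⊢
    obtain ⟨c, hc, h1⟩ := hx
    refine ⟨c⁻¹, inv_ne_zero hc, ?_⟩
    have := h1.inv hn
    rwa [show ((x : E) * c ^ p)⁻¹ = ((x⁻¹ : Eˣ) : E) * c⁻¹ ^ p by
      rw [Units.val_inv_eq_inv_val, mul_inv, inv_pow]] at this

theorem mem_NN {p : ℕ} {v : Pr E} {n : ℤ} {hn : 1 ≤ n} {x : Eˣ} :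
    x ∈ NN p v n hn ↔ LocPow p n v (x : E) := Iff.rfl

section cover

variable (v : Pr E) (m : ℕ)

theorem notMem_of_mk_eq_unit (hm : 1 ≤ m) (u : (𝓞 E ⧸ v.asIdeal ^ m)ˣ) (a : 𝓞 E)
    (ha : Ideal.Quotient.mk (v.asIdeal ^ m) a = (u : 𝓞 E ⧸ v.asIdeal ^ m)) : a ∉ v.asIdeal := by
  intro hmem
  have h1 : a ^ m ∈ v.asIdeal ^ m := Ideal.pow_mem_pow hmem m
  have h2 : (u : 𝓞 E ⧸ v.asIdeal ^ m) ^ m = 0 := by
    rw [← ha, ← map_pow, Ideal.Quotient.eq_zero_iff_mem]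
    exact h1
  have h3 : IsUnit ((u : 𝓞 E ⧸ v.asIdeal ^ m) ^ m) := u.isUnit.pow m
  rw [h2, isUnit_zero_iff] at h3
  have h4 : (1 : 𝓞 E) ∈ v.asIdeal ^ m := by
    rw [← Ideal.Quotient.eq_zero_iff_mem, map_one]
    exact h3.symm
  have h5 : (1 : 𝓞 E) ∈ v.asIdeal := Ideal.pow_le_self (by omega) h4
  exact v.isPrime.ne_top ((Ideal.eq_top_iff_one _).2 h5)

theorem isUnit_mk_of_notMem (a : 𝓞 E) (ha : a ∉ v.asIdeal) :
    IsUnit (Ideal.Quotient.mk (v.asIdeal ^ m) a) := by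
  have h1 : v.intValuation a = 1 := HeightOneSpectrum.intValuation_eq_one_iff.2 ha
  obtain ⟨y, hy⟩ := v.exists_intValuation_mul_sub_lt (a := a) (b := 1)
    (by rw [h1]; exact v.intValuation_le_one 1) (Multiplicative.ofAdd (-(m : ℤ)))
  have h2 : (1 - y * a) ∈ v.asIdeal ^ m := by
    rw [← v.intValuation_le_pow_iff_mem]
    exact hy.le
  rw [← Ideal.Quotient.eq_zero_iff_mem, map_sub, map_one, map_mul, sub_eq_zero] at h2
  exact IsUnit.of_mul_eq_one _ (by rw [mul_comm]; exact h2.symm)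

/-- representatives for `Eˣ / NN`. -/
theorem exists_rep_locPow {p : ℕ} (hp : 0 < p) (hm : 1 ≤ m) {π : E}
    (hπ : v.valuation E π = WithZero.exp (-1 : ℤ))
    (lift : (𝓞 E ⧸ v.asIdeal ^ m)ˣ → 𝓞 E)
    (hlift : ∀ u, Ideal.Quotient.mk (v.asIdeal ^ m) (lift u) = (u : 𝓞 E ⧸ v.asIdeal ^ m))
    (x : E) (hx : x ≠ 0) :
    ∃ (i : Fin p) (t : ℤ) (u : (𝓞 E ⧸ v.asIdeal ^ m)ˣ),
      ∀ u₀ h₀ : (𝓞 E ⧸ v.asIdeal ^ m)ˣ, u = u₀ * h₀ ^ p →
        IsU1 v m (x * (π ^ (i : ℕ) * algebraMap (𝓞 E) E (lift u₀))⁻¹ *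
          ((π ^ t * algebraMap (𝓞 E) E (lift h₀))⁻¹) ^ p) := by
  have hV0 : v.valuation E x ≠ 0 := (Valuation.ne_zero_iff _).2 hx
  have hπ0 : π ≠ 0 := by
    rintro rfl
    rw [map_zero] at hπ
    exact WithZero.exp_ne_zero hπ.symm
  set k : ℤ := -WithZero.log (v.valuation E x) with hk
  have hVx : v.valuation E x = WithZero.exp (-k) := by
    rw [hk, neg_neg, WithZero.exp_log hV0]
  set y := x * π ^ (-k) with hy
  have hVy : v.valuation E y = 1 := by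
    rw [hy, map_mul, map_zpow₀, hπ, hVx, ← WithZero.exp_zsmul, ← WithZero.exp_add,
      ← WithZero.exp_zero]
    congr 1
    simp
  have hexp1 : WithZero.exp (-(m : ℤ)) < (1 : WithZero (Multiplicative ℤ)) := by
    rw [← WithZero.exp_zero, WithZero.exp_lt_exp]
    omega
  obtain ⟨a, ha⟩ := v.exists_valuation_sub_lt_of_integer (K := E) hVy.le
    (Units.mk0 (WithZero.exp (-(m : ℤ))) WithZero.exp_ne_zero)
  rw [Units.val_mk0] at ha
  have hVa : v.valuation E (algebraMap (𝓞 E) E a) = 1 := by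
    rw [← hVy]
    refine Valuation.map_eq_of_sub_lt _ ?_
    rw [hVy]
    exact ha.trans hexp1
  have haP : a ∉ v.asIdeal := (HeightOneSpectrum.valuation_eq_one_iff_notMem v).1 hVa
  have hp' : (0 : ℤ) < p := by exact_mod_cast hp
  have hi0 : 0 ≤ k % p := Int.emod_nonneg _ hp'.ne'
  have hi1 : k % p < p := Int.emod_lt_of_pos _ hp'
  refine ⟨⟨(k % p).toNat, by omega⟩, k / p, (isUnit_mk_of_notMem v m a haP).unit, ?_⟩
  intro u₀ h₀ hu
  set A := lift u₀ with hA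
  set B := lift h₀ with hB
  have hAP : A ∉ v.asIdeal := notMem_of_mk_eq_unit v m hm u₀ A (hlift u₀)
  have hBP : B ∉ v.asIdeal := notMem_of_mk_eq_unit v m hm h₀ B (hlift h₀)
  have hVA : v.valuation E (algebraMap (𝓞 E) E A) = 1 :=
    (HeightOneSpectrum.valuation_eq_one_iff_notMem v).2 hAP
  have hVB : v.valuation E (algebraMap (𝓞 E) E B) = 1 :=
    (HeightOneSpectrum.valuation_eq_one_iff_notMem v).2 hBP
  have hA0 : algebraMap (𝓞 E) E A ≠ 0 := by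
    intro h0
    rw [h0, map_zero] at hVA
    exact zero_ne_one hVA
  have hB0 : algebraMap (𝓞 E) E B ≠ 0 := by
    intro h0
    rw [h0, map_zero] at hVB
    exact zero_ne_one hVB
  set w := algebraMap (𝓞 E) E (A * B ^ p) with hw
  have hw' : w = algebraMap (𝓞 E) E A * algebraMap (𝓞 E) E B ^ p := by
    rw [hw, map_mul, map_pow]
  have hVw : v.valuation E w = 1 := by
    rw [hw', map_mul, map_pow, hVA, hVB, one_pow, one_mul]
  have hw0 : w ≠ 0 := by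
    rw [hw']
    exact mul_ne_zero hA0 (pow_ne_zero _ hB0)
  have h1 : a - A * B ^ p ∈ v.asIdeal ^ m := by
    rw [← Ideal.Quotient.eq_zero_iff_mem, map_sub, map_mul, map_pow, hlift, hlift, sub_eq_zero]
    have := congrArg (fun z : (𝓞 E ⧸ v.asIdeal ^ m)ˣ => (z : 𝓞 E ⧸ v.asIdeal ^ m)) hu
    simpa using this
  have h2 : v.valuation E (algebraMap (𝓞 E) E a - w) ≤ WithZero.exp (-(m : ℤ)) := by
    rw [hw, ← map_sub, HeightOneSpectrum.valuation_of_algebraMap, v.intValuation_le_pow_iff_mem]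
    exact h1
  have h3 : v.valuation E (y - w) ≤ WithZero.exp (-(m : ℤ)) := by
    have : y - w = (algebraMap (𝓞 E) E a - w) - (algebraMap (𝓞 E) E a - y) := by ring
    rw [this]
    exact (Valuation.map_sub _ _ _).trans (max_le h2 ha.le)
  have h4 : x * (π ^ (((⟨(k % p).toNat, by omega⟩ : Fin p) : ℕ)) * algebraMap (𝓞 E) E A)⁻¹ *
      ((π ^ (k / p) * algebraMap (𝓞 E) E B)⁻¹) ^ p = y / w := by
    have h5 : π ^ k = π ^ ((k % p).toNat) * (π ^ (k / p)) ^ p := by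
      rw [← zpow_natCast π (k % p).toNat, Int.toNat_of_nonneg hi0, ← zpow_natCast (π ^ (k / p)) p,
        ← zpow_mul, ← zpow_add₀ hπ0]
      congr 1
      rw [mul_comm]
      exact (Int.emod_add_mul_ediv k p).symm
    have hπt : π ^ (k / p) ≠ 0 := zpow_ne_zero _ hπ0
    rw [hy, hw', zpow_neg, h5, inv_pow, mul_pow]
    field_simp
  rw [h4, IsU1]
  have h6 : y / w - 1 = (y - w) / w := by field_simp
  rw [h6, map_div₀, hVw, div_one]
  exact h3

instance finite_quot_pow : Finite (𝓞 E ⧸ v.asIdeal ^ m) :=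
  Ideal.finiteQuotientOfFreeOfNeBot _ (pow_ne_zero m v.ne_bot)

theorem index_NN_le_aux {p : ℕ} (hp : 0 < p) (hm : 1 ≤ m) (hn : (1 : ℤ) ≤ (m : ℤ)) :
    (NN p v m hn).index ≠ 0 ∧ (NN p v m hn).index ≤
      p * (powMonoidHom p : (𝓞 E ⧸ v.asIdeal ^ m)ˣ →* (𝓞 E ⧸ v.asIdeal ^ m)ˣ).range.index := by
  classical
  obtain ⟨π, hπ⟩ := v.valuation_exists_uniformizer E
  have hπ0 : π ≠ 0 := by
    rintro rfl
    rw [map_zero] at hπ
    exact WithZero.exp_ne_zero hπ.symm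
  let lift : (𝓞 E ⧸ v.asIdeal ^ m)ˣ → 𝓞 E := fun u => Quotient.out (u : 𝓞 E ⧸ v.asIdeal ^ m)
  have hlift : ∀ u, Ideal.Quotient.mk (v.asIdeal ^ m) (lift u) = (u : 𝓞 E ⧸ v.asIdeal ^ m) :=
    fun u => Ideal.Quotient.mk_out _
  have hlift0 : ∀ u, algebraMap (𝓞 E) E (lift u) ≠ 0 := by
    intro u h0
    have h1 : lift u = 0 := by
      apply FaithfulSMul.algebraMap_injective (𝓞 E) E
      rw [h0, map_zero]
    exact notMem_of_mk_eq_unit v m hm u (lift u) (hlift u) (h1 ▸ zero_mem _)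
  set N := (powMonoidHom p : (𝓞 E ⧸ v.asIdeal ^ m)ˣ →* (𝓞 E ⧸ v.asIdeal ^ m)ˣ).range with hN
  let Φ : Fin p × ((𝓞 E ⧸ v.asIdeal ^ m)ˣ ⧸ N) → Eˣ ⧸ NN p v m hn := fun z =>
    QuotientGroup.mk (Units.mk0 (π ^ (z.1 : ℕ) * algebraMap (𝓞 E) E (lift z.2.out))
      (mul_ne_zero (pow_ne_zero _ hπ0) (hlift0 _)))
  have hΦ : Function.Surjective Φ := by
    intro X
    obtain ⟨x, rfl⟩ := QuotientGroup.mk_surjective X
    obtain ⟨i, t, u, H⟩ := exists_rep_locPow v m hp hm hπ lift hlift (x : E) x.ne_zero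
    set g : (𝓞 E ⧸ v.asIdeal ^ m)ˣ ⧸ N := QuotientGroup.mk u with hg
    have h1 : (g.out)⁻¹ * u ∈ N := by
      rw [← QuotientGroup.eq, QuotientGroup.out_eq']
    obtain ⟨h₀, hh₀⟩ := h1
    have h2 : u = g.out * h₀ ^ p := by
      rw [powMonoidHom_apply] at hh₀
      rw [hh₀, mul_inv_cancel_left]
    refine ⟨(i, g), ?_⟩
    show (QuotientGroup.mk _ : Eˣ ⧸ NN p v m hn) = QuotientGroup.mk x
    rw [QuotientGroup.eq, mem_NN, locPow_iff]
    refine ⟨(π ^ t * algebraMap (𝓞 E) E (lift h₀))⁻¹,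
      inv_ne_zero (mul_ne_zero (zpow_ne_zero _ hπ0) (hlift0 _)), ?_⟩
    have h3 := H g.out h₀ h2
    rw [Units.val_mul, Units.val_inv_eq_inv_val, Units.val_mk0, mul_comm _ (x : E)]
    exact h3
  have hfin : Finite (Eˣ ⧸ NN p v m hn) := Finite.of_surjective Φ hΦ
  refine ⟨?_, ?_⟩
  · rw [Subgroup.index]
    exact Nat.card_pos.ne'
  · have h4 := Nat.card_le_card_of_surjective Φ hΦ
    rw [Nat.card_prod, Nat.card_fin] at h4
    exact h4

end cover

end FA14
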