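import Fermat.Agent.CFT.Ord

/-! S14 basic API II: approximation, extensions, transport. -/

set_option autoImplicit false

open IsDedekindDomain NumberField

namespace FA14

section approx
variable {E : Type*} [Field E] [NumberField E]

/-- common denominator -/
lemma exists_common_den (S : Finset (Pr E)) (x : Pr E → E) :
    ∃ d : 𝓞 E, d ≠ 0 ∧ ∀ v ∈ S, ∃ a : 𝓞 E, algebraMap (𝓞 E) E a = algebraMap (𝓞 E) E d * x v := by
  classical
  induction S using Finset.induction_on with
  | empty => exact ⟨1, one_ne_zero, by simp⟩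
  | insert w S hw ih =>
    obtain ⟨d, hd, h⟩ := ih
    obtain ⟨a, b, hb, hab⟩ := IsFractionRing.div_surjective (A := 𝓞 E) (x w)
    have hb0 : b ≠ 0 := nonZeroDivisors.ne_zero hb
    have hb0' : algebraMap (𝓞 E) E b ≠ 0 := by simpa using hb0
    refine ⟨d * b, mul_ne_zero hd hb0, ?_⟩
    intro v hv
    rcases Finset.mem_insert.1 hv with rfl | hv
    · refine ⟨d * a, ?_⟩
      rw [← hab, map_mul, map_mul]; field_simp
    · obtain ⟨a', ha'⟩ := h v hv
      refine ⟨a' * b, ?_⟩
      rw [map_mul, map_mul, ha']; ring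

/-- **weak approximation** (additive) -/
theorem weak_approx (S : Finset (Pr E)) (x : Pr E → E) (n : ℤ) :
    ∃ z : E, ∀ v ∈ S, OrdGE v (z - x v) n := by
  classical
  obtain ⟨d, hd, h⟩ := exists_common_den S x
  choose! a ha using h
  have hd' : algebraMap (𝓞 E) E d ≠ 0 := by simpa using hd
  obtain ⟨y, hy⟩ := IsDedekindDomain.exists_forall_sub_mem_ideal (s := S)
    (fun v : Pr E => v.asIdeal) (fun v => (n + ordv v (algebraMap (𝓞 E) E d)).toNat)
    (fun v _ => v.prime) (fun v _ w _ hvw h => hvw (HeightOneSpectrum.ext h)) (fun v => a v)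
  refine ⟨algebraMap (𝓞 E) E y / algebraMap (𝓞 E) E d, fun v hv => ?_⟩
  have h1 := hy v hv
  rw [← ordGE_algebraMap_iff, map_sub, ha v hv] at h1
  have h2 : algebraMap (𝓞 E) E y / algebraMap (𝓞 E) E d - x v =
      (algebraMap (𝓞 E) E y - algebraMap (𝓞 E) E d * x v) * (algebraMap (𝓞 E) E d)⁻¹ := by
    field_simp
  rw [h2]
  have h3 : OrdGE v (algebraMap (𝓞 E) E d)⁻¹ (- ordv v (algebraMap (𝓞 E) E d)) :=
    Or.inr (by rw [ordv_inv])
  refine (h1.mul h3).mono ?_
  have := Int.self_le_toNat (n + ordv v (algebraMap (𝓞 E) E d))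
  omega

/-- **weak approximation** (multiplicative): `z / x v ≡ 1 mod v^n`. -/
theorem weak_approx_mul (S : Finset (Pr E)) (x : Pr E → E) (hx : ∀ v ∈ S, x v ≠ 0) (n : ℤ) :
    ∃ z : E, z ≠ 0 ∧ ∀ v ∈ S, OrdGE v (z / x v - 1) n ∧ ordv v z = ordv v (x v) := by
  classical
  by_cases hS : S = ∅
  · subst hS; exact ⟨1, one_ne_zero, by simp⟩
  obtain ⟨N, hN⟩ : ∃ N : ℤ, ∀ v ∈ S, max n 1 + ordv v (x v) ≤ N := by
    refine ⟨∑ v ∈ S, |max n 1 + ordv v (x v)|, fun v hv => ?_⟩
    exact (le_abs_self _).trans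
      (Finset.single_le_sum (f := fun v => |max n 1 + ordv v (x v)|) (fun _ _ => abs_nonneg _) hv)
  obtain ⟨z, hz⟩ := weak_approx S x N
  have hord : ∀ v ∈ S, ordv v z = ordv v (x v) := fun v hv =>
    ordv_eq_of_ordGE_sub (hz v hv) (hx v hv) (by have := hN v hv; have := le_max_right n 1; omega)
  have hz0 : z ≠ 0 := by
    obtain ⟨v, hv⟩ := Finset.nonempty_iff_ne_empty.2 hS
    rintro rfl
    have h1 := (hz v hv).le (by simpa using hx v hv)
    simp at h1
    have := hN v hv; have := le_max_right n 1; omega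
  refine ⟨z, hz0, fun v hv => ⟨?_, hord v hv⟩⟩
  have h2 : z / x v - 1 = (z - x v) * (x v)⁻¹ := by
    have := hx v hv; field_simp
  rw [h2]
  have h3 : OrdGE v (x v)⁻¹ (- ordv v (x v)) := Or.inr (by rw [ordv_inv])
  refine ((hz v hv).mul h3).mono ?_
  have := hN v hv; have := le_max_left n 1; omega

/-- prescribed orders on a finite set -/
theorem exists_ordv_eq_on (S : Finset (Pr E)) (k : Pr E → ℤ) :
    ∃ z : E, z ≠ 0 ∧ ∀ v ∈ S, ordv v z = k v := by
  choose x hx0 hx using fun v : Pr E => exists_ordv_eq v (k v)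
  obtain ⟨z, hz0, hz⟩ := weak_approx_mul S x (fun v _ => hx0 v) 1
  exact ⟨z, hz0, fun v hv => by rw [(hz v hv).2, hx]⟩

end approx

end FA14
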