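import Mathlib

/-! S14 [S]: two abstract lemmas. -/

set_option autoImplicit false

open Module

namespace FA14

/-- extraction of a finite subfamily of functionals which is jointly surjective -/
theorem exists_surj_subfamily {F : Type*} [Field F] {n : ℕ} {ι : Type*}
    (Λ : ι → Module.Dual F (Fin n → F))
    (h1 : ∀ g g' : Fin n → F, (∀ t, Λ t g = 0) → (∀ t, Λ t g' = 0) → g ≠ 0 → ∃ c : F, c • g = g') :
    ∃ T : Finset ι, n ≤ T.card + 1 ∧ ∀ τ : ι → F, ∃ g : Fin n → F, ∀ t ∈ T, Λ t g = τ t := by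
  classical
  set A : Subspace F (Module.Dual F (Fin n → F)) := Submodule.span F (Set.range Λ) with hA
  have hmem : ∀ g : Fin n → F, g ∈ A.dualCoannihilator ↔ ∀ t, Λ t g = 0 := by
    intro g
    rw [Submodule.mem_dualCoannihilator]
    constructor
    · intro h t; exact h _ (Submodule.subset_span ⟨t, rfl⟩)
    · intro h φ hφ
      induction hφ using Submodule.span_induction with
      | mem x hx => obtain ⟨t, rfl⟩ := hx; exact h t
      | zero => simp
      | add x y _ _ hx hy => simp [hx, hy]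
      | smul a x _ hx => simp [hx]
  have hK : finrank F A.dualCoannihilator ≤ 1 := by
    by_cases hbot : ∃ g : A.dualCoannihilator, g ≠ 0
    · obtain ⟨g, hg⟩ := hbot
      refine finrank_le_one g fun w => ?_
      obtain ⟨c, hc⟩ := h1 g w ((hmem _).1 g.2) ((hmem _).1 w.2) (by simpa using hg)
      exact ⟨c, Subtype.ext hc⟩
    · push_neg at hbot
      refine finrank_le_one 0 fun w => ⟨0, by rw [hbot w]; simp⟩
  have hsum := Subspace.finrank_add_finrank_dualCoannihilator_eq A
  rw [Module.finrank_fin_fun] at hsum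
  obtain ⟨κ, a, ha, hspan, hli⟩ := exists_linearIndependent' F Λ
  haveI := hli.finite
  haveI := Fintype.ofFinite κ
  have hcard : finrank F A = Fintype.card κ := by
    rw [hA, ← hspan]; exact finrank_span_eq_card hli
  refine ⟨Finset.univ.image a, ?_, ?_⟩
  · rw [Finset.card_image_of_injective _ ha, Finset.card_univ]; omega
  · intro τ
    let Φ : (Fin n → F) →ₗ[F] (κ → F) := LinearMap.pi fun k => Λ (a k)
    have hsurj : LinearMap.range Φ = ⊤ := by
      by_contra hne
      obtain ⟨f, hf0, hf⟩ := Submodule.exists_le_ker_of_lt_top _ (lt_top_iff_ne_top.2 hne)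
      apply hf0
      have hz : ∑ k, f (Pi.single k 1) • (Λ ∘ a) k = 0 := by
        ext j
        have h2 : f (Φ (Pi.single j 1)) = 0 := hf ⟨_, rfl⟩
        have h3 : Φ (Pi.single j 1) = ∑ k, (Λ (a k) (Pi.single j 1)) • (Pi.single k 1 : κ → F) := by
          ext k
          simp [Φ, Finset.sum_apply, Pi.single_apply]
        rw [h3, map_sum] at h2
        simp only [map_smul, smul_eq_mul] at h2
        simp only [LinearMap.coe_comp, Function.comp_apply, LinearMap.coe_single,
          LinearMap.zero_apply]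
        rw [← h2, LinearMap.sum_apply]
        exact Finset.sum_congr rfl fun k _ => by
          simp only [LinearMap.smul_apply, smul_eq_mul]; exact mul_comm _ _
      have hall := (Fintype.linearIndependent_iff.1 hli) _ hz
      ext k
      simpa using hall k
    have : (fun k => τ (a k)) ∈ LinearMap.range Φ := by rw [hsurj]; trivial
    obtain ⟨g, hg⟩ := this
    refine ⟨g, fun t ht => ?_⟩
    obtain ⟨k, -, rfl⟩ := Finset.mem_image.1 ht
    exact congrFun hg k

/-- characters of a group killing a subgroup of index `≤ p^(N+1)` and `N` independent elements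
are proportional -/
theorem prop_of_index {G : Type*} [CommGroup G] (p : ℕ) [Fact p.Prime] (H : Subgroup G) (N : ℕ)
    (hidx0 : H.index ≠ 0) (hidx : H.index ≤ p ^ (N + 1))
    (u : Fin N → G) (hu : ∀ e : Fin N → ℤ, ∏ i, u i ^ e i ∈ H → ∀ i, (p : ℤ) ∣ e i)
    (φ₁ φ₂ : G →* Multiplicative (ZMod p)) (h1H : ∀ x ∈ H, φ₁ x = 1) (h2H : ∀ x ∈ H, φ₂ x = 1)
    (h1u : ∀ i, φ₁ (u i) = 1) (h2u : ∀ i, φ₂ (u i) = 1) (x₀ : G) (hx₀ : φ₁ x₀ ≠ 1) :
    ∃ c : ZMod p, ∀ x, (φ₂ x).toAdd = c * (φ₁ x).toAdd := by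
  classical
  haveI : Finite (G ⧸ H) := by
    apply Nat.finite_of_card_ne_zero; rwa [← Subgroup.index_eq_card]
  let f : ZMod p × (Fin N → ZMod p) → G ⧸ H := fun e =>
    QuotientGroup.mk (x₀ ^ (e.1.val : ℤ) * ∏ i, u i ^ ((e.2 i).val : ℤ))
  have hφprod : ∀ (φ : G →* Multiplicative (ZMod p)), (∀ i, φ (u i) = 1) → ∀ e : Fin N → ℤ,
      φ (∏ i, u i ^ e i) = 1 := by
    intro φ hφ e
    rw [map_prod]
    exact Finset.prod_eq_one fun i _ => by rw [map_zpow, hφ, one_zpow]
  have ha : (φ₁ x₀).toAdd ≠ 0 := fun h => hx₀ (by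
    apply Multiplicative.toAdd.injective; simpa using h)
  have hinj : Function.Injective f := by
    rintro ⟨e0, e⟩ ⟨d0, d⟩ hed
    simp only [f] at hed
    rw [QuotientGroup.eq] at hed
    have hz : (x₀ ^ (e0.val : ℤ) * ∏ i, u i ^ ((e i).val : ℤ))⁻¹ *
        (x₀ ^ (d0.val : ℤ) * ∏ i, u i ^ ((d i).val : ℤ)) =
        x₀ ^ ((d0.val : ℤ) - e0.val) * ∏ i, u i ^ (((d i).val : ℤ) - (e i).val) := by
      simp only [zpow_sub, Finset.prod_mul_distrib, Finset.prod_inv_distrib]
      rw [mul_inv]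
      ac_rfl
    rw [hz] at hed
    have h1 := h1H _ hed
    rw [map_mul, hφprod φ₁ h1u, mul_one, map_zpow] at h1
    have h2 : (((d0.val : ℤ) - e0.val : ℤ) : ZMod p) * (φ₁ x₀).toAdd = 0 := by
      have := congrArg Multiplicative.toAdd h1
      simpa [toAdd_zpow] using this
    have h3 : d0 = e0 := by
      rcases mul_eq_zero.1 h2 with h | h
      · push_cast at h
        simpa [sub_eq_zero] using h
      · exact absurd h ha
    subst h3
    rw [sub_self, zpow_zero, one_mul] at hed
    have h4 := hu _ hed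
    congr 1
    funext i
    have h5 := (ZMod.intCast_zmod_eq_zero_iff_dvd _ p).2 (h4 i)
    push_cast at h5
    have h6 : d i - e i = 0 := by simpa using h5
    exact (sub_eq_zero.1 h6).symm
  have hbij : Function.Bijective f := by
    apply hinj.bijective_of_nat_card_le
    rw [← Subgroup.index_eq_card, Nat.card_prod, Nat.card_fun, Nat.card_zmod, Nat.card_fin]
    calc H.index ≤ p ^ (N + 1) := hidx
      _ = p * p ^ N := by ring
  refine ⟨(φ₂ x₀).toAdd / (φ₁ x₀).toAdd, fun x => ?_⟩
  obtain ⟨⟨e0, e⟩, he⟩ := hbij.2 (QuotientGroup.mk x)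
  simp only [f] at he
  rw [QuotientGroup.eq] at he
  set w := x₀ ^ (e0.val : ℤ) * ∏ i, u i ^ ((e i).val : ℤ) with hw
  have hx : x = w * (w⁻¹ * x) := by group
  have key : ∀ (φ : G →* Multiplicative (ZMod p)), (∀ x ∈ H, φ x = 1) → (∀ i, φ (u i) = 1) →
      (φ x).toAdd = e0 * (φ x₀).toAdd := by
    intro φ hH hφu
    rw [hx, map_mul, hH _ he, mul_one, hw, map_mul, hφprod φ hφu, mul_one, map_zpow]
    simp [toAdd_zpow]
  rw [key φ₁ h1H h1u, key φ₂ h2H h2u]
  field_simp

end FA14
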