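import Fermat.Agent.CFT.S1
import Fermat.Agent.CFT.Psym
import Fermat.Agent.CFT.ANK2

/-! S14 [S]: the auxiliary primes `T`. -/

set_option autoImplicit false

open IsDedekindDomain NumberField

namespace FA14

variable {E : Type*} [Field E] [NumberField E] {p : ℕ} [Fact p.Prime] {ζ : E}

section psymMore
variable {q : Pr E}

theorem psym_one (hζ : IsPrimitiveRoot ζ p) (hq : ordv q (p : E) = 0) : psym p ζ q 1 = 0 := by
  have := psym_pow_p (q := q) hζ hq (one_ne_zero (α := E))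
  simpa using this

theorem psym_inv (hζ : IsPrimitiveRoot ζ p) (hq : ordv q (p : E) = 0) {y : E} (hy : y ≠ 0)
    (hyp : (p : ℤ) ∣ ordv q y) : psym p ζ q y⁻¹ = - psym p ζ q y := by
  have h := psym_mul hζ hq hy (inv_ne_zero hy) hyp (by rw [ordv_inv]; exact (dvd_neg).2 hyp)
  rw [mul_inv_cancel₀ hy, psym_one hζ hq] at h
  exact (neg_eq_of_add_eq_zero_right h.symm).symm

theorem psym_pow (hζ : IsPrimitiveRoot ζ p) (hq : ordv q (p : E) = 0) {y : E} (hy : y ≠ 0)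
    (hyp : (p : ℤ) ∣ ordv q y) (k : ℕ) : psym p ζ q (y ^ k) = k * psym p ζ q y := by
  induction k with
  | zero => simpa using psym_one hζ hq
  | succ k ih =>
    rw [pow_succ, psym_mul hζ hq (pow_ne_zero _ hy) hy
      (by rw [ordv_pow]; exact Dvd.dvd.mul_left hyp _) hyp, ih]
    push_cast; ring

theorem psym_zpow (hζ : IsPrimitiveRoot ζ p) (hq : ordv q (p : E) = 0) {y : E} (hy : y ≠ 0)
    (hyp : (p : ℤ) ∣ ordv q y) (k : ℤ) : psym p ζ q (y ^ k) = k * psym p ζ q y := by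
  cases k with
  | ofNat k => simpa using psym_pow hζ hq hy hyp k
  | negSucc k =>
    rw [zpow_negSucc, psym_inv hζ hq (pow_ne_zero _ hy)
      (by rw [ordv_pow]; exact Dvd.dvd.mul_left hyp _), psym_pow hζ hq hy hyp]
    push_cast; ring

theorem psym_prod (hζ : IsPrimitiveRoot ζ p) (hq : ordv q (p : E) = 0) {ι : Type*} (s : Finset ι)
    (f : ι → E) (hf : ∀ i ∈ s, f i ≠ 0) (hfp : ∀ i ∈ s, (p : ℤ) ∣ ordv q (f i)) :
    psym p ζ q (∏ i ∈ s, f i) = ∑ i ∈ s, psym p ζ q (f i) := by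
  classical
  induction s using Finset.induction_on with
  | empty => simpa using psym_one hζ hq
  | insert a s ha ih =>
    have h1 : ∀ i ∈ s, f i ≠ 0 := fun i hi => hf i (Finset.mem_insert_of_mem hi)
    have h2 : ∀ i ∈ s, (p : ℤ) ∣ ordv q (f i) := fun i hi => hfp i (Finset.mem_insert_of_mem hi)
    rw [Finset.prod_insert ha, Finset.sum_insert ha,
      psym_mul hζ hq (hf a (Finset.mem_insert_self a s)) (Finset.prod_ne_zero_iff.2 h1)
        (hfp a (Finset.mem_insert_self a s))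
        (by rw [ordv_prod q s f h1]; exact Finset.dvd_sum h2), ih h1 h2]

end psymMore

/-- monomials in a family -/
noncomputable def wZ {n : ℕ} (u : Fin n → E) (e : Fin n → ℤ) : E := ∏ i, u i ^ e i

section wZ
variable {n : ℕ} {u : Fin n → E}

lemma wZ_ne_zero (hu : ∀ i, u i ≠ 0) (e : Fin n → ℤ) : wZ u e ≠ 0 :=
  Finset.prod_ne_zero_iff.2 fun i _ => zpow_ne_zero _ (hu i)

lemma wZ_add (hu : ∀ i, u i ≠ 0) (e d : Fin n → ℤ) : wZ u (e + d) = wZ u e * wZ u d := by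
  simp only [wZ, Pi.add_apply, ← Finset.prod_mul_distrib]
  exact Finset.prod_congr rfl fun i _ => zpow_add₀ (hu i) _ _

lemma wZ_smul (k : ℤ) (e : Fin n → ℤ) : wZ u (k • e) = wZ u e ^ k := by
  simp only [wZ, Pi.smul_apply, smul_eq_mul, ← Finset.prod_zpow]
  exact Finset.prod_congr rfl fun i _ => by rw [mul_comm, zpow_mul]

lemma ordv_wZ (hu : ∀ i, u i ≠ 0) (v : Pr E) (hv : ∀ i, ordv v (u i) = 0) (e : Fin n → ℤ) :
    ordv v (wZ u e) = 0 := by
  rw [wZ, ordv_prod v _ _ fun i _ => zpow_ne_zero _ (hu i)]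
  exact Finset.sum_eq_zero fun i _ => by rw [ordv_zpow, hv, mul_zero]

lemma psym_wZ (hζ : IsPrimitiveRoot ζ p) {t : Pr E} (ht : ordv t (p : E) = 0) (hu : ∀ i, u i ≠ 0)
    (hv : ∀ i, ordv t (u i) = 0) (e : Fin n → ℤ) :
    psym p ζ t (wZ u e) = ∑ i, (e i : ZMod p) * psym p ζ t (u i) := by
  rw [wZ, psym_prod hζ ht _ _ (fun i _ => zpow_ne_zero _ (hu i))
    (fun i _ => by rw [ordv_zpow, hv, mul_zero]; exact dvd_zero _)]
  exact Finset.sum_congr rfl fun i _ => psym_zpow hζ ht (hu i) (by rw [hv]; exact dvd_zero _) _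

end wZ

/-- integer lift of a vector mod `p` -/
def liftZ {n : ℕ} (g : Fin n → ZMod p) : Fin n → ℤ := fun i => ((g i).val : ℤ)

lemma liftZ_cast {n : ℕ} (g : Fin n → ZMod p) (i : Fin n) : ((liftZ g i : ℤ) : ZMod p) = g i := by
  simp [liftZ]

/-- **the auxiliary primes** -/
theorem exists_T (hζ : IsPrimitiveRoot ζ p) (y : E) (hy0 : y ≠ 0) (hy : ∀ c : E, c ^ p ≠ y)
    (S : Finset (Pr E)) (hpS : ∀ v : Pr E, 0 < ordv v (p : E) → v ∈ S)
    {n : ℕ} (u : Fin n → E) (hu0 : ∀ i, u i ≠ 0) (huS : ∀ i, ∀ v ∉ S, ordv v (u i) = 0)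
    (hind : ∀ e : Fin n → ℤ, (∃ c : E, ∏ i, u i ^ (e i) = c ^ p) → ∀ i, (p : ℤ) ∣ e i) :
    ∃ T : Finset (Pr E), (∀ t ∈ T, t ∉ S) ∧ n ≤ T.card + 1 ∧ (∀ t ∈ T, LocPow p 1 t y) ∧
      ∀ τ : Pr E → ZMod p, ∃ e : Fin n → ℤ, ∀ t ∈ T, psym p ζ t (wZ u e) = τ t := by
  classical
  have hp : p.Prime := Fact.out
  have htp : ∀ t : Pr E, t ∉ S → ordv t (p : E) = 0 := fun t ht => by
    have h1 := ordv_natCast_nonneg (v := t) p
    by_contra h
    exact ht (hpS t (lt_of_le_of_ne h1 (Ne.symm h)))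
  let ι := {t : Pr E // t ∉ S ∧ LocPow p 1 t y}
  let Λ : ι → Module.Dual (ZMod p) (Fin n → ZMod p) := fun t =>
    ∑ i, psym p ζ t.1 (u i) • LinearMap.proj i
  have hΛ : ∀ (t : ι) (g : Fin n → ZMod p), Λ t g = psym p ζ t.1 (wZ u (liftZ g)) := by
    intro t g
    rw [psym_wZ hζ (htp t.1 t.2.1) hu0 (fun i => huS i t.1 t.2.1)]
    simp only [Λ, LinearMap.sum_apply, LinearMap.smul_apply, LinearMap.proj_apply, smul_eq_mul,
      liftZ_cast]
    exact Finset.sum_congr rfl fun i _ => mul_comm _ _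
  -- elements of the common kernel are `y^a` modulo `p`-th powers
  have hK : ∀ g : Fin n → ZMod p, (∀ t, Λ t g = 0) →
      ∃ (a : ℕ) (c : E), wZ u (liftZ g) * y ^ a = c ^ p := by
    intro g hg
    by_contra hcon
    push_neg at hcon
    obtain ⟨t, htS, htp', htx, hty, hly, hlx⟩ := exists_prime_indep ζ hζ y (wZ u (liftZ g)) hy0
      (wZ_ne_zero hu0 _) hcon (S : Set (Pr E)) S.finite_toSet
    have htS' : t ∉ S := by simpa using htS
    apply hlx
    rw [← psym_eq_zero_iff hζ htp' (wZ_ne_zero hu0 _) (by rw [htx]; exact dvd_zero _)]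
    rw [← hΛ ⟨t, htS', hly⟩]
    exact hg _
  have h1 : ∀ g g' : Fin n → ZMod p, (∀ t, Λ t g = 0) → (∀ t, Λ t g' = 0) → g ≠ 0 →
      ∃ c : ZMod p, c • g = g' := by
    intro g g' hg hg' hg0
    obtain ⟨a₀, c₀, h₀⟩ := hK g hg
    obtain ⟨a, c, h⟩ := hK g' hg'
    have hc₀ : c₀ ≠ 0 := by
      rintro rfl
      rw [zero_pow hp.ne_zero] at h₀
      exact mul_ne_zero (wZ_ne_zero hu0 _) (pow_ne_zero _ hy0) h₀
    have hc : c ≠ 0 := by
      rintro rfl
      rw [zero_pow hp.ne_zero] at h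
      exact mul_ne_zero (wZ_ne_zero hu0 _) (pow_ne_zero _ hy0) h
    have ha₀ : ¬ p ∣ a₀ := by
      rintro ⟨k, rfl⟩
      apply hg0
      have : ∃ c : E, ∏ i, u i ^ (liftZ g i) = c ^ p := by
        refine ⟨c₀ / y ^ k, ?_⟩
        rw [div_pow, ← h₀, ← pow_mul, mul_comm k p]
        have : y ^ (p * k) ≠ 0 := pow_ne_zero _ hy0
        field_simp
        rfl
      funext i
      have := (ZMod.intCast_zmod_eq_zero_iff_dvd _ p).2 (hind _ this i)
      rwa [liftZ_cast] at this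
    have ha₀' : (a₀ : ZMod p) ≠ 0 := by
      rwa [Ne, ZMod.natCast_eq_zero_iff]
    have hrel : ∃ c' : E, ∏ i, u i ^ (((a₀ : ℤ) • liftZ g' + (-(a : ℤ)) • liftZ g) i) = c' ^ p := by
      refine ⟨c ^ a₀ * (c₀ ^ a)⁻¹, ?_⟩
      have e1 : wZ u (liftZ g') = c ^ p * (y ^ a)⁻¹ := by
        rw [← h]; field_simp
      have e2 : wZ u (liftZ g) = c₀ ^ p * (y ^ a₀)⁻¹ := by
        rw [← h₀]; field_simp
      show wZ u _ = _
      rw [wZ_add hu0, wZ_smul, wZ_smul, e1, e2, zpow_neg, zpow_natCast, zpow_natCast]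
      have hya : y ^ a ≠ 0 := pow_ne_zero _ hy0
      have hya₀ : y ^ a₀ ≠ 0 := pow_ne_zero _ hy0
      have hca : c₀ ^ a ≠ 0 := pow_ne_zero _ hc₀
      have hcp : c₀ ^ p ≠ 0 := pow_ne_zero _ hc₀
      rw [mul_pow, mul_pow, mul_pow, inv_pow, inv_pow, inv_pow, mul_inv, inv_inv,
        ← pow_mul, ← pow_mul, ← pow_mul, ← pow_mul, ← pow_mul, ← pow_mul, mul_comm a₀ a,
        mul_comm a₀ p, mul_comm a p]
      have h3 : y ^ (a * a₀) ≠ 0 := pow_ne_zero _ hy0
      field_simp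
    have hdiv := hind _ hrel
    refine ⟨(a : ZMod p) / a₀, ?_⟩
    funext i
    have := (ZMod.intCast_zmod_eq_zero_iff_dvd _ p).2 (hdiv i)
    simp only [Pi.add_apply, Pi.smul_apply, smul_eq_mul] at this
    push_cast at this
    rw [liftZ_cast, liftZ_cast] at this
    simp only [Pi.smul_apply, smul_eq_mul]
    field_simp
    linear_combination -this
  obtain ⟨T, hcard, hsurj⟩ := exists_surj_subfamily Λ h1
  refine ⟨T.image Subtype.val, ?_, ?_, ?_, ?_⟩
  · intro t ht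
    obtain ⟨t', -, rfl⟩ := Finset.mem_image.1 ht
    exact t'.2.1
  · rwa [Finset.card_image_of_injective _ Subtype.val_injective]
  · intro t ht
    obtain ⟨t', -, rfl⟩ := Finset.mem_image.1 ht
    exact t'.2.2
  · intro τ
    obtain ⟨g, hg⟩ := hsurj fun t => τ t.1
    refine ⟨liftZ g, fun t ht => ?_⟩
    obtain ⟨t', ht', rfl⟩ := Finset.mem_image.1 ht
    rw [← hΛ t' g]
    exact hg t' ht'

end FA14
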