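import Fermat.Agent.CFT.ZIndex2

/-! S14 [SU], abstract part: rank of an extension of a finite-index subgroup of `ℤ^ι`. -/

namespace FA14

open Module

theorem finite_and_finrank_of_exact {G U ι : Type*} [AddCommGroup G] [AddCommGroup U]
    [Module.Finite ℤ U] [Fintype ι] [DecidableEq ι] (i : U →+ G) (hi : Function.Injective i) (φ : G →+ (ι → ℤ))
    (hker : φ.ker = i.range) (h : ℕ) (hh : h ≠ 0)
    (hsurj : ∀ v : ι, ∃ g : G, φ g = Pi.single v (h : ℤ)) :
    Module.Finite ℤ G ∧ finrank ℤ G = finrank ℤ U + Fintype.card ι := by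
  set φL : G →ₗ[ℤ] (ι → ℤ) := φ.toIntLinearMap with hφL
  set iL : U →ₗ[ℤ] G := i.toIntLinearMap with hiL
  have hkerL : LinearMap.ker φL = LinearMap.range iL := by
    ext x
    have : x ∈ φ.ker ↔ x ∈ i.range := by rw [hker]
    exact this
  have hfin : Module.Finite ℤ G := by
    rw [Module.finite_def]
    apply Submodule.fg_of_fg_map_of_fg_inf_ker φL
    · exact IsNoetherian.noetherian _
    · rw [top_inf_eq, hkerL, LinearMap.range_eq_map]
      exact Submodule.FG.map _ Module.Finite.fg_top
  refine ⟨hfin, ?_⟩
  have h1 : finrank ℤ (LinearMap.range φL) + finrank ℤ (LinearMap.ker φL) = finrank ℤ G := by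
    rw [← (LinearMap.ker φL).finrank_quotient_add_finrank, φL.quotKerEquivRange.finrank_eq]
  have h2 : finrank ℤ (LinearMap.ker φL) = finrank ℤ U := by
    rw [hkerL]
    exact LinearMap.finrank_range_of_inj hi
  have h3 : finrank ℤ (LinearMap.range φL) = Fintype.card ι := by
    apply le_antisymm
    · have := Submodule.finrank_le (LinearMap.range φL)
      simpa using this
    · have hmem : ∀ x : ι → ℤ, ((h : ℤ) • LinearMap.id : (ι → ℤ) →ₗ[ℤ] (ι → ℤ)) x ∈
          LinearMap.range φL := by
        intro x
        have hx : ((h : ℤ) • LinearMap.id : (ι → ℤ) →ₗ[ℤ] (ι → ℤ)) x =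
            ∑ v, x v • (Pi.single v (h : ℤ) : ι → ℤ) := by
          ext w
          simp [Finset.sum_apply, Pi.single_apply, mul_comm]
        rw [hx]
        refine Submodule.sum_mem _ fun v _ => Submodule.smul_mem _ _ ?_
        obtain ⟨g, hg⟩ := hsurj v
        exact ⟨g, hg⟩
      have hinj : Function.Injective (LinearMap.codRestrict (LinearMap.range φL)
          ((h : ℤ) • LinearMap.id : (ι → ℤ) →ₗ[ℤ] (ι → ℤ)) hmem) := by
        intro x y hxy
        have h4 := congrArg Subtype.val hxy
        simp only [LinearMap.codRestrict_apply, LinearMap.smul_apply, LinearMap.id_apply] at h4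
        have hh' : (h : ℤ) ≠ 0 := by exact_mod_cast hh
        exact smul_right_injective _ hh' h4
      have := LinearMap.finrank_le_finrank_of_injective hinj
      simpa using this
  omega

/-- `[G : pG] = |G[p]| p^rank`, multiplicative form. -/
theorem index_range_pow {W : Type*} [CommGroup W] [Module.Finite ℤ (Additive W)] {n : ℕ}
    (hn : n ≠ 0) :
    (powMonoidHom n : W →* W).range.index =
      Nat.card (powMonoidHom n : W →* W).ker * n ^ finrank ℤ (Additive W) := by
  have h := cc_nsmul (B := Additive W) hn
  have h1 : cc (nsmulAddMonoidHom (α := Additive W) n) = (powMonoidHom n : W →* W).range.index := by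
    rw [cc]
    rfl
  have h2 : kc (nsmulAddMonoidHom (α := Additive W) n) = Nat.card (powMonoidHom n : W →* W).ker := by
    rw [kc]
    rfl
  rw [← h1, ← h2, h]

end FA14
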