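import Fermat.Agent.CFT.Ord
import Fermat.Agent.CFT.SU1

/-! S14 [SU]: `S`-units of a number field. -/

set_option autoImplicit false

open IsDedekindDomain NumberField Module

namespace FA14

/-- independent elements modulo `p`. -/
theorem exists_indep_mod {G : Type*} [AddCommGroup G] (p : ℕ) [Fact p.Prime] (d : ℕ)
    (h0 : (nsmulAddMonoidHom (α := G) p).range.index ≠ 0)
    (hd : p ^ d ≤ (nsmulAddMonoidHom (α := G) p).range.index) :
    ∃ u : Fin d → G, ∀ e : Fin d → ℤ, (∑ i, e i • u i ∈ (nsmulAddMonoidHom (α := G) p).range) →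
      ∀ i, (p : ℤ) ∣ e i := by
  set H := (nsmulAddMonoidHom (α := G) p).range with hH
  have hpV : ∀ x : G ⧸ H, p • x = 0 := by
    intro x
    obtain ⟨g, rfl⟩ := QuotientAddGroup.mk_surjective x
    rw [← QuotientAddGroup.mk_nsmul, QuotientAddGroup.eq_zero_iff]
    exact ⟨g, rfl⟩
  let _ : Module (ZMod p) (G ⧸ H) := AddCommGroup.zmodModule hpV
  have hfi : H.FiniteIndex := ⟨h0⟩
  have hF : Finite (G ⧸ H) := inferInstance
  have hcard : Nat.card (G ⧸ H) = p ^ finrank (ZMod p) (G ⧸ H) := by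
    have _ : Fintype (G ⧸ H) := Fintype.ofFinite _
    have := Module.card_eq_pow_finrank (K := ZMod p) (V := G ⧸ H)
    rwa [ZMod.card, ← Nat.card_eq_fintype_card] at this
  have hle : d ≤ finrank (ZMod p) (G ⧸ H) := by
    have h1 : p ^ d ≤ p ^ finrank (ZMod p) (G ⧸ H) := by
      rw [← hcard]; exact hd
    exact (Nat.pow_le_pow_iff_right (Fact.out : p.Prime).one_lt).1 h1
  obtain ⟨ub, hub⟩ := exists_linearIndependent_of_le_finrank hle
  have hch : ∀ i, ∃ g : G, (QuotientAddGroup.mk g : G ⧸ H) = ub i :=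
    fun i => QuotientAddGroup.mk_surjective _
  choose u hu using hch
  refine ⟨u, fun e he i => ?_⟩
  have h1 : ∑ i, (e i : ZMod p) • ub i = 0 := by
    have h2 : (QuotientAddGroup.mk (∑ i, e i • u i) : G ⧸ H) = 0 :=
      (QuotientAddGroup.eq_zero_iff _).2 he
    rw [← h2]
    have h3 : (QuotientAddGroup.mk (∑ i, e i • u i) : G ⧸ H) =
        ∑ i, e i • (QuotientAddGroup.mk (u i) : G ⧸ H) := by
      rw [← QuotientAddGroup.mk'_apply, map_sum]
      rfl
    rw [h3]
    refine Finset.sum_congr rfl fun i _ => ?_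
    rw [hu, Int.cast_smul_eq_zsmul]
  have h4 := Fintype.linearIndependent_iff.1 hub _ h1 i
  exact (ZMod.intCast_zmod_eq_zero_iff_dvd _ _).1 h4

variable {E : Type*} [Field E] [NumberField E]

lemma ordv_unit (v : Pr E) (u : (𝓞 E)ˣ) : ordv v (algebraMap (𝓞 E) E u) = 0 := by
  have hu0 : algebraMap (𝓞 E) E (u : 𝓞 E) ≠ 0 := by
    simp
  have hu1 : algebraMap (𝓞 E) E ((u⁻¹ : (𝓞 E)ˣ) : 𝓞 E) ≠ 0 := by
    simp
  have h1 := (ordGE_algebraMap (v := v) (u : 𝓞 E)).le hu0
  have h2 := (ordGE_algebraMap (v := v) ((u⁻¹ : (𝓞 E)ˣ) : 𝓞 E)).le hu1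
  have h3 : algebraMap (𝓞 E) E (u : 𝓞 E) * algebraMap (𝓞 E) E ((u⁻¹ : (𝓞 E)ˣ) : 𝓞 E) = 1 := by
    rw [← map_mul]; simp
  have h4 := ordv_mul v hu0 hu1
  rw [h3] at h4
  have h5 : ordv v (1 : E) = 0 := by simp [ordv]
  omega

/-- the `S`-units -/
def SU (S : Finset (Pr E)) : Subgroup Eˣ where
  carrier := {x | ∀ v ∉ S, ordv v (x : E) = 0}
  mul_mem' := by
    intro a b ha hb v hv
    rw [Units.val_mul, ordv_mul v a.ne_zero b.ne_zero, ha v hv, hb v hv, add_zero]
  one_mem' := by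
    intro v _
    simp [ordv]
  inv_mem' := by
    intro a ha v hv
    rw [Units.val_inv_eq_inv_val, ordv_inv, ha v hv, neg_zero]

lemma mem_SU {S : Finset (Pr E)} {x : Eˣ} : x ∈ SU S ↔ ∀ v ∉ S, ordv v (x : E) = 0 := Iff.rfl

/-- the valuation vector of an `S`-unit -/
noncomputable def suVal (S : Finset (Pr E)) : Additive (SU S) →+ (S → ℤ) where
  toFun x v := ordv v.1 (((Additive.toMul x : SU S) : Eˣ) : E)
  map_zero' := by
    ext v
    simp [ordv]
  map_add' x y := by
    ext v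
    simp only [toMul_add, Subgroup.coe_mul, Units.val_mul, Pi.add_apply]
    exact ordv_mul _ (Units.ne_zero _) (Units.ne_zero _)

/-- units are `S`-units -/
noncomputable def unitsToSU (S : Finset (Pr E)) : (𝓞 E)ˣ →* SU S :=
  (Units.map (algebraMap (𝓞 E) E : 𝓞 E →* E)).codRestrict (SU S) (fun u v _ => ordv_unit v u)

lemma unitsToSU_injective (S : Finset (Pr E)) : Function.Injective (unitsToSU S) := by
  intro a b h
  have h1 := congrArg (fun x : SU S => ((x : Eˣ) : E)) h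
  apply Units.ext
  exact RingOfIntegers.coe_injective h1

lemma exists_unit_of_ordv_eq_zero (x : Eˣ) (h : ∀ v : Pr E, ordv v (x : E) = 0) :
    ∃ u : (𝓞 E)ˣ, algebraMap (𝓞 E) E u = x := by
  obtain ⟨a, ha⟩ := exists_integer_of_forall_ordGE (x := (x : E)) fun v => Or.inr (h v).ge
  obtain ⟨b, hb⟩ := exists_integer_of_forall_ordGE (x := ((x⁻¹ : Eˣ) : E)) fun v => Or.inr (by
    rw [Units.val_inv_eq_inv_val, ordv_inv, h v, neg_zero])
  have hab : a * b = 1 := by
    apply RingOfIntegers.coe_injective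
    show algebraMap (𝓞 E) E (a * b) = algebraMap (𝓞 E) E 1
    rw [map_mul, ha, hb, map_one]
    simp
  exact ⟨⟨a, b, hab, by rw [mul_comm]; exact hab⟩, ha⟩

/-- a power of every prime is principal -/
lemma exists_ordv_eq_classNumber (v : Pr E) :
    ∃ a : E, a ≠ 0 ∧ ordv v a = classNumber E ∧ ∀ w : Pr E, w ≠ v → ordv w a = 0 := by
  set h := classNumber E with hh
  have hv0 : v.asIdeal ≠ ⊥ := v.ne_bot
  have hmem : v.asIdeal ∈ nonZeroDivisors (Ideal (𝓞 E)) := mem_nonZeroDivisors_of_ne_zero hv0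
  have h1 : (ClassGroup.mk0 ⟨v.asIdeal, hmem⟩) ^ h = 1 := by
    rw [hh, classNumber]
    exact pow_card_eq_one
  rw [← map_pow, ClassGroup.mk0_eq_one_iff] at h1
  obtain ⟨a, ha⟩ := h1.principal
  have ha' : v.asIdeal ^ h = Ideal.span {a} := ha
  have ha0 : a ≠ 0 := by
    rintro rfl
    rw [Set.singleton_zero, Ideal.span_zero] at ha'
    exact hv0 (pow_eq_zero_iff (classNumber_ne_zero E) |>.1 ha')
  have haE : algebraMap (𝓞 E) E a ≠ 0 := by simpa using ha0
  refine ⟨algebraMap (𝓞 E) E a, haE, ?_, ?_⟩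
  · apply le_antisymm
    · by_contra hlt
      push Not at hlt
      have h2 : OrdGE v (algebraMap (𝓞 E) E a) ((h + 1 : ℕ) : ℤ) := Or.inr (by push_cast; omega)
      rw [ordGE_algebraMap_iff] at h2
      have h3 : v.asIdeal ^ h ≤ v.asIdeal ^ (h + 1) := by
        rw [ha', Ideal.span_singleton_le_iff_mem]; exact h2
      exact absurd h3 (not_le_of_gt (Ideal.pow_succ_lt_pow hv0 h))
    · have h2 : a ∈ v.asIdeal ^ h := by rw [ha']; exact Ideal.mem_span_singleton_self a
      rw [← ordGE_algebraMap_iff] at h2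
      exact h2.le haE
  · intro w hw
    apply le_antisymm
    · by_contra hlt
      push Not at hlt
      have h2 : OrdGE w (algebraMap (𝓞 E) E a) 1 := Or.inr (by omega)
      rw [ordGE_algebraMap_one_iff] at h2
      have h3 : v.asIdeal ^ h ≤ w.asIdeal := by
        rw [ha', Ideal.span_singleton_le_iff_mem]; exact h2
      have h4 : v.asIdeal ≤ w.asIdeal := w.isPrime.le_of_pow_le h3
      have h5 : v.asIdeal = w.asIdeal := v.isMaximal.eq_of_le w.isPrime.ne_top h4
      exact hw (HeightOneSpectrum.ext h5.symm)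
    · exact (ordGE_algebraMap (v := w) a).le haE

end FA14
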