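import Mathlib

/-! Kernel/cokernel index of endomorphisms of abelian groups (package [HQ] of S14). -/

namespace FA14

section zindex

variable {B : Type*} [AddCommGroup B]

/-- cardinality of the kernel -/
noncomputable def kc (f : B →+ B) : ℕ := Nat.card f.ker

/-- cardinality of the cokernel -/
noncomputable def cc (f : B →+ B) : ℕ := f.range.index

lemma card_inf_mul_relIndex (H K : AddSubgroup B) :
    Nat.card (H ⊓ K : AddSubgroup B) * H.relIndex K = Nat.card K := by
  have h := AddSubgroup.relIndex_mul_relIndex (⊥ : AddSubgroup B) (H ⊓ K) K bot_le inf_le_right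
  rwa [AddSubgroup.relIndex_bot_left, AddSubgroup.relIndex_bot_left,
    AddSubgroup.inf_relIndex_right] at h

lemma card_mul_relIndex_of_le {H K : AddSubgroup B} (h : H ≤ K) :
    Nat.card H * H.relIndex K = Nat.card K := by
  have := card_inf_mul_relIndex H K
  rwa [inf_eq_left.mpr h] at this

/-- multiplicativity of `cc/kc` -/
theorem cc_comp (f g : B →+ B) :
    cc (f.comp g) * (kc f * kc g) = cc f * cc g * kc (f.comp g) := by
  have h1 : cc (f.comp g) = (g.range ⊔ f.ker).index * cc f := by
    unfold cc
    rw [AddMonoidHom.range_eq_map, ← AddSubgroup.map_map, ← AddMonoidHom.range_eq_map,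
      AddSubgroup.index_map]
  have h2 : cc g = g.range.relIndex f.ker * (g.range ⊔ f.ker).index := by
    unfold cc
    rw [← AddSubgroup.relIndex_mul_index (le_sup_left : g.range ≤ g.range ⊔ f.ker),
      AddSubgroup.relIndex_sup_left]
  have h3 : Nat.card (g.range ⊓ f.ker : AddSubgroup B) * g.range.relIndex f.ker = kc f :=
    card_inf_mul_relIndex _ _
  have h4 : kc (f.comp g) = kc g * Nat.card (g.range ⊓ f.ker : AddSubgroup B) := by
    unfold kc
    have hle : g.ker ≤ (f.comp g).ker := by
      intro x hx
      rw [AddMonoidHom.mem_ker] at hx ⊢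
      simp [hx]
    rw [← card_mul_relIndex_of_le hle, AddSubgroup.relIndex_ker]
    congr 2
    have : (f.comp g).ker = f.ker.comap g := rfl
    rw [this, AddSubgroup.map_comap_eq]
  rw [h1, h2, h4, ← h3]
  ring

end zindex

end FA14
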