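import Fermat.Agent.CFT.ZIndex

namespace FA14

section fg

variable {B : Type*} [AddCommGroup B] [Module.Finite ℤ B]

/-- the torsion subgroup -/
noncomputable def tors (B : Type*) [AddCommGroup B] : AddSubgroup B :=
  (Submodule.torsion ℤ B).toAddSubgroup

omit [Module.Finite ℤ B] in
lemma mem_tors {x : B} : x ∈ tors B ↔ ∃ n : ℕ, n ≠ 0 ∧ n • x = 0 := by
  unfold tors
  rw [Submodule.mem_toAddSubgroup, Submodule.mem_torsion_iff]
  constructor
  · rintro ⟨⟨a, ha⟩, h⟩
    have ha0 : a ≠ 0 := nonZeroDivisors.ne_zero ha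
    refine ⟨a.natAbs, Int.natAbs_ne_zero.mpr ha0, ?_⟩
    have h' : a • x = 0 := h
    rcases Int.natAbs_eq a with h1 | h1
    · rw [h1] at h'
      simpa using h'
    · rw [h1] at h'
      simpa using h'
  · rintro ⟨n, hn, h⟩
    refine ⟨⟨(n : ℤ), mem_nonZeroDivisors_of_ne_zero (by exact_mod_cast hn)⟩, ?_⟩
    show (n : ℤ) • x = 0
    simpa using h

instance finite_tors : Finite (tors B) := by
  have : Finite (Submodule.torsion ℤ B) :=
    Module.finite_of_fg_torsion _ (Submodule.torsion_isTorsion)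
  exact this

lemma ker_le_tors (f : B →+ B) (hk : kc f ≠ 0) : f.ker ≤ tors B := by
  intro x hx
  have : Finite f.ker := Nat.finite_of_card_ne_zero hk
  have h := isOfFinAddOrder_of_finite (⟨x, hx⟩ : f.ker)
  rw [isOfFinAddOrder_iff_nsmul_eq_zero] at h
  obtain ⟨n, hn, h⟩ := h
  exact mem_tors.mpr ⟨n, hn.ne', by simpa using congrArg Subtype.val h⟩

lemma range_inf_tors (f : B →+ B) (hk : kc f ≠ 0) : f.range ⊓ tors B = (tors B).map f := by
  apply le_antisymm
  · rintro t ⟨⟨x, rfl⟩, ht⟩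
    obtain ⟨n, hn, h⟩ := mem_tors.mp ht
    have h1 : n • x ∈ f.ker := by
      rw [AddMonoidHom.mem_ker, map_nsmul, h]
    obtain ⟨m, hm, h2⟩ := mem_tors.mp (ker_le_tors f hk h1)
    exact ⟨x, mem_tors.mpr ⟨m * n, Nat.mul_ne_zero hm hn, by rw [mul_smul, h2]⟩, rfl⟩
  · rintro _ ⟨x, hx, rfl⟩
    refine ⟨⟨x, rfl⟩, ?_⟩
    obtain ⟨n, hn, h⟩ := mem_tors.mp hx
    exact mem_tors.mpr ⟨n, hn, by rw [← map_nsmul, h, map_zero]⟩

/-- `[T : T ∩ f B] = |ker f|` -/
lemma relIndex_range_tors (f : B →+ B) (hk : kc f ≠ 0) : f.range.relIndex (tors B) = kc f := by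
  have h1 := card_inf_mul_relIndex f.range (tors B)
  rw [range_inf_tors f hk] at h1
  have h2 := card_mul_relIndex_of_le (ker_le_tors f hk)
  rw [AddSubgroup.relIndex_ker] at h2
  have h3 : Nat.card ((tors B).map f) ≠ 0 := by
    intro h0
    rw [h0, mul_zero] at h2
    exact (Nat.card_pos (α := tors B)).ne h2
  have : Nat.card ((tors B).map f) * f.range.relIndex (tors B)
      = Nat.card ((tors B).map f) * kc f := by
    rw [h1, ← h2, mul_comm]
    rfl
  exact Nat.eq_of_mul_eq_mul_left (Nat.pos_of_ne_zero h3) this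

/-- `cc f = |ker f| * [B : f B + T]` -/
lemma cc_eq (f : B →+ B) (hk : kc f ≠ 0) : cc f = kc f * (f.range ⊔ tors B).index := by
  unfold cc
  rw [← AddSubgroup.relIndex_mul_index (le_sup_left : f.range ≤ f.range ⊔ tors B),
    AddSubgroup.relIndex_sup_left, relIndex_range_tors f hk]

lemma kc_dvd_cc (f : B →+ B) (hk : kc f ≠ 0) : kc f ∣ cc f := ⟨_, cc_eq f hk⟩

lemma kc_le_cc (f : B →+ B) (hk : kc f ≠ 0) (hc : cc f ≠ 0) : kc f ≤ cc f :=
  Nat.le_of_dvd (Nat.pos_of_ne_zero hc) (kc_dvd_cc f hk)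

end fg


section nsmul

variable {B : Type*} [AddCommGroup B] [Module.Finite ℤ B]

lemma index_range_nsmul_sup_tors (n : ℕ) :
    ((nsmulAddMonoidHom (α := B) n).range ⊔ tors B).index = n ^ Module.finrank ℤ B := by
  set Tm := Submodule.torsion ℤ B with hTm
  let π : B →+ (B ⧸ Tm) := Tm.mkQ.toAddMonoidHom
  have hπ : Function.Surjective π := Tm.mkQ_surjective
  have hker : π.ker = tors B := by
    ext x
    rw [AddMonoidHom.mem_ker]
    show Tm.mkQ x = 0 ↔ _
    rw [Submodule.mkQ_apply, Submodule.Quotient.mk_eq_zero]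
    rfl
  have hmap : (nsmulAddMonoidHom (α := B) n).range.map π
      = (nsmulAddMonoidHom (α := B ⧸ Tm) n).range := by
    ext y
    constructor
    · rintro ⟨_, ⟨x, rfl⟩, rfl⟩
      exact ⟨π x, by simp⟩
    · rintro ⟨z, rfl⟩
      obtain ⟨x, rfl⟩ := hπ z
      exact ⟨n • x, ⟨x, rfl⟩, by simp⟩
  have h1 : (nsmulAddMonoidHom (α := B) n).range ⊔ tors B
      = ((nsmulAddMonoidHom (α := B ⧸ Tm) n).range).comap π := by
    rw [← hmap, AddSubgroup.comap_map_eq, hker]
  rw [h1, AddSubgroup.index_comap_of_surjective _ hπ, AddSubgroup.index_range_nsmul,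
    finrank_quotient_eq_of_le_torsion le_rfl]

lemma kc_nsmul_ne_zero {n : ℕ} (hn : n ≠ 0) : kc (nsmulAddMonoidHom (α := B) n) ≠ 0 := by
  have hle : (nsmulAddMonoidHom (α := B) n).ker ≤ tors B := by
    intro x hx
    exact mem_tors.mpr ⟨n, hn, by simpa [AddMonoidHom.mem_ker] using hx⟩
  have : Finite (nsmulAddMonoidHom (α := B) n).ker :=
    Finite.of_injective (AddSubgroup.inclusion hle) (AddSubgroup.inclusion_injective hle)
  exact Nat.card_pos.ne'

/-- `|B/nB| = |B[n]| * n ^ rank B` -/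
theorem cc_nsmul {n : ℕ} (hn : n ≠ 0) :
    cc (nsmulAddMonoidHom (α := B) n)
      = kc (nsmulAddMonoidHom (α := B) n) * n ^ Module.finrank ℤ B := by
  rw [cc_eq _ (kc_nsmul_ne_zero hn), index_range_nsmul_sup_tors]

end nsmul

end FA14
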