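import Fermat.Agent.CFT.ZIndex2

namespace FA14
open Polynomial

/-- `(X-1)^(p-1) = 1 + X + ... + X^(p-1) + p g`. -/
lemma exists_poly_g (p : ℕ) [Fact p.Prime] :
    ∃ g : ℤ[X], (X - 1 : ℤ[X]) ^ (p - 1) = (∑ i ∈ Finset.range p, X ^ i) + C (p : ℤ) * g := by
  have hp : p.Prime := Fact.out
  have key : ((X - 1 : ℤ[X]) ^ (p - 1) - ∑ i ∈ Finset.range p, X ^ i).map
      (Int.castRingHom (ZMod p)) = 0 := by
    have h1 : ((X - 1 : (ZMod p)[X]) ^ (p - 1) - ∑ i ∈ Finset.range p, X ^ i) * (X - 1) = 0 := by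
      rw [sub_mul, ← pow_succ, Nat.sub_add_cancel hp.one_le, geom_sum_mul, sub_pow_char, one_pow,
        sub_self]
    have h2 : (X - 1 : (ZMod p)[X]) ≠ 0 := by simpa using X_sub_C_ne_zero (1 : ZMod p)
    have h3 := (mul_eq_zero.mp h1).resolve_right h2
    simpa [Polynomial.map_sub, Polynomial.map_pow, Polynomial.map_sum] using h3
  have hdvd : C (p : ℤ) ∣ ((X - 1 : ℤ[X]) ^ (p - 1) - ∑ i ∈ Finset.range p, X ^ i) := by
    rw [C_dvd_iff_dvd_coeff]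
    intro i
    have := congrArg (fun q => q.coeff i) key
    simp only [coeff_map, coeff_zero] at this
    exact (ZMod.intCast_zmod_eq_zero_iff_dvd _ _).mp (by simpa using this)
  obtain ⟨g, hg⟩ := hdvd
  exact ⟨g, by rw [← hg]; ring⟩

/-- `p = (X-1) h + (1 + X + ... + X^(p-1))`. -/
lemma exists_poly_h (p : ℕ) :
    ∃ h : ℤ[X], (C (p : ℤ) : ℤ[X]) = (X - 1) * h + ∑ i ∈ Finset.range p, X ^ i := by
  have : (X - C (1 : ℤ)) ∣ (C (p : ℤ) - ∑ i ∈ Finset.range p, X ^ i : ℤ[X]) := by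
    rw [dvd_iff_isRoot]
    simp [IsRoot, eval_finsetSum]
  obtain ⟨h, hh⟩ := this
  exact ⟨h, by rw [map_one] at hh; rw [← hh]; ring⟩

end FA14
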